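import Mathlib
import Fermat.Prelude.Def_ModularCurve_X0ModL

set_option autoImplicit false

noncomputable section

open ModularCurve HahnSeries

namespace Fermat.Agent.S28aux

section Orders

theorem coeff_order_ne {R : Type*} [Zero R] {x : LaurentSeries R} (hx : x ≠ 0) :
    x.coeff x.order ≠ 0 := fun h => hx (HahnSeries.coeff_order_eq_zero.mp h)

variable {K : Type*} [Field K]

theorem order_qExpand (m : ℕ) [NeZero m] (x : LaurentSeries K) :
    (qExpand K m x).order = m * x.order := by
  rcases eq_or_ne x 0 with rfl | hx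
  · simp
  have hm : (0 : ℤ) < m := by exact_mod_cast Nat.pos_of_ne_zero (NeZero.ne m)
  have hx' : qExpand K m x ≠ 0 := by
    intro h
    apply hx
    apply qExpand_injective (R := K) m
    rw [h, map_zero]
  apply le_antisymm
  · apply HahnSeries.order_le_of_coeff_ne_zero
    rw [qExpand_coeff_mul]
    exact coeff_order_ne hx
  · have h1 := coeff_order_ne hx'
    by_cases hd : (m : ℤ) ∣ (qExpand K m x).order
    · obtain ⟨c, hc⟩ := hd
      rw [hc, qExpand_coeff_mul] at h1
      have h2 : x.order ≤ c := HahnSeries.order_le_of_coeff_ne_zero h1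
      rw [hc]
      exact mul_le_mul_of_nonneg_left h2 hm.le
    · exact absurd (qExpand_coeff_of_not_dvd m x hd) h1

theorem qExpand_ne_zero (m : ℕ) [NeZero m] {x : LaurentSeries K} (hx : x ≠ 0) :
    qExpand K m x ≠ 0 := by
  intro h
  apply hx
  apply qExpand_injective (R := K) m
  rw [h, map_zero]

theorem dvd_order_of_mem_range (m : ℕ) [NeZero m] {x : LaurentSeries K}
    (hx : x ∈ Set.range (qExpand K m)) : (m : ℤ) ∣ x.order := by
  obtain ⟨y, rfl⟩ := hx
  rw [order_qExpand]
  exact dvd_mul_right _ _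

theorem sum_ne_zero_of_order {ι : Type*} (s : Finset ι) (f : ι → LaurentSeries K)
    (hs : s.Nonempty) (hf : ∀ i ∈ s, f i ≠ 0)
    (hinj : ∀ i ∈ s, ∀ j ∈ s, (f i).order = (f j).order → i = j) :
    ∑ i ∈ s, f i ≠ 0 := by
  classical
  obtain ⟨i0, hi0, hmin⟩ := Finset.exists_min_image s (fun i => (f i).order) hs
  intro h
  have h1 := congrArg (fun z : LaurentSeries K => z.coeff (f i0).order) h
  simp only [HahnSeries.coeff_sum, HahnSeries.coeff_zero] at h1
  rw [Finset.sum_eq_single_of_mem i0 hi0] at h1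
  · exact coeff_order_ne (hf i0 hi0) h1
  · intro j hj hji
    apply HahnSeries.coeff_eq_zero_of_lt_order
    rcases (hmin j hj).lt_or_eq with h2 | h2
    · exact h2
    · exact absurd (hinj i0 hi0 j hj h2).symm hji

/-- lower bound for the degree of an algebraic relation, from orders modulo `m`. -/
theorem le_natDegree_of_order {F' : Type*} [Field F'] [Algebra F' (LaurentSeries K)] (m : ℕ)
    (hF' : ∀ c : F', (m : ℤ) ∣ (algebraMap F' (LaurentSeries K) c).order)
    {y : LaurentSeries K} (hy : y ≠ 0) (e : ℕ)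
    (he : ∀ i < e, ∀ j < e, (m : ℤ) ∣ ((i : ℤ) - j) * y.order → i = j)
    {P : Polynomial F'} (hP : P ≠ 0) (h0 : Polynomial.aeval y P = 0) : e ≤ P.natDegree := by
  classical
  by_contra hlt
  push Not at hlt
  rw [Polynomial.aeval_eq_sum_range] at h0
  simp only [Algebra.smul_def] at h0
  set s : Finset ℕ := (Finset.range (P.natDegree + 1)).filter (fun i => P.coeff i ≠ 0) with hs
  have h1 : ∑ i ∈ s, (algebraMap F' (LaurentSeries K) (P.coeff i)) * y ^ i = 0 := by
    rw [← h0, hs, Finset.sum_filter]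
    apply Finset.sum_congr rfl
    intro i _
    split_ifs with h
    · rfl
    · push Not at h
      rw [h, map_zero, zero_mul]
  have hne : ∀ i ∈ s, (algebraMap F' (LaurentSeries K) (P.coeff i)) * y ^ i ≠ 0 := by
    intro i hi
    rw [hs, Finset.mem_filter] at hi
    exact mul_ne_zero ((map_ne_zero _).mpr hi.2) (pow_ne_zero _ hy)
  refine sum_ne_zero_of_order s _ ⟨P.natDegree, ?_⟩ hne ?_ h1
  · rw [hs, Finset.mem_filter]
    exact ⟨Finset.self_mem_range_succ _, by simpa using hP⟩
  · intro i hi j hj hij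
    have hi' := hi
    have hj' := hj
    rw [hs, Finset.mem_filter, Finset.mem_range] at hi' hj'
    apply he i (by omega) j (by omega)
    rw [HahnSeries.order_mul ((map_ne_zero _).mpr hi'.2) (pow_ne_zero _ hy),
      HahnSeries.order_mul ((map_ne_zero _).mpr hj'.2) (pow_ne_zero _ hy),
      HahnSeries.order_pow, HahnSeries.order_pow] at hij
    have h2 : ((i : ℤ) - j) * y.order =
        (algebraMap F' (LaurentSeries K) (P.coeff j)).order -
        (algebraMap F' (LaurentSeries K) (P.coeff i)).order := by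
      simp only [nsmul_eq_mul] at hij
      linarith
    rw [h2]
    exact dvd_sub (hF' _) (hF' _)

end Orders

section Delta

variable (R : Type*) [CommRing R]

/-- the `q`-expansion of `Δ` with coefficients in `R`. -/
def deltaC : LaurentSeries R :=
  HahnSeries.single (1 : ℤ) 1 *
    HahnSeries.ofPowerSeries ℤ R (dedekindEtaUnit.map (Int.castRingHom R))

/-- the inverse of `deltaC`. -/
def deltaInvC : LaurentSeries R :=
  HahnSeries.single (-1 : ℤ) 1 *
    HahnSeries.ofPowerSeries ℤ R (dedekindEtaUnitInv.map (Int.castRingHom R))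

theorem deltaC_mul_deltaInvC : deltaC R * deltaInvC R = 1 := by
  rw [deltaC, deltaInvC]
  have h1 : (HahnSeries.single (1 : ℤ) (1 : R)) * HahnSeries.single (-1 : ℤ) 1 = 1 := by
    rw [HahnSeries.single_mul_single]; simp
  have h2 : HahnSeries.ofPowerSeries ℤ R (dedekindEtaUnit.map (Int.castRingHom R)) *
      HahnSeries.ofPowerSeries ℤ R (dedekindEtaUnitInv.map (Int.castRingHom R)) = 1 := by
    rw [← map_mul, ← map_mul, dedekindEtaUnit_mul_inv, map_one, map_one]
  calc _ = (HahnSeries.single (1 : ℤ) (1 : R) * HahnSeries.single (-1 : ℤ) 1) *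
      (HahnSeries.ofPowerSeries ℤ R (dedekindEtaUnit.map (Int.castRingHom R)) *
      HahnSeries.ofPowerSeries ℤ R (dedekindEtaUnitInv.map (Int.castRingHom R))) := by ring
    _ = 1 := by rw [h1, h2, one_mul]

variable {R} in
theorem coeffMap_deltaC {S : Type*} [CommRing S] (f : R →+* S) :
    coeffMap f (deltaC R) = deltaC S := by
  rw [deltaC, map_mul, coeffMap_single, map_one, coeffMap_ofPowerSeries,
    ← RingHom.comp_apply (PowerSeries.map f) (PowerSeries.map (Int.castRingHom R)),
    ← PowerSeries.map_comp, RingHom.ext_int (f.comp (Int.castRingHom R)) (Int.castRingHom S)]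
  rfl

variable {R} in
theorem coeffMap_deltaInvC {S : Type*} [CommRing S] (f : R →+* S) :
    coeffMap f (deltaInvC R) = deltaInvC S := by
  rw [deltaInvC, map_mul, coeffMap_single, map_one, coeffMap_ofPowerSeries,
    ← RingHom.comp_apply (PowerSeries.map f) (PowerSeries.map (Int.castRingHom R)),
    ← PowerSeries.map_comp, RingHom.ext_int (f.comp (Int.castRingHom R)) (Int.castRingHom S)]
  rfl

theorem deltaC_ne_zero [Nontrivial R] : deltaC R ≠ 0 := fun h => by
  have := deltaC_mul_deltaInvC R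
  rw [h, zero_mul] at this
  exact zero_ne_one this

theorem coeff_deltaC_one : (deltaC R).coeff 1 = 1 := by
  rw [deltaC, HahnSeries.coeff_single_mul, one_mul, sub_self,
    show (0 : ℤ) = ((0 : ℕ) : ℤ) from rfl, HahnSeries.ofPowerSeries_apply_coeff,
    PowerSeries.coeff_map,
    PowerSeries.coeff_zero_eq_constantCoeff, constantCoeff_dedekindEtaUnit, map_one]

theorem coeff_deltaC_of_lt {k : ℤ} (hk : k < 1) : (deltaC R).coeff k = 0 := by
  rw [deltaC, HahnSeries.coeff_single_mul, one_mul]
  exact ofPowerSeries_coeff_of_neg _ (by omega)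

end Delta

section FieldOrders

variable (K : Type*) [Field K]

theorem order_deltaC : (deltaC K).order = 1 := by
  apply le_antisymm
  · apply HahnSeries.order_le_of_coeff_ne_zero
    rw [coeff_deltaC_one]; exact one_ne_zero
  · by_contra h
    push Not at h
    exact coeff_order_ne (deltaC_ne_zero K) (coeff_deltaC_of_lt K h)

theorem order_jqModC : (jqModC K).order = -1 := by
  apply le_antisymm
  · apply HahnSeries.order_le_of_coeff_ne_zero
    rw [coeff_jqModC_neg_one]; exact one_ne_zero
  · by_contra h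
    push Not at h
    exact coeff_order_ne (jqModC_ne_zero_of_nontrivial K)
      (coeff_jqModC_of_lt K h)

theorem deltaInvC_eq : deltaInvC K = (deltaC K)⁻¹ :=
  eq_inv_of_mul_eq_one_right (deltaC_mul_deltaInvC K)

theorem order_deltaInvC : (deltaInvC K).order = -1 := by
  have h := deltaC_mul_deltaInvC K
  have h0 : deltaInvC K ≠ 0 := by
    intro h0; rw [h0, mul_zero] at h; exact zero_ne_one h
  have := HahnSeries.order_mul (deltaC_ne_zero K) h0
  rw [h, HahnSeries.order_one, order_deltaC] at this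
  linarith

end FieldOrders

/-- The analytic input (A1) : the modular unit polynomial at a prime `p`. -/
def ModUnitPoly (p : ℕ) [NeZero p] : Prop :=
  ∃ H : Polynomial (Polynomial ℤ), H.Monic ∧ H.natDegree = p + 1 ∧
    H.eval₂ (Polynomial.eval₂RingHom (Int.castRingHom (LaurentSeries ℤ)) (jqModC ℤ))
      ((p : LaurentSeries ℤ) ^ 12 * (qExpand ℤ p (deltaC ℤ) * deltaInvC ℤ)) = 0 ∧
    H.eval₂ (Polynomial.eval₂RingHom (Int.castRingHom (LaurentSeries ℤ)) (qExpand ℤ p (jqModC ℤ)))
      (deltaC ℤ * qExpand ℤ p (deltaInvC ℤ)) = 0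

/-- The characteristic zero function field generated by the `j(q^d)` and the ratios
`Δ(q^d)/Δ(q^N)`, `d ∣ N`. -/
def EField (N : ℕ) [NeZero N] : IntermediateField ℚ (LaurentSeries ℚ) :=
  IntermediateField.adjoin ℚ {x | ∃ (d : ℕ) (_ : NeZero d), d ∣ N ∧
    (x = qExpand ℚ d (jqModC ℚ) ∨ x = qExpand ℚ d (deltaC ℚ) * qExpand ℚ N (deltaInvC ℚ))}

theorem qExpand_jq_mem_EField (N : ℕ) [NeZero N] (d : ℕ) [NeZero d] (hd : d ∣ N) :
    qExpand ℚ d (jqModC ℚ) ∈ EField N :=
  IntermediateField.subset_adjoin _ _ ⟨d, inferInstance, hd, Or.inl rfl⟩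

theorem deltaRatio_mem_EField (N : ℕ) [NeZero N] (d : ℕ) [NeZero d] (hd : d ∣ N) :
    qExpand ℚ d (deltaC ℚ) * qExpand ℚ N (deltaInvC ℚ) ∈ EField N :=
  IntermediateField.subset_adjoin _ _ ⟨d, inferInstance, hd, Or.inr rfl⟩

theorem jq_mem_EField (N : ℕ) [NeZero N] : jqModC ℚ ∈ EField N := by
  have h := qExpand_jq_mem_EField N 1 (one_dvd N)
  rwa [qExpand_one_apply] at h

theorem modularFunctionFieldFull_le_EField (N : ℕ) [NeZero N] :
    modularFunctionFieldFull N ≤ EField N := by
  rw [modularFunctionFieldFull, IntermediateField.adjoin_le_iff]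
  rintro x ⟨d, hne, hd, rfl⟩
  haveI := hne
  exact qExpand_jq_mem_EField N d hd

/-- The analytic input (A2) : degree bound over `ℚ(j)`. -/
def EFieldDep (N : ℕ) [NeZero N] (n : ℕ) : Prop :=
  ∀ v : Fin (n + 1) → LaurentSeries ℚ, (∀ i, v i ∈ EField N) →
    ∃ P : Fin (n + 1) → Polynomial ℚ, (∃ i, P i ≠ 0) ∧
      ∑ i, Polynomial.aeval (jqModC ℚ) (P i) * v i = 0

/-- The analytic input (A3) : the Atkin-Lehner (Fricke) involution. -/
def ExistsAtkinLehner (N : ℕ) [NeZero N] : Prop :=
  ∃ w : EField N ≃ₐ[ℚ] EField N, (∀ x, w (w x) = x) ∧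
    ((w ⟨jqModC ℚ, jq_mem_EField N⟩ : EField N) : LaurentSeries ℚ) = qExpand ℚ N (jqModC ℚ)

end Fermat.Agent.S28aux
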