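import Mathlib
import Fermat.Agent.S28_Series

set_option autoImplicit false

noncomputable section

open ModularCurve HahnSeries

namespace Fermat.Agent.S28aux

section Scale

variable {k : Type*} [Field k]

/-- the substitution `q ↦ ζ q` on Laurent series. -/
def scaleFun (ζ : kˣ) (x : LaurentSeries k) : LaurentSeries k where
  coeff n := ((ζ ^ n : kˣ) : k) * x.coeff n
  isPWO_support' := x.isPWO_support.mono (by
    intro n hn
    rw [Function.mem_support] at hn
    rw [HahnSeries.mem_support]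
    exact right_ne_zero_of_mul hn)

@[simp]
theorem scaleFun_coeff (ζ : kˣ) (x : LaurentSeries k) (n : ℤ) :
    (scaleFun ζ x).coeff n = ((ζ ^ n : kˣ) : k) * x.coeff n := rfl

theorem support_scaleFun (ζ : kˣ) (x : LaurentSeries k) : (scaleFun ζ x).support = x.support := by
  ext n
  rw [HahnSeries.mem_support, HahnSeries.mem_support, scaleFun_coeff, Ne, Ne,
    Units.mul_right_eq_zero]

theorem scaleFun_mul (ζ : kˣ) (x y : LaurentSeries k) :
    scaleFun ζ (x * y) = scaleFun ζ x * scaleFun ζ y := by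
  ext n
  rw [scaleFun_coeff, HahnSeries.coeff_mul, HahnSeries.coeff_mul, Finset.mul_sum]
  apply Finset.sum_congr
  · ext ij
    simp only [Finset.mem_antidiagonal, support_scaleFun]
  · intro ij hij
    rw [Finset.mem_antidiagonal] at hij
    rw [scaleFun_coeff, scaleFun_coeff, ← hij.2.2, zpow_add, Units.val_mul]
    ring

def scaleEquiv (ζ : kˣ) : LaurentSeries k ≃+* LaurentSeries k where
  toFun := scaleFun ζ
  invFun := scaleFun ζ⁻¹
  left_inv x := by
    ext n
    rw [scaleFun_coeff, scaleFun_coeff, ← mul_assoc, ← Units.val_mul, ← mul_zpow, inv_mul_cancel,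
      one_zpow, Units.val_one, one_mul]
  right_inv x := by
    ext n
    rw [scaleFun_coeff, scaleFun_coeff, ← mul_assoc, ← Units.val_mul, ← mul_zpow, mul_inv_cancel,
      one_zpow, Units.val_one, one_mul]
  map_mul' := scaleFun_mul ζ
  map_add' x y := by ext n; simp [mul_add]

def scaleHom : kˣ →* RingAut (LaurentSeries k) where
  toFun := scaleEquiv
  map_one' := by ext x n; simp [scaleEquiv]
  map_mul' a b := by ext x n; simp [scaleEquiv, mul_zpow, mul_assoc]

theorem scaleHom_coeff (ζ : kˣ) (x : LaurentSeries k) (n : ℤ) :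
    (scaleHom ζ x).coeff n = ((ζ ^ n : kˣ) : k) * x.coeff n := rfl

/-- the group of substitutions `q ↦ ζ q`, `ζ^p = 1`. -/
def scaleGroup (k : Type*) [Field k] (p : ℕ) : Subgroup (RingAut (LaurentSeries k)) :=
  (rootsOfUnity p k).map scaleHom

instance (p : ℕ) [NeZero p] : Finite (scaleGroup k p) :=
  Finite.of_surjective (fun x : rootsOfUnity p k => (⟨scaleHom x.1, x.1, x.2, rfl⟩ : scaleGroup k p))
    (by rintro ⟨_, x, hx, rfl⟩; exact ⟨⟨x, hx⟩, rfl⟩)

/-- a Laurent series supported on multiples of `p` is in the range of `qExpand`. -/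
theorem mem_range_qExpand_of_coeff (p : ℕ) [NeZero p] (x : LaurentSeries k)
    (hx : ∀ n : ℤ, ¬ (p : ℤ) ∣ n → x.coeff n = 0) : ∃ y, qExpand k p y = x := by
  have hp : (0 : ℤ) < p := by exact_mod_cast Nat.pos_of_ne_zero (NeZero.ne p)
  have hbdd : BddBelow (Function.support fun n : ℤ => x.coeff (p * n)) := by
    refine ⟨min 0 x.order, ?_⟩
    intro n hn
    rw [Function.mem_support] at hn
    have h1 : x.order ≤ p * n := HahnSeries.order_le_of_coeff_ne_zero hn
    rcases le_or_gt 0 n with h | h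
    · exact (min_le_left _ _).trans h
    · refine (min_le_right _ _).trans (h1.trans ?_)
      nlinarith
  refine ⟨HahnSeries.ofSuppBddBelow (fun n : ℤ => x.coeff (p * n)) hbdd, ?_⟩
  ext n
  by_cases hn : (p : ℤ) ∣ n
  · obtain ⟨c, rfl⟩ := hn
    rw [qExpand_coeff_mul]
    rfl
  · rw [qExpand_coeff_of_not_dvd p _ hn, hx n hn]

theorem mem_fixed_iff (p : ℕ) [NeZero p] [IsAlgClosed k] (hp : (p : k) ≠ 0) (x : LaurentSeries k) :
    x ∈ FixedPoints.subfield (scaleGroup k p) (LaurentSeries k) ↔ x ∈ (qExpand k p).fieldRange := by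
  constructor
  · intro h
    haveI : NeZero (p : k) := ⟨hp⟩
    obtain ⟨ζ, hζ⟩ := HasEnoughRootsOfUnity.exists_primitiveRoot k p
    have hu : IsUnit ζ := hζ.isUnit (NeZero.ne p)
    obtain ⟨u, rfl⟩ := hu
    have hu' : IsPrimitiveRoot u p := (IsPrimitiveRoot.coe_units_iff).mp hζ
    have h1 := h ⟨scaleHom u, u, (mem_rootsOfUnity p u).mpr hu'.pow_eq_one, rfl⟩
    have h2 : scaleHom u x = x := h1
    obtain ⟨y, hy⟩ := mem_range_qExpand_of_coeff p x (by
      intro n hn
      have h3 := congrArg (fun z : LaurentSeries k => z.coeff n) h2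
      simp only [scaleHom_coeff] at h3
      by_contra hne
      have h4 : ((u ^ n : kˣ) : k) = 1 := by
        have := mul_right_cancel₀ hne (h3.trans (one_mul _).symm)
        exact this
      apply hn
      have h5 : u ^ n = 1 := Units.ext h4
      exact (hu'.zpow_eq_one_iff_dvd n).mp h5)
    exact ⟨y, hy⟩
  · rintro ⟨y, rfl⟩
    rintro ⟨_, ζ, hζ, rfl⟩
    change scaleHom ζ (qExpand k p y) = qExpand k p y
    ext n
    rw [scaleHom_coeff]
    by_cases hn : (p : ℤ) ∣ n
    · obtain ⟨c, rfl⟩ := hn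
      rw [zpow_mul, zpow_natCast]
      have : ζ ^ p = 1 := (mem_rootsOfUnity p ζ).mp hζ
      rw [this, one_zpow, Units.val_one, one_mul]
    · rw [qExpand_coeff_of_not_dvd p _ hn, mul_zero]

theorem fixed_eq (p : ℕ) [NeZero p] [IsAlgClosed k] (hp : (p : k) ≠ 0) :
    FixedPoints.subfield (scaleGroup k p) (LaurentSeries k) = (qExpand k p).fieldRange := by
  ext x; exact mem_fixed_iff p hp x

theorem normal_qExpand (p : ℕ) [NeZero p] [IsAlgClosed k] (hp : (p : k) ≠ 0) :
    Normal (qExpand k p).fieldRange (LaurentSeries k) := by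
  rw [← fixed_eq p hp]
  exact FixedPoints.normal _ _

end Scale

end Fermat.Agent.S28aux
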