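import Mathlib
import Fermat.Agent.S28_Series

set_option autoImplicit false

noncomputable section

open ModularCurve HahnSeries Polynomial IntermediateField

namespace Fermat.Agent.S28aux

section Abstract

/-- Irreducibility over the base propagates to normal extensions over which the degree of
one root is at least `n`. -/
theorem step_natDegree {κ L : Type*} [Field κ] [Field L] [Algebra κ L]
    (C : IntermediateField κ L) [Normal κ C] (n : ℕ) (hn : 2 ≤ n)
    (H : Polynomial κ) (hH : H.Monic) (hirr : Irreducible H) (hdeg : H.natDegree = n + 1)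
    (y : L) (hy : aeval y H = 0)
    (hlow : ∀ P : Polynomial C, P ≠ 0 → aeval y P = 0 → n ≤ P.natDegree) :
    (minpoly C y).natDegree = n + 1 := by
  have hint : IsIntegral κ y := ⟨H, hH, by rwa [← aeval_def]⟩
  have hint' : IsIntegral C y := hint.tower_top
  set HC := H.map (algebraMap κ C) with hHC
  have hHCm : HC.Monic := hH.map _
  have hHCd : HC.natDegree = n + 1 := by rw [hHC, natDegree_map, hdeg]
  have hy' : aeval y HC = 0 := by rw [hHC, aeval_map_algebraMap]; exact hy
  have hdvd : minpoly C y ∣ HC := minpoly.dvd C y hy'
  have hge : n ≤ (minpoly C y).natDegree := hlow _ (minpoly.ne_zero hint') (minpoly.aeval C y)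
  have hle : (minpoly C y).natDegree ≤ n + 1 := by
    rw [← hHCd]; exact natDegree_le_of_dvd hdvd hHCm.ne_zero
  by_contra hne
  have heq : (minpoly C y).natDegree = n := by omega
  obtain ⟨h, hh⟩ := hdvd
  have hhm : h.Monic := by
    have := hHCm
    rw [hh] at this
    exact (minpoly.monic hint').of_mul_monic_left this
  have hhd : h.natDegree = 1 := by
    have h1 : HC.natDegree = (minpoly C y).natDegree + h.natDegree := by
      rw [hh]; exact (minpoly.monic hint').natDegree_mul hhm
    omega
  have hroot : h.eval (-h.coeff 0) = 0 := by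
    have := hhm.eq_X_add_C hhd
    rw [this]; simp
  set c : C := -h.coeff 0
  have hc : aeval c H = 0 := by
    rw [← eval_map_algebraMap, ← hHC, hh, eval_mul, hroot, mul_zero]
  have hmin : minpoly κ c = H := by
    have := minpoly.eq_of_irreducible hirr hc
    rw [hH.leadingCoeff, inv_one, map_one, mul_one] at this
    exact this.symm
  have hsplit : HC.Splits := by
    have := Normal.splits (inferInstance : Normal κ C) c
    rwa [hmin] at this
  have hsp2 : (minpoly C y).Splits := hsplit.of_dvd hHCm.ne_zero ⟨h, hh⟩
  have := hsp2.natDegree_eq_one_of_irreducible (minpoly.irreducible hint')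
  omega

/-- Irreducibility over the base field. -/
theorem irreducible_base {κ L : Type*} [Field κ] [Field L] [Algebra κ L]
    (F' : IntermediateField κ L) (n : ℕ) (hn : 2 ≤ n)
    (H : Polynomial κ) (hH : H.Monic) (hdeg : H.natDegree = n + 1)
    (y : L) (hy : aeval y H = 0)
    (hlow : ∀ P : Polynomial F', P ≠ 0 → aeval y P = 0 → n ≤ P.natDegree)
    (r : L) (hr : aeval r H = 0) (hrF : r ∈ F') (hrκ : r ∉ (algebraMap κ L).range) :
    Irreducible H := by
  have hint : IsIntegral κ y := ⟨H, hH, by rwa [← aeval_def]⟩
  have hdvd : minpoly κ y ∣ H := minpoly.dvd κ y hy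
  have hlowκ : ∀ P : Polynomial κ, P ≠ 0 → aeval y P = 0 → n ≤ P.natDegree := by
    intro P hP hP0
    have := hlow (P.map (algebraMap κ F')) ((Polynomial.map_ne_zero_iff
      (algebraMap κ F').injective).mpr hP) (by rwa [aeval_map_algebraMap])
    rwa [natDegree_map] at this
  have hge : n ≤ (minpoly κ y).natDegree := hlowκ _ (minpoly.ne_zero hint) (minpoly.aeval κ y)
  obtain ⟨h, hh⟩ := hdvd
  have hhm : h.Monic := by
    have := hH
    rw [hh] at this
    exact (minpoly.monic hint).of_mul_monic_left this
  have h1 : H.natDegree = (minpoly κ y).natDegree + h.natDegree := by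
    conv_lhs => rw [hh]
    exact (minpoly.monic hint).natDegree_mul hhm
  rcases Nat.lt_or_ge n (minpoly κ y).natDegree with hlt | hge'
  · have hh0 : h.natDegree = 0 := by omega
    have : h = 1 := hhm.natDegree_eq_zero.mp hh0
    rw [hh, this, mul_one]
    exact minpoly.irreducible hint
  · exfalso
    have heq : (minpoly κ y).natDegree = n := by omega
    have hhd : h.natDegree = 1 := by omega
    rw [hh, map_mul, mul_eq_zero] at hr
    rcases hr with hr | hr
    · -- `r` is a root of the minimal polynomial of `y`
      set g := (minpoly κ y).map (algebraMap κ F') with hg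
      have hgm : g.Monic := (minpoly.monic hint).map _
      set r' : F' := ⟨r, hrF⟩ with hr'
      have hgr : g.IsRoot r' := by
        rw [IsRoot.def, hg, eval_map_algebraMap]
        apply Subtype.ext
        have := aeval_algebraMap_apply L r' (minpoly κ y)
        rw [show algebraMap F' L r' = r from rfl, hr] at this
        exact this.symm
      obtain ⟨u, hu⟩ := dvd_iff_isRoot.mpr hgr
      have hum : u.Monic := by
        have := hgm
        rw [hu] at this
        exact (monic_X_sub_C r').of_mul_monic_left this
      have hud : g.natDegree = 1 + u.natDegree := by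
        conv_lhs => rw [hu]
        rw [(monic_X_sub_C r').natDegree_mul hum, natDegree_X_sub_C]
      have hgd : g.natDegree = n := by rw [hg, natDegree_map, heq]
      have hgy : aeval y g = 0 := by rw [hg, aeval_map_algebraMap]; exact minpoly.aeval κ y
      rw [hu, map_mul, mul_eq_zero] at hgy
      rcases hgy with h2 | h2
      · have := hlow _ (monic_X_sub_C r').ne_zero h2
        rw [natDegree_X_sub_C] at this
        omega
      · have := hlow _ hum.ne_zero h2
        omega
    · apply hrκ
      refine ⟨-h.coeff 0, ?_⟩
      have h3 := hhm.eq_X_add_C hhd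
      rw [h3] at hr
      simp only [map_add, aeval_X, aeval_C] at hr
      rw [map_neg]
      linear_combination (-1 : L) * hr

open algebraAdjoinAdjoin in
theorem exists_poly_of_integral {K L : Type*} [Field K] [Field L] [Algebra K L] (f : L)
    (h : Transcendental K f) (x : L) (hx : x ∈ K⟮f⟯)
    (hint : IsIntegral (Algebra.adjoin K {f}) x) : ∃ P : Polynomial K, aeval f P = x := by
  haveI : IsIntegrallyClosed (Algebra.adjoin K {f}) :=
    IsIntegrallyClosed.of_equiv (Polynomial.algEquivOfTranscendental K f h).toRingEquiv
  have h1 : IsIntegral (Algebra.adjoin K {f}) (⟨x, hx⟩ : K⟮f⟯) := by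
    have h2 : IsIntegral (Algebra.adjoin K {f}) (algebraMap K⟮f⟯ L ⟨x, hx⟩) := hint
    exact (isIntegral_algebraMap_iff (algebraMap K⟮f⟯ L).injective).mp h2
  obtain ⟨y, hy⟩ := (IsIntegrallyClosed.isIntegral_iff (K := K⟮f⟯)).mp h1
  have h3 : (y : L) = x := congrArg Subtype.val hy
  have h4 : (y : L) ∈ (Polynomial.aeval f : K[X] →ₐ[K] L).range := by
    rw [← Algebra.adjoin_singleton_eq_range_aeval]; exact y.2
  obtain ⟨P, hP⟩ := h4
  exact ⟨P, hP.trans h3⟩

end Abstract

end Fermat.Agent.S28aux
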