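import Mathlib
import Fermat.Agent.S28_Scale
import Fermat.Agent.S28_Step

set_option autoImplicit false

noncomputable section

open ModularCurve HahnSeries Polynomial IntermediateField

namespace Fermat.Agent.S28aux

section QX

variable (R : Type*) [CommRing R]

/-- `qExpand` for all natural numbers `m` (junk value: identity for `m = 0`). -/
def qx (m : ℕ) : LaurentSeries R →+* LaurentSeries R :=
  if h : m = 0 then RingHom.id _ else haveI : NeZero m := ⟨h⟩; qExpand R m

theorem qx_eq (m : ℕ) [NeZero m] : qx R m = qExpand R m := by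
  rw [qx, dif_neg (NeZero.ne m)]

variable {R}

theorem qx_qx {a b : ℕ} (ha : a ≠ 0) (hb : b ≠ 0) (x : LaurentSeries R) :
    qx R a (qx R b x) = qx R (a * b) x := by
  haveI : NeZero a := ⟨ha⟩
  haveI : NeZero b := ⟨hb⟩
  rw [qx_eq, qx_eq, qx_eq, qExpand_qExpand]

theorem coeffMap_qx {S : Type*} [CommRing S] (f : R →+* S) (m : ℕ) (x : LaurentSeries R) :
    coeffMap f (qx R m x) = qx S m (coeffMap f x) := by
  rcases eq_or_ne m 0 with rfl | h
  · simp [qx]
  · haveI : NeZero m := ⟨h⟩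
    rw [qx_eq, qx_eq, coeffMap_qExpand]

variable (R) in
/-- the ratios `Δ(q^e)/Δ(q^N)`. -/
def yE (e N : ℕ) : LaurentSeries R := qx R e (deltaC R) * qx R N (deltaInvC R)

theorem coeffMap_yE {S : Type*} [CommRing S] (f : R →+* S) (e N : ℕ) :
    coeffMap f (yE R e N) = yE S e N := by
  rw [yE, map_mul, coeffMap_qx, coeffMap_qx, coeffMap_deltaC, coeffMap_deltaInvC, yE]

variable (R) in
/-- integer polynomials evaluated at `x`. -/
def evJ (x : R) : Polynomial ℤ →+* R := Polynomial.eval₂RingHom (Int.castRingHom R) x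

theorem comp_evJ {S : Type*} [CommRing S] (g : R →+* S) (x : R) :
    g.comp (evJ R x) = evJ S (g x) := by
  apply Polynomial.ringHom_ext
  · intro a; simp [evJ]
  · simp [evJ]

theorem evJ_X (x : R) : evJ R x X = x := by simp [evJ]

end QX

section KField

variable {k : Type*} [Field k]

theorem order_qx {m : ℕ} (hm : m ≠ 0) (x : LaurentSeries k) : (qx k m x).order = m * x.order := by
  haveI : NeZero m := ⟨hm⟩
  rw [qx_eq, order_qExpand]

theorem qx_injective (m : ℕ) : Function.Injective (qx k m) := (qx k m).injective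

theorem yE_ne_zero (e N : ℕ) : yE k e N ≠ 0 := by
  rw [yE]
  apply mul_ne_zero
  · exact (_root_.map_ne_zero _).mpr (deltaC_ne_zero k)
  · rw [deltaInvC_eq]
    exact (_root_.map_ne_zero _).mpr (inv_ne_zero (deltaC_ne_zero k))

theorem order_yE {e N : ℕ} (he : e ≠ 0) (hN : N ≠ 0) : (yE k e N).order = (e : ℤ) - N := by
  have h0 := yE_ne_zero (k := k) e N
  rw [yE] at h0 ⊢
  rw [HahnSeries.order_mul (left_ne_zero_of_mul h0) (right_ne_zero_of_mul h0), order_qx he,
    order_qx hN, order_deltaC, order_deltaInvC]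
  ring

/-- `q ↦ q^m` as an algebra homomorphism. -/
def qxA (m : ℕ) : LaurentSeries k →ₐ[k] LaurentSeries k where
  __ := qx k m
  commutes' c := by
    show qx k m (algebraMap k (LaurentSeries k) c) = algebraMap k (LaurentSeries k) c
    rcases eq_or_ne m 0 with rfl | h
    · simp [qx]
    · haveI : NeZero m := ⟨h⟩
      rw [qx_eq, algebraMap_laurentSeries_eq_single, qExpand_single, mul_zero]

/-- the field `k((q^m))`. -/
def LFk (m : ℕ) : IntermediateField k (LaurentSeries k) := (qxA (k := k) m).fieldRange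

theorem mem_LFk {m : ℕ} {x : LaurentSeries k} : x ∈ LFk (k := k) m ↔ ∃ y, qx k m y = x := Iff.rfl

theorem LFk_le {a b : ℕ} (hb : b ≠ 0) (h : a ∣ b) : LFk (k := k) b ≤ LFk (k := k) a := by
  obtain ⟨c, rfl⟩ := h
  intro x hx
  obtain ⟨y, rfl⟩ := mem_LFk.mp hx
  rw [← qx_qx (left_ne_zero_of_mul hb) (right_ne_zero_of_mul hb)]
  exact mem_LFk.mpr ⟨_, rfl⟩

theorem dvd_order_of_mem_LFk {m : ℕ} (hm : m ≠ 0) {x : LaurentSeries k} (hx : x ∈ LFk (k := k) m) :
    (m : ℤ) ∣ x.order := by
  obtain ⟨y, rfl⟩ := mem_LFk.mp hx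
  rw [order_qx hm]
  exact dvd_mul_right _ _

theorem coeff_algebraMap_mul (c : k) (x : LaurentSeries k) (n : ℤ) :
    (algebraMap k (LaurentSeries k) c * x).coeff n = c * x.coeff n := by
  rw [algebraMap_laurentSeries_eq_single, HahnSeries.coeff_single_zero_mul]

theorem aeval_ne_zero_and_order {f : LaurentSeries k} (hf : f.order < 0) {P : Polynomial k}
    (hP : P ≠ 0) : aeval f P ≠ 0 ∧ (aeval f P).order ≤ 0 := by
  have hf0 : f ≠ 0 := by
    rintro rfl
    rw [HahnSeries.order_zero] at hf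
    exact lt_irrefl _ hf
  have hc : (aeval f P).coeff (P.natDegree * f.order) ≠ 0 := by
    rw [Polynomial.aeval_eq_sum_range]
    simp only [Algebra.smul_def]
    rw [HahnSeries.coeff_sum, Finset.sum_range_succ,
      Finset.sum_eq_zero, zero_add, coeff_algebraMap_mul]
    · apply mul_ne_zero
      · rwa [← Polynomial.leadingCoeff, Ne, Polynomial.leadingCoeff_eq_zero]
      · have h1 : (f ^ P.natDegree).order = P.natDegree * f.order := by
          rw [HahnSeries.order_pow, nsmul_eq_mul]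
        rw [← h1]
        exact coeff_order_ne (pow_ne_zero _ hf0)
    · intro i hi
      rw [Finset.mem_range] at hi
      rw [coeff_algebraMap_mul]
      have h1 : (f ^ i).coeff (P.natDegree * f.order) = 0 := by
        apply HahnSeries.coeff_eq_zero_of_lt_order
        rw [HahnSeries.order_pow, nsmul_eq_mul]
        have : (i : ℤ) < P.natDegree := by exact_mod_cast hi
        nlinarith
      rw [h1, mul_zero]
  have hne : aeval f P ≠ 0 := by
    intro h
    rw [h] at hc
    exact hc rfl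
  refine ⟨hne, ?_⟩
  refine (HahnSeries.order_le_of_coeff_ne_zero hc).trans ?_
  have : (0 : ℤ) ≤ P.natDegree := Int.natCast_nonneg _
  nlinarith

theorem transcendental_of_order {f : LaurentSeries k} (hf : f.order < 0) : Transcendental k f := by
  rw [transcendental_iff]
  intro P hP
  by_contra h
  exact (aeval_ne_zero_and_order hf h).1 hP

theorem qxA_apply (m : ℕ) (x : LaurentSeries k) : qxA m x = qx k m x := rfl

/-- the element `j(q^N)` -/
def JN (k : Type*) [Field k] (N : ℕ) : LaurentSeries k := qx k N (jqModC k)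

theorem order_JN {N : ℕ} (hN : N ≠ 0) : (JN k N).order = -(N : ℤ) := by
  rw [JN, order_qx hN, order_jqModC]; ring

theorem order_JN_neg {N : ℕ} (hN : N ≠ 0) : (JN k N).order < 0 := by
  rw [order_JN hN]
  have : (0 : ℤ) < N := by exact_mod_cast Nat.pos_of_ne_zero hN
  linarith

/-- the base field `k(j(q^N))` -/
abbrev KJ (k : Type*) [Field k] (N : ℕ) : IntermediateField k (LaurentSeries k) := k⟮JN k N⟯

/-- its generator -/
def genJ (k : Type*) [Field k] (N : ℕ) : KJ k N := ⟨JN k N, mem_adjoin_simple_self k _⟩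

theorem KJ_le_LFk {m N : ℕ} (hN : N ≠ 0) (h : m ∣ N) : KJ k N ≤ LFk (k := k) m := by
  rw [KJ, adjoin_simple_le_iff]
  exact LFk_le hN h (mem_LFk.mpr ⟨_, rfl⟩)

/-- `k((q^m))` as an extension of `k(j(q^N))`. -/
def FF {m N : ℕ} (hN : N ≠ 0) (h : m ∣ N) : IntermediateField (KJ k N) (LaurentSeries k) :=
  extendScalars (KJ_le_LFk (k := k) hN h)

theorem mem_FF {m N : ℕ} (hN : N ≠ 0) (h : m ∣ N) {x : LaurentSeries k} :
    x ∈ FF (k := k) hN h ↔ ∃ y, qx k m y = x := Iff.rfl

theorem dvd_order_of_mem_FF {m N : ℕ} (hN : N ≠ 0) (h : m ∣ N) {x : LaurentSeries k}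
    (hx : x ∈ FF (k := k) hN h) : (m : ℤ) ∣ x.order :=
  dvd_order_of_mem_LFk (ne_zero_of_dvd_ne_zero hN h) hx

/-- numerical condition -/
theorem order_cond {p N m : ℕ} (hp : p.Prime) (hN : N ≠ 0) (hpN : p ∣ N) (hm : m ∣ N)
    (hpm : ¬ p ∣ N / m) : ∀ i < p, ∀ j < p,
      (m : ℤ) ∣ ((i : ℤ) - j) * (yE k (N / p) N).order → i = j := by
  intro i hi j hj hdvd
  obtain ⟨M, rfl⟩ := hm
  have hm0 : m ≠ 0 := left_ne_zero_of_mul hN
  have hM0 : M ≠ 0 := right_ne_zero_of_mul hN
  rw [Nat.mul_div_cancel_left _ (Nat.pos_of_ne_zero hm0)] at hpm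
  obtain ⟨m', rfl⟩ : p ∣ m := ((Nat.Prime.dvd_mul hp).mp hpN).resolve_right hpm
  have hm'0 : m' ≠ 0 := right_ne_zero_of_mul hm0
  have hdiv : p * m' * M / p = m' * M := by
    rw [mul_assoc, Nat.mul_div_cancel_left _ hp.pos]
  rw [hdiv, order_yE (mul_ne_zero hm'0 hM0) hN] at hdvd
  have h1 : ((i : ℤ) - j) * (((m' * M : ℕ) : ℤ) - ((p * m' * M : ℕ) : ℤ)) =
      (m' : ℤ) * (((i : ℤ) - j) * M * (1 - p)) := by push_cast; ring
  rw [h1, show ((p * m' : ℕ) : ℤ) = (m' : ℤ) * p by push_cast; ring] at hdvd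
  have h2 : (p : ℤ) ∣ ((i : ℤ) - j) * M * (1 - p) :=
    Int.dvd_of_mul_dvd_mul_left (by exact_mod_cast hm'0) hdvd
  have hpp : Prime (p : ℤ) := Nat.prime_iff_prime_int.mp hp
  have h3 : ¬ (p : ℤ) ∣ (1 - p) := by
    intro h
    have : (p : ℤ) ∣ 1 := by
      have := dvd_add h (dvd_refl (p : ℤ))
      simpa using this
    exact hpp.not_dvd_one this
  have h4 : ¬ (p : ℤ) ∣ (M : ℤ) := by
    intro h; exact hpm (by exact_mod_cast h)
  have h5 : (p : ℤ) ∣ (i : ℤ) - j := by
    rcases hpp.dvd_or_dvd h2 with h | h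
    · rcases hpp.dvd_or_dvd h with h | h
      · exact h
      · exact absurd h h4
    · exact absurd h h3
  obtain ⟨c, hc⟩ := h5
  have hi' : (i : ℤ) < p := by exact_mod_cast hi
  have hj' : (j : ℤ) < p := by exact_mod_cast hj
  have hp0 : (0 : ℤ) < p := by exact_mod_cast hp.pos
  have hc0 : c = 0 := by
    by_contra hc0
    rcases lt_or_gt_of_ne hc0 with h | h
    · have : c ≤ -1 := by omega
      nlinarith
    · have : 1 ≤ c := by omega
      nlinarith
  rw [hc0, mul_zero] at hc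
  omega

/-- lower bound for the degree of `Δ(q^(N/p))/Δ(q^N)` over subfields of `k((q^m))`. -/
theorem le_natDegree_yE {p N m : ℕ} (hp : p.Prime) (hN : N ≠ 0) (hpN : p ∣ N) (hm : m ∣ N)
    (hpm : ¬ p ∣ N / m) (C : IntermediateField (KJ k N) (LaurentSeries k))
    (hC : C ≤ FF (k := k) hN hm) :
    ∀ P : Polynomial C, P ≠ 0 → aeval (yE k (N / p) N) P = 0 → p ≤ P.natDegree := by
  intro P hP h0
  exact le_natDegree_of_order m (fun c => dvd_order_of_mem_FF hN hm (hC c.2))
    (yE_ne_zero _ _) p (order_cond hp hN hpN hm hpm) hP h0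

end KField

end Fermat.Agent.S28aux
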