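import Mathlib
import Fermat.Agent.S28_Residual

set_option autoImplicit false

noncomputable section

open ModularCurve HahnSeries Polynomial IntermediateField

namespace Fermat.Agent.S28aux

section Roots

variable {k : Type*} [Field k]

/-- the modular unit polynomial over `k(j(q^N))`. -/
def Hk (k : Type*) [Field k] (N : ℕ) (H : Polynomial (Polynomial ℤ)) : Polynomial (KJ k N) :=
  H.map (evJ (KJ k N) (genJ k N))

theorem aeval_Hk (N : ℕ) (H : Polynomial (Polynomial ℤ)) (x : LaurentSeries k) :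
    aeval x (Hk k N H) = H.eval₂ (evJ (LaurentSeries k) (JN k N)) x := by
  rw [Hk, aeval_def, eval₂_map, comp_evJ]
  rfl

/-- the other root. -/
def rE (k : Type*) [Field k] (p N : ℕ) : LaurentSeries k :=
  qx k N ((p : LaurentSeries k) ^ 12 * (qx k p (deltaC k) * deltaInvC k))

theorem map_root (H : Polynomial (Polynomial ℤ)) (g : LaurentSeries ℤ →+* LaurentSeries k)
    (x y : LaurentSeries ℤ) (h : H.eval₂ (evJ (LaurentSeries ℤ) x) y = 0) :
    H.eval₂ (evJ (LaurentSeries k) (g x)) (g y) = 0 := by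
  have h1 := Polynomial.hom_eval₂ H (evJ (LaurentSeries ℤ) x) g y
  rw [h, map_zero, comp_evJ] at h1
  exact h1.symm

theorem root_y {p N : ℕ} (hN : N ≠ 0) (hpN : p ∣ N) [NeZero p] (H : Polynomial (Polynomial ℤ))
    (h : H.eval₂ (evJ (LaurentSeries ℤ) (qExpand ℤ p (jqModC ℤ)))
      (deltaC ℤ * qExpand ℤ p (deltaInvC ℤ)) = 0) :
    aeval (yE k (N / p) N) (Hk k N H) = 0 := by
  have hp0 : p ≠ 0 := NeZero.ne p
  have hd : N / p ≠ 0 := (Nat.div_pos (Nat.le_of_dvd (Nat.pos_of_ne_zero hN) hpN)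
    (Nat.pos_of_ne_zero hp0)).ne'
  have hNe : N / p * p = N := Nat.div_mul_cancel hpN
  have h1 := map_root (k := k) H ((qx k (N / p)).comp (coeffMap (Int.castRingHom k))) _ _ h
  rw [aeval_Hk]
  simp only [RingHom.comp_apply, map_mul, ← qx_eq, coeffMap_qx, coeffMap_jqModC, coeffMap_deltaC,
    coeffMap_deltaInvC] at h1
  rw [qx_qx hd hp0, qx_qx hd hp0, hNe] at h1
  exact h1

theorem root_r {p N : ℕ} [NeZero p] (H : Polynomial (Polynomial ℤ))
    (h : H.eval₂ (evJ (LaurentSeries ℤ) (jqModC ℤ))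
      ((p : LaurentSeries ℤ) ^ 12 * (qExpand ℤ p (deltaC ℤ) * deltaInvC ℤ)) = 0) :
    aeval (rE k p N) (Hk k N H) = 0 := by
  have h1 := map_root (k := k) H ((qx k N).comp (coeffMap (Int.castRingHom k))) _ _ h
  rw [aeval_Hk]
  simp only [RingHom.comp_apply, map_mul, map_pow, map_natCast, ← qx_eq, coeffMap_qx,
    coeffMap_jqModC, coeffMap_deltaC, coeffMap_deltaInvC] at h1
  rw [rE]
  simp only [map_mul, map_pow, map_natCast]
  exact h1

theorem rE_eq {p N : ℕ} (hp : p ≠ 0) (hN : N ≠ 0) :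
    rE k p N = (p : LaurentSeries k) ^ 12 * yE k (N * p) N := by
  rw [rE, yE]
  simp only [map_mul, map_pow, map_natCast]
  rw [qx_qx hN hp]

theorem rE_ne_zero {p N : ℕ} (hN : N ≠ 0) (hpk : (p : k) ≠ 0) : rE k p N ≠ 0 := by
  have hp0 : p ≠ 0 := by rintro rfl; exact hpk (by simp)
  rw [rE_eq hp0 hN]
  refine mul_ne_zero (pow_ne_zero _ ?_) (yE_ne_zero _ _)
  have : ((p : k) : k) ≠ 0 := hpk
  rw [show (p : LaurentSeries k) = algebraMap k (LaurentSeries k) (p : k) by simp]
  exact (_root_.map_ne_zero _).mpr hpk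

theorem order_rE {p N : ℕ} (hN : N ≠ 0) (hpk : (p : k) ≠ 0) :
    (rE k p N).order = (N : ℤ) * p - N := by
  have hp0 : p ≠ 0 := by rintro rfl; exact hpk (by simp)
  have h0 : rE k p N ≠ 0 := rE_ne_zero hN hpk
  rw [rE_eq hp0 hN] at h0 ⊢
  rw [HahnSeries.order_mul (left_ne_zero_of_mul h0) (right_ne_zero_of_mul h0),
    order_yE (mul_ne_zero hN hp0) hN, HahnSeries.order_pow,
    show (p : LaurentSeries k) = algebraMap k (LaurentSeries k) (p : k) by simp,
    algebraMap_laurentSeries_eq_single, HahnSeries.order_single hpk]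
  push_cast
  ring

theorem rE_mem_FF {p N : ℕ} (hN : N ≠ 0) : rE k p N ∈ FF (k := k) hN (dvd_refl N) :=
  (mem_FF hN _).mpr ⟨_, rfl⟩

theorem Hk_monic {N : ℕ} {H : Polynomial (Polynomial ℤ)} (hH : H.Monic) : (Hk k N H).Monic :=
  hH.map _

theorem Hk_natDegree {N : ℕ} {H : Polynomial (Polynomial ℤ)} (hH : H.Monic) :
    (Hk k N H).natDegree = H.natDegree := hH.natDegree_map _

/-- `p^12 Δ(q^p)/Δ(q)` is not in `k(j)` : positive order versus integrality. -/
theorem rE_not_mem {p N : ℕ} (hN : N ≠ 0) (hp : 2 ≤ p) (hpk : (p : k) ≠ 0)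
    (H : Polynomial (Polynomial ℤ)) (hH : H.Monic) (hr : aeval (rE k p N) (Hk k N H) = 0) :
    rE k p N ∉ (algebraMap (KJ k N) (LaurentSeries k)).range := by
  rintro ⟨x, hx⟩
  have hmem : rE k p N ∈ k⟮JN k N⟯ := by rw [← hx]; exact x.2
  have hint : IsIntegral (Algebra.adjoin k {JN k N}) (rE k p N) := by
    refine ⟨H.map (evJ (Algebra.adjoin k {JN k N})
      ⟨JN k N, Algebra.self_mem_adjoin_singleton k _⟩), hH.map _, ?_⟩
    rw [eval₂_map, comp_evJ]
    rw [aeval_Hk] at hr
    exact hr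
  obtain ⟨P, hP⟩ := exists_poly_of_integral (JN k N)
    (transcendental_of_order (order_JN_neg hN)) _ hmem hint
  have hP0 : P ≠ 0 := by
    rintro rfl
    rw [map_zero] at hP
    exact rE_ne_zero hN hpk hP.symm
  have h1 := (aeval_ne_zero_and_order (order_JN_neg (k := k) hN) hP0).2
  rw [hP, order_rE hN hpk] at h1
  have h2 : (0 : ℤ) < N := by exact_mod_cast Nat.pos_of_ne_zero hN
  have h3 : (2 : ℤ) ≤ p := by exact_mod_cast hp
  nlinarith

theorem Hk_irreducible {p N : ℕ} (hN : N ≠ 0) (hp : p.Prime) (hpN : p ∣ N) (hpk : (p : k) ≠ 0)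
    (H : Polynomial (Polynomial ℤ)) (hH : H.Monic) (hd : H.natDegree = p + 1)
    (hr : aeval (rE k p N) (Hk k N H) = 0) (hy : aeval (yE k (N / p) N) (Hk k N H) = 0) :
    Irreducible (Hk k N H) := by
  refine irreducible_base (FF (k := k) hN (dvd_refl N)) p hp.two_le (Hk k N H) (Hk_monic hH)
    (by rw [Hk_natDegree hH, hd]) (yE k (N / p) N) hy ?_ (rE k p N) hr (rE_mem_FF hN)
    (rE_not_mem hN hp.two_le hpk H hH hr)
  apply le_natDegree_yE hp hN hpN (dvd_refl N) _ _ le_rfl
  rw [Nat.div_self (Nat.pos_of_ne_zero hN)]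
  exact hp.not_dvd_one

end Roots

section Splitting

variable {k : Type*} [Field k]

/-- splitting of a polynomial with a root of large degree over a normal extension. -/
theorem splits_of_normal {F1 L : Type*} [Field F1] [Field L] [Algebra F1 L] [Normal F1 L]
    (P : Polynomial F1) (hP : P.Monic) (n : ℕ) (hn : P.natDegree = n + 1) (y : L)
    (hy : aeval y P = 0)
    (hlow : ∀ Q : Polynomial F1, Q ≠ 0 → aeval y Q = 0 → n ≤ Q.natDegree) :
    (P.map (algebraMap F1 L)).Splits := by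
  have hint : IsIntegral F1 y := ⟨P, hP, by rwa [← aeval_def]⟩
  obtain ⟨h, hh⟩ := minpoly.dvd F1 y hy
  have hhm : h.Monic := by
    have := hP
    rw [hh] at this
    exact (minpoly.monic hint).of_mul_monic_left this
  have h1 : P.natDegree = (minpoly F1 y).natDegree + h.natDegree := by
    conv_lhs => rw [hh]
    exact (minpoly.monic hint).natDegree_mul hhm
  have h2 := hlow _ (minpoly.ne_zero hint) (minpoly.aeval F1 y)
  rw [hh, Polynomial.map_mul]
  apply Splits.mul
  · exact Normal.splits inferInstance y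
  · apply Splits.of_natDegree_le_one
    rw [natDegree_map]
    omega

theorem splits_basic [IsAlgClosed k] {p : ℕ} (hp : p.Prime) (hpk : (p : k) ≠ 0)
    (H : Polynomial (Polynomial ℤ)) (hH : H.Monic) (hd : H.natDegree = p + 1)
    (h : H.eval₂ (evJ (LaurentSeries k) (qx k p (jqModC k)))
      (deltaC k * qx k p (deltaInvC k)) = 0) :
    (H.map (evJ (LaurentSeries k) (qx k p (jqModC k)))).Splits := by
  haveI : NeZero p := ⟨hp.ne_zero⟩
  haveI := normal_qExpand (k := k) p hpk
  set F1 := (qExpand k p).fieldRange with hF1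
  have hj : qx k p (jqModC k) ∈ F1 := ⟨jqModC k, by rw [qx_eq]⟩
  have e1 : (algebraMap F1 (LaurentSeries k)).comp (evJ F1 ⟨qx k p (jqModC k), hj⟩) =
      evJ (LaurentSeries k) (qx k p (jqModC k)) := comp_evJ _ _
  rw [← e1, ← Polynomial.map_map]
  refine splits_of_normal (H.map (evJ F1 ⟨qx k p (jqModC k), hj⟩)) (hH.map _) p
    (by rw [hH.natDegree_map, hd]) (deltaC k * qx k p (deltaInvC k)) ?_ ?_
  · rw [aeval_def, eval₂_map, e1]
    exact h
  · intro Q hQ h0
    have hy : deltaC k * qx k p (deltaInvC k) = yE k (p / p) p := by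
      rw [Nat.div_self hp.pos, yE, qx_eq k 1, qExpand_one_apply]
    rw [hy] at h0
    refine le_natDegree_of_order p ?_ (yE_ne_zero _ _) p
      (order_cond hp hp.ne_zero (dvd_refl p) (dvd_refl p) ?_) hQ h0
    · intro c
      apply dvd_order_of_mem_range p
      obtain ⟨y, hy⟩ := c.2
      exact ⟨y, hy⟩
    · rw [Nat.div_self hp.pos]
      exact hp.not_dvd_one

end Splitting

end Fermat.Agent.S28aux
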