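import Mathlib
import Fermat.Agent.S28_Residual2

set_option autoImplicit false

noncomputable section

open ModularCurve HahnSeries Polynomial IntermediateField

namespace Fermat.Agent.S28aux

variable {k : Type*} [Field k]

theorem splits_Hk [IsAlgClosed k] {p N : ℕ} [NeZero p] (hN : N ≠ 0) (hp : p.Prime) (hpN : p ∣ N)
    (hpk : (p : k) ≠ 0) (H : Polynomial (Polynomial ℤ)) (hH : H.Monic) (hd : H.natDegree = p + 1)
    (h : H.eval₂ (evJ (LaurentSeries ℤ) (qExpand ℤ p (jqModC ℤ)))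
      (deltaC ℤ * qExpand ℤ p (deltaInvC ℤ)) = 0) :
    ((Hk k N H).map (algebraMap (KJ k N) (LaurentSeries k))).Splits ∧
      ∀ x : LaurentSeries k, aeval x (Hk k N H) = 0 →
        x ∈ FF (k := k) hN (Nat.div_dvd_of_dvd hpN) := by
  have hd0 : N / p ≠ 0 := (Nat.div_pos (Nat.le_of_dvd (Nat.pos_of_ne_zero hN) hpN)
    (Nat.pos_of_ne_zero hp.ne_zero)).ne'
  have hNe : N / p * p = N := Nat.div_mul_cancel hpN
  have h1 := map_root (k := k) H (coeffMap (Int.castRingHom k)) _ _ h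
  simp only [map_mul, ← qx_eq, coeffMap_qx, coeffMap_jqModC, coeffMap_deltaC,
    coeffMap_deltaInvC] at h1
  have hs := splits_basic hp hpk H hH hd h1
  have e1 : (Hk k N H).map (algebraMap (KJ k N) (LaurentSeries k)) =
      (H.map (evJ (LaurentSeries k) (qx k p (jqModC k)))).map (qx k (N / p)) := by
    rw [Hk, Polynomial.map_map, Polynomial.map_map, comp_evJ, comp_evJ, qx_qx hd0 hp.ne_zero, hNe]
    rfl
  refine ⟨?_, ?_⟩
  · rw [e1]
    exact hs.map _
  · intro x hx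
    have hx' : (((H.map (evJ (LaurentSeries k) (qx k p (jqModC k)))).map (qx k (N / p)))).IsRoot x := by
      rw [← e1, IsRoot.def, eval_map_algebraMap]
      exact hx
    obtain ⟨y, hy⟩ := hs.mem_range_of_isRoot (hH.map _).ne_zero hx'
    exact (mem_FF hN _).mpr ⟨y, hy⟩

/-- Hypotheses on a family of polynomials. -/
structure GoodFam (N : ℕ) (Hf : ℕ → Polynomial (Polynomial ℤ)) : Prop where
  monic : ∀ p, p.Prime → p ∣ N → (Hf p).Monic
  natDegree : ∀ p, p.Prime → p ∣ N → (Hf p).natDegree = p + 1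
  root1 : ∀ p, p.Prime → p ∣ N → ∀ [NeZero p], (Hf p).eval₂ (evJ (LaurentSeries ℤ) (jqModC ℤ))
      ((p : LaurentSeries ℤ) ^ 12 * (qExpand ℤ p (deltaC ℤ) * deltaInvC ℤ)) = 0
  root2 : ∀ p, p.Prime → p ∣ N → ∀ [NeZero p],
      (Hf p).eval₂ (evJ (LaurentSeries ℤ) (qExpand ℤ p (jqModC ℤ)))
      (deltaC ℤ * qExpand ℤ p (deltaInvC ℤ)) = 0

theorem exists_goodFam (N : ℕ)
    (hA : ∀ p, p.Prime → p ∣ N → ∀ [NeZero p], ModUnitPoly p) : ∃ Hf, GoodFam N Hf := by
  classical
  have h1 : ∀ p : ℕ, ∃ H : Polynomial (Polynomial ℤ), p.Prime → p ∣ N →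
      H.Monic ∧ H.natDegree = p + 1 ∧
      (∀ [NeZero p], H.eval₂ (evJ (LaurentSeries ℤ) (jqModC ℤ))
      ((p : LaurentSeries ℤ) ^ 12 * (qExpand ℤ p (deltaC ℤ) * deltaInvC ℤ)) = 0) ∧
      (∀ [NeZero p], H.eval₂ (evJ (LaurentSeries ℤ) (qExpand ℤ p (jqModC ℤ)))
      (deltaC ℤ * qExpand ℤ p (deltaInvC ℤ)) = 0) := by
    intro p
    by_cases hp : p.Prime ∧ p ∣ N
    · haveI : NeZero p := ⟨hp.1.ne_zero⟩
      obtain ⟨H, hH1, hH2, hH3, hH4⟩ := hA p hp.1 hp.2
      exact ⟨H, fun _ _ => ⟨hH1, hH2, hH3, hH4⟩⟩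
    · exact ⟨0, fun h1 h2 => absurd ⟨h1, h2⟩ hp⟩
  choose Hf hHf using h1
  exact ⟨Hf, fun p h1 h2 => (hHf p h1 h2).1, fun p h1 h2 => (hHf p h1 h2).2.1,
    fun p h1 h2 => (hHf p h1 h2).2.2.1, fun p h1 h2 => (hHf p h1 h2).2.2.2⟩

/-- product of the polynomials -/
def HS (k : Type*) [Field k] (N : ℕ) (Hf : ℕ → Polynomial (Polynomial ℤ)) (S : Finset ℕ) :
    Polynomial (KJ k N) := ∏ p ∈ S, Hk k N (Hf p)

/-- its splitting field -/
def CS (k : Type*) [Field k] (N : ℕ) (Hf : ℕ → Polynomial (Polynomial ℤ)) (S : Finset ℕ) :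
    IntermediateField (KJ k N) (LaurentSeries k) :=
  adjoin (KJ k N) ((HS k N Hf S).rootSet (LaurentSeries k))

section Main

variable {N : ℕ} (hN : N ≠ 0) (hNk : (N : k) ≠ 0) {Hf : ℕ → Polynomial (Polynomial ℤ)}
  (hf : GoodFam N Hf)

theorem prime_ne_zero_of_dvd (hNk : (N : k) ≠ 0) {p : ℕ} (hpN : p ∣ N) : (p : k) ≠ 0 := by
  obtain ⟨c, rfl⟩ := hpN
  intro h
  apply hNk
  push_cast
  rw [h, zero_mul]

include hf in
theorem HS_monic {S : Finset ℕ} (hS : S ⊆ N.primeFactors) : (HS k N Hf S).Monic := by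
  apply monic_prod_of_monic
  intro p hp
  have := Nat.mem_primeFactors.mp (hS hp)
  exact Hk_monic (hf.monic p this.1 this.2.1)

include hN hNk hf in
theorem HS_splits [IsAlgClosed k] {S : Finset ℕ} (hS : S ⊆ N.primeFactors) :
    ((HS k N Hf S).map (algebraMap (KJ k N) (LaurentSeries k))).Splits := by
  rw [HS, Polynomial.map_prod]
  apply Splits.prod
  intro p hp
  have h := Nat.mem_primeFactors.mp (hS hp)
  haveI : NeZero p := ⟨h.1.ne_zero⟩
  exact (splits_Hk hN h.1 h.2.1 (prime_ne_zero_of_dvd hNk h.2.1) _ (hf.monic p h.1 h.2.1)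
    (hf.natDegree p h.1 h.2.1) (hf.root2 p h.1 h.2.1)).1

include hN hNk hf in
theorem CS_normal [IsAlgClosed k] {S : Finset ℕ} (hS : S ⊆ N.primeFactors) :
    Normal (KJ k N) (CS k N Hf S) := by
  have : IsSplittingField (KJ k N) (CS k N Hf S) (HS k N Hf S) :=
    adjoin_rootSet_isSplittingField (HS_splits hN hNk hf hS)
  exact Normal.of_isSplittingField (HS k N Hf S)

theorem prod_dvd {S : Finset ℕ} (hS : S ⊆ N.primeFactors) : ∏ p ∈ S, p ∣ N :=
  (Finset.prod_dvd_prod_of_subset _ _ _ hS).trans (Nat.prod_primeFactors_dvd N)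

include hN hNk hf in
theorem CS_le [IsAlgClosed k] {S : Finset ℕ} (hS : S ⊆ N.primeFactors) :
    CS k N Hf S ≤ FF (k := k) hN (Nat.div_dvd_of_dvd (prod_dvd hS)) := by
  rw [CS, adjoin_le_iff]
  intro x hx
  rw [mem_rootSet] at hx
  rw [HS, map_prod, Finset.prod_eq_zero_iff] at hx
  obtain ⟨-, p, hp, hx⟩ := hx
  have h := Nat.mem_primeFactors.mp (hS hp)
  haveI : NeZero p := ⟨h.1.ne_zero⟩
  have h1 := (splits_Hk hN h.1 h.2.1 (prime_ne_zero_of_dvd hNk h.2.1) _ (hf.monic p h.1 h.2.1)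
    (hf.natDegree p h.1 h.2.1) (hf.root2 p h.1 h.2.1)).2 x hx
  refine LFk_le ?_ ?_ h1
  · exact (Nat.div_pos (Nat.le_of_dvd (Nat.pos_of_ne_zero hN) h.2.1) h.1.pos).ne'
  · -- N / ∏ ∣ N / p
    exact Nat.div_dvd_div_left (prod_dvd hS) (Finset.dvd_prod_of_mem _ hp)

theorem CS_mono {S T : Finset ℕ} (hST : S ⊆ T) (hT : (HS k N Hf T) ≠ 0) :
    CS k N Hf S ≤ CS k N Hf T := by
  rw [CS, adjoin_le_iff]
  intro x hx
  apply subset_adjoin
  rw [mem_rootSet] at hx ⊢
  refine ⟨hT, ?_⟩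
  rw [HS, ← Finset.prod_sdiff hST, map_mul]
  rw [HS] at hx
  rw [hx.2, mul_zero]

include hN hf in
theorem yE_mem_CS {S : Finset ℕ} (hS : S ⊆ N.primeFactors) {p : ℕ} (hp : p ∈ S) :
    yE k (N / p) N ∈ CS k N Hf S := by
  apply subset_adjoin
  rw [mem_rootSet]
  refine ⟨(HS_monic hf hS).ne_zero, ?_⟩
  have h := Nat.mem_primeFactors.mp (hS hp)
  haveI : NeZero p := ⟨h.1.ne_zero⟩
  rw [HS, map_prod]
  apply Finset.prod_eq_zero hp
  exact root_y hN h.2.1 _ (hf.root2 p h.1 h.2.1)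

include hN hNk hf in
/-- the degree of `Δ(q^(N/q))/Δ(q^N)` over `C_S`, `q ∉ S`. -/
theorem natDegree_minpoly_CS [IsAlgClosed k] {S : Finset ℕ} (hS : S ⊆ N.primeFactors) {q : ℕ}
    (hq : q ∈ N.primeFactors) (hqS : q ∉ S) :
    (minpoly (CS k N Hf S) (yE k (N / q) N)).natDegree = q + 1 := by
  haveI := CS_normal hN hNk hf hS
  have h := Nat.mem_primeFactors.mp hq
  haveI : NeZero q := ⟨h.1.ne_zero⟩
  have hqk := prime_ne_zero_of_dvd hNk h.2.1
  have hy : aeval (yE k (N / q) N) (Hk k N (Hf q)) = 0 := root_y hN h.2.1 _ (hf.root2 q h.1 h.2.1)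
  refine step_natDegree (CS k N Hf S) q h.1.two_le (Hk k N (Hf q))
    (Hk_monic (hf.monic q h.1 h.2.1))
    (Hk_irreducible hN h.1 h.2.1 hqk _ (hf.monic q h.1 h.2.1) (hf.natDegree q h.1 h.2.1)
      (root_r _ (hf.root1 q h.1 h.2.1)) hy)
    (by rw [Hk_natDegree (hf.monic q h.1 h.2.1), hf.natDegree q h.1 h.2.1]) _ hy ?_
  apply le_natDegree_yE h.1 hN h.2.1 (Nat.div_dvd_of_dvd (prod_dvd hS)) _ _ (CS_le hN hNk hf hS)
  rw [Nat.div_div_self (prod_dvd hS) hN]
  intro hd
  rw [Prime.dvd_finsetProd_iff (Nat.Prime.prime h.1)] at hd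
  obtain ⟨p, hp, hqp⟩ := hd
  have hp' := Nat.mem_primeFactors.mp (hS hp)
  rw [(Nat.prime_dvd_prime_iff_eq h.1 hp'.1).mp hqp] at hqS
  exact hqS hp

/-- generators -/
def YZ (N : ℕ) : Set (LaurentSeries ℤ) := {x | ∃ e, e ≠ 0 ∧ e ∣ N ∧ x = yE ℤ e N}

/-- combining linearly independent families -/
theorem combine {κ L : Type*} [Field κ] [Field L] [Algebra κ L] (C : IntermediateField κ L)
    (c : LaurentSeries ℤ →+* L) (M : Submonoid (LaurentSeries ℤ)) {a b : ℕ}
    (ω : Fin a → LaurentSeries ℤ) (hω : ∀ i, ω i ∈ M) (hC : ∀ i, c (ω i) ∈ C)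
    (hli : LinearIndependent κ (fun i => c (ω i)))
    (y : LaurentSeries ℤ) (hy : y ∈ M)
    (hyli : LinearIndependent C (fun i : Fin b => (c y) ^ (i : ℕ))) :
    ∃ ω' : Fin (a * b) → LaurentSeries ℤ, (∀ i, ω' i ∈ M) ∧
      (∀ i, ∃ j, ∃ n : ℕ, ω' i = ω j * y ^ n) ∧
      LinearIndependent κ (fun i => c (ω' i)) := by
  let e : Fin a × Fin b ≃ Fin (a * b) := finProdFinEquiv
  have h1 : LinearIndependent κ (fun i => (⟨c (ω i), hC i⟩ : C)) := by
    apply LinearIndependent.of_comp C.val.toLinearMap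
    exact hli
  have h2 := linearIndependent_smul h1 hyli
  refine ⟨fun i => ω (e.symm i).1 * y ^ ((e.symm i).2 : ℕ), ?_, ?_, ?_⟩
  · intro i
    exact mul_mem (hω _) (pow_mem hy _)
  · intro i
    exact ⟨_, _, rfl⟩
  · have h3 := h2.comp e.symm e.symm.injective
    convert h3 using 1
    ext i
    simp only [map_mul, map_pow, Function.comp_apply]
    rfl

include hN hNk hf in
theorem residual_aux [IsAlgClosed k] (S : Finset ℕ) : S ⊆ N.primeFactors →
    ∃ ω : Fin (∏ p ∈ S, (p + 1)) → LaurentSeries ℤ,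
      (∀ i, ω i ∈ Submonoid.closure (YZ N)) ∧
      (∀ i, coeffMap (Int.castRingHom k) (ω i) ∈ CS k N Hf S) ∧
      LinearIndependent (KJ k N) (fun i => coeffMap (Int.castRingHom k) (ω i)) := by
  classical
  induction S using Finset.induction_on with
  | empty =>
    intro _
    refine ⟨fun _ => 1, fun _ => one_mem _, fun _ => by rw [map_one]; exact one_mem _, ?_⟩
    have : Subsingleton (Fin (∏ p ∈ (∅ : Finset ℕ), (p + 1))) := by
      rw [Finset.prod_empty]; infer_instance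
    apply LinearIndependent.of_subsingleton
      (⟨0, by rw [Finset.prod_empty]; exact one_pos⟩ : Fin (∏ p ∈ (∅ : Finset ℕ), (p + 1)))
    rw [map_one]
    exact one_ne_zero
  | insert q S hqS ih =>
    intro hS
    have hS' : S ⊆ N.primeFactors := (Finset.subset_insert q S).trans hS
    have hq : q ∈ N.primeFactors := hS (Finset.mem_insert_self q S)
    have hq' := Nat.mem_primeFactors.mp hq
    obtain ⟨ω, h1, h2, h3⟩ := ih hS'
    have hd0 : N / q ≠ 0 := (Nat.div_pos (Nat.le_of_dvd (Nat.pos_of_ne_zero hN) hq'.2.1)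
      hq'.1.pos).ne'
    have hli : LinearIndependent (CS k N Hf S) (fun i : Fin (q + 1) =>
        (coeffMap (Int.castRingHom k) (yE ℤ (N / q) N)) ^ (i : ℕ)) := by
      have := linearIndependent_pow (K := CS k N Hf S) (yE k (N / q) N)
      rw [natDegree_minpoly_CS hN hNk hf hS' hq hqS] at this
      rw [coeffMap_yE]
      exact this
    obtain ⟨ω', g1, g2, g3⟩ := combine (CS k N Hf S) (coeffMap (Int.castRingHom k))
      (Submonoid.closure (YZ N)) ω h1 h2 h3 (yE ℤ (N / q) N)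
      (Submonoid.subset_closure ⟨N / q, hd0, Nat.div_dvd_of_dvd hq'.2.1, rfl⟩) hli
    have hle : CS k N Hf S ≤ CS k N Hf (insert q S) :=
      CS_mono (Finset.subset_insert q S) (HS_monic hf hS).ne_zero
    have hcard : (∏ p ∈ S, (p + 1)) * (q + 1) = ∏ p ∈ insert q S, (p + 1) := by
      rw [Finset.prod_insert hqS, mul_comm]
    rw [← hcard]
    refine ⟨ω', g1, ?_, g3⟩
    intro i
    obtain ⟨j, n, hij⟩ := g2 i
    rw [hij, map_mul, map_pow, coeffMap_yE]
    exact mul_mem (hle (h2 j)) (pow_mem (yE_mem_CS hN hf hS (Finset.mem_insert_self q S)) _)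

/-- The residual degree bound (B1). -/
theorem residual_basis [IsAlgClosed k] (hN : N ≠ 0) (hNk : (N : k) ≠ 0)
    (hA : ∀ p, p.Prime → p ∣ N → ∀ [NeZero p], ModUnitPoly p) :
    ∃ ω : Fin ((∏ p ∈ N.primeFactors, (p + 1)) * (N / ∏ p ∈ N.primeFactors, p)) →
        LaurentSeries ℤ,
      (∀ i, ω i ∈ Submonoid.closure (YZ N)) ∧
      LinearIndependent (KJ k N) (fun i => coeffMap (Int.castRingHom k) (ω i)) := by
  obtain ⟨Hf, hf⟩ := exists_goodFam N hA
  obtain ⟨ω, h1, h2, h3⟩ := residual_aux hN hNk hf N.primeFactors subset_rfl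
  set m := N / ∏ p ∈ N.primeFactors, p with hm
  have hmN : m ∣ N := Nat.div_dvd_of_dvd (prod_dvd subset_rfl)
  have hli : LinearIndependent (CS k N Hf N.primeFactors) (fun i : Fin m =>
      (coeffMap (Int.castRingHom k) (yE ℤ 1 N)) ^ (i : ℕ)) := by
    rw [coeffMap_yE]
    rw [Fintype.linearIndependent_iff]
    intro g hg
    by_contra hne
    push Not at hne
    obtain ⟨i0, hi0⟩ := hne
    set P : Polynomial (CS k N Hf N.primeFactors) := ∑ i : Fin m, monomial (i : ℕ) (g i) with hP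
    have hcoef : ∀ i : Fin m, P.coeff i = g i := by
      intro i
      rw [hP, finsetSum_coeff, Finset.sum_eq_single i]
      · rw [coeff_monomial, if_pos rfl]
      · intro j _ hji
        rw [coeff_monomial, if_neg (fun h => hji (Fin.ext h))]
      · intro h; exact absurd (Finset.mem_univ _) h
    have hP0 : P ≠ 0 := by
      intro h
      apply hi0
      rw [← hcoef, h, Polynomial.coeff_zero]
    have hev : aeval (yE k 1 N) P = 0 := by
      rw [hP, map_sum, ← hg]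
      apply Finset.sum_congr rfl
      intro i _
      rw [aeval_monomial, Algebra.smul_def]
    have hm0 : 0 < m := (Nat.zero_le _).trans_lt i0.2
    have hle := le_natDegree_of_order m (fun c => dvd_order_of_mem_FF hN hmN
      (CS_le hN hNk hf subset_rfl c.2)) (yE_ne_zero (k := k) 1 N) m (by
        intro i hi j hj hd
        rw [order_yE one_ne_zero hN] at hd
        have h4 : (m : ℤ) ∣ (i : ℤ) - j := by
          have h5 : (m : ℤ) ∣ ((i : ℤ) - j) * N := Dvd.dvd.mul_left (by exact_mod_cast hmN) _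
          have h6 := dvd_add hd h5
          have h7 : ((i : ℤ) - j) * (((1 : ℕ) : ℤ) - N) + ((i : ℤ) - j) * N = (i : ℤ) - j := by
            push_cast; ring
          rwa [h7] at h6
        obtain ⟨c, hc⟩ := h4
        have hi' : (i : ℤ) < m := by exact_mod_cast hi
        have hj' : (j : ℤ) < m := by exact_mod_cast hj
        have hc0 : c = 0 := by
          by_contra hc0
          rcases lt_or_gt_of_ne hc0 with h | h
          · have : c ≤ -1 := by omega
            nlinarith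
          · have : 1 ≤ c := by omega
            nlinarith
        rw [hc0, mul_zero] at hc
        omega) hP0 hev
    have hlt : P.natDegree < m := by
      rw [hP]
      apply (natDegree_sum_le _ _).trans_lt
      rw [Finset.fold_max_lt]
      refine ⟨hm0, fun i _ => ?_⟩
      exact (natDegree_monomial_le _).trans_lt i.2
    omega
  obtain ⟨ω', g1, g2, g3⟩ := combine (CS k N Hf N.primeFactors) (coeffMap (Int.castRingHom k))
      (Submonoid.closure (YZ N)) ω h1 h2 h3 (yE ℤ 1 N)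
      (Submonoid.subset_closure ⟨1, one_ne_zero, one_dvd N, rfl⟩) hli
  exact ⟨ω', g1, g3⟩

end Main

end Fermat.Agent.S28aux
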