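import Mathlib
import Fermat.Agent.S28_Series

set_option autoImplicit false

noncomputable section

open ModularCurve HahnSeries

namespace Fermat.Agent.S28aux

section Basic

/-- integral Laurent series inside rational Laurent series -/
abbrev ιZ : LaurentSeries ℤ →+* LaurentSeries ℚ := coeffMap (Int.castRingHom ℚ)

/-- reduction of integral Laurent series -/
abbrev redZ (k : Type*) [CommRing k] : LaurentSeries ℤ →+* LaurentSeries k :=
  coeffMap (Int.castRingHom k)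

theorem ιZ_injective : Function.Injective ιZ := by
  intro x y h
  ext n
  have := congrArg (fun z : LaurentSeries ℚ => z.coeff n) h
  simpa using this

variable (ℓ : ℕ) [hℓ : Fact ℓ.Prime]

theorem natCast_mul_coeff {R : Type*} [CommRing R] (c : ℕ) (x : LaurentSeries R) (n : ℤ) :
    ((c : LaurentSeries R) * x).coeff n = c * x.coeff n := by
  rw [← nsmul_eq_mul, ← nsmul_eq_mul]
  induction c with
  | zero => simp
  | succ m ih => rw [succ_nsmul, succ_nsmul, HahnSeries.coeff_add, ih]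

theorem redZ_eq_zero_iff {k : Type*} [Field k] [CharP k ℓ] (a : LaurentSeries ℤ) :
    redZ k a = 0 ↔ ∃ a' : LaurentSeries ℤ, a = (ℓ : LaurentSeries ℤ) * a' := by
  constructor
  · intro h
    have h1 : ∀ n, ∃ r : ℤ, a.coeff n = ℓ * r := by
      intro n
      have h2 := congrArg (fun z : LaurentSeries k => z.coeff n) h
      simp only [coeffMap_coeff, HahnSeries.coeff_zero, eq_intCast] at h2
      exact (CharP.intCast_eq_zero_iff k ℓ _).mp h2
    choose r hr using h1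
    refine ⟨⟨r, a.isPWO_support.mono ?_⟩, ?_⟩
    · intro n hn
      rw [Function.mem_support] at hn
      rw [HahnSeries.mem_support, hr]
      exact mul_ne_zero (by exact_mod_cast hℓ.out.ne_zero) hn
    · ext n
      rw [natCast_mul_coeff, hr]
  · rintro ⟨a', rfl⟩
    rw [map_mul, map_natCast]
    have : (ℓ : LaurentSeries k) = 0 := by
      rw [← map_natCast (algebraMap k (LaurentSeries k)), CharP.cast_eq_zero, map_zero]
    rw [this, zero_mul]

/-- primitive integral Laurent series -/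
def PrimL (a : LaurentSeries ℤ) : Prop := ¬ ∃ a' : LaurentSeries ℤ, a = (ℓ : LaurentSeries ℤ) * a'

theorem primL_iff (k : Type*) [Field k] [CharP k ℓ] (a : LaurentSeries ℤ) :
    PrimL ℓ a ↔ redZ k a ≠ 0 := by
  rw [PrimL, ← redZ_eq_zero_iff ℓ (k := k)]

theorem PrimL.mul {a b : LaurentSeries ℤ} (ha : PrimL ℓ a) (hb : PrimL ℓ b) : PrimL ℓ (a * b) := by
  rw [primL_iff ℓ (ZMod ℓ)] at *
  rw [map_mul]
  exact mul_ne_zero ha hb

omit hℓ in
theorem PrimL.ne_zero {a : LaurentSeries ℤ} (ha : PrimL ℓ a) : a ≠ 0 := by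
  rintro rfl
  exact ha ⟨0, by simp⟩

theorem PrimL.one : PrimL ℓ 1 := by
  rw [primL_iff ℓ (ZMod ℓ), map_one]
  exact one_ne_zero

theorem exists_primL {a : LaurentSeries ℤ} (ha : a ≠ 0) :
    ∃ (m : ℕ) (a' : LaurentSeries ℤ), a = (ℓ : LaurentSeries ℤ) ^ m * a' ∧ PrimL ℓ a' := by
  by_contra hcon
  push Not at hcon
  have h1 : ∀ m : ℕ, ∃ a' : LaurentSeries ℤ, a = (ℓ : LaurentSeries ℤ) ^ m * a' := by
    intro m
    induction m with
    | zero => exact ⟨a, by simp⟩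
    | succ m ih =>
      obtain ⟨a', ha'⟩ := ih
      have := hcon m a' ha'
      rw [PrimL, not_not] at this
      obtain ⟨a'', ha''⟩ := this
      exact ⟨a'', by rw [ha', ha'', pow_succ, mul_assoc]⟩
  obtain ⟨n, hn⟩ : ∃ n, a.coeff n ≠ 0 := by
    by_contra h
    push Not at h
    exact ha (HahnSeries.ext (funext h))
  have h2 : ∀ m : ℕ, (ℓ : ℤ) ^ m ∣ a.coeff n := by
    intro m
    obtain ⟨a', ha'⟩ := h1 m
    refine ⟨a'.coeff n, ?_⟩
    rw [ha', ← Nat.cast_pow, natCast_mul_coeff]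
    push_cast
    rfl
  have hfin : FiniteMultiplicity (ℓ : ℤ) (a.coeff n) := by
    rw [Int.finiteMultiplicity_iff]
    exact ⟨by simpa using hℓ.out.ne_one, hn⟩
  obtain ⟨m, hm⟩ := hfin
  exact hm (h2 (m + 1))

end Basic

section OO

variable (ℓ : ℕ) [hℓ : Fact ℓ.Prime]

/-- the Gauss local ring -/
def OO : Subring (LaurentSeries ℚ) where
  carrier := {f | ∃ a b : LaurentSeries ℤ, PrimL ℓ b ∧ f * ιZ b = ιZ a}
  mul_mem' := by
    rintro f g ⟨a, b, hb, h⟩ ⟨a', b', hb', h'⟩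
    refine ⟨a * a', b * b', hb.mul ℓ hb', ?_⟩
    rw [map_mul, map_mul, ← h, ← h']; ring
  one_mem' := ⟨1, 1, PrimL.one ℓ, by simp⟩
  add_mem' := by
    rintro f g ⟨a, b, hb, h⟩ ⟨a', b', hb', h'⟩
    refine ⟨a * b' + a' * b, b * b', hb.mul ℓ hb', ?_⟩
    rw [map_mul, map_add, map_mul, map_mul, ← h, ← h']; ring
  zero_mem' := ⟨0, 1, PrimL.one ℓ, by simp⟩
  neg_mem' := by
    rintro f ⟨a, b, hb, h⟩
    exact ⟨-a, b, hb, by rw [map_neg, ← h]; ring⟩

theorem ιZ_mem_OO (a : LaurentSeries ℤ) : ιZ a ∈ OO ℓ := ⟨a, 1, PrimL.one ℓ, by simp⟩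

theorem ιZ_ne_zero {b : LaurentSeries ℤ} (hb : b ≠ 0) : ιZ b ≠ 0 := by
  rw [Ne, ← map_zero ιZ]
  exact fun h => hb (ιZ_injective h)

variable {ℓ}

theorem rho_aux {k : Type*} [Field k] [CharP k ℓ] {f : LaurentSeries ℚ} {a b a' b' : LaurentSeries ℤ}
    (hb : PrimL ℓ b) (h : f * ιZ b = ιZ a) (h' : f * ιZ b' = ιZ a') :
    redZ k a / redZ k b * redZ k b' = redZ k a' := by
  have hb0 : redZ k b ≠ 0 := (primL_iff ℓ k b).mp hb
  have h1 : a * b' = a' * b := by
    apply ιZ_injective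
    rw [map_mul, map_mul, ← h, ← h']; ring
  have h2 := congrArg (redZ k) h1
  rw [map_mul, map_mul] at h2
  rw [div_mul_eq_mul_div, h2, mul_div_assoc, div_self hb0, mul_one]

theorem mul_repr {f g : LaurentSeries ℚ} {a b a' b' : LaurentSeries ℤ}
    (h : f * ιZ b = ιZ a) (h' : g * ιZ b' = ιZ a') : f * g * ιZ (b * b') = ιZ (a * a') := by
  rw [map_mul, map_mul, ← h, ← h']; ring

theorem add_repr {f g : LaurentSeries ℚ} {a b a' b' : LaurentSeries ℤ}
    (h : f * ιZ b = ιZ a) (h' : g * ιZ b' = ιZ a') :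
    (f + g) * ιZ (b * b') = ιZ (a * b' + a' * b) := by
  rw [map_mul, map_add, map_mul, map_mul, ← h, ← h']; ring

/-- the residue map on the Gauss local ring -/
def rho (k : Type*) [Field k] [CharP k ℓ] : OO ℓ →+* LaurentSeries k where
  toFun f := redZ k f.2.choose / redZ k f.2.choose_spec.choose
  map_one' := by
    have h := (1 : OO ℓ).2.choose_spec.choose_spec
    have := rho_aux (k := k) h.1 h.2 (b' := 1) (a' := 1) (by simp)
    simpa using this
  map_zero' := by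
    have h := (0 : OO ℓ).2.choose_spec.choose_spec
    have := rho_aux (k := k) h.1 h.2 (b' := 1) (a' := 0) (by simp)
    simpa using this
  map_mul' f g := by
    have hf := f.2.choose_spec.choose_spec
    have hg := g.2.choose_spec.choose_spec
    have hfg := (f * g).2.choose_spec.choose_spec
    have hf0 : redZ k f.2.choose_spec.choose ≠ 0 := (primL_iff ℓ k _).mp hf.1
    have hg0 : redZ k g.2.choose_spec.choose ≠ 0 := (primL_iff ℓ k _).mp hg.1
    have h1 := rho_aux (k := k) hfg.1 hfg.2 (mul_repr hf.2 hg.2)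
    rw [map_mul, map_mul] at h1
    rw [← mul_left_inj' (mul_ne_zero hf0 hg0), h1]
    field_simp
  map_add' f g := by
    have hf := f.2.choose_spec.choose_spec
    have hg := g.2.choose_spec.choose_spec
    have hfg := (f + g).2.choose_spec.choose_spec
    have hf0 : redZ k f.2.choose_spec.choose ≠ 0 := (primL_iff ℓ k _).mp hf.1
    have hg0 : redZ k g.2.choose_spec.choose ≠ 0 := (primL_iff ℓ k _).mp hg.1
    have h1 := rho_aux (k := k) hfg.1 hfg.2 (add_repr hf.2 hg.2)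
    rw [map_mul, map_add, map_mul, map_mul] at h1
    rw [← mul_left_inj' (mul_ne_zero hf0 hg0), h1]
    field_simp

theorem rho_spec (k : Type*) [Field k] [CharP k ℓ] (f : OO ℓ) {a b : LaurentSeries ℤ}
    (h : (f : LaurentSeries ℚ) * ιZ b = ιZ a) : rho k f * redZ k b = redZ k a := by
  have hf := f.2.choose_spec.choose_spec
  exact rho_aux (k := k) hf.1 hf.2 h

theorem rho_ιZ (k : Type*) [Field k] [CharP k ℓ] (a : LaurentSeries ℤ) :
    rho k (⟨ιZ a, ιZ_mem_OO ℓ a⟩ : OO ℓ) = redZ k a := by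
  have := rho_spec (ℓ := ℓ) k ⟨ιZ a, ιZ_mem_OO ℓ a⟩ (a := a) (b := 1) (by simp)
  simpa using this

theorem rho_eq_zero_iff (k : Type*) [Field k] [CharP k ℓ] (f : OO ℓ) :
    rho k f = 0 ↔ ∃ g : OO ℓ, f = (ℓ : OO ℓ) * g := by
  constructor
  · intro h
    obtain ⟨a, b, hb, hab⟩ := f.2
    have h1 := rho_spec k f hab
    rw [h, zero_mul] at h1
    obtain ⟨a', ha'⟩ := (redZ_eq_zero_iff ℓ a).mp h1.symm
    have hb0 : ιZ b ≠ 0 := ιZ_ne_zero (hb.ne_zero ℓ)
    refine ⟨⟨ιZ a' / ιZ b, a', b, hb, by field_simp⟩, ?_⟩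
    apply Subtype.ext
    rw [Subring.coe_mul]
    have h2 : (((ℓ : OO ℓ)) : LaurentSeries ℚ) = (ℓ : LaurentSeries ℚ) := by simp
    rw [h2]
    rw [ha', map_mul, map_natCast] at hab
    rw [← mul_div_assoc, ← hab, mul_div_assoc, div_self hb0, mul_one]
  · rintro ⟨g, rfl⟩
    rw [map_mul, map_natCast]
    have : (ℓ : LaurentSeries k) = 0 := by
      rw [← map_natCast (algebraMap k (LaurentSeries k)), CharP.cast_eq_zero, map_zero]
    rw [this, zero_mul]

theorem rho_ne_zero_iff (k k' : Type*) [Field k] [CharP k ℓ] [Field k'] [CharP k' ℓ] (f : OO ℓ) :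
    rho k f ≠ 0 ↔ rho k' f ≠ 0 := by
  rw [Ne, Ne, rho_eq_zero_iff k, rho_eq_zero_iff k']

theorem inv_mem_OO (k : Type*) [Field k] [CharP k ℓ] (f : OO ℓ) (h : rho k f ≠ 0) :
    (f : LaurentSeries ℚ)⁻¹ ∈ OO ℓ := by
  obtain ⟨a, b, hb, hab⟩ := f.2
  have h1 := rho_spec k f hab
  have hb0 : redZ k b ≠ 0 := (primL_iff ℓ k _).mp hb
  have ha : PrimL ℓ a := by
    rw [primL_iff ℓ k, ← h1]
    exact mul_ne_zero h hb0
  have hf0 : (f : LaurentSeries ℚ) ≠ 0 := by
    intro h0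
    apply h
    have : f = 0 := Subtype.ext h0
    rw [this, map_zero]
  refine ⟨b, a, ha, ?_⟩
  rw [← hab, ← mul_assoc, inv_mul_cancel₀ hf0, one_mul]

end OO

section Frac

/-- fractions of integral Laurent series -/
def FracL : IntermediateField ℚ (LaurentSeries ℚ) where
  carrier := {f | ∃ a b : LaurentSeries ℤ, b ≠ 0 ∧ f * ιZ b = ιZ a}
  mul_mem' := by
    rintro f g ⟨a, b, hb, h⟩ ⟨a', b', hb', h'⟩
    refine ⟨a * a', b * b', mul_ne_zero hb hb', ?_⟩
    rw [map_mul, map_mul, ← h, ← h']; ring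
  one_mem' := ⟨1, 1, one_ne_zero, by simp⟩
  add_mem' := by
    rintro f g ⟨a, b, hb, h⟩ ⟨a', b', hb', h'⟩
    refine ⟨a * b' + a' * b, b * b', mul_ne_zero hb hb', ?_⟩
    rw [map_mul, map_add, map_mul, map_mul, ← h, ← h']; ring
  zero_mem' := ⟨0, 1, one_ne_zero, by simp⟩
  algebraMap_mem' := by
    intro c
    have : CharZero (LaurentSeries ℤ) :=
      charZero_of_injective_ringHom (HahnSeries.C_injective (Γ := ℤ) (R := ℤ))
    refine ⟨c.num, c.den, Nat.cast_ne_zero.mpr c.den_ne_zero, ?_⟩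
    have h1 : algebraMap ℚ (LaurentSeries ℚ) c * algebraMap ℚ (LaurentSeries ℚ) (c.den : ℚ) =
        algebraMap ℚ (LaurentSeries ℚ) (c.num : ℚ) := by
      rw [← map_mul, Rat.mul_den_eq_num]
    simpa using h1
  inv_mem' := by
    rintro f ⟨a, b, hb, h⟩
    rcases eq_or_ne f 0 with rfl | hf
    · rw [inv_zero]
      exact ⟨0, 1, one_ne_zero, by simp⟩
    · refine ⟨b, a, ?_, ?_⟩
      · rintro rfl
        rw [map_zero, mul_eq_zero] at h
        rcases h with h | h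
        · exact hf h
        · exact ιZ_ne_zero hb h
      · rw [← h, ← mul_assoc, inv_mul_cancel₀ hf, one_mul]

theorem ιZ_mem_FracL (a : LaurentSeries ℤ) : ιZ a ∈ FracL := ⟨a, 1, one_ne_zero, by simp⟩

variable {ℓ : ℕ} [hℓ : Fact ℓ.Prime]

theorem OO_le_FracL {f : LaurentSeries ℚ} (hf : f ∈ OO ℓ) : f ∈ FracL := by
  obtain ⟨a, b, hb, h⟩ := hf
  exact ⟨a, b, hb.ne_zero ℓ, h⟩

theorem natCast_ne_zero : (ℓ : LaurentSeries ℚ) ≠ 0 := by
  have : CharZero (LaurentSeries ℚ) :=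
    charZero_of_injective_algebraMap (algebraMap ℚ (LaurentSeries ℚ)).injective
  exact Nat.cast_ne_zero.mpr hℓ.out.ne_zero

theorem exists_unit_form (k : Type*) [Field k] [CharP k ℓ] {f : LaurentSeries ℚ} (hf : f ∈ FracL)
    (h0 : f ≠ 0) : ∃ (z : ℤ) (u : OO ℓ), rho k u ≠ 0 ∧ f = (ℓ : LaurentSeries ℚ) ^ z * u := by
  obtain ⟨a, b, hb, hab⟩ := hf
  have ha : a ≠ 0 := by
    rintro rfl
    rw [map_zero, mul_eq_zero] at hab
    rcases hab with h | h
    · exact h0 h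
    · exact ιZ_ne_zero hb h
  obtain ⟨m, a', rfl, ha'⟩ := exists_primL ℓ ha
  obtain ⟨n, b', rfl, hb'⟩ := exists_primL ℓ hb
  have hb0 : ιZ b' ≠ 0 := ιZ_ne_zero (hb'.ne_zero ℓ)
  have hmem : ιZ a' / ιZ b' ∈ OO ℓ := ⟨a', b', hb', by field_simp⟩
  refine ⟨(m : ℤ) - n, ⟨ιZ a' / ιZ b', hmem⟩, ?_, ?_⟩
  · have h1 := rho_spec (ℓ := ℓ) k ⟨ιZ a' / ιZ b', hmem⟩ (a := a') (b := b')
      (by simp only; field_simp)
    intro h
    rw [h, zero_mul] at h1
    exact (primL_iff ℓ k _).mp ha' h1.symm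
  · rw [map_mul, map_pow, map_natCast, map_mul, map_pow, map_natCast] at hab
    have hl := natCast_ne_zero (ℓ := ℓ)
    rw [zpow_sub₀ hl, zpow_natCast, zpow_natCast]
    simp only
    field_simp
    linear_combination hab

theorem natCast_mem_OO (n : ℕ) : (n : LaurentSeries ℚ) ∈ OO ℓ := natCast_mem _ n

/-- an element of the fraction field outside the valuation ring is the inverse of a multiple
of `ℓ`. -/
theorem inv_of_not_mem {f : LaurentSeries ℚ} (hf : f ∈ FracL) (hn : f ∉ OO ℓ) :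
    ∃ g : OO ℓ, f⁻¹ = (ℓ : LaurentSeries ℚ) * g := by
  have h0 : f ≠ 0 := by rintro rfl; exact hn (zero_mem _)
  obtain ⟨z, u, hu, hfu⟩ := exists_unit_form (ℓ := ℓ) (ZMod ℓ) hf h0
  have hz : z < 0 := by
    by_contra hz
    push Not at hz
    lift z to ℕ using hz
    apply hn
    rw [hfu, zpow_natCast]
    exact mul_mem (pow_mem (natCast_mem_OO ℓ) _) u.2
  obtain ⟨m, hm⟩ : ∃ m : ℕ, z = -((m : ℤ) + 1) := ⟨(-z - 1).toNat, by omega⟩
  refine ⟨⟨(ℓ : LaurentSeries ℚ) ^ m * (u : LaurentSeries ℚ)⁻¹,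
    mul_mem (pow_mem (natCast_mem_OO ℓ) _) (inv_mem_OO (ZMod ℓ) u hu)⟩, ?_⟩
  rw [hfu, mul_inv, hm, zpow_neg, inv_inv]
  have : (ℓ : LaurentSeries ℚ) ^ ((m : ℤ) + 1) = (ℓ : LaurentSeries ℚ) * (ℓ : LaurentSeries ℚ) ^ m := by
    rw [← Nat.cast_one, ← Nat.cast_add, zpow_natCast, pow_succ, mul_comm]
  rw [this]
  simp only
  ring

theorem not_both {f : LaurentSeries ℚ} (hf : f ∈ OO ℓ) (g : OO ℓ)
    (h : f⁻¹ = (ℓ : LaurentSeries ℚ) * g) : f = 0 := by
  by_contra h0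
  have h1 : (1 : OO ℓ) = (ℓ : OO ℓ) * (g * ⟨f, hf⟩) := by
    apply Subtype.ext
    have h2 : f⁻¹ * f = 1 := inv_mul_cancel₀ h0
    rw [h] at h2
    push_cast
    rw [← mul_assoc]
    exact h2.symm
  have h3 := (rho_eq_zero_iff (ZMod ℓ) (1 : OO ℓ)).mpr ⟨_, h1⟩
  rw [map_one] at h3
  exact one_ne_zero h3

/-- the valuation ring is integrally closed in the fraction field -/
theorem mem_OO_of_isIntegral {f : LaurentSeries ℚ} (hf : f ∈ FracL)
    (hi : IsIntegral (OO ℓ) f) : f ∈ OO ℓ := by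
  by_contra hn
  obtain ⟨g, hg⟩ := inv_of_not_mem hf hn
  have hmem : f⁻¹ ∈ OO ℓ := by
    rw [hg]; exact mul_mem (natCast_mem_OO ℓ) g.2
  have h0 : f ≠ 0 := by rintro rfl; exact hn (zero_mem _)
  obtain ⟨P, hP, hP0⟩ := hi
  letI : Invertible f := invertibleOfNonzero h0
  have h1 := (Polynomial.eval₂_reverse_eq_zero_iff (algebraMap (OO ℓ) (LaurentSeries ℚ)) f P).mpr hP0
  rw [invOf_eq_inv] at h1
  rw [← Polynomial.divX_mul_X_add P.reverse, Polynomial.coeff_zero_reverse, hP.leadingCoeff] at h1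
  rw [Polynomial.eval₂_add, Polynomial.eval₂_mul, Polynomial.eval₂_X, Polynomial.eval₂_C,
    map_one] at h1
  set y : OO ℓ := ⟨f⁻¹, hmem⟩ with hy
  have h2 : Polynomial.eval₂ (algebraMap (OO ℓ) (LaurentSeries ℚ)) f⁻¹ P.reverse.divX =
      algebraMap (OO ℓ) (LaurentSeries ℚ) (P.reverse.divX.eval y) := by
    rw [Polynomial.eval, Polynomial.hom_eval₂, RingHom.comp_id]
    rfl
  rw [h2] at h1
  set w : OO ℓ := P.reverse.divX.eval y with hw
  have h3 : (1 : OO ℓ) = (ℓ : OO ℓ) * (-(g * w)) := by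
    apply Subtype.ext
    have h4 : algebraMap (OO ℓ) (LaurentSeries ℚ) w = (w : LaurentSeries ℚ) := rfl
    rw [h4, hg] at h1
    push_cast
    linear_combination h1
  have h5 := (rho_eq_zero_iff (ZMod ℓ) (1 : OO ℓ)).mpr ⟨_, h3⟩
  rw [map_one] at h5
  exact one_ne_zero h5

end Frac

end Fermat.Agent.S28aux
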