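import Mathlib
import Fermat.Prelude.Def_GaloisRep_Flat
import Fermat.Agent.S28_Gauss
import Fermat.Agent.S28_Residual

set_option autoImplicit false

noncomputable section

open ModularCurve HahnSeries Polynomial IntermediateField

namespace Fermat.Agent.S28aux

section Content

theorem exists_primitive_form (P : ℚ[X]) (hP : P ≠ 0) :
    ∃ (c : ℚ) (P' : ℤ[X]), c ≠ 0 ∧ P'.IsPrimitive ∧
      P = Polynomial.C c * P'.map (Int.castRingHom ℚ) := by
  obtain ⟨b, hb, h⟩ := IsLocalization.integerNormalization_spec (nonZeroDivisors ℤ) P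
  set P0 := IsLocalization.integerNormalization (nonZeroDivisors ℤ) P
  have hb0 : (b : ℚ) ≠ 0 := by exact_mod_cast nonZeroDivisors.ne_zero hb
  have hP0 : P0 ≠ 0 := by
    intro h0
    rw [h0, Polynomial.map_zero] at h
    have h1 : b • P ≠ 0 := smul_ne_zero (nonZeroDivisors.ne_zero hb) hP
    exact h1 h.symm
  refine ⟨(P0.content : ℚ) / b, P0.primPart, ?_, P0.isPrimitive_primPart, ?_⟩
  · apply div_ne_zero _ hb0
    exact_mod_cast (content_eq_zero_iff.not.mpr hP0)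
  · have h1 : b • P = Polynomial.C (b : ℚ) * P := by
      rw [zsmul_eq_mul]; simp
    have h2 : P0.map (algebraMap ℤ ℚ) = Polynomial.C (P0.content : ℚ) *
        P0.primPart.map (Int.castRingHom ℚ) := by
      conv_lhs => rw [P0.eq_C_content_mul_primPart]
      rw [Polynomial.map_mul, Polynomial.map_C]
      rfl
    rw [h1, h2] at h
    have h3 : Polynomial.C ((P0.content : ℚ) / b) =
        Polynomial.C ((b : ℚ)⁻¹) * Polynomial.C (P0.content : ℚ) := by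
      rw [← Polynomial.C_mul]; congr 1; field_simp
    rw [h3, mul_assoc, h, ← mul_assoc, ← Polynomial.C_mul, inv_mul_cancel₀ hb0, Polynomial.C_1,
      one_mul]

variable {ℓ : ℕ} [hℓ : Fact ℓ.Prime]

theorem map_ne_zero_of_primitive (k : Type*) [Field k] [CharP k ℓ] {P : ℤ[X]}
    (hP : P.IsPrimitive) : P.map (Int.castRingHom k) ≠ 0 := by
  intro h
  have h1 : Polynomial.C (ℓ : ℤ) ∣ P := by
    rw [Polynomial.C_dvd_iff_dvd_coeff]
    intro i
    have h2 := congrArg (fun Q : k[X] => Q.coeff i) h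
    simp only [Polynomial.coeff_map, eq_intCast, Polynomial.coeff_zero] at h2
    exact (CharP.intCast_eq_zero_iff k ℓ _).mp h2
  have h3 := hP _ h1
  rw [Int.isUnit_iff] at h3
  have := hℓ.out.two_le
  omega

theorem aeval_ιZ (hz : LaurentSeries ℤ) (P : ℤ[X]) :
    aeval (ιZ hz) (P.map (Int.castRingHom ℚ)) = ιZ (aeval hz P) := by
  rw [aeval_def, eval₂_map, aeval_def, hom_eval₂]
  congr 1
  exact RingHom.ext_int _ _

theorem redZ_aeval (k : Type*) [Field k] (hz : LaurentSeries ℤ) (P : ℤ[X]) :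
    redZ k (aeval hz P) = aeval (redZ k hz) (P.map (Int.castRingHom k)) := by
  rw [aeval_def, aeval_def, eval₂_map, hom_eval₂]
  congr 1
  exact RingHom.ext_int _ _

theorem primL_aeval {k : Type*} [Field k] [CharP k ℓ] {hz : LaurentSeries ℤ}
    (ht : Transcendental k (redZ k hz)) {P : ℤ[X]} (hP : P.IsPrimitive) :
    PrimL ℓ (aeval hz P) := by
  rw [primL_iff ℓ k, redZ_aeval]
  intro h
  exact map_ne_zero_of_primitive (ℓ := ℓ) k hP (transcendental_iff.mp ht _ h)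

omit hℓ in
theorem adjoin_form {k : Type*} [Field k] [CharP k ℓ] {hz : LaurentSeries ℤ}
    {a : LaurentSeries ℚ} (ha : a ∈ ℚ⟮ιZ hz⟯) (h0 : a ≠ 0) :
    ∃ (c : ℚ) (P Q : ℤ[X]), c ≠ 0 ∧ P.IsPrimitive ∧ Q.IsPrimitive ∧
      a * ιZ (aeval hz Q) = algebraMap ℚ (LaurentSeries ℚ) c * ιZ (aeval hz P) := by
  rw [mem_adjoin_simple_iff] at ha
  obtain ⟨r, s, hrs⟩ := ha
  have hs0 : aeval (ιZ hz) s ≠ 0 := by
    intro h; rw [h, div_zero] at hrs; exact h0 hrs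
  have hr0 : aeval (ιZ hz) r ≠ 0 := by
    intro h; rw [h, zero_div] at hrs; exact h0 hrs
  have hs : s ≠ 0 := by rintro rfl; exact hs0 (map_zero _)
  have hr : r ≠ 0 := by rintro rfl; exact hr0 (map_zero _)
  obtain ⟨c, P, hc, hP, rfl⟩ := exists_primitive_form r hr
  obtain ⟨d, Q, hd, hQ, rfl⟩ := exists_primitive_form s hs
  refine ⟨c / d, P, Q, div_ne_zero hc hd, hP, hQ, ?_⟩
  rw [map_mul, aeval_C, aeval_ιZ] at hs0 hrs
  rw [map_mul, aeval_C, aeval_ιZ] at hrs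
  have hd' : algebraMap ℚ (LaurentSeries ℚ) d ≠ 0 := (_root_.map_ne_zero _).mpr hd
  have hQ' : ιZ (aeval hz Q) ≠ 0 := right_ne_zero_of_mul hs0
  rw [hrs, map_div₀]
  field_simp

theorem const_mem_OO_iff (c : ℚ) :
    algebraMap ℚ (LaurentSeries ℚ) c ∈ OO ℓ ↔ c ∈ GaloisRep.ratLocalizedAt ℓ := by
  have hden : (c.den : LaurentSeries ℚ) ∈ OO ℓ := natCast_mem _ _
  have hmul : algebraMap ℚ (LaurentSeries ℚ) c * (c.den : LaurentSeries ℚ) =
      (c.num : LaurentSeries ℚ) := by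
    have h1 : algebraMap ℚ (LaurentSeries ℚ) c * algebraMap ℚ (LaurentSeries ℚ) (c.den : ℚ) =
        algebraMap ℚ (LaurentSeries ℚ) (c.num : ℚ) := by
      rw [← map_mul, Rat.mul_den_eq_num]
    simpa using h1
  constructor
  · intro h
    show c.den.Coprime ℓ
    rw [Nat.coprime_comm, Nat.Prime.coprime_iff_not_dvd hℓ.out]
    intro hd
    have h1 : (⟨_, h⟩ : OO ℓ) * (c.den : OO ℓ) = (c.num : OO ℓ) := by
      apply Subtype.ext
      push_cast
      exact hmul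
    have h2 := congrArg (rho (ZMod ℓ)) h1
    rw [map_mul, map_natCast, map_intCast] at h2
    have h3 : ((c.den : ℕ) : LaurentSeries (ZMod ℓ)) = 0 := by
      rw [← map_natCast (algebraMap (ZMod ℓ) (LaurentSeries (ZMod ℓ))),
        (CharP.cast_eq_zero_iff (ZMod ℓ) ℓ c.den).mpr hd, map_zero]
    rw [h3, mul_zero] at h2
    have h4 : ((c.num : ℤ) : ZMod ℓ) = 0 := by
      have h5 : algebraMap (ZMod ℓ) (LaurentSeries (ZMod ℓ)) ((c.num : ℤ) : ZMod ℓ) = 0 := by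
        rw [map_intCast]; exact h2.symm
      exact (map_eq_zero _).mp h5
    rw [ZMod.intCast_zmod_eq_zero_iff_dvd] at h4
    have h6 : ℓ ∣ c.num.natAbs := Int.natCast_dvd.mp h4
    have := Nat.dvd_gcd h6 hd
    rw [c.reduced] at this
    exact hℓ.out.one_lt.ne' (Nat.dvd_one.mp this)
  · intro h
    have h' : c.den.Coprime ℓ := h
    have hr : rho (ZMod ℓ) (c.den : OO ℓ) ≠ 0 := by
      rw [map_natCast]
      intro h0
      have h5 : algebraMap (ZMod ℓ) (LaurentSeries (ZMod ℓ)) ((c.den : ℕ) : ZMod ℓ) = 0 := by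
        rw [map_natCast]; exact h0
      have h6 := (map_eq_zero _).mp h5
      rw [ZMod.natCast_eq_zero_iff] at h6
      rw [Nat.coprime_comm, Nat.Prime.coprime_iff_not_dvd hℓ.out] at h'
      exact h' h6
    have h1 := inv_mem_OO (ZMod ℓ) (c.den : OO ℓ) hr
    have hd0 : ((c.den : OO ℓ) : LaurentSeries ℚ) ≠ 0 := by
      intro h0
      apply hr
      have : (c.den : OO ℓ) = 0 := Subtype.ext h0
      rw [this, map_zero]
    have h2 : algebraMap ℚ (LaurentSeries ℚ) c =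
        (c.num : LaurentSeries ℚ) * ((c.den : OO ℓ) : LaurentSeries ℚ)⁻¹ := by
      rw [eq_mul_inv_iff_mul_eq₀ hd0, ← hmul]
      push_cast
      rfl
    rw [h2]
    exact mul_mem (intCast_mem _ _) h1

theorem rho_const (k : Type*) [Field k] [CharP k ℓ] (c : ℚ)
    (hc : algebraMap ℚ (LaurentSeries ℚ) c ∈ OO ℓ) :
    rho k (⟨_, hc⟩ : OO ℓ) = algebraMap k (LaurentSeries k) (c : k) := by
  have h' : c.den.Coprime ℓ := (const_mem_OO_iff c).mp hc
  rw [Nat.coprime_comm, Nat.Prime.coprime_iff_not_dvd hℓ.out] at h'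
  have hd : (c.den : k) ≠ 0 := by
    rw [Ne, CharP.cast_eq_zero_iff k ℓ]; exact h'
  have hmul : algebraMap ℚ (LaurentSeries ℚ) c * (c.den : LaurentSeries ℚ) =
      (c.num : LaurentSeries ℚ) := by
    have h1 : algebraMap ℚ (LaurentSeries ℚ) c * algebraMap ℚ (LaurentSeries ℚ) (c.den : ℚ) =
        algebraMap ℚ (LaurentSeries ℚ) (c.num : ℚ) := by
      rw [← map_mul, Rat.mul_den_eq_num]
    simpa using h1
  have h1 : (⟨_, hc⟩ : OO ℓ) * (c.den : OO ℓ) = (c.num : OO ℓ) := by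
    apply Subtype.ext
    push_cast
    exact hmul
  have h2 := congrArg (rho k) h1
  rw [map_mul, map_natCast, map_intCast] at h2
  have h3 : ((c.den : ℕ) : LaurentSeries k) ≠ 0 := by
    rw [← map_natCast (algebraMap k (LaurentSeries k))]
    exact (_root_.map_ne_zero _).mpr hd
  rw [← mul_left_inj' h3, h2, ← map_natCast (algebraMap k (LaurentSeries k)), ← map_mul,
    Rat.cast_def, div_mul_cancel₀ _ hd, map_intCast]

theorem rho_mem_adjoin {k : Type*} [Field k] [CharP k ℓ] {hz : LaurentSeries ℤ}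
    (ht : Transcendental k (redZ k hz)) (a : OO ℓ) (ha : (a : LaurentSeries ℚ) ∈ ℚ⟮ιZ hz⟯) :
    rho k a ∈ k⟮redZ k hz⟯ := by
  rcases eq_or_ne a 0 with rfl | h0
  · rw [map_zero]; exact zero_mem _
  have h0' : (a : LaurentSeries ℚ) ≠ 0 := fun h => h0 (Subtype.ext h)
  obtain ⟨c, P, Q, hc, hP, hQ, h⟩ := adjoin_form (ℓ := ℓ) (k := k) ha h0'
  have hPp := primL_aeval (ℓ := ℓ) ht hP
  have hQp := primL_aeval (ℓ := ℓ) ht hQ
  have hP1 : rho k (⟨ιZ (aeval hz P), ιZ_mem_OO ℓ _⟩ : OO ℓ) ≠ 0 := by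
    rw [rho_ιZ]; exact (primL_iff ℓ k _).mp hPp
  have hQ1 : rho k (⟨ιZ (aeval hz Q), ιZ_mem_OO ℓ _⟩ : OO ℓ) ≠ 0 := by
    rw [rho_ιZ]; exact (primL_iff ℓ k _).mp hQp
  have hP0 : ιZ (aeval hz P) ≠ 0 := ιZ_ne_zero (hPp.ne_zero ℓ)
  have hcO : algebraMap ℚ (LaurentSeries ℚ) c ∈ OO ℓ := by
    have h1 := inv_mem_OO k _ hP1
    have h2 : algebraMap ℚ (LaurentSeries ℚ) c =
        a * ιZ (aeval hz Q) * (ιZ (aeval hz P))⁻¹ := by
      rw [h, mul_assoc, mul_inv_cancel₀ hP0, mul_one]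
    rw [h2]
    exact mul_mem (mul_mem a.2 (ιZ_mem_OO ℓ _)) h1
  have h3 : a * (⟨ιZ (aeval hz Q), ιZ_mem_OO ℓ _⟩ : OO ℓ) =
      ⟨_, hcO⟩ * (⟨ιZ (aeval hz P), ιZ_mem_OO ℓ _⟩ : OO ℓ) := Subtype.ext h
  have h4 := congrArg (rho k) h3
  rw [map_mul, map_mul, rho_const] at h4
  rw [rho_ιZ] at hQ1
  rw [rho_ιZ, rho_ιZ] at h4
  have h5 : rho k a = algebraMap k (LaurentSeries k) (c : k) *
      redZ k (aeval hz P) / redZ k (aeval hz Q) := by
    rw [eq_div_iff hQ1, h4]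
  rw [h5, redZ_aeval, redZ_aeval]
  apply div_mem (mul_mem (IntermediateField.algebraMap_mem _ _) _) _
  · exact (mem_adjoin_simple_iff k _).mpr ⟨P.map (Int.castRingHom k), 1, by simp⟩
  · exact (mem_adjoin_simple_iff k _).mpr ⟨Q.map (Int.castRingHom k), 1, by simp⟩

end Content

section Independence

variable {ℓ : ℕ} [hℓ : Fact ℓ.Prime] {n : ℕ}

/-- integrality of the coefficients with respect to elements with independent reductions. -/
theorem coeffs_mem_OO (K₁ : IntermediateField ℚ (LaurentSeries ℚ)) (hK : K₁ ≤ FracL)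
    (ω : Fin n → LaurentSeries ℤ) (k : Type*) [Field k] [CharP k ℓ]
    (hind : ∀ b : Fin n → OO ℓ, (∀ i, (b i : LaurentSeries ℚ) ∈ K₁) →
      ∑ i, rho k (b i) * redZ k (ω i) = 0 → ∀ i, rho k (b i) = 0)
    (c : Fin n → LaurentSeries ℚ) (hc : ∀ i, c i ∈ K₁)
    (hsum : ∑ i, c i * ιZ (ω i) ∈ OO ℓ) : ∀ i, c i ∈ OO ℓ := by
  classical
  have hl := natCast_ne_zero (ℓ := ℓ)
  have hlO : (ℓ : LaurentSeries ℚ) ∈ OO ℓ := natCast_mem_OO ℓ
  have hlK : (ℓ : LaurentSeries ℚ) ∈ K₁ := _root_.natCast_mem _ _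
  have hex : ∃ m : ℕ, ∀ i, (ℓ : LaurentSeries ℚ) ^ m * c i ∈ OO ℓ := by
    have h1 : ∀ i, ∃ m : ℕ, (ℓ : LaurentSeries ℚ) ^ m * c i ∈ OO ℓ := by
      intro i
      rcases eq_or_ne (c i) 0 with h0 | h0
      · exact ⟨0, by rw [h0, mul_zero]; exact zero_mem _⟩
      · obtain ⟨z, u, hu, hzu⟩ := exists_unit_form (ℓ := ℓ) k (hK (hc i)) h0
        refine ⟨(-z).toNat, ?_⟩
        rw [hzu, ← mul_assoc, ← zpow_natCast, ← zpow_add₀ hl]
        obtain ⟨e, he⟩ : ∃ e : ℕ, ((-z).toNat : ℤ) + z = e := ⟨(((-z).toNat : ℤ) + z).toNat, by omega⟩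
        rw [he, zpow_natCast]
        exact mul_mem (pow_mem hlO _) u.2
    choose m hm using h1
    refine ⟨∑ i, m i, fun i => ?_⟩
    obtain ⟨e, he⟩ := Nat.exists_eq_add_of_le (Finset.single_le_sum (f := m)
      (fun _ _ => Nat.zero_le _) (Finset.mem_univ i))
    rw [he, add_comm, _root_.pow_add, mul_assoc]
    exact mul_mem (pow_mem hlO _) (hm i)
  have hmin := Nat.find_spec hex
  rcases Nat.eq_zero_or_pos (Nat.find hex) with h0 | hpos
  · rw [h0] at hmin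
    simpa using hmin
  · exfalso
    obtain ⟨m', hm'⟩ : ∃ m', Nat.find hex = m' + 1 := ⟨Nat.find hex - 1, by omega⟩
    rw [hm'] at hmin
    apply Nat.find_min hex (m := m') (by omega)
    set b : Fin n → OO ℓ := fun i => ⟨_, hmin i⟩ with hb
    have hbK : ∀ i, (b i : LaurentSeries ℚ) ∈ K₁ := fun i => mul_mem (pow_mem hlK _) (hc i)
    have hbs : ∑ i, b i * (⟨ιZ (ω i), ιZ_mem_OO ℓ _⟩ : OO ℓ) =
        (ℓ : OO ℓ) * ((ℓ : OO ℓ) ^ m' * ⟨_, hsum⟩) := by
      apply Subtype.ext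
      push_cast
      rw [← mul_assoc, ← pow_succ', Finset.mul_sum]
      apply Finset.sum_congr rfl
      intro i _
      simp only [hb, mul_assoc]
    have hr := (rho_eq_zero_iff k _).mpr ⟨_, hbs⟩
    rw [map_sum] at hr
    simp only [map_mul, rho_ιZ] at hr
    have hb0 := hind b hbK hr
    intro i
    obtain ⟨g, hg⟩ := (rho_eq_zero_iff k _).mp (hb0 i)
    have h1 : (ℓ : LaurentSeries ℚ) ^ (m' + 1) * c i = (ℓ : LaurentSeries ℚ) * g := by
      have := congrArg Subtype.val hg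
      simpa using this
    have h2 : (ℓ : LaurentSeries ℚ) ^ m' * c i = g := by
      rw [pow_succ', mul_assoc] at h1
      exact mul_left_cancel₀ hl h1
    rw [h2]
    exact g.2

theorem coeffs_eq_zero (K₁ : IntermediateField ℚ (LaurentSeries ℚ)) (hK : K₁ ≤ FracL)
    (ω : Fin n → LaurentSeries ℤ) (k : Type*) [Field k] [CharP k ℓ]
    (hind : ∀ b : Fin n → OO ℓ, (∀ i, (b i : LaurentSeries ℚ) ∈ K₁) →
      ∑ i, rho k (b i) * redZ k (ω i) = 0 → ∀ i, rho k (b i) = 0)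
    (c : Fin n → LaurentSeries ℚ) (hc : ∀ i, c i ∈ K₁)
    (hsum : ∑ i, c i * ιZ (ω i) = 0) : ∀ i, c i = 0 := by
  intro i
  by_contra h0
  have hl := natCast_ne_zero (ℓ := ℓ)
  have hlK : (ℓ : LaurentSeries ℚ) ∈ K₁ := _root_.natCast_mem _ _
  obtain ⟨z, u, hu, hzu⟩ := exists_unit_form (ℓ := ℓ) k (hK (hc i)) h0
  have h1 := coeffs_mem_OO K₁ hK ω k hind (fun j => (ℓ : LaurentSeries ℚ) ^ (-z - 1) * c j)
    (fun j => mul_mem (zpow_mem hlK _) (hc j)) (by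
      have : ∑ j, (ℓ : LaurentSeries ℚ) ^ (-z - 1) * c j * ιZ (ω j) = 0 := by
        simp only [mul_assoc]
        rw [← Finset.mul_sum, hsum, mul_zero]
      rw [this]; exact zero_mem _) i
  rw [hzu, ← mul_assoc, ← zpow_add₀ hl] at h1
  have h2 : -z - 1 + z = -1 := by ring
  rw [h2, zpow_neg_one] at h1
  apply hu
  rw [rho_eq_zero_iff]
  refine ⟨⟨_, h1⟩, ?_⟩
  apply Subtype.ext
  push_cast
  rw [← mul_assoc, mul_inv_cancel₀ hl, one_mul]

theorem exists_repr_basis (K₁ E : IntermediateField ℚ (LaurentSeries ℚ)) (hKE : K₁ ≤ E)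
    (hE : E ≤ FracL)
    (ω : Fin n → LaurentSeries ℤ) (hω : ∀ i, ιZ (ω i) ∈ E) (k : Type*) [Field k] [CharP k ℓ]
    (hind : ∀ b : Fin n → OO ℓ, (∀ i, (b i : LaurentSeries ℚ) ∈ K₁) →
      ∑ i, rho k (b i) * redZ k (ω i) = 0 → ∀ i, rho k (b i) = 0)
    (hdep : ∀ v : Fin (n + 1) → LaurentSeries ℚ, (∀ i, v i ∈ E) →
      ∃ c : Fin (n + 1) → LaurentSeries ℚ, (∀ i, c i ∈ K₁) ∧ (∃ i, c i ≠ 0) ∧
        ∑ i, c i * v i = 0)
    (x : LaurentSeries ℚ) (hx : x ∈ E) :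
    ∃ a : Fin n → LaurentSeries ℚ, (∀ i, a i ∈ K₁) ∧ x = ∑ i, a i * ιZ (ω i) := by
  obtain ⟨c, hcK, ⟨i0, hi0⟩, hc⟩ := hdep (Fin.cons x (fun i => ιZ (ω i)))
    (Fin.cases hx (fun i => hω i))
  rw [Fin.sum_univ_succ] at hc
  simp only [Fin.cons_zero, Fin.cons_succ] at hc
  have hc0 : c 0 ≠ 0 := by
    intro h0
    rw [h0, zero_mul, zero_add] at hc
    have h1 := coeffs_eq_zero K₁ (hKE.trans hE) ω k hind (fun i => c i.succ)
      (fun i => hcK _) hc
    apply hi0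
    refine Fin.cases h0 (fun i => h1 i) i0
  refine ⟨fun i => -(c 0)⁻¹ * c i.succ, fun i => mul_mem (neg_mem (inv_mem (hcK 0))) (hcK _), ?_⟩
  have h2 : c 0 * x = -∑ i, c i.succ * ιZ (ω i) := eq_neg_of_add_eq_zero_left hc
  have h3 : x = (c 0)⁻¹ * (c 0 * x) := by rw [← mul_assoc, inv_mul_cancel₀ hc0, one_mul]
  rw [h3, h2, mul_neg, ← neg_mul, Finset.mul_sum]
  apply Finset.sum_congr rfl
  intro i _
  rw [mul_assoc]

/-- integrality over the Gauss valuation ring of the base field. -/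
theorem isIntegral_of_basis (K₁ E : IntermediateField ℚ (LaurentSeries ℚ)) (hKE : K₁ ≤ E)
    (hE : E ≤ FracL)
    (ω : Fin n → LaurentSeries ℤ) (hω : ∀ i, ιZ (ω i) ∈ E) (k : Type*) [Field k] [CharP k ℓ]
    (hind : ∀ b : Fin n → OO ℓ, (∀ i, (b i : LaurentSeries ℚ) ∈ K₁) →
      ∑ i, rho k (b i) * redZ k (ω i) = 0 → ∀ i, rho k (b i) = 0)
    (hdep : ∀ v : Fin (n + 1) → LaurentSeries ℚ, (∀ i, v i ∈ E) →
      ∃ c : Fin (n + 1) → LaurentSeries ℚ, (∀ i, c i ∈ K₁) ∧ (∃ i, c i ≠ 0) ∧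
        ∑ i, c i * v i = 0)
    (x : LaurentSeries ℚ) (hx : x ∈ E) (hxO : x ∈ OO ℓ) :
    IsIntegral (OO ℓ ⊓ K₁.toSubfield.toSubring : Subring (LaurentSeries ℚ)) x := by
  set A : Subring (LaurentSeries ℚ) := OO ℓ ⊓ K₁.toSubfield.toSubring with hA
  let S : Subalgebra A (LaurentSeries ℚ) :=
    { carrier := {y | y ∈ OO ℓ ∧ y ∈ E}
      mul_mem' := fun ha hb => ⟨mul_mem ha.1 hb.1, mul_mem ha.2 hb.2⟩
      add_mem' := fun ha hb => ⟨add_mem ha.1 hb.1, add_mem ha.2 hb.2⟩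
      algebraMap_mem' := fun a => ⟨a.2.1, hKE a.2.2⟩ }
  refine IsIntegral.of_mem_of_fg S ?_ x ⟨hxO, hx⟩
  rw [Submodule.fg_def]
  refine ⟨Set.range (fun i => ιZ (ω i)), Set.finite_range _, ?_⟩
  apply le_antisymm
  · rw [Submodule.span_le]
    rintro _ ⟨i, rfl⟩
    exact ⟨ιZ_mem_OO ℓ _, hω i⟩
  · intro y hy
    obtain ⟨hyO, hyE⟩ := hy
    obtain ⟨a, haK, hay⟩ := exists_repr_basis K₁ E hKE hE ω hω k hind hdep y hyE
    have haO := coeffs_mem_OO K₁ (hKE.trans hE) ω k hind a haK (by rw [← hay]; exact hyO)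
    rw [hay]
    apply Submodule.sum_mem
    intro i _
    have : a i * ιZ (ω i) = (⟨a i, haO i, haK i⟩ : A) • ιZ (ω i) := rfl
    rw [this]
    exact Submodule.smul_mem _ _ (Submodule.subset_span ⟨i, rfl⟩)

end Independence

end Fermat.Agent.S28aux
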