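import Mathlib
import Fermat.Agent.S28_Unique
import Fermat.Agent.S28_Residual3

set_option autoImplicit false

noncomputable section

open ModularCurve HahnSeries Polynomial IntermediateField

namespace Fermat.Agent.S28aux

section Core

variable {ℓ : ℕ} [hℓ : Fact ℓ.Prime]

/-- `j(q^N)` with integer coefficients -/
def JZ (N : ℕ) : LaurentSeries ℤ := qx ℤ N (jqModC ℤ)

theorem ιZ_JZ (N : ℕ) : ιZ (JZ N) = JN ℚ N := by
  rw [JZ, coeffMap_qx, coeffMap_jqModC, JN]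

theorem redZ_JZ (k : Type*) [Field k] (N : ℕ) : redZ k (JZ N) = JN k N := by
  rw [JZ, coeffMap_qx, coeffMap_jqModC, JN]

theorem qx_mem_OO {N : ℕ} {f : LaurentSeries ℚ} (hf : f ∈ OO ℓ) :
    qx ℚ N f ∈ OO ℓ := by
  obtain ⟨a, b, hb, h⟩ := hf
  refine ⟨qx ℤ N a, qx ℤ N b, ?_, ?_⟩
  · rw [primL_iff ℓ (ZMod ℓ)] at hb ⊢
    rw [coeffMap_qx]
    exact (_root_.map_ne_zero _).mpr hb
  · rw [coeffMap_qx, coeffMap_qx, ← h, map_mul]

theorem coe_aeval' (E : IntermediateField ℚ (LaurentSeries ℚ)) (x : E) (P : ℚ[X]) :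
    ((aeval x P : E) : LaurentSeries ℚ) = aeval (x : LaurentSeries ℚ) P := by
  rw [aeval_def, aeval_def]
  refine (hom_eval₂ P (algebraMap ℚ E) (algebraMap E (LaurentSeries ℚ)) x).trans ?_
  congr 1
  exact RingHom.ext_rat _ _

variable {N : ℕ} [NeZero N]

theorem EField_le_FracL : EField N ≤ FracL := by
  rw [EField, adjoin_le_iff]
  rintro x ⟨d, hd0, hd, rfl | rfl⟩
  · have : qExpand ℚ d (jqModC ℚ) = ιZ (qExpand ℤ d (jqModC ℤ)) := by
      rw [coeffMap_qExpand, coeffMap_jqModC]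
    rw [this]
    exact ιZ_mem_FracL _
  · have : qExpand ℚ d (deltaC ℚ) * qExpand ℚ N (deltaInvC ℚ) =
        ιZ (qExpand ℤ d (deltaC ℤ) * qExpand ℤ N (deltaInvC ℤ)) := by
      rw [map_mul, coeffMap_qExpand, coeffMap_qExpand, coeffMap_deltaC, coeffMap_deltaInvC]
    rw [this]
    exact ιZ_mem_FracL _

theorem ιZ_closure_mem_EField {x : LaurentSeries ℤ} (hx : x ∈ Submonoid.closure (YZ N)) :
    ιZ x ∈ EField N := by
  induction hx using Submonoid.closure_induction with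
  | mem y hy =>
    obtain ⟨e, he0, he, rfl⟩ := hy
    have : NeZero e := ⟨he0⟩
    rw [coeffMap_yE, yE, qx_eq, qx_eq]
    exact deltaRatio_mem_EField N e he
  | one => rw [map_one]; exact one_mem _
  | mul x y _ _ hx hy => rw [map_mul]; exact mul_mem hx hy

theorem JN_mem_EField : JN ℚ N ∈ EField N := by
  rw [JN, qx_eq]
  exact qExpand_jq_mem_EField N N dvd_rfl

theorem KJ_le_EField : KJ ℚ N ≤ EField N := by
  rw [KJ, adjoin_simple_le_iff]
  exact JN_mem_EField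

theorem JN_one : JN ℚ 1 = jqModC ℚ := by
  rw [JN, qx_eq, qExpand_one_apply]

theorem K1_le_EField : ℚ⟮jqModC ℚ⟯ ≤ EField N := by
  rw [adjoin_simple_le_iff]
  exact jq_mem_EField N

/-- number of monomials -/
def psiN (N : ℕ) : ℕ := (∏ p ∈ N.primeFactors, (p + 1)) * (N / ∏ p ∈ N.primeFactors, p)

/-- `O ∩ ℚ(j(q^N))` -/
def AN (ℓ N : ℕ) [Fact ℓ.Prime] : Subring (LaurentSeries ℚ) :=
  OO ℓ ⊓ (KJ ℚ N).toSubfield.toSubring

theorem hind_of_residual (k : Type*) [Field k] [CharP k ℓ] {n : ℕ} (ω : Fin n → LaurentSeries ℤ)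
    (hω : LinearIndependent (KJ k N) (fun i => redZ k (ω i))) :
    ∀ b : Fin n → OO ℓ, (∀ i, (b i : LaurentSeries ℚ) ∈ KJ ℚ N) →
      ∑ i, rho k (b i) * redZ k (ω i) = 0 → ∀ i, rho k (b i) = 0 := by
  intro b hb hsum i
  have ht : Transcendental k (redZ k (JZ N)) := by
    rw [redZ_JZ]; exact transcendental_of_order (order_JN_neg (NeZero.ne N))
  have hmem : ∀ i, rho k (b i) ∈ KJ k N := by
    intro i
    have h1 := rho_mem_adjoin (ℓ := ℓ) ht (b i) (by rw [ιZ_JZ]; exact hb i)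
    rw [redZ_JZ] at h1
    exact h1
  rw [Fintype.linearIndependent_iff] at hω
  have := hω (fun i => ⟨rho k (b i), hmem i⟩) (by
    rw [← hsum]
    apply Finset.sum_congr rfl
    intro i _
    rfl) i
  exact congrArg Subtype.val this

theorem integral_AN (hℓN : ¬ ℓ ∣ N)
    (hA1 : ∀ p, p.Prime → p ∣ N → ∀ [NeZero p], ModUnitPoly p)
    (hA2 : EFieldDep N (psiN N)) (w : EField N ≃ₐ[ℚ] EField N) (hww : ∀ x, w (w x) = x)
    (hw : ((w ⟨jqModC ℚ, jq_mem_EField N⟩ : EField N) : LaurentSeries ℚ) =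
      qExpand ℚ N (jqModC ℚ))
    (x : LaurentSeries ℚ) (hx : x ∈ EField N) (hxO : x ∈ OO ℓ) : IsIntegral (AN ℓ N) x := by
  let k := AlgebraicClosure (ZMod ℓ)
  have : CharP k ℓ := charP_of_injective_algebraMap (algebraMap (ZMod ℓ) k).injective ℓ
  have hNk : (N : k) ≠ 0 := by rw [Ne, CharP.cast_eq_zero_iff k ℓ]; exact hℓN
  obtain ⟨ω, hω, hli⟩ := residual_basis (k := k) (NeZero.ne N) hNk hA1
  change Fin (psiN N) → LaurentSeries ℤ at ω
  refine isIntegral_of_basis (KJ ℚ N) (EField N) KJ_le_EField EField_le_FracL ω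
    (fun i => ιZ_closure_mem_EField (hω i)) k (hind_of_residual k ω hli) ?_ x hx hxO
  intro v hv
  obtain ⟨P, ⟨i0, hi0⟩, hP⟩ := hA2 (fun i => (w ⟨v i, hv i⟩ : EField N)) (fun i => Subtype.mem _)
  refine ⟨fun i => aeval (JN ℚ N) (P i), fun i =>
    (mem_adjoin_simple_iff ℚ _).mpr ⟨P i, 1, by simp⟩, ⟨i0, ?_⟩, ?_⟩
  · intro h
    exact hi0 (transcendental_iff.mp (transcendental_of_order (order_JN_neg (NeZero.ne N))) _ h)
  · have h1 : ∑ i, aeval (⟨jqModC ℚ, jq_mem_EField N⟩ : EField N) (P i) * w ⟨v i, hv i⟩ = 0 := by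
      apply Subtype.ext
      refine Eq.trans ?_ hP
      push_cast
      apply Finset.sum_congr rfl
      intro i _
      rw [coe_aeval']
    have h2 := congrArg w h1
    rw [map_sum, map_zero] at h2
    have h3 : ((∑ i, w (aeval (⟨jqModC ℚ, jq_mem_EField N⟩ : EField N) (P i) * w ⟨v i, hv i⟩) :
      EField N) : LaurentSeries ℚ) = 0 := by rw [h2]; rfl
    refine Eq.trans ?_ h3
    push_cast
    apply Finset.sum_congr rfl
    intro i _
    rw [map_mul, hww]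
    push_cast
    congr 1
    have h4 : w (aeval (⟨jqModC ℚ, jq_mem_EField N⟩ : EField N) (P i)) =
        aeval (w (⟨jqModC ℚ, jq_mem_EField N⟩ : EField N)) (P i) :=
      (aeval_algHom_apply w.toAlgHom _ _).symm
    rw [h4, coe_aeval', hw, JN, qx_eq]

/-- `w` is the inverse of `q ↦ q^N` on `ℚ(j(q^N))`. -/
theorem w_KJ (w : EField N ≃ₐ[ℚ] EField N) (hww : ∀ x, w (w x) = x)
    (hw : ((w ⟨jqModC ℚ, jq_mem_EField N⟩ : EField N) : LaurentSeries ℚ) =
      qExpand ℚ N (jqModC ℚ)) (a : LaurentSeries ℚ) (ha : a ∈ KJ ℚ N) :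
    ((w ⟨a, KJ_le_EField ha⟩ : EField N) : LaurentSeries ℚ) ∈ ℚ⟮jqModC ℚ⟯ ∧
      qx ℚ N ((w ⟨a, KJ_le_EField ha⟩ : EField N) : LaurentSeries ℚ) = a := by
  have ha' := ha
  rw [KJ, mem_adjoin_simple_iff] at ha'
  obtain ⟨r, s, hrs⟩ := ha'
  have hwJ : w ⟨JN ℚ N, JN_mem_EField⟩ = ⟨jqModC ℚ, jq_mem_EField N⟩ := by
    rw [← hww ⟨jqModC ℚ, jq_mem_EField N⟩]
    congr 1
    apply Subtype.ext
    rw [hw]
    change qx ℚ N (jqModC ℚ) = _
    rw [qx_eq]
  have e1 : (⟨a, KJ_le_EField ha⟩ : EField N) = aeval (⟨JN ℚ N, JN_mem_EField⟩ : EField N) r /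
      aeval (⟨JN ℚ N, JN_mem_EField⟩ : EField N) s := by
    apply Subtype.ext
    push_cast
    rw [coe_aeval', coe_aeval']
    exact hrs
  have e2 : ((w ⟨a, KJ_le_EField ha⟩ : EField N) : LaurentSeries ℚ) =
      aeval (jqModC ℚ) r / aeval (jqModC ℚ) s := by
    have h4 : ∀ P : ℚ[X], w (aeval (⟨JN ℚ N, JN_mem_EField⟩ : EField N) P) =
        aeval (w (⟨JN ℚ N, JN_mem_EField⟩ : EField N)) P := fun P =>
      (aeval_algHom_apply w.toAlgHom _ _).symm
    rw [e1, map_div₀, h4, h4, hwJ]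
    push_cast
    rw [coe_aeval', coe_aeval']
  refine ⟨?_, ?_⟩
  · rw [e2, mem_adjoin_simple_iff]
    exact ⟨r, s, rfl⟩
  · rw [e2, map_div₀, hrs]
    have h5 : ∀ P : ℚ[X], qx ℚ N (aeval (jqModC ℚ) P) = aeval (JN ℚ N) P := by
      intro P
      exact (aeval_algHom_apply (qxA (k := ℚ) N) (jqModC ℚ) P).symm
    rw [h5, h5]

/-- `O ∩ ℚ(j)` -/
def A1 (ℓ : ℕ) [Fact ℓ.Prime] : Subring (LaurentSeries ℚ) :=
  OO ℓ ⊓ (ℚ⟮jqModC ℚ⟯).toSubfield.toSubring

theorem w_AN (w : EField N ≃ₐ[ℚ] EField N) (hww : ∀ x, w (w x) = x)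
    (hw : ((w ⟨jqModC ℚ, jq_mem_EField N⟩ : EField N) : LaurentSeries ℚ) =
      qExpand ℚ N (jqModC ℚ)) (a : LaurentSeries ℚ) (ha : a ∈ KJ ℚ N) (haO : a ∈ OO ℓ) :
    ((w ⟨a, KJ_le_EField ha⟩ : EField N) : LaurentSeries ℚ) ∈ A1 ℓ := by
  obtain ⟨h1, h2⟩ := w_KJ w hww hw a ha
  refine ⟨?_, h1⟩
  by_contra hn
  obtain ⟨g, hg⟩ := inv_of_not_mem (EField_le_FracL (w ⟨a, KJ_le_EField ha⟩).2) hn
  have h3 := congrArg (qx ℚ N) hg
  rw [map_inv₀, h2, map_mul, map_natCast] at h3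
  have h4 := not_both haO ⟨_, qx_mem_OO (N := N) g.2⟩ h3
  subst h4
  apply hn
  have : (⟨(0 : LaurentSeries ℚ), KJ_le_EField ha⟩ : EField N) = 0 := rfl
  rw [this, map_zero]
  exact zero_mem _

theorem isIntegral_w (w : EField N ≃ₐ[ℚ] EField N) (hww : ∀ x, w (w x) = x)
    (hw : ((w ⟨jqModC ℚ, jq_mem_EField N⟩ : EField N) : LaurentSeries ℚ) =
      qExpand ℚ N (jqModC ℚ)) (y : LaurentSeries ℚ) (hy : y ∈ EField N)
    (hi : IsIntegral (AN ℓ N) y) :
    IsIntegral (A1 ℓ) ((w ⟨y, hy⟩ : EField N) : LaurentSeries ℚ) := by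
  obtain ⟨P, hP, hP0⟩ := hi
  let f : AN ℓ N →+* EField N :=
    { toFun := fun a => ⟨a, KJ_le_EField a.2.2⟩
      map_one' := rfl
      map_mul' := fun _ _ => rfl
      map_zero' := rfl
      map_add' := fun _ _ => rfl }
  let ψ : AN ℓ N →+* A1 ℓ :=
    { toFun := fun a => ⟨(w (f a) : EField N), w_AN w hww hw a a.2.2 a.2.1⟩
      map_one' := by apply Subtype.ext; simp
      map_mul' := fun _ _ => by apply Subtype.ext; simp
      map_zero' := by apply Subtype.ext; simp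
      map_add' := fun _ _ => by apply Subtype.ext; simp }
  have h1 : eval₂ f (⟨y, hy⟩ : EField N) P = 0 := by
    apply (algebraMap (EField N) (LaurentSeries ℚ)).injective
    rw [map_zero, hom_eval₂]
    exact hP0
  have h2 := congrArg (w : EField N →+* EField N) h1
  rw [map_zero, hom_eval₂] at h2
  have h3 := congrArg (algebraMap (EField N) (LaurentSeries ℚ)) h2
  rw [map_zero, hom_eval₂] at h3
  refine ⟨P.map ψ, hP.map ψ, ?_⟩
  rw [eval₂_map]
  exact h3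

/-- **Uniqueness of the Gauss valuation** : the Gauss valuation ring of the modular function
field is integral over the Gauss valuation ring of `ℚ(j)`. -/
theorem integral_A1 (hℓN : ¬ ℓ ∣ N)
    (hA1 : ∀ p, p.Prime → p ∣ N → ∀ [NeZero p], ModUnitPoly p)
    (hA2 : EFieldDep N (psiN N)) (hA3 : ExistsAtkinLehner N)
    (x : LaurentSeries ℚ) (hx : x ∈ EField N) (hxO : x ∈ OO ℓ) : IsIntegral (A1 ℓ) x := by
  obtain ⟨w, hww, hw⟩ := hA3
  have key : ∀ y : LaurentSeries ℚ, ∀ hy : y ∈ EField N, y ∈ OO ℓ →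
      IsIntegral (A1 ℓ) ((w ⟨y, hy⟩ : EField N) : LaurentSeries ℚ) := fun y hy hyO =>
    isIntegral_w w hww hw y hy (integral_AN hℓN hA1 hA2 w hww hw y hy hyO)
  have hA1O : ∀ y : LaurentSeries ℚ, y ∈ EField N → IsIntegral (A1 ℓ) y → y ∈ OO ℓ := by
    intro y hy hi
    apply mem_OO_of_isIntegral (EField_le_FracL hy)
    obtain ⟨P, hP, hP0⟩ := hi
    let ι : A1 ℓ →+* OO ℓ := Subring.inclusion inf_le_left
    refine ⟨P.map ι, hP.map _, ?_⟩
    rw [eval₂_map]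
    exact hP0
  by_cases hwx : ((w ⟨x, hx⟩ : EField N) : LaurentSeries ℚ) ∈ OO ℓ
  · have h1 := key _ (w ⟨x, hx⟩).2 hwx
    have h2 : w ⟨((w ⟨x, hx⟩ : EField N) : LaurentSeries ℚ), (w ⟨x, hx⟩).2⟩ = ⟨x, hx⟩ := hww _
    rw [h2] at h1
    exact h1
  · exfalso
    obtain ⟨g, hg⟩ := inv_of_not_mem (EField_le_FracL (w ⟨x, hx⟩).2) hwx
    have hl := natCast_ne_zero (ℓ := ℓ)
    have hgE : (g : LaurentSeries ℚ) ∈ EField N := by
      have : (g : LaurentSeries ℚ) = (ℓ : LaurentSeries ℚ)⁻¹ *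
          ((w ⟨x, hx⟩ : EField N) : LaurentSeries ℚ)⁻¹ := by
        rw [hg, ← mul_assoc, inv_mul_cancel₀ hl, one_mul]
      rw [this]
      exact mul_mem (inv_mem (_root_.natCast_mem _ _)) (inv_mem (w ⟨x, hx⟩).2)
    have h1 := key _ hgE g.2
    have h2 := hA1O _ (w ⟨g, hgE⟩).2 h1
    have h3 : x⁻¹ = (ℓ : LaurentSeries ℚ) * ((w ⟨g, hgE⟩ : EField N) : LaurentSeries ℚ) := by
      have e1 : (w ⟨x, hx⟩)⁻¹ = (ℓ : EField N) * ⟨g, hgE⟩ := by
        apply Subtype.ext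
        push_cast
        exact hg
      have e2 := congrArg w e1
      rw [map_inv₀, hww, map_mul, map_natCast] at e2
      have e3 := congrArg (fun z : EField N => (z : LaurentSeries ℚ)) e2
      simpa using e3
    have h4 := not_both hxO ⟨_, h2⟩ h3
    subst h4
    apply hwx
    have : (⟨(0 : LaurentSeries ℚ), hx⟩ : EField N) = 0 := rfl
    rw [this, map_zero]
    exact zero_mem _

end Core

end Fermat.Agent.S28aux
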