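import Fermat.Statements.S49
import Fermat.Agent.HeckeEigen.Forms

set_option autoImplicit false
open CuspForm EisensteinWeightOne CongruenceSubgroup ModularFormClass
open FLT FLT.AbstractIntegralStructure

namespace Fermat.Agent.S49

open FermatAgent.HeckeEigen

/-- The coefficients of `bridgeProduct a` are congruent to those of `a` modulo 3. -/
theorem three_dvd_bridge (a : ℕ → ℤ) (n : ℕ) : (3 : ℤ) ∣ (bridgeProduct a).coeff n - a n := by
  have h0 : ∀ m : ℕ, (e1Chi3In ℤ).coeff m = if m = 0 then 1 else 6 * sigmaChi m := by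
    intro m
    simp [e1Chi3In, e1Chi3]
  rw [bridgeProduct, PowerSeries.coeff_mul]
  rw [Finset.sum_eq_add_sum_sdiff_singleton_of_mem (i := (n, 0)) (by simp)]
  simp only [PowerSeries.coeff_mk, h0]
  simp only [if_true, mul_one, add_sub_cancel_left]
  apply Finset.dvd_sum
  intro x hx
  rw [Finset.mem_sdiff, Finset.mem_singleton, Finset.HasAntidiagonal.mem_antidiagonal] at hx
  have hx2 : x.2 ≠ 0 := by
    intro h
    apply hx.2
    ext
    · simp only; omega
    · exact h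
  rw [if_neg hx2]
  exact ⟨a x.1 * (2 * sigmaChi x.2), by ring⟩

/-- `χ₋₃(n) ≡ n mod 3`. -/
theorem three_dvd_chi (n : ℕ) : (3 : ℤ) ∣ (n : ℤ) - chiNegThree n := by
  unfold chiNegThree
  split_ifs with h1 h2 <;> omega

theorem hasIntegralStructure_of_hasIntegralBasis {N : ℕ} (h : CuspForm.HasIntegralBasis N) :
    CuspForm.HasIntegralStructure N 2 := by
  unfold CuspForm.HasIntegralStructure
  rw [eq_top_iff, ← h]
  apply Submodule.span_mono
  intro f hf
  apply Submodule.subset_span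
  intro n
  obtain ⟨m, hm⟩ := Subring.mem_bot.mp (hf n)
  exact ⟨m, hm.symm⟩

theorem result
    {N : ℕ} [NeZero N] (h : CuspForm.HasIntegralBasis N) {a : ℕ → ℤ}
    (heig : FormalHecke.IsEigensystem
      (fun ℓ => if ℓ ∣ N then 0 else ((chiNegThree ℓ : ℤ) : ℤ)) a)
    (hreal : CuspForm.IsLatticeRealized N a) :
    ∃ (f : CuspForm (Gamma0 N) 2) (_ : f.IsNormalizedEigenform)
      (𝔪' : Ideal (integralClosure ℤ ℂ)), 𝔪'.IsMaximal ∧
      ((3 : ℕ) : integralClosure ℤ ℂ) ∈ 𝔪' ∧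
      ∀ (ℓ : ℕ) (_ : ℓ.Prime) (_ : ¬ ℓ ∣ N),
        ∃ c : integralClosure ℤ ℂ, (c : ℂ) = ModularFormClass.qCoeff f ℓ ∧
          c - (a ℓ : integralClosure ℤ ℂ) ∈ 𝔪' := by
  classical
  have hstr := hasIntegralStructure_of_hasIntegralBasis h
  obtain ⟨f, -, af, haf, hdiv⟩ := hreal
  -- a maximal ideal over 3
  have h3 : Ideal.span {((3 : ℕ) : integralClosure ℤ ℂ)} ≠ ⊤ := by
    intro htop
    rw [Ideal.span_singleton_eq_top] at htop
    obtain ⟨u, hu⟩ := htop.exists_right_inv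
    have hint : IsIntegral ℤ ((algebraMap ℚ ℂ) (1 / 3 : ℚ)) := by
      have hu' : ((3 : ℕ) : ℂ) * (u : ℂ) = 1 := by
        have := congrArg (algebraMap (integralClosure ℤ ℂ) ℂ) hu
        rw [map_mul, map_natCast, map_one] at this
        exact this
      have : (algebraMap ℚ ℂ) (1 / 3 : ℚ) = (u : ℂ) := by
        have h30 : ((3 : ℕ) : ℂ) ≠ 0 := by norm_num
        apply mul_left_cancel₀ h30
        rw [hu']
        simp
      rw [this]
      exact u.2
    have hint' : IsIntegral ℤ (1 / 3 : ℚ) :=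
      (isIntegral_algebraMap_iff (algebraMap ℚ ℂ).injective).mp hint
    obtain ⟨m, hm⟩ := IsIntegrallyClosed.isIntegral_iff.mp hint'
    have hm' : (m : ℚ) * 3 = 1 := by
      have : (m : ℚ) = 1 / 3 := by simpa using hm
      rw [this]; norm_num
    have : m * 3 = 1 := by exact_mod_cast hm'
    omega
  obtain ⟨𝔪, h𝔪, hle⟩ := Ideal.exists_le_maximal _ h3
  have h3m : ((3 : ℕ) : integralClosure ℤ ℂ) ∈ 𝔪 := hle (Ideal.mem_span_singleton_self _)
  have h3z : ∀ z : ℤ, (3 : ℤ) ∣ z → ((z : ℤ) : integralClosure ℤ ℂ) ∈ 𝔪 := by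
    rintro z ⟨w, rfl⟩
    push_cast
    have : ((3 : ℕ) : integralClosure ℤ ℂ) * (w : integralClosure ℤ ℂ) ∈ 𝔪 :=
      𝔪.mul_mem_right _ h3m
    simpa using this
  -- `M`: forms all of whose coefficients are in `𝔪`
  let M : AddSubgroup (CuspForm (Gamma0 N) 2) :=
    { carrier := {g | ∀ n, ∃ c ∈ 𝔪, (c : ℂ) = qCoeff ⇑g n}
      add_mem' := by
        intro g g' hg hg' n
        obtain ⟨c, hc, hc'⟩ := hg n
        obtain ⟨d, hd, hd'⟩ := hg' n
        exact ⟨c + d, 𝔪.add_mem hc hd, by rw [qCoeff_add, ← hc', ← hd']; push_cast; rfl⟩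
      zero_mem' := fun n => ⟨0, 𝔪.zero_mem, by rw [qCoeff_zero]; simp⟩
      neg_mem' := by
        intro g hg n
        obtain ⟨c, hc, hc'⟩ := hg n
        exact ⟨-c, 𝔪.neg_mem hc, by rw [qCoeff_neg, ← hc']; push_cast; rfl⟩ }
  have hMmem : ∀ g, g ∈ M ↔ ∀ n, ∃ c ∈ 𝔪, (c : ℂ) = qCoeff ⇑g n := fun g => Iff.rfl
  -- congruences for `af`
  have hafa : ∀ n, (3 : ℤ) ∣ af n - a n := by
    intro n
    have h1 := hdiv n
    have h2 := three_dvd_bridge a n
    have := dvd_add h1 h2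
    simpa using this
  have hafrec : ∀ (p : ℕ), p.Prime → ∀ n, (3 : ℤ) ∣ af (p * n) +
      (if p ∣ N then 0 else (p : ℤ)) * (if p ∣ n then af (n / p) else 0) - a p * af n := by
    intro p hp n
    have e := heig.2 p hp n
    simp only at e
    have h1 := hafa (p * n)
    have h2 := hafa n
    have h3' := hafa (n / p)
    have h4 := three_dvd_chi p
    obtain ⟨x1, hx1⟩ := h1
    obtain ⟨x2, hx2⟩ := h2
    obtain ⟨x3, hx3⟩ := h3'
    obtain ⟨x4, hx4⟩ := h4
    have y1 : af (p * n) = a (p * n) + 3 * x1 := by linarith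
    have y2 : af n = a n + 3 * x2 := by linarith
    have y3 : af (n / p) = a (n / p) + 3 * x3 := by linarith
    have y4 : chiNegThree p = (p : ℤ) - 3 * x4 := by linarith
    by_cases hpN : p ∣ N
    · simp only [if_pos hpN, zero_mul, add_zero] at e ⊢
      rw [y1, y2, e]
      exact ⟨x1 - a p * x2, by ring⟩
    · by_cases hpn : p ∣ n
      · simp only [if_neg hpN, if_pos hpn] at e ⊢
        rw [y1, y2, y3]
        rw [y4] at e
        have e' : a (p * n) = a p * a n - (↑p - 3 * x4) * a (n / p) := by linarith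
        rw [e']
        exact ⟨x4 * a (n / p) + x1 + p * x3 - a p * x2, by ring⟩
      · simp only [if_neg hpn, mul_zero, add_zero] at e ⊢
        rw [y1, y2, e]
        exact ⟨x1 - a p * x2, by ring⟩
  obtain ⟨χ, v, hv0, hv, hcong⟩ := exists_joint_eigenvector_congr (K := ℂ)
    (V := CuspForm (Gamma0 N) 2) (O := integralClosure ℤ ℂ) 𝔪 h𝔪.isPrime (heckeOp N 2)
    (fun p q => heckeOp_comm p q) M
    (by
      intro p g hg
      rw [hMmem] at hg ⊢
      intro n
      obtain ⟨c, hc, hc'⟩ := hg (p * n)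
      obtain ⟨d, hd, hd'⟩ := hg (n / p)
      refine ⟨c + (if (p : ℕ) ∣ N then 0 else (((p : ℕ) : integralClosure ℤ ℂ))) *
        (if (p : ℕ) ∣ n then d else 0), 𝔪.add_mem hc ?_, ?_⟩
      · apply 𝔪.mul_mem_left
        split_ifs
        · exact hd
        · exact 𝔪.zero_mem
      · rw [qCoeff_heckeOp_two, ← hc', ← hd']
        split_ifs <;> simp)
    (by
      intro c g hg
      rw [hMmem] at hg ⊢
      intro n
      obtain ⟨d, hd, hd'⟩ := hg n
      exact ⟨c * d, 𝔪.mul_mem_left _ hd, by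
        rw [qCoeff_smul, ← hd']; push_cast; rfl⟩)
    f (fun p => (a p : integralClosure ℤ ℂ))
    (by
      intro p
      rw [hMmem]
      intro n
      refine ⟨((af (p * n) + (if (p : ℕ) ∣ N then 0 else ((p : ℕ) : ℤ)) *
        (if (p : ℕ) ∣ n then af (n / p) else 0) - a p * af n : ℤ) : integralClosure ℤ ℂ),
        h3z _ (hafrec p p.2 n), ?_⟩
      rw [qCoeff_sub, qCoeff_smul, qCoeff_heckeOp_two]
      have hmap : algebraMap (integralClosure ℤ ℂ) ℂ ((a p : ℤ) : integralClosure ℤ ℂ) = (a p : ℂ) := by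
        simp
      rw [hmap, ← haf, ← haf, ← haf]
      split_ifs <;> simp)
    (by
      intro u hu
      rw [hMmem] at hu
      obtain ⟨c, hc, hc'⟩ := hu 1
      rw [qCoeff_smul, ← haf] at hc'
      have h1 : (3 : ℤ) ∣ af 1 - 1 := by
        have := hafa 1
        rwa [heig.1] at this
      have hc2 : c = u * (af 1 : integralClosure ℤ ℂ) := by
        apply Subtype.ext
        rw [hc']
        push_cast
        rfl
      have hc3 : u = c - u * ((af 1 - 1 : ℤ) : integralClosure ℤ ℂ) := by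
        rw [hc2]; push_cast; ring
      rw [hc3]
      exact 𝔪.sub_mem hc (𝔪.mul_mem_left _ (h3z _ h1)))
    (by
      intro χ v hv0 hv p
      have := isIntegral_of_heckeOp_eigen (by norm_num) hstr (heckeOp_mem_heckeAlgebra p) hv0 (hv p)
      exact ⟨⟨χ p, this⟩, rfl⟩)
  obtain ⟨g, hg, -, hgp⟩ := exists_isNormalizedEigenform_of_eigen hv hv0
  refine ⟨g, hg, 𝔪, h𝔪, h3m, fun ℓ hℓ _ => ⟨χ ⟨ℓ, hℓ⟩, ?_, hcong ⟨ℓ, hℓ⟩⟩⟩
  exact (hgp ⟨ℓ, hℓ⟩).symm

end Fermat.Agent.S49
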