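import Mathlib
import Fermat.Prelude.Def_CuspForm_HeckeGaloisRepDatum
import Fermat.Agent.S29.Lift
import Fermat.Agent.S29.BaseChange
import Fermat.Agent.S29.Character

/-!
# S30 implies S29

`reduction` : the existence of the `p`-adic Galois representations attached to points of the Hecke
algebra (the frozen statement S30) together with finiteness of the Hecke algebra over `ℤ`
implies the existence of the residual representations (the frozen statement S29).
-/

set_option autoImplicit false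
set_option linter.style.haveILetI false

namespace Fermat.Agent.S29aux

open Polynomial IsLocalRing

/-- The frozen statement S30 as a proposition. -/
def S30Statement : Prop :=
    ∀ (p : ℕ) [Fact p.Prime] (N : ℕ) [NeZero N] (S : Finset ℕ)
      (_hpS : p ∈ S) (_hNS : ∀ q : ℕ, q.Prime → q ∣ N → q ∈ S)
      (𝒪' : Type) [CommRing 𝒪'] [IsDomain 𝒪'] [IsDiscreteValuationRing 𝒪']
      [IsAdicComplete (IsLocalRing.maximalIdeal 𝒪') 𝒪'] [Finite (IsLocalRing.ResidueField 𝒪')]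
      [CharZero 𝒪'] (_hp𝒪' : (p : 𝒪') ∈ IsLocalRing.maximalIdeal 𝒪')
      (χ : CuspForm.heckeAlgebra N 2 (↑S : Set ℕ) →+* 𝒪'),
      ∃ (𝒪'' : Type) (_ : CommRing 𝒪'') (_ : IsDomain 𝒪'') (_ : IsDiscreteValuationRing 𝒪'')
        (_ : IsAdicComplete (IsLocalRing.maximalIdeal 𝒪'') 𝒪'')
        (_ : Finite (IsLocalRing.ResidueField 𝒪'')) (_ : CharZero 𝒪'')
        (_ : Algebra 𝒪' 𝒪'') (_ : Module.Finite 𝒪' 𝒪'') (_ : IsLocalHom (algebraMap 𝒪' 𝒪'')),
      Function.Injective (algebraMap 𝒪' 𝒪'') ∧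
      ∃ ρ : GaloisRepAdic 𝒪'',
        (∀ (ℓ : ℕ) (hℓ : ℓ.Prime) (hℓN : ¬ ℓ ∣ N) (hℓS : ℓ ∉ (↑S : Set ℕ)),
          ∀ A : ValuationSubring (AlgebraicClosure ℚ), A.LiesOverPrime ℓ →
            ∀ σ : AlgebraicClosure ℚ ≃ₐ[ℚ] AlgebraicClosure ℚ, A.IsFrobeniusAt σ ℓ →
              LinearMap.charpoly (ρ.ρ σ) =
                X ^ 2 - C (algebraMap 𝒪' 𝒪'' (χ (CuspForm.heckeAlgebra.T hℓ hℓN hℓS))) * X
                  + C ((ℓ : 𝒪''))) ∧
        (∀ q : ℕ, q.Prime → ¬ q ∣ N → q ≠ p → ρ.IsUnramifiedAt q)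

/-- The trivial two-dimensional representation. -/
noncomputable def trivialRep (k : Type) [Field k] : ResidualGaloisRep k where
  V := Fin 2 → k
  finrank_eq := by simp
  ρ := 1
  factorsThroughFiniteLevel := ⟨⊥, inferInstance, fun _ _ => rfl⟩

/-- A finite local extension of the residue fields embeds in an algebraically closed field. -/
lemma exists_residueField_hom {O' O'' : Type} [CommRing O'] [IsLocalRing O'] [CommRing O'']
    [IsLocalRing O''] [Algebra O' O''] [Module.Finite O' O''] [IsLocalHom (algebraMap O' O'')]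
    {K : Type} [Field K] [IsAlgClosed K] (ι : ResidueField O' →+* K) :
    ∃ ι'' : ResidueField O'' →+* K, ∀ x : O', ι'' (residue O'' (algebraMap O' O'' x)) =
      ι (residue O' x) := by
  letI : Algebra (ResidueField O') K := ι.toAlgebra
  haveI : Module.Finite O' (ResidueField O'') :=
    Module.Finite.of_surjective
      ((IsScalarTower.toAlgHom O' O'' (ResidueField O'')).toLinearMap) residue_surjective
  haveI : Module.Finite (ResidueField O') (ResidueField O'') :=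
    Module.Finite.of_restrictScalars_finite O' (ResidueField O') (ResidueField O'')
  haveI : Algebra.IsAlgebraic (ResidueField O') (ResidueField O'') :=
    Algebra.IsAlgebraic.of_finite _ _
  let f : ResidueField O'' →ₐ[ResidueField O'] K := IsAlgClosed.lift
  refine ⟨f, fun x => ?_⟩
  exact f.commutes (residue O' x)

theorem reduction_quotient (h30 : S30Statement)
    (h22 : ∀ (N : ℕ) [NeZero N] (S : Set ℕ), Module.Finite ℤ (CuspForm.heckeAlgebra N 2 S))
    {N : ℕ} [NeZero N] {g : CuspForm (CongruenceSubgroup.Gamma0 N) 2}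
    (hg : g.IsNormalizedEigenform)
    {p : ℕ} (hp : p.Prime) {K : Type} [Field K] [IsAlgClosed K] [CharP K p]
    (φ : integralClosure ℤ ℂ →+* K) :
    ∃ ρ : ResidualGaloisRep K, ρ.IsAttachedTo g φ ∧
      ∀ ℓ : ℕ, ℓ.Prime → ¬ ℓ ∣ N * p → ρ.IsUnramifiedAt ℓ := by
  haveI : Fact p.Prime := ⟨hp⟩
  set S : Finset ℕ := insert p N.primeFactors with hS
  haveI := h22 N (↑S : Set ℕ)
  set χ := eigenChar hg (↑S : Set ℕ) with hχ
  haveI := heckeField_numberField χ
  obtain ⟨O, _, _, _, _, _, _, j, ι, hpO, hι⟩ := exists_completeDVR (heckeField χ) hp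
    (φ.comp (intEmb (heckeField χ)))
  have hpS : p ∈ S := Finset.mem_insert_self _ _
  have hNS : ∀ q : ℕ, q.Prime → q ∣ N → q ∈ S := fun q hq hqN =>
    Finset.mem_insert_of_mem (Nat.mem_primeFactors.mpr ⟨hq, hqN, NeZero.ne N⟩)
  obtain ⟨O'', _, _, _, _, _, _, _, _, _, hinj, ρ, hchar, hunr⟩ :=
    h30 p N S hpS hNS O hpO (j.comp (charInt χ))
  obtain ⟨ι'', hι''⟩ := exists_residueField_hom (O'' := O'') ι
  refine ⟨ρ.residual.baseChangeAlong ι'', ?_, ?_⟩
  · intro ℓ hℓ hℓN hℓk A hA σ hσ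
    have hℓp : ℓ ≠ p := by
      rintro rfl
      exact hℓk (CharP.cast_eq_zero K ℓ)
    have hℓS : ℓ ∉ (↑S : Set ℕ) := by
      intro h
      rcases Finset.mem_insert.mp (Finset.mem_coe.mp h) with h | h
      · exact hℓp h
      · exact hℓN (Nat.dvd_of_mem_primeFactors h)
    have hc := hchar ℓ hℓ hℓN hℓS A hA σ hσ
    refine ⟨intEmb (heckeField χ) (charInt χ (CuspForm.heckeAlgebra.T hℓ hℓN hℓS)), ?_, ?_⟩
    · rw [coe_intEmb, coe_charInt, hχ, eigenChar_T]
    · rw [charpoly_baseChangeAlong, charpoly_residual, hc]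
      simp only [Polynomial.map_add, Polynomial.map_sub, Polynomial.map_mul, Polynomial.map_pow,
        Polynomial.map_X, Polynomial.map_C, map_natCast, Polynomial.map_natCast]
      rw [RingHom.comp_apply, hι'', hι, RingHom.comp_apply]
  · intro ℓ hℓ hℓNp
    refine isUnramifiedAt_baseChangeAlong _ _ (isUnramifiedAt_residual _ (hunr ℓ hℓ ?_ ?_))
    · exact fun h => hℓNp (h.mul_right p)
    · rintro rfl
      exact hℓNp (dvd_mul_left ℓ N)

/-- **S30 implies S29** (given finiteness of the Hecke algebras). -/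
theorem reduction (h30 : S30Statement)
    (h22 : ∀ (N : ℕ) [NeZero N] (S : Set ℕ), Module.Finite ℤ (CuspForm.heckeAlgebra N 2 S))
    {N : ℕ} {g : CuspForm (CongruenceSubgroup.Gamma0 N) 2} (hg : g.IsNormalizedEigenform)
    {p : ℕ} (hp : p.Prime) {k : Type} [Field k] [CharP k p]
    (φ : integralClosure ℤ ℂ →+* k) :
    ∃ ρ : ResidualGaloisRep k, ρ.IsAttachedTo g φ ∧
      ∀ ℓ : ℕ, ℓ.Prime → ¬ ℓ ∣ N * p → ρ.IsUnramifiedAt ℓ := by
  rcases Nat.eq_zero_or_pos N with rfl | hN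
  · refine ⟨trivialRep k, ?_, ?_⟩
    · intro ℓ _ h
      exact absurd (dvd_zero ℓ) h
    · intro ℓ _ h
      exact absurd (by rw [zero_mul]; exact dvd_zero ℓ) h
  haveI : NeZero N := ⟨hN.ne'⟩
  set 𝔐 : Ideal (integralClosure ℤ ℂ) := RingHom.ker φ with h𝔐
  haveI hmax : 𝔐.IsMaximal := ker_isMaximal hp φ
  letI : Field (integralClosure ℤ ℂ ⧸ 𝔐) := Ideal.Quotient.field 𝔐
  haveI : IsAlgClosed (integralClosure ℤ ℂ ⧸ 𝔐) := isAlgClosed_quotient 𝔐
  let ψ : (integralClosure ℤ ℂ ⧸ 𝔐) →+* k := RingHom.kerLift φ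
  have hψ : ψ.comp (Ideal.Quotient.mk 𝔐) = φ := by
    ext x
    exact RingHom.kerLift_mk φ x
  haveI : CharP (integralClosure ℤ ℂ ⧸ 𝔐) p := (RingHom.charP_iff ψ ψ.injective p).mpr inferInstance
  obtain ⟨ρ, h1, h2⟩ := reduction_quotient h30 h22 hg hp (Ideal.Quotient.mk 𝔐)
  refine ⟨ρ.baseChangeAlong ψ, ?_, fun ℓ hℓ hℓN => isUnramifiedAt_baseChangeAlong _ _ (h2 ℓ hℓ hℓN)⟩
  have := isAttachedTo_baseChangeAlong ψ ρ (Ideal.Quotient.mk 𝔐) h1
  rwa [hψ] at this

end Fermat.Agent.S29aux
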