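import Mathlib.RingTheory.AdicCompletion.RingHom
import Mathlib.NumberTheory.Cyclotomic.CyclotomicCharacter
import Mathlib.RingTheory.RootsOfUnity.EnoughRootsOfUnity
import Fermat.Prelude.Def_GaloisRep_ComplexConjugation
import Fermat.Agent.GalRep.Cyclo
import Fermat.Agent.Frob.Exists

/-!
# The `p`-adic cyclotomic character with values in a complete local ring of residue characteristic `p`
-/

set_option autoImplicit false
set_option linter.style.haveILetI false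
set_option linter.unusedVariables false

noncomputable section

namespace Fermat.Agent.S30aux

section PadicMap

variable (p : ℕ) [Fact p.Prime] (O : Type*) [CommRing O] [IsLocalRing O]
  [IsAdicComplete (IsLocalRing.maximalIdeal O) O]

/-- the finite level maps -/
def padicMapAux (hp : (p : O) ∈ IsLocalRing.maximalIdeal O) (n : ℕ) :
    ZMod (p ^ n) →+* O ⧸ IsLocalRing.maximalIdeal O ^ n :=
  ZMod.castHom (m := ringChar (O ⧸ IsLocalRing.maximalIdeal O ^ n)) (by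
    refine ringChar.dvd ?_
    have : (((p ^ n : ℕ) : O) : O) ∈ IsLocalRing.maximalIdeal O ^ n := by
      rw [Nat.cast_pow]; exact Ideal.pow_mem_pow hp n
    have h2 := Ideal.Quotient.eq_zero_iff_mem.mpr this
    rwa [map_natCast] at h2) _

lemma padicMap_compat (hp : (p : O) ∈ IsLocalRing.maximalIdeal O) {m n : ℕ} (hle : m ≤ n) :
    (Ideal.Quotient.factorPow (IsLocalRing.maximalIdeal O) hle).comp
      ((padicMapAux p O hp n).comp (PadicInt.toZModPow n)) =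
        (padicMapAux p O hp m).comp (PadicInt.toZModPow m) := by
  rw [← RingHom.comp_assoc,
    RingHom.ext_zmod ((Ideal.Quotient.factorPow (IsLocalRing.maximalIdeal O) hle).comp
      (padicMapAux p O hp n)) ((padicMapAux p O hp m).comp
      (ZMod.castHom (pow_dvd_pow p hle) (ZMod (p ^ m)))), RingHom.comp_assoc,
    PadicInt.zmod_cast_comp_toZModPow m n hle]

/-- the canonical map from the `p`-adic integers. -/
def padicMap (hp : (p : O) ∈ IsLocalRing.maximalIdeal O) : ℤ_[p] →+* O :=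
  IsAdicComplete.liftRingHom (IsLocalRing.maximalIdeal O)
    (fun n => (padicMapAux p O hp n).comp (PadicInt.toZModPow n)) (padicMap_compat p O hp)

variable {p O}

lemma padicMap_sub_mem (hp : (p : O) ∈ IsLocalRing.maximalIdeal O) (a : ℤ_[p]) (n c : ℕ)
    (h : PadicInt.toZModPow n a = (c : ZMod (p ^ n))) :
    padicMap p O hp a - (c : O) ∈ IsLocalRing.maximalIdeal O ^ n := by
  rw [← Ideal.Quotient.eq_zero_iff_mem, map_sub, padicMap,
    IsAdicComplete.mk_liftRingHom _ _ (padicMap_compat p O hp),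
    RingHom.comp_apply, h, map_natCast, map_natCast, sub_self]

end PadicMap

section Cyclo

/-- the absolute Galois group -/
local notation "GQ'" => (AlgebraicClosure ℚ ≃ₐ[ℚ] AlgebraicClosure ℚ)

variable (p : ℕ) [Fact p.Prime]

/-- the `p`-adic cyclotomic character of `ℚ` -/
def cyc : GQ' →* ℤ_[p]ˣ where
  toFun g := cyclotomicCharacter (AlgebraicClosure ℚ) p (g : AlgebraicClosure ℚ ≃+* AlgebraicClosure ℚ)
  map_one' := map_one (cyclotomicCharacter (AlgebraicClosure ℚ) p)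
  map_mul' g h := map_mul (cyclotomicCharacter (AlgebraicClosure ℚ) p) _ _

/-- the value modulo `p ^ m` -/
def cn (m : ℕ) (g : GQ') : ℕ := (PadicInt.toZModPow m ((cyc p g : ℤ_[p]ˣ) : ℤ_[p])).val

lemma cast_cn (m : ℕ) (g : GQ') :
    ((cn p m g : ℕ) : ZMod (p ^ m)) = PadicInt.toZModPow m ((cyc p g : ℤ_[p]ˣ) : ℤ_[p]) := by
  haveI : NeZero (p ^ m) := ⟨pow_ne_zero _ (Fact.out : p.Prime).ne_zero⟩
  exact ZMod.natCast_zmod_val _

lemma cn_spec (m : ℕ) (g : GQ') (ζ : AlgebraicClosure ℚ) (hζ : ζ ^ p ^ m = 1) :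
    g ζ = ζ ^ cn p m g := by
  haveI : ∀ i, NeZero ((p ^ i : ℕ) : AlgebraicClosure ℚ) := fun i =>
    ⟨by exact_mod_cast pow_ne_zero _ (Fact.out : p.Prime).ne_zero⟩
  haveI : ∀ i, HasEnoughRootsOfUnity (AlgebraicClosure ℚ) (p ^ i) := fun i => inferInstance
  exact cyclotomicCharacter.spec p (g : AlgebraicClosure ℚ ≃+* AlgebraicClosure ℚ) ζ hζ

/-- uniqueness -/
lemma cn_unique (m : ℕ) (g : GQ') (c : ℕ) (ζ : AlgebraicClosure ℚ) (hζ : IsPrimitiveRoot ζ (p ^ m))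
    (h : g ζ = ζ ^ c) : (c : ZMod (p ^ m)) = (cn p m g : ZMod (p ^ m)) := by
  have h1 := cn_spec p m g ζ hζ.pow_eq_one
  rw [h1] at h
  have hpm0 : p ^ m ≠ 0 := pow_ne_zero _ (Fact.out : p.Prime).ne_zero
  have hmod : ∀ c : ℕ, ζ ^ c = ζ ^ (c % p ^ m) := by
    intro c
    conv_lhs => rw [← Nat.mod_add_div c (p ^ m)]
    rw [pow_add, pow_mul, hζ.pow_eq_one, one_pow, mul_one]
  rw [hmod c, hmod (cn p m g)] at h
  have hpos : 0 < p ^ m := Nat.pos_of_ne_zero hpm0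
  have h3 := hζ.pow_inj (Nat.mod_lt _ hpos) (Nat.mod_lt _ hpos) h
  exact (ZMod.natCast_eq_natCast_iff' _ _ _).mpr h3.symm

lemma exists_primitive (m : ℕ) : ∃ ζ : AlgebraicClosure ℚ, IsPrimitiveRoot ζ (p ^ m) := by
  haveI : NeZero ((p ^ m : ℕ) : AlgebraicClosure ℚ) :=
    ⟨by exact_mod_cast pow_ne_zero _ (Fact.out : p.Prime).ne_zero⟩
  exact HasEnoughRootsOfUnity.exists_primitiveRoot (AlgebraicClosure ℚ) (p ^ m)

lemma cn_one (m : ℕ) : ((cn p m 1 : ℕ) : ZMod (p ^ m)) = 1 := by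
  rw [cast_cn, map_one, Units.val_one, map_one]

lemma cn_mul (m : ℕ) (g h : GQ') : ((cn p m (g * h) : ℕ) : ZMod (p ^ m)) =
    ((cn p m g * cn p m h : ℕ) : ZMod (p ^ m)) := by
  rw [Nat.cast_mul, cast_cn, cast_cn, cast_cn, map_mul, Units.val_mul, map_mul]

lemma cn_le {m n : ℕ} (hmn : m ≤ n) (g : GQ') : ((cn p n g : ℕ) : ZMod (p ^ m)) =
    (cn p m g : ZMod (p ^ m)) := by
  rw [cast_cn, ← PadicInt.zmod_cast_comp_toZModPow m n hmn, RingHom.comp_apply, ← cast_cn,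
    map_natCast]

variable {p}

lemma pow_prime_coprime {ℓ : ℕ} (hℓ : ℓ.Prime) (hne : ℓ ≠ p) (m : ℕ) : Nat.Coprime ℓ (p ^ m) :=
  ((Nat.coprime_primes hℓ (Fact.out : p.Prime)).mpr hne).pow_right m

/-- the cyclotomic character at a Frobenius element -/
lemma cyc_frobenius {ℓ : ℕ} (hℓ : ℓ.Prime) (hne : ℓ ≠ p)
    {A : ValuationSubring (AlgebraicClosure ℚ)} (hA : A.LiesOverPrime ℓ) {φ : GQ'}
    (hφ : A.IsFrobeniusAt φ ℓ) : ((cyc p φ : ℤ_[p]ˣ) : ℤ_[p]) = (ℓ : ℤ_[p]) := by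
  rw [← PadicInt.ext_of_toZModPow]
  intro m
  obtain ⟨ζ, hζ⟩ := exists_primitive p m
  have h1 := GalRep.frobenius_rootOfUnity hA (pow_prime_coprime hℓ hne m)
    (pow_ne_zero _ (Fact.out : p.Prime).ne_zero) hφ hζ.pow_eq_one
  rw [← cast_cn, ← cn_unique p m φ ℓ ζ hζ h1, map_natCast]

/-- the cyclotomic character is unramified outside `p`. -/
lemma cyc_inertia {q : ℕ} (hq : q.Prime) (hne : q ≠ p)
    {A : ValuationSubring (AlgebraicClosure ℚ)} (hA : A.LiesOverPrime q) {σ : GQ'}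
    (hσ : σ ∈ A.inertiaSubgroupIn ℚ) : cyc p σ = 1 := by
  apply Units.ext
  rw [← PadicInt.ext_of_toZModPow]
  intro m
  obtain ⟨ζ, hζ⟩ := exists_primitive p m
  have h1 := GalRep.inertia_fix_rootOfUnity hA (pow_prime_coprime hq hne m)
    (pow_ne_zero _ (Fact.out : p.Prime).ne_zero) hσ hζ.pow_eq_one
  rw [← cast_cn, ← cn_unique p m σ 1 ζ hζ (by rw [h1, pow_one]), Nat.cast_one, Units.val_one, map_one]

/-- complex conjugation. -/
lemma cyc_complexConjugation : ((cyc p complexConjugation : ℤ_[p]ˣ) : ℤ_[p]) = -1 := by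
  rw [← PadicInt.ext_of_toZModPow]
  intro m
  haveI : NeZero (p ^ m) := ⟨pow_ne_zero _ (Fact.out : p.Prime).ne_zero⟩
  obtain ⟨ζ, hζ⟩ := exists_primitive p m
  have h0 : ζ ≠ 0 := hζ.ne_zero (NeZero.ne _)
  have h1 : complexConjugation ζ = ζ⁻¹ := by
    apply complexEmbedding.toRingHom.injective
    change complexEmbedding (complexConjugation ζ) = complexEmbedding ζ⁻¹
    rw [complexEmbedding_complexConjugation, map_inv₀]
    have h2 : (complexEmbedding ζ) ^ (p ^ m) = 1 := by rw [← map_pow, hζ.pow_eq_one, map_one]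
    have h3 : ‖complexEmbedding ζ‖ = 1 := Complex.norm_eq_one_of_pow_eq_one h2 (NeZero.ne _)
    rw [Complex.inv_def, Complex.normSq_eq_norm_sq, h3]
    simp
  have h4 : complexConjugation ζ = ζ ^ (p ^ m - 1) := by
    rw [h1]
    apply inv_eq_of_mul_eq_one_right
    rw [← pow_succ', Nat.sub_add_cancel (Nat.one_le_iff_ne_zero.mpr (NeZero.ne _)),
      hζ.pow_eq_one]
  rw [← cast_cn, ← cn_unique p m _ _ ζ hζ h4, map_neg, map_one,
    Nat.cast_sub (Nat.one_le_iff_ne_zero.mpr (NeZero.ne _))]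
  simp

end Cyclo

section CycO

variable {p : ℕ} [Fact p.Prime] {O : Type} [CommRing O] [IsLocalRing O]
  [IsAdicComplete (IsLocalRing.maximalIdeal O) O] (hp : (p : O) ∈ IsLocalRing.maximalIdeal O)

/-- the cyclotomic character with values in `O` -/
def cycO : (AlgebraicClosure ℚ ≃ₐ[ℚ] AlgebraicClosure ℚ) →* Oˣ :=
  (Units.map (padicMap p O hp).toMonoidHom).comp (cyc p)

lemma coe_cycO (g : AlgebraicClosure ℚ ≃ₐ[ℚ] AlgebraicClosure ℚ) :
    ((cycO hp g : Oˣ) : O) = padicMap p O hp ((cyc p g : ℤ_[p]ˣ) : ℤ_[p]) := rfl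

lemma cycO_sub_mem (m : ℕ) (g : AlgebraicClosure ℚ ≃ₐ[ℚ] AlgebraicClosure ℚ) :
    ((cycO hp g : Oˣ) : O) - (cn p m g : O) ∈ IsLocalRing.maximalIdeal O ^ m := by
  rw [coe_cycO]
  exact padicMap_sub_mem hp _ m _ (cast_cn p m g).symm

lemma cycO_frobenius {ℓ : ℕ} (hℓ : ℓ.Prime) (hne : ℓ ≠ p)
    {A : ValuationSubring (AlgebraicClosure ℚ)} (hA : A.LiesOverPrime ℓ)
    {φ : AlgebraicClosure ℚ ≃ₐ[ℚ] AlgebraicClosure ℚ}
    (hφ : A.IsFrobeniusAt φ ℓ) : ((cycO hp φ : Oˣ) : O) = (ℓ : O) := by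
  rw [coe_cycO, cyc_frobenius hℓ hne hA hφ, map_natCast]

lemma cycO_inertia {q : ℕ} (hq : q.Prime) (hne : q ≠ p)
    {A : ValuationSubring (AlgebraicClosure ℚ)} (hA : A.LiesOverPrime q)
    {σ : AlgebraicClosure ℚ ≃ₐ[ℚ] AlgebraicClosure ℚ}
    (hσ : σ ∈ A.inertiaSubgroupIn ℚ) : cycO hp σ = 1 := by
  rw [cycO, MonoidHom.comp_apply, cyc_inertia hq hne hA hσ, map_one]

lemma cycO_complexConjugation : ((cycO hp complexConjugation : Oˣ) : O) = -1 := by
  rw [coe_cycO, cyc_complexConjugation, map_neg, map_one]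

/-- congruence of the values of the cyclotomic character for elements fixing `ζ`. -/
lemma cycO_sub_one_mem (m : ℕ) {ζ : AlgebraicClosure ℚ} (hζ : IsPrimitiveRoot ζ (p ^ m))
    (g : AlgebraicClosure ℚ ≃ₐ[ℚ] AlgebraicClosure ℚ) (hg : g ζ = ζ) :
    ((cycO hp g : Oˣ) : O) - 1 ∈ IsLocalRing.maximalIdeal O ^ m := by
  have h1 := cn_unique p m g 1 ζ hζ (by rw [hg, pow_one])
  have h2 := padicMap_sub_mem hp ((cyc p g : ℤ_[p]ˣ) : ℤ_[p]) m 1 (by rw [← cast_cn, ← h1])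
  rwa [Nat.cast_one] at h2

end CycO

end Fermat.Agent.S30aux
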