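import Fermat.Statements.S02

set_option autoImplicit false
open FreyPackage

namespace Fermat.Agent.S02

/-- Step 3: coprime, `b` even, `a` odd. -/
theorem step3 (a b c : ℤ) (ha : a ≠ 0) (hb : b ≠ 0) (hc : c ≠ 0) (p : ℕ) (pp : p.Prime)
    (hp5 : 5 ≤ p) (H : a ^ p + b ^ p = c ^ p) (hg : IsCoprime a b) (hb2 : Even b) :
    Nonempty FreyPackage := by
  have p_odd : Odd p := pp.odd_of_ne_two (by omega)
  have ha2 : ¬ Even a := by
    intro ha2
    obtain ⟨u, v, huv⟩ := hg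
    have h1 : (2 : ℤ) ∣ 1 := by
      rw [← huv]
      exact dvd_add (Dvd.dvd.mul_left ha2.two_dvd u) (Dvd.dvd.mul_left hb2.two_dvd v)
    omega
  have ha4 : a % 4 = 3 ∨ a % 4 = 1 := by
    rw [Int.not_even_iff] at ha2
    omega
  rcases ha4 with h3 | h1
  · refine ⟨⟨a, b, c, ha, hb, hc, p, pp, hp5, H, ?_, ?_, ?_⟩⟩
    · have := Int.isCoprime_iff_gcd_eq_one.mp hg
      show ((Int.gcd a b : ℕ) : ℤ) = 1
      rw [this]; rfl
    · have : ((a : ℤ) : ZMod 4) = ((3 : ℤ) : ZMod 4) := by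
        rw [ZMod.intCast_eq_intCast_iff]
        show a % 4 = 3 % 4
        omega
      simpa using this
    · exact (ZMod.intCast_zmod_eq_zero_iff_dvd b 2).2 (by exact_mod_cast hb2.two_dvd)
  · refine ⟨⟨-a, -b, -c, neg_ne_zero.2 ha, neg_ne_zero.2 hb, neg_ne_zero.2 hc, p, pp, hp5, ?_,
      ?_, ?_, ?_⟩⟩
    · rw [p_odd.neg_pow, p_odd.neg_pow, p_odd.neg_pow, ← H]; ring
    · have := Int.isCoprime_iff_gcd_eq_one.mp hg
      show ((Int.gcd (-a) (-b) : ℕ) : ℤ) = 1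
      rw [Int.gcd_neg, Int.neg_gcd, this]; rfl
    · have : (((-a : ℤ)) : ZMod 4) = ((3 : ℤ) : ZMod 4) := by
        rw [ZMod.intCast_eq_intCast_iff]
        show (-a) % 4 = 3 % 4
        omega
      simpa using this
    · refine (ZMod.intCast_zmod_eq_zero_iff_dvd (-b) 2).2 ?_
      have := hb2.two_dvd
      exact_mod_cast (dvd_neg.2 this)

/-- Step 2: coprime. -/
theorem step2 (a b c : ℤ) (ha : a ≠ 0) (hb : b ≠ 0) (hc : c ≠ 0) (p : ℕ) (pp : p.Prime)
    (hp5 : 5 ≤ p) (H : a ^ p + b ^ p = c ^ p) (hg : IsCoprime a b) :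
    Nonempty FreyPackage := by
  have p_odd : Odd p := pp.odd_of_ne_two (by omega)
  have hp0 : p ≠ 0 := pp.ne_zero
  by_cases hb2 : Even b
  · exact step3 a b c ha hb hc p pp hp5 H hg hb2
  by_cases ha2 : Even a
  · exact step3 b a c hb ha hc p pp hp5 (by rw [add_comm]; exact H) hg.symm ha2
  have hc2 : Even c := by
    have h1 : Even (c ^ p) := by
      rw [← H, Int.even_add, Int.even_pow, Int.even_pow]
      tauto
    exact (Int.even_pow.1 h1).1
  have hcop : IsCoprime a (-c) := by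
    have h1 : IsCoprime (a ^ p) (b ^ p) := hg.pow
    have h2 : IsCoprime (a ^ p) (c ^ p) := by
      rw [← H]
      have := (IsCoprime.add_mul_left_right h1 1)
      simpa [add_comm] using this
    have h3 : IsCoprime a c := (IsCoprime.pow_iff (Nat.pos_of_ne_zero hp0)
      (Nat.pos_of_ne_zero hp0)).1 h2
    exact h3.neg_right
  refine step3 a (-c) (-b) ha (neg_ne_zero.2 hc) (neg_ne_zero.2 hb) p pp hp5 ?_ hcop hc2.neg
  rw [p_odd.neg_pow, p_odd.neg_pow, ← H]; ring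

theorem result (a b c : ℤ) (ha : a ≠ 0) (hb : b ≠ 0) (hc : c ≠ 0) (p : ℕ) (pp : p.Prime) (hp5 : 5 ≤ p) (H : a ^ p + b ^ p = c ^ p) : Nonempty FreyPackage := by
  have hp0 : p ≠ 0 := pp.ne_zero
  have hd0 : 0 < Int.gcd a b := Int.gcd_pos_of_ne_zero_left b ha
  obtain ⟨a', b', hg, ha', hb'⟩ := Int.exists_gcd_one hd0
  set d : ℤ := (Int.gcd a b : ℤ) with hd
  have hdne : d ≠ 0 := by rw [hd]; exact_mod_cast hd0.ne'
  have hdc : d ∣ c := by
    rw [← Int.pow_dvd_pow_iff hp0, ← H, ha', hb', mul_pow, mul_pow]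
    exact dvd_add (dvd_mul_left _ _) (dvd_mul_left _ _)
  obtain ⟨c', hc'⟩ := hdc
  have ha0 : a' ≠ 0 := by rintro rfl; simp at ha'; exact ha ha'
  have hb0 : b' ≠ 0 := by rintro rfl; simp at hb'; exact hb hb'
  have hc0 : c' ≠ 0 := by rintro rfl; simp at hc'; exact hc hc'
  refine step2 a' b' c' ha0 hb0 hc0 p pp hp5 ?_ (Int.isCoprime_iff_gcd_eq_one.mpr hg)
  have hdp : d ^ p ≠ 0 := pow_ne_zero _ hdne
  apply mul_left_cancel₀ hdp
  have H' : (a' * d) ^ p + (b' * d) ^ p = (d * c') ^ p := by rw [← ha', ← hb', ← hc']; exact H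
  rw [mul_pow, mul_pow, mul_pow] at H'
  linear_combination H'

end Fermat.Agent.S02
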