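-- Statement S05 (row 5): the mod-p Galois representation of the Frey curve is unramified at
-- every prime q with q ≠ 2 and q ≠ p.
import Fermat.Statements.S05
import Fermat.Agent.ECVal.InertiaFix

set_option autoImplicit false
open WeierstrassCurve WeierstrassCurve.Affine WeierstrassCurve.Affine.Point
open CuspForm ModularFormClass UpperHalfPlane
open FreyPackage

namespace Fermat.Agent.S05

open FermatAgent.ECVal

section

variable {K : Type*} [Field K] [Algebra ℚ K] [Algebra.IsAlgebraic ℚ K]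
  {A : ValuationSubring K} {q : ℕ}

lemma is_zero_of_not_dvd (hq : q.Prime) (hA : A.LiesOverPrime q) {n : ℤ} (hn : ¬ (q : ℤ) ∣ n) :
    (valOf hq hA).Is 0 (n : K) := by
  have : Fact q.Prime := ⟨hq⟩
  have : CharZero K := algebraRat.charZero K
  have hn0 : n ≠ 0 := by rintro rfl; exact hn (dvd_zero _)
  have h := valOf_ratCast hq hA (r := (n : ℚ)) (by exact_mod_cast hn0)
  rw [map_intCast, padicValRat.of_int, padicValInt.eq_zero_of_not_dvd hn] at h
  exact_mod_cast h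

lemma exists_is_of_dvd (hq : q.Prime) (hA : A.LiesOverPrime q) {n : ℤ} (hn0 : n ≠ 0)
    (hn : (q : ℤ) ∣ n) : ∃ N : ℕ, 0 < N ∧ (valOf hq hA).Is N (n : K) := by
  have : Fact q.Prime := ⟨hq⟩
  have : CharZero K := algebraRat.charZero K
  have h := valOf_ratCast hq hA (r := (n : ℚ)) (by exact_mod_cast hn0)
  rw [map_intCast, padicValRat.of_int] at h
  refine ⟨padicValInt q n, ?_, by exact_mod_cast h⟩
  rw [Nat.pos_iff_ne_zero, Ne, padicValInt.eq_zero_iff]
  push Not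
  exact ⟨hq.ne_one, hn0, hn⟩

lemma is_two (hq : q.Prime) (hq2 : q ≠ 2) (hA : A.LiesOverPrime q) :
    (valOf hq hA).Is 0 (2 : K) := by
  exact_mod_cast valOf_natCast_of_not_dvd hq hA (not_dvd_two hq hq2)

end

section

variable (P : FreyPackage) (K : Type*) [Field K] [Algebra ℚ K]

lemma coeffs : (P.freyCurve⁄K).a₁ = 1 ∧
    (P.freyCurve⁄K).a₂ = ((P.b : K) ^ P.p - 1 - (P.a : K) ^ P.p) / 4 ∧ (P.freyCurve⁄K).a₃ = 0 ∧
    (P.freyCurve⁄K).a₄ = - ((P.a : K) ^ P.p * (P.b : K) ^ P.p) / 16 ∧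
    (P.freyCurve⁄K).a₆ = 0 := by
  have : CharZero K := algebraRat.charZero K
  refine ⟨?_, ?_, ?_, ?_, ?_⟩ <;>
  simp [FreyPackage.freyCurve]

lemma invariants : (P.freyCurve⁄K).b₂ = (P.b : K) ^ P.p - (P.a : K) ^ P.p ∧
    (P.freyCurve⁄K).b₄ = - ((P.a : K) ^ P.p * (P.b : K) ^ P.p) / 8 ∧
    (P.freyCurve⁄K).b₆ = 0 ∧
    (P.freyCurve⁄K).b₈ = - ((P.a : K) ^ P.p * (P.b : K) ^ P.p / 16) ^ 2 := by
  have : CharZero K := algebraRat.charZero K
  obtain ⟨h1, h2, h3, h4, h6⟩ := coeffs P K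
  refine ⟨?_, ?_, ?_, ?_⟩
  · rw [WeierstrassCurve.b₂, h1, h2]; ring
  · rw [WeierstrassCurve.b₄, h1, h3, h4]; ring
  · rw [WeierstrassCurve.b₆, h3, h6]; ring
  · rw [WeierstrassCurve.b₈, h1, h3, h4, h6]; ring

lemma disc : (P.freyCurve⁄K).Δ = ((P.a : K) ^ P.p * (P.b : K) ^ P.p * (P.c : K) ^ P.p) ^ 2 /
    256 := by
  have : CharZero K := algebraRat.charZero K
  obtain ⟨h2, h4, h6, h8⟩ := invariants P K
  have hc : (P.c : K) ^ P.p = (P.a : K) ^ P.p + (P.b : K) ^ P.p := by exact_mod_cast P.hFLT.symm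
  rw [WeierstrassCurve.Δ, h2, h4, h6, h8, hc]
  ring

end

section

variable (P : FreyPackage)

lemma not_dvd_right_of_dvd_left {q : ℕ} (hq : q.Prime) {x y : ℤ} (hxy : gcd x y = 1)
    (h : (q : ℤ) ∣ x) : ¬ (q : ℤ) ∣ y := by
  intro h'
  have h1 : (q : ℤ) ∣ gcd x y := dvd_gcd h h'
  rw [hxy] at h1
  have : q ∣ 1 := by exact_mod_cast h1
  exact hq.one_lt.ne' (Nat.dvd_one.mp this)

end

theorem unramified (P : FreyPackage) {K : Type*} [Field K] [Algebra ℚ K]
    [Algebra.IsAlgebraic ℚ K] [DecidableEq K] {q : ℕ} (hq : q.Prime) (hq2 : q ≠ 2)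
    (hqp : q ≠ P.p) {A : ValuationSubring K} (hA : A.LiesOverPrime q)
    {σ : K ≃ₐ[ℚ] K} (hσ : σ ∈ A.inertiaSubgroupIn ℚ) {Q : (P.freyCurve⁄K).Point}
    (hQ : P.p • Q = 0) : σ • Q = Q := by
  have : CharZero K := algebraRat.charZero K
  obtain ⟨h1, h2, h3, h4, h6⟩ := coeffs P K
  obtain ⟨k2, k4, k6, k8⟩ := invariants P K
  set w := valOf hq hA with hw
  have i2 : w.Is 0 (2 : K) := is_two hq hq2 hA
  have i4 : w.Is 0 (4 : K) := by
    have := i2.sq
    norm_num at this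
    exact this
  have i16 : w.Is 0 (16 : K) := by
    have := i4.sq
    norm_num at this
    exact this
  have i8 : w.Is 0 (8 : K) := by
    have := i2.mul i4
    norm_num at this
    exact this
  have hI : ∀ n : ℤ, (n : K) ∈ A := fun n => (valOf_ge_zero_iff hq hA).mp (QVal.ge_intCast n)
  have mem_div : ∀ {x y : K}, x ∈ A → w.Is 0 y → x / y ∈ A := by
    intro x y hx hy
    rw [← valOf_ge_zero_iff hq hA, div_eq_mul_inv]
    exact (((valOf_ge_zero_iff hq hA).mpr hx).mul hy.inv.ge).mono (by norm_num)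
  have hodd : Odd P.p := P.hp_odd
  have hqdvd : ¬ q ∣ P.p := fun h => hqp ((Nat.prime_dvd_prime_iff_eq hq P.pp).mp h)
  have m1 : (P.freyCurve⁄K).a₁ ∈ A := by rw [h1]; exact A.one_mem
  have m2 : (P.freyCurve⁄K).a₂ ∈ A := by
    rw [h2]
    exact mem_div (sub_mem (sub_mem (pow_mem (hI _) _) A.one_mem) (pow_mem (hI _) _)) i4
  have m3 : (P.freyCurve⁄K).a₃ ∈ A := by rw [h3]; exact A.zero_mem
  have m4 : (P.freyCurve⁄K).a₄ ∈ A := by
    rw [h4]
    exact mem_div (A.neg_mem _ (mul_mem (pow_mem (hI _) _) (pow_mem (hI _) _))) i16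
  have m6 : (P.freyCurve⁄K).a₆ ∈ A := by rw [h6]; exact A.zero_mem
  have hc : (P.c : K) ^ P.p = (P.a : K) ^ P.p + (P.b : K) ^ P.p := by exact_mod_cast P.hFLT.symm
  have hp0 : (0 : ℚ) < P.p := by exact_mod_cast P.hppos
  by_cases ha : (q : ℤ) ∣ P.a
  · -- `q ∣ a`
    have hb : ¬ (q : ℤ) ∣ P.b := not_dvd_right_of_dvd_left hq P.hgcdab ha
    obtain ⟨N, hN, iN⟩ := exists_is_of_dvd hq hA P.ha0 ha
    have ib := (is_zero_of_not_dvd hq hA hb).pow P.p
    rw [mul_zero] at ib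
    have ia := iN.pow P.p
    have hN' : (0 : ℚ) < N := by exact_mod_cast hN
    refine inertia_smul_eq_self_of_node (e := 0) (N := N)
      (D := -((P.a : K) ^ P.p * (P.b : K) ^ P.p) / 16) hq hq2 hA m1 m2 m3 m4 m6 hodd hqdvd ?_
      (by rw [_root_.map_zero]; exact A.zero_mem) hσ hQ
    refine ⟨by positivity, ?_, ?_, ?_, ?_, ?_⟩
    · rw [div_eq_mul_inv]
      exact ((ia.mul ib).neg.mul i16.inv).congr (by ring)
    · rw [k2, _root_.map_zero, mul_zero, add_zero]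
      exact ib.sub_gt (ia.gt (by positivity))
    · rw [k4, _root_.map_zero]; ring
    · rw [k6, _root_.map_zero]; ring
    · rw [k8, _root_.map_zero]; ring
  by_cases hb : (q : ℤ) ∣ P.b
  · -- `q ∣ b`
    obtain ⟨N, hN, iN⟩ := exists_is_of_dvd hq hA P.hb0 hb
    have ia := (is_zero_of_not_dvd hq hA ha).pow P.p
    rw [mul_zero] at ia
    have ib := iN.pow P.p
    have hN' : (0 : ℚ) < N := by exact_mod_cast hN
    refine inertia_smul_eq_self_of_node (e := 0) (N := N)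
      (D := -((P.a : K) ^ P.p * (P.b : K) ^ P.p) / 16) hq hq2 hA m1 m2 m3 m4 m6 hodd hqdvd ?_
      (by rw [_root_.map_zero]; exact A.zero_mem) hσ hQ
    refine ⟨by positivity, ?_, ?_, ?_, ?_, ?_⟩
    · rw [div_eq_mul_inv]
      exact ((ia.mul ib).neg.mul i16.inv).congr (by ring)
    · rw [k2, _root_.map_zero, mul_zero, add_zero]
      exact (ib.gt (by positivity)).sub_is ia
    · rw [k4, _root_.map_zero]; ring
    · rw [k6, _root_.map_zero]; ring
    · rw [k8, _root_.map_zero]; ring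
  by_cases hcq : (q : ℤ) ∣ P.c
  · -- `q ∣ c`
    obtain ⟨N, hN, iN⟩ := exists_is_of_dvd hq hA P.hc0 hcq
    have ia := (is_zero_of_not_dvd hq hA ha).pow P.p
    rw [mul_zero] at ia
    have ic := iN.pow P.p
    have hN' : (0 : ℚ) < N := by exact_mod_cast hN
    have he : algebraMap ℚ K ((P.a : ℚ) ^ P.p / 4) = (P.a : K) ^ P.p / 4 := by
      simp
    refine inertia_smul_eq_self_of_node (e := (P.a : ℚ) ^ P.p / 4) (N := N)
      (D := ((P.a : K) ^ P.p * (P.c : K) ^ P.p) / 16) hq hq2 hA m1 m2 m3 m4 m6 hodd hqdvd ?_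
      (by rw [he]; exact mem_div (pow_mem (hI _) _) i4) hσ hQ
    refine ⟨by positivity, ?_, ?_, ?_, ?_, ?_⟩
    · rw [div_eq_mul_inv]
      exact ((ia.mul ic).mul i16.inv).congr (by ring)
    · rw [k2, he]
      have : (P.b : K) ^ P.p - (P.a : K) ^ P.p + 12 * ((P.a : K) ^ P.p / 4) =
          (P.a : K) ^ P.p + (P.c : K) ^ P.p := by rw [hc]; ring
      rw [this]
      exact ia.add_gt (ic.gt (by positivity))
    · rw [k2, k4, he, hc]; ring
    · rw [k2, k4, k6, he]; ring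
    · rw [k2, k4, k6, k8, he, hc]; ring
  · -- good reduction
    have ia := (is_zero_of_not_dvd hq hA ha).pow P.p
    have ib := (is_zero_of_not_dvd hq hA hb).pow P.p
    have ic := (is_zero_of_not_dvd hq hA hcq).pow P.p
    refine inertia_smul_eq_self_of_good hq hq2 hA m1 m2 m3 m4 m6 ?_ hodd hqdvd hσ hQ
    rw [disc P K]
    have i256 : w.Is 0 (256 : K) := by
      have := i16.sq
      norm_num at this
      exact this
    have hD : w.Is 0 (((P.a : K) ^ P.p * (P.b : K) ^ P.p * (P.c : K) ^ P.p) ^ 2 / 256) := by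
      rw [div_eq_mul_inv]
      exact (((ia.mul ib).mul ic).sq.mul i256.inv).congr (by ring)
    rw [← valOf_gt_zero_iff hq hA]
    exact hD.not_gt le_rfl

theorem result (P : FreyPackage) {q : ℕ} (hq : q.Prime) (hq2 : q ≠ 2) (hqp : q ≠ P.p) : P.GaloisRepUnramifiedAt q := by
  intro A hA σ hσ x
  apply Subtype.ext
  have : Algebra.IsAlgebraic ℚ (AlgebraicClosure ℚ) := AlgebraicClosure.isAlgebraic ℚ
  have hx := (Submodule.mem_torsionBy_iff _ _).mp x.2
  rw [natCast_zsmul] at hx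
  exact unramified P hq hq2 hqp hA hσ hx

end Fermat.Agent.S05
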