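import Fermat.Statements.S07
import Fermat.Prelude.Thm_ModularForm_sturm_bound_Gamma0
import Fermat.Prelude.Thm_CongruenceSubgroup_one_mem_strictPeriods_Gamma0

set_option autoImplicit false
open WeierstrassCurve WeierstrassCurve.Affine WeierstrassCurve.Affine.Point
open CuspForm ModularFormClass UpperHalfPlane
open ModularForm

namespace Fermat.Agent.S07

open scoped MatrixGroups

/-- The index of `Γ₀(N)` in `SL(2, ℤ)` is at most `N ^ 2`: a left coset is determined by its first
column modulo `N`. -/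
theorem index_Gamma0_le (N : ℕ) [NeZero N] : (CongruenceSubgroup.Gamma0 N).index ≤ N ^ 2 := by
  classical
  let col : SL(2, ℤ) ⧸ CongruenceSubgroup.Gamma0 N → ZMod N × ZMod N :=
    fun q => ((((q.out : SL(2, ℤ)) 0 0 : ℤ) : ZMod N), (((q.out : SL(2, ℤ)) 1 0 : ℤ) : ZMod N))
  have hcol : Function.Injective col := by
    intro q q' h
    have h0 := congrArg Prod.fst h
    have h1 := congrArg Prod.snd h
    simp only [col] at h0 h1
    rw [← q.out_eq, ← q'.out_eq]
    refine QuotientGroup.eq.mpr ?_
    rw [CongruenceSubgroup.Gamma0_mem]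
    have hmul : ((q.out : SL(2, ℤ))⁻¹ * (q'.out : SL(2, ℤ))) 1 0
        = -((q.out : SL(2, ℤ)) 1 0) * ((q'.out : SL(2, ℤ)) 0 0)
          + ((q.out : SL(2, ℤ)) 0 0) * ((q'.out : SL(2, ℤ)) 1 0) := by
      simp [Matrix.SpecialLinearGroup.SL2_inv_expl, Matrix.mul_apply, Fin.sum_univ_two]
    rw [hmul]
    push_cast
    rw [← h0, ← h1]
    ring
  have := Nat.card_le_card_of_injective col hcol
  rw [Subgroup.index]
  refine this.trans ?_
  simp [Nat.card_eq_fintype_card, ZMod.card, sq]

/-- Weight two cusp forms on `Γ₀(N)` vanish for `N ≤ 2`. -/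
theorem cuspForm_eq_zero (N : ℕ) [NeZero N] (hN : N ≤ 2)
    (f : CuspForm (CongruenceSubgroup.Gamma0 N) 2) : f = 0 := by
  have hidx := index_Gamma0_le N
  have hN2 : N ^ 2 ≤ 4 := by nlinarith
  set g : ModularForm (CongruenceSubgroup.Gamma0 N) 2 := ModularFormClass.modularForm f with hg
  have hg0 : g = 0 := by
    apply ModularForm.sturm_bound_Gamma0 N g
    intro n hn
    have hk : ((2 : ℤ) * ((CongruenceSubgroup.Gamma0 N).index : ℤ)).toNat / 12 = 0 := by
      apply Nat.div_eq_of_lt
      omega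
    have hn0 : n = 0 := by omega
    subst hn0
    exact CuspFormClass.qExpansion_coeff_zero f one_pos
      (CongruenceSubgroup.one_mem_strictPeriods_Gamma0 N)
  ext z
  have := congrArg (fun F : ModularForm (CongruenceSubgroup.Gamma0 N) 2 => F z) hg0
  simpa [hg] using this

theorem result (f : CuspForm (CongruenceSubgroup.Gamma0 2) 2) : f = 0 :=
  cuspForm_eq_zero 2 le_rfl f

end Fermat.Agent.S07
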