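/-
S09 wiring (helper89): S10, S11, S12, S13 together give S09.
-/
import Mathlib
import Fermat.Prelude.Def_FLTPrelim_FreyPackage
import Fermat.Prelude.Def_FLTPrelim_GaloisRep
import Fermat.Prelude.Def_FLTPrelim_CofixedLine

set_option autoImplicit false
open WeierstrassCurve WeierstrassCurve.Affine WeierstrassCurve.Affine.Point

namespace Fermat.Agent.S09aux

/-- The four parts of Mazur's theorem for the Frey curve give irreducibility. -/
theorem irreducible_of_parts
    (h10 : ∀ (P : FreyPackage), (P.p = 5 ∨ P.p = 7 ∨ P.p = 13) →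
      ¬ HasGaloisStableCofixedLine (K := AlgebraicClosure ℚ) ℚ P.freyCurve P.p)
    (h11 : ∀ (P : FreyPackage), P.p = 11 →
      ¬ HasGaloisStableCofixedLine (K := AlgebraicClosure ℚ) ℚ P.freyCurve P.p)
    (h12 : ∀ (P : FreyPackage), 17 ≤ P.p →
      ¬ HasGaloisStableCofixedLine (K := AlgebraicClosure ℚ) ℚ P.freyCurve P.p)
    (h13 : ∀ (P : FreyPackage),
      ¬ GaloisRepIsIrreducible (K := AlgebraicClosure ℚ) ℚ P.freyCurve P.p →
      HasGaloisStableCofixedLine (K := AlgebraicClosure ℚ) ℚ P.freyCurve P.p)
    (P : FreyPackage) : GaloisRepIsIrreducible (K := AlgebraicClosure ℚ) ℚ P.freyCurve P.p := by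
  by_contra hred
  have hline := h13 P hred
  have hp5 := P.hp5
  have hpp := P.pp
  rcases lt_or_ge P.p 17 with hlt | hge
  · have hcases : (P.p = 5 ∨ P.p = 7 ∨ P.p = 13) ∨ P.p = 11 := by
      generalize P.p = p at hp5 hpp hlt
      interval_cases p <;> first | (exfalso; revert hpp; decide) | simp
    rcases hcases with h | h
    · exact h10 P h hline
    · exact h11 P h hline
  · exact h12 P hge hline

/-- Irreducibility excludes any Galois stable cofixed line (so S09 implies S10, S11, S12). -/
theorem no_cofixed_of_irreducible {P : FreyPackage}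
    (h : GaloisRepIsIrreducible (K := AlgebraicClosure ℚ) ℚ P.freyCurve P.p) :
    ¬ HasGaloisStableCofixedLine (K := AlgebraicClosure ℚ) ℚ P.freyCurve P.p := by
  rintro ⟨N, hst, hbot, htop, -⟩
  rcases h.2 N hst with h1 | h1
  · exact hbot h1
  · exact htop h1

end Fermat.Agent.S09aux
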