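import Fermat.Statements.S10
import Fermat.Agent.Kummer.CaseOne
import Fermat.Agent.Kummer.CaseTwo
import Fermat.Agent.Kummer.UnitLemma
import Fermat.Agent.Kummer.PID7
import Fermat.Agent.Kummer.PID13

set_option autoImplicit false
open WeierstrassCurve WeierstrassCurve.Affine WeierstrassCurve.Affine.Point
open CuspForm ModularFormClass UpperHalfPlane
open FreyPackage

namespace Fermat.Agent.S10

open NumberField in
theorem kdata (p : ℕ) [hp : Fact p.Prime] (hp2 : p ≠ 2) (K : Type*) [Field K] [NumberField K]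
    [IsCyclotomicExtension {p} ℚ K]
    (hunit : ∀ u : (𝓞 K)ˣ, (∃ n : ℤ, (p : 𝓞 K) ∣ (u : 𝓞 K) - n) → ∃ v : (𝓞 K)ˣ, u = v ^ p) :
    Kummer.KData (𝓞 K) p (IsCyclotomicExtension.zeta_spec p ℚ K).toInteger := by
  have hζ := IsCyclotomicExtension.zeta_spec p ℚ K
  exact
  { pp := hp.out
    podd := hp2
    prim := hζ.toInteger_isPrimitiveRoot
    lamPrime := hζ.zeta_sub_one_prime'
    assoc := IsCyclotomicExtension.Rat.associated_zeta_sub_one_pow_prime p hζ
    intCong := by
      intro x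
      obtain ⟨G, rfl⟩ := Kummer.exists_aeval_eq hζ x
      refine ⟨G.eval 1, ?_⟩
      have := Polynomial.sub_dvd_eval_sub hζ.toInteger 1 (G.map (algebraMap ℤ (𝓞 K)))
      simpa [Polynomial.aeval_def, Polynomial.eval_map, Polynomial.eval₂_at_one] using this
    dvdInt := fun n hn => (IsCyclotomicExtension.Rat.zeta_sub_one_dvd_intCast_iff' p hζ).mp hn
    kummer := hunit }

open NumberField in
theorem flt_of (p : ℕ) [hp : Fact p.Prime] (hp2 : p ≠ 2) (K : Type*) [Field K] [NumberField K]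
    [IsCyclotomicExtension {p} ℚ K] (hpid : IsPrincipalIdealRing (𝓞 K))
    (hunit : ∀ u : (𝓞 K)ˣ, (∃ n : ℤ, (p : 𝓞 K) ∣ (u : 𝓞 K) - n) → ∃ v : (𝓞 K)ˣ, u = v ^ p)
    (hone : ∀ x y z : ℤ, x ^ p + y ^ p + z ^ p = 0 → (p : ℤ) ∣ x * y * z)
    (a b c : ℤ) (ha : a ≠ 0) (hb : b ≠ 0) (hc : c ≠ 0) (hab : IsCoprime a b)
    (h : a ^ p + b ^ p = c ^ p) : False := by
  have hodd : Odd p := hp.out.odd_of_ne_two hp2
  have hneg : ∀ t : ℤ, (-t) ^ p = - t ^ p := fun t => hodd.neg_pow t
  have hcast : Function.Injective (Int.cast : ℤ → 𝓞 K) := Int.cast_injective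
  have hk := kdata p hp2 K hunit
  have hac : IsCoprime a c := by
    have : IsCoprime (a ^ p) (c ^ p) := by
      rw [← h]
      have h1 : IsCoprime (a ^ p) (b ^ p) := hab.pow
      have := h1.add_mul_left_right 1
      rwa [mul_one, add_comm] at this
    exact (IsCoprime.pow_iff hp.out.pos hp.out.pos).mp this
  have hbc : IsCoprime b c := by
    have : IsCoprime (b ^ p) (c ^ p) := by
      rw [← h]
      have h1 : IsCoprime (b ^ p) (a ^ p) := hab.symm.pow
      have := h1.add_mul_left_right 1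
      rwa [mul_one] at this
    exact (IsCoprime.pow_iff hp.out.pos hp.out.pos).mp this
  have hprime : Prime (p : ℤ) := Nat.prime_iff_prime_int.mp hp.out
  have h1 := hone a b (-c) (by rw [hneg]; linarith)
  rw [hprime.dvd_mul, hprime.dvd_mul, dvd_neg] at h1
  rcases h1 with (h1 | h1) | h1
  · -- `p ∣ a`: c ^ p + (-b) ^ p = a ^ p
    exact hk.caseTwo hcast c (-b) a hbc.symm.neg_right ha h1 (by rw [hneg]; linarith)
  · exact hk.caseTwo hcast c (-a) b hac.symm.neg_right hb h1 (by rw [hneg]; linarith)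
  · exact hk.caseTwo hcast a b c hab hc h1 h

theorem result (P : FreyPackage) (hp : P.p = 5 ∨ P.p = 7 ∨ P.p = 13) : ¬ HasGaloisStableCofixedLine (K := AlgebraicClosure ℚ) ℚ P.freyCurve P.p := by
  exfalso
  have hab : IsCoprime P.a P.b := Int.isCoprime_iff_gcd_eq_one.mpr (by
    have := P.hgcdab
    rw [← Int.coe_gcd] at this
    exact_mod_cast this)
  have h := P.hFLT
  rcases hp with hp | hp | hp
  · rw [hp] at h
    have : Fact (Nat.Prime 5) := ⟨by norm_num⟩
    have : IsCyclotomicExtension {5} ℚ (CyclotomicField 5 ℚ) :=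
      CyclotomicField.isCyclotomicExtension 5 ℚ
    exact flt_of 5 (by norm_num) (CyclotomicField 5 ℚ)
      (IsCyclotomicExtension.Rat.five_pid _)
      (Kummer.kummerUnit_5 _) (fun x y z h => Kummer.caseOne_5 x y z h)
      P.a P.b P.c P.ha0 P.hb0 P.hc0 hab h
  · rw [hp] at h
    have : Fact (Nat.Prime 7) := ⟨by norm_num⟩
    have : IsCyclotomicExtension {7} ℚ (CyclotomicField 7 ℚ) :=
      CyclotomicField.isCyclotomicExtension 7 ℚ
    exact flt_of 7 (by norm_num) (CyclotomicField 7 ℚ)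
      (Kummer.pid_7 _)
      (Kummer.kummerUnit_7 _) (fun x y z h => Kummer.caseOne_7 x y z h)
      P.a P.b P.c P.ha0 P.hb0 P.hc0 hab h
  · rw [hp] at h
    have : Fact (Nat.Prime 13) := ⟨by norm_num⟩
    have : IsCyclotomicExtension {13} ℚ (CyclotomicField 13 ℚ) :=
      CyclotomicField.isCyclotomicExtension 13 ℚ
    exact flt_of 13 (by norm_num) (CyclotomicField 13 ℚ)
      (Kummer.pid_13 _)
      (Kummer.kummerUnit_13 _) (fun x y z h => Kummer.caseOne_13 x y z h)
      P.a P.b P.c P.ha0 P.hb0 P.hc0 hab h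

end Fermat.Agent.S10
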