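-- Statement S11: the Frey representation has no Galois-stable cofixed line when p = 11.
-- There is no Frey package with p = 11 at all, since Fermat's Last Theorem holds for the exponent 11
-- (Kummer: `ℤ[ζ₁₁]` is a PID and 11 is a regular prime).
import Fermat.Statements.S11
import Fermat.Agent.Kummer.FLT
import Fermat.Agent.Kummer.CaseOne
import Fermat.Agent.Kummer.PID11
import Fermat.Agent.Kummer.UnitLemma

set_option autoImplicit false
open WeierstrassCurve WeierstrassCurve.Affine WeierstrassCurve.Affine.Point
open CuspForm ModularFormClass UpperHalfPlane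
open FreyPackage

namespace Fermat.Agent.S11

theorem isCyclotomicExtension_eleven :
    IsCyclotomicExtension {11} ℚ (CyclotomicField 11 ℚ) := by
  have h := CyclotomicField.isCyclotomicExtension 11 ℚ
  convert! h

/-- There is no Frey package with `p = 11`. -/
theorem no_freyPackage_eleven (P : FreyPackage) (hp : P.p = 11) : False := by
  have : Fact (Nat.Prime 11) := ⟨by norm_num⟩
  have := isCyclotomicExtension_eleven
  have hFLT := P.hFLT
  rw [hp] at hFLT
  have hcop : IsCoprime P.a P.b := (gcd_isUnit_iff _ _).mp (by rw [P.hgcdab]; exact isUnit_one)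
  refine Kummer.flt_coprime 11 (by norm_num) (CyclotomicField 11 ℚ)
    (Kummer.pid_11 (CyclotomicField 11 ℚ)) (Kummer.kummerUnit_11 (CyclotomicField 11 ℚ))
    Kummer.caseOne_11 P.a P.b (-P.c) P.ha0 P.hb0 (neg_ne_zero.mpr P.hc0) hcop ?_
  rw [hFLT]
  ring

theorem result (P : FreyPackage) (hp : P.p = 11) : ¬ HasGaloisStableCofixedLine (K := AlgebraicClosure ℚ) ℚ P.freyCurve P.p := by
  exact (no_freyPackage_eleven P hp).elim

end Fermat.Agent.S11
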