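import Fermat.Statements.S17
import Fermat.Agent.MW.Assembly
import Fermat.Agent.MW.Height
import Fermat.Agent.S27.Export
import Fermat.Agent.S37aux.Bare

set_option autoImplicit false
open ModularCurve AlgebraicCurve
open ModularCurve ModularCurve.JZero

namespace Fermat.Agent.S17

/-- Mordell-Weil for `JZero N`, any level. -/
theorem fg_invariants (N : ℕ) [NeZero N] :
    AddGroup.FG ↥(FixedPoints.addSubgroup ((AlgebraicClosure ℚ) ≃ₐ[ℚ] (AlgebraicClosure ℚ)) (JZero N)) := by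
  obtain ⟨h, C, h1, h2⟩ := Fermat.Agent.MW.exists_height_JZero N
  have h20 : ((2 : ℕ) : AlgebraicClosure ℚ) ≠ 0 := by
    rw [Nat.cast_ofNat]; exact two_ne_zero
  refine Fermat.Agent.MW.fg_of_inputs N
    (Fermat.Agent.S27.pic0_torsion_divisible (AlgebraicClosure ℚ) (modularFunctionFieldBar N) 2 h20).2
    ?_ (insert 2 N.primeFactors) ?_ h C h1 h2
  · have := Fermat.Agent.S27.finite_pic0_torsion (AlgebraicClosure ℚ)
      (modularFunctionFieldBar N) 2 h20
    refine Set.Finite.subset (Set.toFinite (Pic0.torsion (AlgebraicClosure ℚ)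
      (modularFunctionFieldBar N) 2 : Set (JZero N))) fun x hx => ?_
    rw [SetLike.mem_coe, Pic0.mem_torsion, natCast_zsmul]
    exact hx
  · intro ℓ hℓ hℓS A hA σ hσ x hx
    rw [Finset.mem_insert, not_or, Nat.mem_primeFactors_of_ne_zero (NeZero.ne N)] at hℓS
    obtain ⟨B, _, red, Fr, r1, r2, r3, r4⟩ := Fermat.Agent.S37aux.bareRed N ℓ hℓ A hA
      (fun h => hℓS.2 ⟨hℓ, h⟩)
    have := r4 2 (fun h => hℓS.1 ((Nat.prime_dvd_prime_iff_eq hℓ Nat.prime_two).1 h))
      (σ • x - x) hx (by rw [map_sub, r1 σ hσ x, sub_self])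
    exact sub_eq_zero.1 this

theorem result (N : ℕ) [NeZero N] (hN : N.Prime) (hN5 : 5 ≤ N) :
    AddGroup.FG ↥(FixedPoints.addSubgroup ((AlgebraicClosure ℚ) ≃ₐ[ℚ] (AlgebraicClosure ℚ)) (JZero N)) :=
  fg_invariants N

end Fermat.Agent.S17
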