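import Fermat.Statements.S12
-- import your own Fermat.Agent.* helpers here
import Fermat.Agent.S12.Reduction
import Fermat.Agent.S15

set_option autoImplicit false
open WeierstrassCurve WeierstrassCurve.Affine WeierstrassCurve.Affine.Point
open CuspForm ModularFormClass UpperHalfPlane
open FreyPackage

namespace Fermat.Agent.S12

theorem result (P : FreyPackage) (hp : 17 ≤ P.p) : ¬ HasGaloisStableCofixedLine (K := AlgebraicClosure ℚ) ℚ P.freyCurve P.p := by
  exact Fermat.Agent.S12val.frey_no_cofixed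
    (fun hp hp' W hΔ Q hQfix hQord h2Δ h2c₄ h2 h3Δ h3c₄ h3 _ hℓ hℓp hℓΔ hℓc₄ A hA =>
      Fermat.Agent.S15.result hp hp' W hΔ Q hQfix hQord h2Δ h2c₄ h2 h3Δ h3c₄ h3 hℓ hℓp hℓΔ hℓc₄
        A hA) P hp

end Fermat.Agent.S12
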