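import Fermat.Agent.Minkowski.Trivial
import Mathlib.Algebra.Module.ZMod
import Mathlib.LinearAlgebra.FiniteDimensional.Lemmas

/-!
# The characters of a reducible two-dimensional mod `p` representation of `G_ℚ`

If every inertia group away from `p` acts unipotently and the inertia groups at `p` move all
vectors by elements of a proper subspace, then for each stable line `N` either `N` is pointwise
fixed or the quotient is.
-/

set_option autoImplicit false

namespace Fermat.Agent.S13aux

open scoped Pointwise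
open Fermat.Agent.Frob Fermat.Agent.Minkowski

/-- conjugation of inertia groups -/
lemma conj_mem_inertia {K L : Type*} [Field K] [Field L] [Algebra K L]
    {A : ValuationSubring L} {g σ : L ≃ₐ[K] L} (hσ : σ ∈ (g • A).inertiaSubgroupIn K) :
    g⁻¹ * σ * g ∈ A.inertiaSubgroupIn K := by
  have hmem : ∀ x : L, x ∈ A → g x ∈ g • A := fun x hx =>
    ValuationSubring.smul_mem_pointwise_smul _ _ _ hx
  have hmem' : ∀ y : L, y ∈ g • A → g⁻¹ y ∈ A := by
    intro y hy
    obtain ⟨x, hx, rfl⟩ := (ValuationSubring.mem_smul_pointwise_iff_exists g y A).mp hy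
    have : g⁻¹ (g • x) = x := g.symm_apply_apply x
    rw [this]
    exact hx
  have hnon : ∀ y : L, y ∈ (g • A).nonunits → g⁻¹ y ∈ A.nonunits := by
    intro y hy
    have h1 : y ∈ g • A := (g • A).nonunits_subset hy
    by_cases hy0 : y = 0
    · rw [hy0, map_zero]; exact zero_mem _
    rw [ValuationSubring.mem_nonunits_iff_or]
    right
    intro h2
    rw [ValuationSubring.mem_nonunits_iff_or] at hy
    rcases hy with hy | hy
    · exact hy0 hy
    · apply hy
      have h3 := hmem _ h2
      rw [map_inv₀] at h3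
      have : g (g⁻¹ y) = y := g.apply_symm_apply y
      rwa [this] at h3
  have hσ' : σ⁻¹ ∈ (g • A).inertiaSubgroupIn K := Subgroup.inv_mem _ hσ
  apply mem_inertiaSubgroupIn_of_forall
  · intro x hx
    have h1 := (sub_mem_nonunits_of_mem_inertia hσ (hmem x hx)).2
    have h2 := hnon _ h1
    rw [map_sub] at h2
    have h3 : g⁻¹ (g x) = x := g.symm_apply_apply x
    rw [h3] at h2
    exact h2
  · intro x hx
    have h1 := (sub_mem_nonunits_of_mem_inertia hσ' (hmem x hx)).1
    exact hmem' _ h1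

section rep

variable {p : ℕ} [Fact p.Prime] {V : Type*} [AddCommGroup V] [Module (ZMod p) V]

lemma finrank_eq_two (hcard : Nat.card V = p ^ 2) : Module.finrank (ZMod p) V = 2 := by
  have hp : p.Prime := Fact.out
  have hfin : Finite V := Nat.finite_of_card_ne_zero (by
    rw [hcard]; exact pow_ne_zero _ hp.ne_zero)
  have h1 := Module.natCard_eq_pow_finrank (K := ZMod p) (V := V)
  rw [hcard, Nat.card_eq_fintype_card, ZMod.card] at h1
  exact (Nat.pow_right_injective hp.two_le h1).symm

variable (N : Submodule (ZMod p) V)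

lemma finrank_eq_one (hcard : Nat.card V = p ^ 2) (h0 : N ≠ ⊥) (h1 : N ≠ ⊤) :
    Module.finrank (ZMod p) N = 1 := by
  have hp : p.Prime := Fact.out
  have hfin : Finite V := Nat.finite_of_card_ne_zero (by
    rw [hcard]; exact pow_ne_zero _ hp.ne_zero)
  have hfd : Module.Finite (ZMod p) V := Module.Finite.of_finite
  have h2 := finrank_eq_two (p := p) hcard
  have h3 : Module.finrank (ZMod p) N < 2 := by
    rw [← h2]
    exact Submodule.finrank_lt h1
  have h4 : Module.finrank (ZMod p) N ≠ 0 := by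
    intro h
    exact h0 (Submodule.finrank_eq_zero.mp h)
  omega

variable [DistribMulAction GQ V]

lemma smul_zmod_smul (σ : GQ) (c : ZMod p) (x : V) : σ • (c • x) = c • (σ • x) :=
  ZMod.map_smul (DistribSMul.toAddMonoidHom V σ) c x

/-- the subgroup acting trivially on `N`. -/
def fixSub : Subgroup GQ where
  carrier := {σ | ∀ x ∈ N, σ • x = x}
  one_mem' := fun x _ => one_smul _ x
  mul_mem' := by
    intro a b ha hb x hx
    rw [mul_smul, hb x hx, ha x hx]
  inv_mem' := by
    intro a ha x hx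
    rw [inv_smul_eq_iff, ha x hx]

/-- the subgroup acting trivially on `V/N`. -/
def fixQuot (hN : ∀ σ : GQ, ∀ x ∈ N, σ • x ∈ N) : Subgroup GQ where
  carrier := {σ | ∀ x : V, σ • x - x ∈ N}
  one_mem' := fun x => by rw [one_smul, sub_self]; exact N.zero_mem
  mul_mem' := by
    intro a b ha hb x
    have : (a * b) • x - x = (a • (b • x) - b • x) + (b • x - x) := by
      rw [mul_smul]; abel
    rw [this]
    exact N.add_mem (ha _) (hb _)
  inv_mem' := by
    intro a ha x
    have : a⁻¹ • x - x = - (a⁻¹ • (a • x - x)) := by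
      rw [smul_sub, inv_smul_smul]; abel
    rw [this]
    exact N.neg_mem (hN _ _ (ha x))

lemma normal_fixSub (hN : ∀ σ : GQ, ∀ x ∈ N, σ • x ∈ N) : (fixSub N).Normal := by
  constructor
  intro a ha g x hx
  rw [mul_smul, mul_smul, ha _ (hN _ _ hx), smul_inv_smul]

lemma normal_fixQuot (hN : ∀ σ : GQ, ∀ x ∈ N, σ • x ∈ N) : (fixQuot N hN).Normal := by
  constructor
  intro a ha g x
  have : (g * a * g⁻¹) • x - x = g • (a • (g⁻¹ • x) - g⁻¹ • x) := by
    rw [smul_sub, smul_inv_smul, mul_smul, mul_smul]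
  rw [this]
  exact hN _ _ (ha _)

lemma isOpen_inf_stabilizer [Finite V]
    (hopen : ∀ x : V, IsOpen (MulAction.stabilizer GQ x : Set GQ)) :
    IsOpen ((⨅ x : V, MulAction.stabilizer GQ x : Subgroup GQ) : Set GQ) := by
  rw [Subgroup.coe_iInf]
  exact isOpen_iInter_of_finite hopen

/-- The dichotomy. -/
theorem dichotomy (hcard : Nat.card V = p ^ 2)
    (hopen : ∀ x : V, IsOpen (MulAction.stabilizer GQ x : Set GQ))
    (hN : ∀ σ : GQ, ∀ x ∈ N, σ • x ∈ N) (h0 : N ≠ ⊥) (h1 : N ≠ ⊤)
    (hℓ : ∀ ℓ : ℕ, ℓ.Prime → ℓ ≠ p → ∀ A : ValuationSubring (AlgebraicClosure ℚ),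
      A.LiesOverPrime ℓ → ∀ σ ∈ A.inertiaSubgroupIn ℚ, ∀ x : V, σ • (σ • x - x) = σ • x - x)
    (A₀ : ValuationSubring (AlgebraicClosure ℚ)) (hA₀ : A₀.LiesOverPrime p)
    (L : Submodule (ZMod p) V) (hL1 : L ≠ ⊤)
    (hL : ∀ σ ∈ A₀.inertiaSubgroupIn ℚ, ∀ x : V, σ • x - x ∈ L) :
    (∀ σ : GQ, ∀ x ∈ N, σ • x = x) ∨ (∀ σ : GQ, ∀ x : V, σ • x - x ∈ N) := by
  have hp : p.Prime := Fact.out
  have hfin : Finite V := Nat.finite_of_card_ne_zero (by
    rw [hcard]; exact pow_ne_zero _ hp.ne_zero)
  have hfd : Module.Finite (ZMod p) V := Module.Finite.of_finite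
  have hdN := finrank_eq_one N hcard h0 h1
  have hdV := finrank_eq_two (p := p) hcard
  have hopenI := isOpen_inf_stabilizer hopen
  have hleSub : (⨅ x : V, MulAction.stabilizer GQ x : Subgroup GQ) ≤ fixSub N := by
    intro σ hσ x _
    exact (Subgroup.mem_iInf.mp hσ x)
  have hleQuot : (⨅ x : V, MulAction.stabilizer GQ x : Subgroup GQ) ≤ fixQuot N hN := by
    intro σ hσ x
    have : σ • x = x := (Subgroup.mem_iInf.mp hσ x)
    rw [this, sub_self]
    exact N.zero_mem
  have hoSub : IsOpen (fixSub N : Set GQ) := Subgroup.isOpen_mono hleSub hopenI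
  have hoQuot : IsOpen (fixQuot N hN : Set GQ) := Subgroup.isOpen_mono hleQuot hopenI
  have hnSub := normal_fixSub N hN
  have hnQuot := normal_fixQuot N hN
  -- unipotent elements act trivially on `N` and on `V/N`
  have hunip : ∀ σ : GQ, (∀ x : V, σ • (σ • x - x) = σ • x - x) → σ ∈ fixSub N := by
    intro σ hσ x hx
    by_cases hx0 : x = 0
    · rw [hx0, smul_zero]
    obtain ⟨c, hc⟩ := (finrank_eq_one_iff_of_nonzero' (⟨x, hx⟩ : N)
      (fun h => hx0 (congrArg Subtype.val h))).mp hdN ⟨σ • x, hN σ x hx⟩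
    have hc' : c • x = σ • x := congrArg Subtype.val hc
    have h2 := hσ x
    rw [smul_sub, ← hc', smul_zmod_smul, ← hc'] at h2
    have h3 : ((c - 1) * (c - 1)) • x = 0 := by
      have : ((c - 1) * (c - 1)) • x = (c • c • x - c • x) - (c • x - x) := by module
      rw [this, h2, sub_self]
    rcases smul_eq_zero.mp h3 with h4 | h4
    · have h5 : c - 1 = 0 := mul_self_eq_zero.mp h4
      have h6 : c = 1 := sub_eq_zero.mp h5
      rw [← hc', h6, one_smul]
    · exact absurd h4 hx0
  have hunip' : ∀ σ : GQ, (∀ x : V, σ • (σ • x - x) = σ • x - x) → σ ∈ fixQuot N hN := by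
    intro σ hσ x
    by_cases hx : x ∈ N
    · exact N.sub_mem (hN _ _ hx) hx
    have hdQ : Module.finrank (ZMod p) (V ⧸ N) = 1 := by
      have := Submodule.finrank_quotient_add_finrank N
      omega
    have hx0 : (Submodule.Quotient.mk x : V ⧸ N) ≠ 0 := by
      rwa [Ne, Submodule.Quotient.mk_eq_zero]
    obtain ⟨c, hc⟩ := (finrank_eq_one_iff_of_nonzero' (Submodule.Quotient.mk x : V ⧸ N) hx0).mp
      hdQ (Submodule.Quotient.mk (σ • x))
    replace hc : σ • x - c • x ∈ N := (Submodule.Quotient.eq N).mp hc.symm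
    -- σ x = c x + n
    obtain ⟨n, hn⟩ : ∃ n, n = σ • x - c • x := ⟨_, rfl⟩
    rw [← hn] at hc
    have hσx : σ • x = c • x + n := by rw [hn]; abel
    have hfixn : σ • n = n := hunip σ hσ n hc
    have h2 := hσ x
    have h3 : σ • x - x = (c - 1) • x + n := by
      rw [hσx, sub_smul, one_smul]; abel
    rw [h3, smul_add, hfixn, smul_zmod_smul, hσx, smul_add, ← mul_smul] at h2
    have h4 : ((c - 1) * c) • x + (c - 1) • n = (c - 1) • x := add_right_cancel h2
    have h5 : ((c - 1) * (c - 1)) • x = - ((c - 1) • n) := by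
      have h8 : ((c - 1) * (c - 1)) • x = ((c - 1) * c) • x - (c - 1) • x := by module
      rw [h8, ← h4]; abel
    have h6 : ((c - 1) * (c - 1)) • x ∈ N := by
      rw [h5]; exact N.neg_mem (N.smul_mem _ hc)
    have h7 : c = 1 := by
      by_contra hne
      have hu : (c - 1) * (c - 1) ≠ 0 := mul_ne_zero (sub_ne_zero.mpr hne) (sub_ne_zero.mpr hne)
      exact hx ((N.smul_mem_iff hu).mp h6)
    rw [h3, h7, sub_self, zero_smul, zero_add]
    exact hc
  -- all places above `p` are conjugate
  have hconj : ∀ (H : Subgroup GQ), H.Normal → A₀.inertiaSubgroupIn ℚ ≤ H →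
      ∀ A : ValuationSubring (AlgebraicClosure ℚ), A.LiesOverPrime p →
        A.inertiaSubgroupIn ℚ ≤ H := by
    intro H hH hle A hA σ hσ
    obtain ⟨g, rfl⟩ := exists_smul_eq hp hA₀ hA
    have h2 := hle (conj_mem_inertia hσ)
    have h3 := hH.conj_mem _ h2 g
    have h4 : g * (g⁻¹ * σ * g) * g⁻¹ = σ := by group
    rwa [h4] at h3
  by_cases hNL : N ≤ L
  · -- `L = N`
    right
    have hLN : L = N := by
      have hL0 : L ≠ ⊥ := fun h => h0 (le_bot_iff.mp (h ▸ hNL))
      have hdL := finrank_eq_one L hcard hL0 hL1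
      exact (Submodule.eq_of_le_of_finrank_eq hNL (by rw [hdN, hdL])).symm
    have htop : fixQuot N hN = ⊤ := by
      apply eq_top_of_inertia_le _ hoQuot
      intro ℓ hℓp A hA
      by_cases hℓ' : ℓ = p
      · subst hℓ'
        refine hconj _ hnQuot ?_ A hA
        intro σ hσ x
        rw [← hLN]
        exact hL σ hσ x
      · intro σ hσ
        exact hunip' σ (hℓ ℓ hℓp hℓ' A hA σ hσ)
    intro σ x
    have : σ ∈ fixQuot N hN := htop ▸ Subgroup.mem_top σ
    exact this x
  · left
    have hdisj : ∀ x ∈ N, x ∈ L → x = 0 := by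
      intro x hxN hxL
      by_contra hx0
      apply hNL
      intro y hy
      obtain ⟨c, hc⟩ := (finrank_eq_one_iff_of_nonzero' (⟨x, hxN⟩ : N)
        (fun h => hx0 (congrArg Subtype.val h))).mp hdN ⟨y, hy⟩
      have hc' : c • x = y := congrArg Subtype.val hc
      rw [← hc']
      exact L.smul_mem _ hxL
    have htop : fixSub N = ⊤ := by
      apply eq_top_of_inertia_le _ hoSub
      intro ℓ hℓp A hA
      by_cases hℓ' : ℓ = p
      · subst hℓ'
        refine hconj _ hnSub ?_ A hA
        intro σ hσ x hx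
        have := hdisj _ (N.sub_mem (hN σ x hx) hx) (hL σ hσ x)
        exact sub_eq_zero.mp this
      · intro σ hσ
        exact hunip σ (hℓ ℓ hℓp hℓ' A hA σ hσ)
    intro σ x hx
    have : σ ∈ fixSub N := htop ▸ Subgroup.mem_top σ
    exact this x hx

end rep

end Fermat.Agent.S13aux
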