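import Fermat.Agent.MultRed.InertiaTwo
import Fermat.Agent.MultRed.InertiaVal
import Fermat.Agent.Frey.CurveInt

/-!
S13, part (2): inertia at `2` acts unipotently on the `p`-torsion of the Frey curve.
-/

set_option autoImplicit false

namespace Fermat.Agent.S13two

open WeierstrassCurve WeierstrassCurve.Affine WeierstrassCurve.Affine.Point
open Fermat.Agent.MultRed

theorem nodeTwo_frey_gen (P : FreyPackage) {L : Type*} [Field L] [Algebra ℚ L] [CharZero L]
    {Γ₀ : Type*} [LinearOrderedCommGroupWithZero Γ₀] (v : Valuation L Γ₀)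
    (h2 : v (2 : L) < 1) (hint : ∀ c : ℤ, v (c : L) ≤ 1) :
    NodeTwo v ((P.freyCurve⁄L : WeierstrassCurve L) : Affine L) := by
  refine ⟨?_, ?_, ?_, ?_, ?_, ?_, h2⟩
  · simp [FreyPackage.freyCurve, WeierstrassCurve.baseChange]
  · simp [FreyPackage.freyCurve, WeierstrassCurve.baseChange]
  · simp [FreyPackage.freyCurve, WeierstrassCurve.baseChange]
  · obtain ⟨c, hc⟩ := Frey.four_dvd_a₂ P
    have e : (P.freyCurve⁄L).a₂ = (c : L) := by
      have h1 : P.freyCurve.a₂ = (c : ℚ) := by
        simp only [FreyPackage.freyCurve]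
        have : ((P.b ^ P.p - 1 - P.a ^ P.p : ℤ) : ℚ) = ((4 * c : ℤ) : ℚ) := by rw [hc]
        push_cast at this
        rw [this]; ring
      simp only [WeierstrassCurve.baseChange, WeierstrassCurve.map_a₂, h1]
      exact map_intCast _ c
    rw [e]
    exact hint c
  · obtain ⟨c, hc⟩ := Frey.thirtytwo_dvd_b_pow P
    have e : (P.freyCurve⁄L).a₄ = 2 * ((-(P.a ^ P.p) * c : ℤ) : L) := by
      have h1 : P.freyCurve.a₄ = ((2 * (-(P.a ^ P.p) * c) : ℤ) : ℚ) := by
        simp only [FreyPackage.freyCurve]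
        have : ((P.b ^ P.p : ℤ) : ℚ) = ((32 * c : ℤ) : ℚ) := by rw [hc]
        push_cast at this
        push_cast
        rw [this]; ring
      simp only [WeierstrassCurve.baseChange, WeierstrassCurve.map_a₄, h1]
      rw [map_intCast]
      push_cast
      ring
    rw [e, _root_.map_mul]
    exact mul_lt_one_of_lt_of_le h2 (hint _)
  · have h1 : P.freyCurve.a₄ ≠ 0 := by
      simp only [FreyPackage.freyCurve]
      have ha : (P.a : ℚ) ≠ 0 := Int.cast_ne_zero.mpr P.ha0
      have hb : (P.b : ℚ) ≠ 0 := Int.cast_ne_zero.mpr P.hb0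
      have := pow_ne_zero P.p ha
      have := pow_ne_zero P.p hb
      simp_all
    simp only [WeierstrassCurve.baseChange, WeierstrassCurve.map_a₄]
    exact (map_ne_zero _).mpr h1

theorem nodeTwo_frey (P : FreyPackage) {L : Type*} [Field L] [Algebra ℚ L] [CharZero L]
    (A : ValuationSubring L) (hA : A.LiesOverPrime 2) :
    NodeTwo A.valuation ((P.freyCurve⁄L : WeierstrassCurve L) : Affine L) := by
  have h2 : A.valuation (2 : L) < 1 := by
    have : ((2 : ℕ) : L) ∈ A.nonunits := hA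
    rw [ValuationSubring.mem_nonunits_iff] at this
    exact_mod_cast this
  refine nodeTwo_frey_gen P _ h2 ?_
  intro c
  rw [A.valuation_le_one_iff]
  exact intCast_mem A c

/-- Inertia at `2` acts unipotently on odd torsion points of the Frey curve. -/
theorem smul_smul_sub_point (P : FreyPackage) {n : ℕ} (hn : Odd n)
    (A : ValuationSubring (AlgebraicClosure ℚ))
    (hA : A.LiesOverPrime 2) {σ : AlgebraicClosure ℚ ≃ₐ[ℚ] AlgebraicClosure ℚ}
    (hσ : σ ∈ A.inertiaSubgroupIn ℚ)
    (x : (P.freyCurve⁄(AlgebraicClosure ℚ)).Point) (hx : n • x = 0) :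
    σ • (σ • x - x) = σ • x - x := by
  have H := nodeTwo_frey P A hA
  exact H.unipotent hn (σ : AlgebraicClosure ℚ ≃ₐ[ℚ] AlgebraicClosure ℚ).toRingEquiv.toRingHom
    (Point.map (W' := P.freyCurve) σ.toAlgHom)
    (fun x y h => ⟨_, rfl⟩) (fun x => val_inertia_eq hσ x) (fun x hx => val_inertia_sub hσ x hx)
    x hx

/-- Inertia at `2` acts unipotently on the `p`-torsion of the Frey curve. -/
theorem smul_smul_sub (P : FreyPackage) (A : ValuationSubring (AlgebraicClosure ℚ))
    (hA : A.LiesOverPrime 2) (σ : AlgebraicClosure ℚ ≃ₐ[ℚ] AlgebraicClosure ℚ)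
    (hσ : σ ∈ A.inertiaSubgroupIn ℚ)
    (x : Submodule.torsionBy ℤ (P.freyCurve⁄(AlgebraicClosure ℚ)).Point P.p) :
    σ • (σ • x - x) = σ • x - x := by
  apply Subtype.ext
  have h := (Submodule.mem_torsionBy_iff _ _).mp x.2
  rw [natCast_zsmul] at h
  exact smul_smul_sub_point P P.hp_odd A hA hσ (x : (P.freyCurve⁄(AlgebraicClosure ℚ)).Point) h

end Fermat.Agent.S13two
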