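import Fermat.Agent.MultRed.RatTwo
import Fermat.Agent.S13_Inertia2

/-!
S13, part (5): the Frey curve has no rational point of order `p`.
-/

set_option autoImplicit false

namespace Fermat.Agent.S13five

open WeierstrassCurve WeierstrassCurve.Affine WeierstrassCurve.Affine.Point
open Fermat.Agent.MultRed

theorem padicVal_a₄ (P : FreyPackage) :
    padicValRat 2 (P.freyCurve⁄ℚ).a₄ = P.p * padicValRat 2 (P.b : ℚ) - 4 := by
  have ha : (P.a : ℚ) ≠ 0 := Int.cast_ne_zero.mpr P.ha0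
  have hb : (P.b : ℚ) ≠ 0 := Int.cast_ne_zero.mpr P.hb0
  have hap := pow_ne_zero P.p ha
  have hbp := pow_ne_zero P.p hb
  have e : (P.freyCurve⁄ℚ).a₄ = -(P.a ^ P.p : ℚ) * P.b ^ P.p / 16 := by
    simp [WeierstrassCurve.baseChange, FreyPackage.freyCurve]
  have w16 : padicValRat 2 16 = 4 := by
    have h : (16 : ℚ) = 2 ^ 4 := by norm_num
    rw [h, padicValRat.pow, w_two]
    norm_num
  have wa : padicValRat 2 (P.a : ℚ) = 0 := by
    rw [padicValRat.of_int, padicValInt.eq_zero_of_not_dvd]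
    · rfl
    · have := Frey.four_dvd_a_add_one P
      push_cast
      omega
  rw [e, padicValRat.div (mul_ne_zero (neg_ne_zero.mpr hap) hbp) (by norm_num),
    padicValRat.mul (neg_ne_zero.mpr hap) hbp, padicValRat.neg, padicValRat.pow, padicValRat.pow,
    wa, w16]
  ring

theorem nodeTwo_frey_rat (P : FreyPackage) :
    NodeTwo (Rat.padicValuation 2) ((P.freyCurve⁄ℚ : WeierstrassCurve ℚ) : Affine ℚ) := by
  refine S13two.nodeTwo_frey_gen P _ ?_ ?_
  · rw [v₂_lt_one (by norm_num), w_two]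
    norm_num
  · intro c
    rw [Rat.padicValuation_cast]
    exact Int.padicValuation_le_one 2 c

/-- The Frey curve has no rational point of order `p`. -/
theorem no_rational_point (P : FreyPackage) (Q : (P.freyCurve⁄ℚ).Point) (hQ : P.p • Q = 0) :
    Q = 0 := by
  have hp5 := P.hp5
  refine no_odd_point (nodeTwo_frey_rat P) P.hp_odd ?_ ?_ Q hQ
  · rw [Nat.coprime_primes Nat.prime_three P.pp]
    omega
  · rw [padicVal_a₄]
    refine (Nat.Prime.coprime_iff_not_dvd P.pp).mpr ?_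
    intro hd
    have h1 : (P.p : ℤ) ∣ 2 * (P.p * padicValRat 2 (P.b : ℚ) - 4) :=
      Int.natCast_dvd.mpr hd
    have h2 : (P.p : ℤ) ∣ 8 := by
      have h3 : (P.p : ℤ) ∣ P.p * (2 * padicValRat 2 (P.b : ℚ)) := dvd_mul_right _ _
      have h4 := dvd_sub h3 h1
      have e : (P.p : ℤ) * (2 * padicValRat 2 (P.b : ℚ)) -
        2 * (P.p * padicValRat 2 (P.b : ℚ) - 4) = 8 := by ring
      rwa [e] at h4
    have h3 : P.p ∣ 2 ^ 3 := by exact_mod_cast h2
    have h4 := (Nat.prime_dvd_prime_iff_eq P.pp Nat.prime_two).mp (P.pp.dvd_of_dvd_pow h3)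
    omega

/-- A Galois-fixed element of `ℚ̄` is rational. -/
theorem exists_rat_of_fixed {z : AlgebraicClosure ℚ}
    (hz : ∀ σ : AlgebraicClosure ℚ ≃ₐ[ℚ] AlgebraicClosure ℚ, σ z = z) :
    ∃ r : ℚ, algebraMap ℚ (AlgebraicClosure ℚ) r = z := by
  have : IsGalois ℚ (AlgebraicClosure ℚ) := inferInstance
  have h : z ∈ (⊥ : IntermediateField ℚ (AlgebraicClosure ℚ)) :=
    (InfiniteGalois.mem_bot_iff_fixed z).mpr hz
  obtain ⟨r, hr⟩ := IntermediateField.mem_bot.mp h
  exact ⟨r, hr⟩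

/-- A Galois-fixed point of order dividing `p` on the Frey curve is zero. -/
theorem fixed_point_eq_zero (P : FreyPackage) (Q : (P.freyCurve⁄(AlgebraicClosure ℚ)).Point)
    (hfix : ∀ σ : AlgebraicClosure ℚ ≃ₐ[ℚ] AlgebraicClosure ℚ, σ • Q = Q)
    (hQ : P.p • Q = 0) : Q = 0 := by
  let φ : (P.freyCurve⁄ℚ).Point →+ (P.freyCurve⁄(AlgebraicClosure ℚ)).Point :=
    Point.map (W' := P.freyCurve) (Algebra.ofId ℚ (AlgebraicClosure ℚ))
  have hφ : Function.Injective φ := Point.map_injective _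
  obtain ⟨Q₀, hQ₀⟩ : ∃ Q₀, φ Q₀ = Q := by
    match Q, hfix with
    | .zero, _ => exact ⟨0, rfl⟩
    | Point.some x y h, hfix =>
      have hx : ∀ σ : AlgebraicClosure ℚ ≃ₐ[ℚ] AlgebraicClosure ℚ, σ x = x := by
        intro σ
        have h1 := hfix σ
        rw [algEquiv_smul_def, Point.map_some] at h1
        simp only [some.injEq] at h1
        exact h1.1
      have hy : ∀ σ : AlgebraicClosure ℚ ≃ₐ[ℚ] AlgebraicClosure ℚ, σ y = y := by
        intro σ
        have h1 := hfix σ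
        rw [algEquiv_smul_def, Point.map_some] at h1
        simp only [some.injEq] at h1
        exact h1.2
      obtain ⟨x₀, rfl⟩ := exists_rat_of_fixed hx
      obtain ⟨y₀, rfl⟩ := exists_rat_of_fixed hy
      have h₀ : (P.freyCurve⁄ℚ).Nonsingular x₀ y₀ :=
        (baseChange_nonsingular (W := P.freyCurve) (f := Algebra.ofId ℚ (AlgebraicClosure ℚ))
          (RingHom.injective _) x₀ y₀).mp h
      exact ⟨Point.some x₀ y₀ h₀, rfl⟩
  rw [← hQ₀, ← map_nsmul] at hQ
  have h1 : P.p • Q₀ = 0 := hφ (by rw [hQ, _root_.map_zero])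
  rw [← hQ₀, no_rational_point P Q₀ h1, _root_.map_zero]

/-- A Galois-fixed `p`-torsion point on the Frey curve is zero. -/
theorem fixed_torsion_eq_zero (P : FreyPackage)
    (x : Submodule.torsionBy ℤ (P.freyCurve⁄(AlgebraicClosure ℚ)).Point P.p)
    (hfix : ∀ σ : AlgebraicClosure ℚ ≃ₐ[ℚ] AlgebraicClosure ℚ, σ • x = x) : x = 0 := by
  apply Subtype.ext
  have h := (Submodule.mem_torsionBy_iff _ _).mp x.2
  rw [natCast_zsmul] at h
  exact fixed_point_eq_zero P (x : (P.freyCurve⁄(AlgebraicClosure ℚ)).Point)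
    (fun σ => congrArg Subtype.val (hfix σ)) h

end Fermat.Agent.S13five
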