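import Fermat.Agent.S13_AtP
import Fermat.Agent.S13_Dichotomy
import Fermat.Agent.S13_Inertia2
import Fermat.Agent.S13_NoRationalPoint
import Fermat.Prelude.Def_FLTPrelim_CofixedLine

/-!
# S13: assembly
-/

set_option autoImplicit false

namespace Fermat.Agent.S13aux

open WeierstrassCurve WeierstrassCurve.Affine WeierstrassCurve.Affine.Point
open Fermat.Agent.Frob Fermat.Agent.Torsion

lemma freyCurve_Δ_ne_zero (P : FreyPackage) : P.freyCurve.Δ ≠ 0 := by
  rw [← Frey.freyCurveInt_map, WeierstrassCurve.map_Δ]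
  simpa using Frey.freyCurveInt_Δ_ne_zero P

/-- The `b`-invariants of the Frey curve are integral. -/
lemma frey_b_le (P : FreyPackage) (A : ValuationSubring (AlgebraicClosure ℚ)) :
    A.valuation (P.freyCurve⁄(AlgebraicClosure ℚ)).b₂ ≤ 1 ∧
    A.valuation (P.freyCurve⁄(AlgebraicClosure ℚ)).b₄ ≤ 1 ∧
    A.valuation (P.freyCurve⁄(AlgebraicClosure ℚ)).b₆ ≤ 1 ∧
    A.valuation (P.freyCurve⁄(AlgebraicClosure ℚ)).b₈ ≤ 1 := by
  have h : (P.freyCurve⁄(AlgebraicClosure ℚ)) =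
      (P.freyCurveInt.map (Int.castRingHom ℚ)).map (algebraMap ℚ (AlgebraicClosure ℚ)) := by
    rw [Frey.freyCurveInt_map]
    rfl
  rw [h]
  refine ⟨?_, ?_, ?_, ?_⟩
  · rw [WeierstrassCurve.map_b₂, WeierstrassCurve.map_b₂]
    exact val_baseChange_int A rfl
  · rw [WeierstrassCurve.map_b₄, WeierstrassCurve.map_b₄]
    exact val_baseChange_int A rfl
  · rw [WeierstrassCurve.map_b₆, WeierstrassCurve.map_b₆]
    exact val_baseChange_int A rfl
  · rw [WeierstrassCurve.map_b₈, WeierstrassCurve.map_b₈]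
    exact val_baseChange_int A rfl

lemma frey_val_Δ_eq_one (P : FreyPackage) {q : ℕ} (hq : q.Prime)
    {A : ValuationSubring (AlgebraicClosure ℚ)} (hA : A.LiesOverPrime q)
    (hnd : ¬ (q : ℤ) ∣ P.a * P.b * P.c) :
    A.valuation (P.freyCurve⁄(AlgebraicClosure ℚ)).Δ = 1 := by
  have h : (P.freyCurve⁄(AlgebraicClosure ℚ)) =
      (P.freyCurveInt.map (Int.castRingHom ℚ)).map (algebraMap ℚ (AlgebraicClosure ℚ)) := by
    rw [Frey.freyCurveInt_map]
    rfl
  rw [h, WeierstrassCurve.map_Δ, WeierstrassCurve.map_Δ]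
  have h2 : algebraMap ℚ (AlgebraicClosure ℚ) ((Int.castRingHom ℚ) P.freyCurveInt.Δ) =
      ((P.freyCurveInt.Δ : ℤ) : AlgebraicClosure ℚ) := map_intCast _ _
  rw [h2]
  exact val_eq_one_of_not_dvd hq hA (fun hd => hnd (Frey.dvd_abc_of_dvd_Δ P hq hd))

/-- Assembly of S13 from the unramifiedness away from `2 p` (S05) and the multiplicative case at
`p`. -/
theorem cofixed_of (P : FreyPackage)
    (hunr : ∀ q : ℕ, q.Prime → q ≠ 2 → q ≠ P.p → P.GaloisRepUnramifiedAt q)
    (hmult : ∀ A : ValuationSubring (AlgebraicClosure ℚ), A.LiesOverPrime P.p →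
      (P.p : ℤ) ∣ P.a * P.b * P.c → ∀ σ ∈ A.inertiaSubgroupIn ℚ,
      ∀ x : Submodule.torsionBy ℤ (P.freyCurve⁄(AlgebraicClosure ℚ)).Point P.p,
        InE1 A.valuation ((x - σ • x : Submodule.torsionBy ℤ
          (P.freyCurve⁄(AlgebraicClosure ℚ)).Point P.p) :
            (P.freyCurve⁄(AlgebraicClosure ℚ)).Point))
    (hred : ¬ GaloisRepIsIrreducible (K := AlgebraicClosure ℚ) ℚ P.freyCurve P.p) :
    HasGaloisStableCofixedLine (K := AlgebraicClosure ℚ) ℚ P.freyCurve P.p := by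
  have hpF : Fact P.p.Prime := ⟨P.pp⟩
  have hΔ := freyCurve_Δ_ne_zero P
  have hp5 := P.hp5
  have hcard : Nat.card (Submodule.torsionBy ℤ (P.freyCurve⁄(AlgebraicClosure ℚ)).Point P.p) =
      P.p ^ 2 := card_torsionBy_rat hΔ P.hp0
  have hfin : Finite (Submodule.torsionBy ℤ (P.freyCurve⁄(AlgebraicClosure ℚ)).Point P.p) :=
    finite_torsionBy_rat hΔ P.hp0
  have hnt : Nontrivial (Submodule.torsionBy ℤ (P.freyCurve⁄(AlgebraicClosure ℚ)).Point P.p) := by
    rw [← Finite.one_lt_card_iff_nontrivial, hcard]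
    exact one_lt_pow₀ P.pp.one_lt (by norm_num)
  -- the stable line
  obtain ⟨N, hN, hN0, hN1⟩ : ∃ N : Submodule (ZMod P.p)
      (Submodule.torsionBy ℤ (P.freyCurve⁄(AlgebraicClosure ℚ)).Point P.p),
      IsGaloisStable ℚ N ∧ N ≠ ⊥ ∧ N ≠ ⊤ := by
    by_contra hcon
    apply hred
    refine ⟨hnt, fun N hN => ?_⟩
    by_contra h
    rw [not_or] at h
    exact hcon ⟨N, hN, h.1, h.2⟩
  have hNrank := finrank_eq_one N hcard hN0 hN1
  have hNcard : Nat.card N = P.p := by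
    have h1 := Module.natCard_eq_pow_finrank (K := ZMod P.p) (V := N)
    rw [hNrank, pow_one, Nat.card_eq_fintype_card (α := ZMod P.p), ZMod.card] at h1
    exact h1
  -- open stabilizers
  have hopen : ∀ x : Submodule.torsionBy ℤ (P.freyCurve⁄(AlgebraicClosure ℚ)).Point P.p,
      IsOpen (MulAction.stabilizer GQ x : Set GQ) := by
    intro x
    obtain ⟨F, hF, hFix⟩ := galoisRep_factors hΔ P.hp0
    have hle : F.fixingSubgroup ≤ MulAction.stabilizer GQ x := by
      intro σ hσ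
      have h1 := hFix σ (fun z hz => hσ ⟨z, hz⟩)
      have h2 := congrArg (fun f => f x) h1
      exact h2
    exact Subgroup.isOpen_mono hle (IntermediateField.fixingSubgroup_isOpen F)
  -- inertia away from `p`
  have hℓ : ∀ ℓ : ℕ, ℓ.Prime → ℓ ≠ P.p → ∀ A : ValuationSubring (AlgebraicClosure ℚ),
      A.LiesOverPrime ℓ → ∀ σ ∈ A.inertiaSubgroupIn ℚ,
      ∀ x : Submodule.torsionBy ℤ (P.freyCurve⁄(AlgebraicClosure ℚ)).Point P.p,
        σ • (σ • x - x) = σ • x - x := by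
    intro ℓ hℓp hne A hA σ hσ x
    by_cases h2 : ℓ = 2
    · subst h2
      exact S13two.smul_smul_sub P A hA σ hσ x
    · have h3 := hunr ℓ hℓp h2 hne A hA σ hσ
      have h4 : σ • x - x = 0 := sub_eq_zero.mpr (h3 x)
      rw [h4, smul_zero]
  obtain ⟨A₀, hA₀⟩ := exists_liesOverPrime P.p P.pp
  obtain ⟨hb2, hb4, hb6, hb8⟩ := frey_b_le P A₀
  let L : Submodule (ZMod P.p)
      (Submodule.torsionBy ℤ (P.freyCurve⁄(AlgebraicClosure ℚ)).Point P.p) :=
    AddSubgroup.toZModSubmodule P.p ((E1 A₀.valuation _ hb2 hb4 hb6 hb8).comap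
      (Submodule.torsionBy ℤ (P.freyCurve⁄(AlgebraicClosure ℚ)).Point P.p).subtype.toAddMonoidHom)
  have hLmem : ∀ x : Submodule.torsionBy ℤ (P.freyCurve⁄(AlgebraicClosure ℚ)).Point P.p,
      x ∈ L ↔ InE1 A₀.valuation (x : (P.freyCurve⁄(AlgebraicClosure ℚ)).Point) := fun x => Iff.rfl
  have hL1 : L ≠ ⊤ := by
    obtain ⟨x, hx⟩ := exists_not_inE1 P.freyCurveInt (Frey.freyCurveInt_Δ_ne_zero P) P.freyCurve
      (Frey.freyCurveInt_map P).symm P.pp (by omega) hA₀ N hN hN0 hNcard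
    intro h
    exact hx ((hLmem x).mp (h ▸ Submodule.mem_top))
  have hL : ∀ σ ∈ A₀.inertiaSubgroupIn ℚ,
      ∀ x : Submodule.torsionBy ℤ (P.freyCurve⁄(AlgebraicClosure ℚ)).Point P.p,
        σ • x - x ∈ L := by
    intro σ hσ x
    rw [← neg_sub]
    refine L.neg_mem ?_
    rw [hLmem]
    by_cases hd : (P.p : ℤ) ∣ P.a * P.b * P.c
    · exact hmult A₀ hA₀ hd σ hσ x
    · have hvΔ := frey_val_Δ_eq_one P P.pp hA₀ hd
      have hv2 : A₀.valuation (2 : AlgebraicClosure ℚ) = 1 := by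
        have : ¬ (P.p : ℤ) ∣ 2 := by
          intro h
          have := Int.le_of_dvd (by norm_num) h
          omega
        exact_mod_cast val_eq_one_of_not_dvd P.pp hA₀ this
      have hxt := (mem_torsionBy_nat_iff P.p _).mp x.2
      rcases hx : (x : (P.freyCurve⁄(AlgebraicClosure ℚ)).Point) with _ | ⟨X, Y, h⟩
      · have hx0 : x = 0 := Subtype.ext hx
        rw [hx0, smul_zero, sub_zero]
        exact inE1_zero
      · have e1 : ((x - σ • x : Submodule.torsionBy ℤ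
            (P.freyCurve⁄(AlgebraicClosure ℚ)).Point P.p) :
              (P.freyCurve⁄(AlgebraicClosure ℚ)).Point) =
            (x : (P.freyCurve⁄(AlgebraicClosure ℚ)).Point) -
              Point.map σ.toAlgHom (x : (P.freyCurve⁄(AlgebraicClosure ℚ)).Point) := rfl
        rw [e1, hx, map_some]
        rw [hx] at hxt
        refine sub_inE1_good hv2 hb2 hb4 hb6 hb8 hvΔ (σ : AlgebraicClosure ℚ →+* AlgebraicClosure ℚ)
          (fun z => MultRed.val_inertia_eq hσ z) (fun z hz => MultRed.val_inertia_sub hσ z hz)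
          h _ ?_ ?_ P.hp_odd hxt
        · exact σ.commutes _
        · exact σ.commutes _
  rcases dichotomy N hcard hopen hN hN0 hN1 hℓ A₀ hA₀ L hL1 hL with hfix | hquot
  · exfalso
    obtain ⟨x, hx, hx0⟩ := N.ne_bot_iff.mp hN0
    exact hx0 (S13five.fixed_torsion_eq_zero P x (fun σ => hfix σ x hx))
  · exact ⟨N, hN, hN0, hN1, hquot⟩

end Fermat.Agent.S13aux
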