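import Fermat.Agent.Frob.Exists
import Fermat.Agent.Minkowski.Inertia
import Mathlib.RingTheory.Polynomial.Eisenstein.Basic
import Mathlib.RingTheory.Polynomial.GaussLemma
import Mathlib.FieldTheory.PrimitiveElement

/-!
# The Eisenstein trick

If `f ∈ ℤ[X]` has leading coefficient `p` and no root of `f` in `ℚ̄` is integral at a place `A`
above `p`, then the reverse of `f` is an Eisenstein polynomial at `p`.
Hence all roots have degree `natDegree f` over `ℚ`.
-/

set_option autoImplicit false

namespace Fermat.Agent.S13aux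

open Polynomial Fermat.Agent.Frob

/-- coefficients of a product of `X - z` with `v z < 1`. -/
lemma coeff_prod_X_sub_C {L : Type*} [Field L] {Γ : Type*} [LinearOrderedCommGroupWithZero Γ]
    (v : Valuation L Γ) (s : Multiset L) (hs : ∀ z ∈ s, v z < 1) :
    (∀ i, v (((s.map (fun z => X - C z)).prod).coeff i) ≤ 1) ∧
    (∀ i < Multiset.card s, v (((s.map (fun z => X - C z)).prod).coeff i) < 1) := by
  induction s using Multiset.induction_on with
  | empty =>
    refine ⟨fun i => ?_, fun i hi => by simp at hi⟩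
    simp only [Multiset.map_zero, Multiset.prod_zero, coeff_one]
    split_ifs
    · simp
    · simp
  | cons a s ih =>
    obtain ⟨ih1, ih2⟩ := ih (fun z hz => hs z (Multiset.mem_cons_of_mem hz))
    have ha : v a < 1 := hs a (Multiset.mem_cons_self a s)
    have key : ∀ i, v (((Multiset.map (fun z => X - C z) (a ::ₘ s)).prod).coeff i) ≤ 1 ∧
        (i < Multiset.card (a ::ₘ s) →
          v (((Multiset.map (fun z => X - C z) (a ::ₘ s)).prod).coeff i) < 1) := by
      intro i
      rw [Multiset.map_cons, Multiset.prod_cons, Multiset.card_cons]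
      have h2 : ∀ i, v (a * ((s.map (fun z => X - C z)).prod).coeff i) < 1 := by
        intro i
        rw [map_mul]
        calc v a * v (((s.map (fun z => X - C z)).prod).coeff i) ≤ v a * 1 :=
              mul_le_mul_right (ih1 i) _
          _ < 1 := by simpa using ha
      cases i with
      | zero =>
        rw [sub_mul, coeff_sub, coeff_C_mul, coeff_X_mul_zero, zero_sub, Valuation.map_neg]
        exact ⟨(h2 0).le, fun _ => h2 0⟩
      | succ i =>
        rw [sub_mul, coeff_sub, coeff_C_mul, coeff_X_mul]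
        refine ⟨(v.map_sub_le (ih1 i) (h2 _).le), fun hi => ?_⟩
        exact v.map_sub_lt (ih2 i (by omega)) (h2 _)
    exact ⟨fun i => (key i).1, fun i hi => (key i).2 hi⟩

/-- integers have `v ≤ 1` -/
lemma val_intCast_le_one (A : ValuationSubring (AlgebraicClosure ℚ)) (n : ℤ) :
    A.valuation (n : AlgebraicClosure ℚ) ≤ 1 := by
  rw [ValuationSubring.valuation_le_one_iff]
  exact intCast_mem A n

lemma val_prime_lt_one {A : ValuationSubring (AlgebraicClosure ℚ)} {p : ℕ}
    (hA : A.LiesOverPrime p) : A.valuation (p : AlgebraicClosure ℚ) < 1 := by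
  rw [← ValuationSubring.mem_nonunits_iff]
  exact hA

/-- An integer in the maximal ideal of a place above `p` is divisible by `p`. -/
lemma dvd_of_val_lt_one {A : ValuationSubring (AlgebraicClosure ℚ)} {p : ℕ} (hp : p.Prime)
    (hA : A.LiesOverPrime p) {n : ℤ} (hn : A.valuation (n : AlgebraicClosure ℚ) < 1) :
    (p : ℤ) ∣ n := by
  by_contra h
  have hcop : IsCoprime (p : ℤ) n := by
    rw [Int.isCoprime_iff_gcd_eq_one]
    have : Int.gcd p n = Nat.gcd p n.natAbs := rfl
    rw [this]
    exact (Nat.Prime.coprime_iff_not_dvd hp).mpr (fun h' => h (Int.natCast_dvd.mpr h'))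
  obtain ⟨a, b, hab⟩ := hcop
  have h1 : ((a : AlgebraicClosure ℚ) * p + b * n) = 1 := by exact_mod_cast hab
  have h2 : A.valuation ((a : AlgebraicClosure ℚ) * p + b * n) < 1 := by
    apply Valuation.map_add_lt
    · rw [map_mul]
      calc _ ≤ 1 * A.valuation (p : AlgebraicClosure ℚ) :=
            mul_le_mul_left (val_intCast_le_one A a) _
        _ < 1 := by simpa using val_prime_lt_one hA
    · rw [map_mul]
      calc _ ≤ 1 * A.valuation (n : AlgebraicClosure ℚ) :=
            mul_le_mul_left (val_intCast_le_one A b) _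
        _ < 1 := by simpa using hn
  rw [h1] at h2
  simp at h2

lemma val_eq_one_of_not_dvd {A : ValuationSubring (AlgebraicClosure ℚ)} {p : ℕ} (hp : p.Prime)
    (hA : A.LiesOverPrime p) {n : ℤ} (hn : ¬ (p : ℤ) ∣ n) :
    A.valuation (n : AlgebraicClosure ℚ) = 1 := by
  refine le_antisymm (val_intCast_le_one A n) ?_
  by_contra h
  exact hn (dvd_of_val_lt_one hp hA (not_le.mp h))

/-- **Eisenstein trick**: if `f ∈ ℤ[X]` has leading coefficient `p` and no root of `f` is integral
at the place `A` above `p`, then every root of `f` has degree `natDegree f` over `ℚ`. -/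
theorem natDegree_le_minpoly_of_forall_root {p : ℕ} (hp : p.Prime)
    {A : ValuationSubring (AlgebraicClosure ℚ)} (hA : A.LiesOverPrime p) (f : ℤ[X])
    (hlead : f.leadingCoeff = p) (hroots : ∀ x : AlgebraicClosure ℚ, aeval x f = 0 → x ∉ A)
    (x : AlgebraicClosure ℚ) (hx : aeval x f = 0) :
    f.natDegree ≤ (minpoly ℚ x).natDegree := by
  set v := A.valuation with hv
  have hp0 : (p : ℤ) ≠ 0 := by exact_mod_cast hp.ne_zero
  have hf0 : f ≠ 0 := by
    intro h
    rw [h] at hlead
    simp only [leadingCoeff_zero] at hlead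
    exact hp0 hlead.symm
  -- constant coefficient nonzero
  have hc0 : f.coeff 0 ≠ 0 := by
    intro h
    apply hroots 0 _ A.zero_mem
    rw [← coeff_zero_eq_aeval_zero', h, map_zero]
  have hnt : f.natTrailingDegree = 0 := by
    rw [natTrailingDegree_eq_zero]
    exact Or.inr hc0
  set g := f.reverse with hg
  have hgd : g.natDegree = f.natDegree := by rw [hg, reverse_natDegree, hnt, Nat.sub_zero]
  have hglead : g.leadingCoeff = f.coeff 0 := by
    rw [hg, reverse_leadingCoeff, trailingCoeff, hnt]
  have hg0 : g.coeff 0 = p := by rw [hg, coeff_zero_reverse, hlead]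
  have hgne : g ≠ 0 := by
    intro h
    rw [h] at hg0
    exact hp0 (by simpa using hg0.symm)
  -- x is not zero
  have hx0 : x ≠ 0 := by
    rintro rfl
    exact hroots 0 hx A.zero_mem
  have hxinv : aeval x⁻¹ g = 0 := by
    let : Invertible x := invertibleOfNonzero hx0
    have := (eval₂_reverse_eq_zero_iff (algebraMap ℤ (AlgebraicClosure ℚ)) x f).mpr hx
    rwa [invOf_eq_inv] at this
  have hd : 0 < f.natDegree := by
    by_contra h
    have h0 : f.natDegree = 0 := by omega
    rw [natDegree_eq_zero] at h0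
    obtain ⟨c, hc⟩ := h0
    rw [← hc, leadingCoeff_C] at hlead
    rw [← hc, aeval_C, hlead] at hx
    simp only [eq_intCast, Int.cast_natCast, Nat.cast_eq_zero] at hx
    exact hp.ne_zero hx
  -- valuations of the roots of `g`
  set G := g.map (algebraMap ℤ (AlgebraicClosure ℚ)) with hG
  have hGroots : ∀ z ∈ G.roots, v z < 1 := by
    intro z hz
    have hz' : aeval z g = 0 := by
      rw [mem_roots'] at hz
      have := hz.2
      rwa [hG, IsRoot, eval_map_algebraMap] at this
    have hz0 : z ≠ 0 := by
      rintro rfl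
      rw [← coeff_zero_eq_aeval_zero', hg0] at hz'
      simp only [eq_intCast, Int.cast_natCast, Nat.cast_eq_zero] at hz'
      exact hp.ne_zero hz'
    have hroot : aeval z⁻¹ f = 0 := by
      let : Invertible (z⁻¹) := invertibleOfNonzero (inv_ne_zero hz0)
      refine (eval₂_reverse_eq_zero_iff (algebraMap ℤ (AlgebraicClosure ℚ)) z⁻¹ f).mp ?_
      rw [invOf_eq_inv, inv_inv]
      exact hz'
    have h1 := hroots _ hroot
    have h2 : z⁻¹⁻¹ ∈ A.nonunits := (A.inv_mem_nonunits_iff).mpr (Or.inr h1)
    rw [inv_inv] at h2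
    exact (A.mem_nonunits_iff).mp h2
  have hsplit : G.Splits := IsAlgClosed.splits G
  have hGeq := hsplit.eq_prod_roots
  have hinj : Function.Injective (algebraMap ℤ (AlgebraicClosure ℚ)) :=
    RingHom.injective_int _
  have hGlead : G.leadingCoeff = ((f.coeff 0 : ℤ) : AlgebraicClosure ℚ) := by
    rw [hG, leadingCoeff_map_of_injective hinj, hglead]
    simp
  have hGdeg : G.natDegree = f.natDegree := by
    rw [hG, natDegree_map_eq_of_injective hinj, hgd]
  have hcard : Multiset.card G.roots = f.natDegree := by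
    rw [← hsplit.natDegree_eq_card_roots, hGdeg]
  have hc0' : ((f.coeff 0 : ℤ) : AlgebraicClosure ℚ) ≠ 0 := by exact_mod_cast hc0
  have hvc0 : 0 < v ((f.coeff 0 : ℤ) : AlgebraicClosure ℚ) := by
    rw [zero_lt_iff]
    exact (Valuation.ne_zero_iff v).mpr hc0'
  have hcoeff : ∀ i < f.natDegree, v ((g.coeff i : ℤ) : AlgebraicClosure ℚ) <
      v ((f.coeff 0 : ℤ) : AlgebraicClosure ℚ) := by
    intro i hi
    have h1 : ((g.coeff i : ℤ) : AlgebraicClosure ℚ) = G.coeff i := by
      rw [hG, coeff_map]
      simp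
    rw [h1, hGeq, coeff_C_mul, hGlead, map_mul]
    have h2 := (coeff_prod_X_sub_C v G.roots hGroots).2 i (by rw [hcard]; exact hi)
    calc _ < v ((f.coeff 0 : ℤ) : AlgebraicClosure ℚ) * 1 := by
          exact mul_lt_mul_of_pos_left h2 hvc0
      _ = _ := mul_one _
  have hpc0 : ¬ (p : ℤ) ∣ f.coeff 0 := by
    rintro ⟨k, hk⟩
    have h1 := hcoeff 0 hd
    rw [hg0, hk] at h1
    push_cast at h1
    rw [map_mul] at h1
    have h2 : v (p : AlgebraicClosure ℚ) * v (k : AlgebraicClosure ℚ) ≤ v (p : AlgebraicClosure ℚ) := by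
      calc _ ≤ v (p : AlgebraicClosure ℚ) * 1 := mul_le_mul_right (val_intCast_le_one A k) _
        _ = _ := mul_one _
    exact absurd h1 (not_lt.mpr h2)
  have hvc1 : v ((f.coeff 0 : ℤ) : AlgebraicClosure ℚ) = 1 := val_eq_one_of_not_dvd hp hA hpc0
  have hdvd : ∀ i < f.natDegree, (p : ℤ) ∣ g.coeff i := by
    intro i hi
    apply dvd_of_val_lt_one hp hA
    rw [← hv]
    calc _ < _ := hcoeff i hi
      _ = 1 := hvc1
  have hpprime : Prime (p : ℤ) := Nat.prime_iff_prime_int.mp hp
  have hEis : g.IsEisensteinAt (Ideal.span {(p : ℤ)}) := by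
    refine ⟨?_, ?_, ?_⟩
    · rw [hglead, Ideal.mem_span_singleton]
      exact hpc0
    · intro n hn
      rw [Ideal.mem_span_singleton]
      exact hdvd n (by rwa [hgd] at hn)
    · rw [hg0, Ideal.span_singleton_pow, Ideal.mem_span_singleton]
      intro h
      have h3 : (p : ℤ) * p ∣ p * 1 := by simpa [sq] using h
      have h4 := (mul_dvd_mul_iff_left hp0).mp h3
      exact hpprime.not_isUnit (isUnit_of_dvd_one h4)
  have hprim : g.IsPrimitive := by
    intro r hr
    rw [C_dvd_iff_dvd_coeff] at hr
    have h1 : r ∣ (p : ℤ) := hg0 ▸ hr 0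
    have h2 : r ∣ f.coeff 0 := by
      rw [← hglead, leadingCoeff]
      exact hr _
    rcases (Irreducible.dvd_iff hpprime.irreducible).mp h1 with h | h
    · exact h
    · exact absurd (h.dvd.trans h2) hpc0
  have hirr : Irreducible g := hEis.irreducible
    ((Ideal.span_singleton_prime hp0).mpr hpprime) hprim (by rw [hgd]; exact hd)
  have hirrQ := (IsPrimitive.Int.irreducible_iff_irreducible_map_cast hprim).mp hirr
  -- degree of `x⁻¹`
  have hminp : (minpoly ℚ x⁻¹).natDegree = f.natDegree := by
    have h1 : aeval x⁻¹ (g.map (Int.castRingHom ℚ)) = 0 := by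
      rw [← hxinv]
      have := aeval_map_algebraMap (A := ℚ) x⁻¹ g
      simpa using this
    have h2 := minpoly.eq_of_irreducible hirrQ h1
    rw [← h2, natDegree_mul_C, natDegree_map_eq_of_injective Int.cast_injective, hgd]
    · exact inv_ne_zero (leadingCoeff_ne_zero.mpr hirrQ.ne_zero)
  have hxint : IsIntegral ℚ x := Algebra.IsIntegral.isIntegral x
  have hxint' : IsIntegral ℚ x⁻¹ := Algebra.IsIntegral.isIntegral x⁻¹
  rw [← hminp, ← IntermediateField.adjoin.finrank hxint, ← IntermediateField.adjoin.finrank hxint']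
  have hle : IntermediateField.adjoin ℚ {x⁻¹} ≤ IntermediateField.adjoin ℚ {x} := by
    rw [IntermediateField.adjoin_simple_le_iff]
    exact inv_mem (IntermediateField.mem_adjoin_simple_self ℚ x)
  have hfd : FiniteDimensional ℚ (IntermediateField.adjoin ℚ {x}) :=
    IntermediateField.adjoin.finiteDimensional hxint
  exact LinearMap.finrank_le_finrank_of_injective
    (f := (IntermediateField.inclusion hle).toLinearMap) (IntermediateField.inclusion hle).injective

/-- The degree of an algebraic number is at most the size of any finite set containing all its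
conjugates. -/
theorem natDegree_minpoly_le_card (x : AlgebraicClosure ℚ) (O : Finset (AlgebraicClosure ℚ))
    (h : ∀ σ : AlgebraicClosure ℚ ≃ₐ[ℚ] AlgebraicClosure ℚ, σ x ∈ O) :
    (minpoly ℚ x).natDegree ≤ O.card := by
  classical
  have hxint : IsIntegral ℚ x := Algebra.IsIntegral.isIntegral x
  have hsep : (minpoly ℚ x).Separable := (minpoly.irreducible hxint).separable
  have hsplit : ((minpoly ℚ x).map (algebraMap ℚ (AlgebraicClosure ℚ))).Splits :=
    IsAlgClosed.splits _
  have hcard := card_rootSet_eq_natDegree hsep hsplit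
  rw [← hcard, ← Nat.card_eq_fintype_card, ← Nat.card_eq_finsetCard]
  have hsub : ∀ y ∈ (minpoly ℚ x).rootSet (AlgebraicClosure ℚ), y ∈ O := by
    intro y hy
    rw [mem_rootSet] at hy
    obtain ⟨σ, hσ⟩ := minpoly.exists_algEquiv_of_root (Algebra.IsAlgebraic.isAlgebraic x) hy.2
    have h1 : σ.symm x = y := by rw [← hσ, σ.symm_apply_apply]
    rw [← h1]
    exact h σ.symm
  exact Nat.card_le_card_of_injective (fun y => (⟨y.1, hsub y.1 y.2⟩ : O))
    (fun a b hab => Subtype.ext (congrArg (fun z : O => z.1) hab))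

end Fermat.Agent.S13aux
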