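import Fermat.Agent.ECVal.XLine
import Fermat.Agent.ECVal.FormalTorsion
import Fermat.Agent.Torsion.FiniteLevel
import Fermat.Agent.S13_Eisenstein
import Fermat.Agent.MultRed.InertiaVal
import Fermat.Agent.Frey.CurveInt

/-!
# S13: local analysis at `p`
-/

set_option autoImplicit false

namespace Fermat.Agent.S13aux

open WeierstrassCurve WeierstrassCurve.Affine WeierstrassCurve.Affine.Point
open FermatAgent.ECVal

section E1

variable {K : Type*} [Field K] [DecidableEq K] {Γ₀ : Type*} [LinearOrderedCommGroupWithZero Γ₀]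

/-- the kernel of reduction: `0` and the points with non-integral `x`-coordinate. -/
def InE1 (v : Valuation K Γ₀) {W : Affine K} (P : W.Point) : Prop :=
  ∀ (x y : K) (h : W.Nonsingular x y), P = some x y h → 1 < v x

variable {v : Valuation K Γ₀} {W : Affine K}

omit [DecidableEq K] in
lemma inE1_zero : InE1 v (0 : W.Point) := by
  intro x y h h0
  exact absurd h0.symm (some_ne_zero h)

omit [DecidableEq K] in
lemma inE1_some {x y : K} {h : W.Nonsingular x y} : InE1 v (some x y h) ↔ 1 < v x := by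
  constructor
  · intro H; exact H x y h rfl
  · intro hx x' y' h' h0
    rw [some.injEq] at h0
    rw [← h0.1]; exact hx

omit [DecidableEq K] in
lemma inE1_neg {P : W.Point} (hP : InE1 v P) : InE1 v (-P) := by
  rcases P with _ | ⟨x, y, h⟩
  · exact inE1_zero
  · rw [neg_some, inE1_some]
    exact inE1_some.mp hP

lemma inE1_add (hb2 : v W.b₂ ≤ 1) (hb4 : v W.b₄ ≤ 1) (hb6 : v W.b₆ ≤ 1) (hb8 : v W.b₈ ≤ 1)
    {P Q : W.Point} (hP : InE1 v P) (hQ : InE1 v Q) : InE1 v (P + Q) := by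
  rcases P with _ | ⟨x₁, y₁, h₁⟩
  · rw [← zero_def, zero_add]; exact hQ
  rcases Q with _ | ⟨x₂, y₂, h₂⟩
  · rw [← zero_def, add_zero]; exact hP
  rw [inE1_some] at hP hQ
  -- choose `c`
  have key : ∀ c : K, v c < 1 → c ≠ 0 → 1 ≤ v (c * x₁) → 1 ≤ v (c * x₂) →
      InE1 v (some x₁ y₁ h₁ + some x₂ y₂ h₂) := by
    intro c hc hc0 h1 h2
    obtain ⟨h3, -, -⟩ := near_parallelogram v hc0 hc hb2 hb4 hb6 hb8 (near_some v (h := h₁) h1)
      (near_some v (h := h₂) h2)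
    intro x y h he
    have h4 := h3 x y h he
    by_contra hle
    rw [not_lt] at hle
    rw [map_mul] at h4
    have : v c * v x < 1 := by
      calc v c * v x ≤ v c * 1 := mul_le_mul_right hle _
        _ < 1 := by simpa using hc
    exact absurd h4 (not_le.mpr this)
  have hx₁0 : x₁ ≠ 0 := by
    intro h; rw [h, _root_.map_zero] at hP; exact absurd hP (not_lt.mpr zero_le)
  have hx₂0 : x₂ ≠ 0 := by
    intro h; rw [h, _root_.map_zero] at hQ; exact absurd hQ (not_lt.mpr zero_le)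
  have hv1 : v x₁ ≠ 0 := (Valuation.ne_zero_iff v).mpr hx₁0
  have hv2 : v x₂ ≠ 0 := (Valuation.ne_zero_iff v).mpr hx₂0
  rcases le_total (v x₁) (v x₂) with hle | hle
  · apply key x₁⁻¹
    · rw [map_inv₀]; exact inv_lt_one_of_one_lt₀ hP
    · exact inv_ne_zero hx₁0
    · rw [inv_mul_cancel₀ hx₁0, _root_.map_one]
    · rw [map_mul, map_inv₀]
      calc 1 = (v x₁)⁻¹ * v x₁ := (inv_mul_cancel₀ hv1).symm
        _ ≤ (v x₁)⁻¹ * v x₂ := mul_le_mul_right hle _
  · apply key x₂⁻¹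
    · rw [map_inv₀]; exact inv_lt_one_of_one_lt₀ hQ
    · exact inv_ne_zero hx₂0
    · rw [map_mul, map_inv₀]
      calc 1 = (v x₂)⁻¹ * v x₂ := (inv_mul_cancel₀ hv2).symm
        _ ≤ (v x₂)⁻¹ * v x₁ := mul_le_mul_right hle _
    · rw [inv_mul_cancel₀ hx₂0, _root_.map_one]

/-- `E₁` as an additive subgroup. -/
def E1 (v : Valuation K Γ₀) (W : Affine K) (hb2 : v W.b₂ ≤ 1) (hb4 : v W.b₄ ≤ 1)
    (hb6 : v W.b₆ ≤ 1) (hb8 : v W.b₈ ≤ 1) : AddSubgroup W.Point where
  carrier := {P | InE1 v P}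
  zero_mem' := inE1_zero
  add_mem' := inE1_add hb2 hb4 hb6 hb8
  neg_mem' := inE1_neg

end E1

section inertia

variable {K : Type*} [Field K] [DecidableEq K] {Γ₀ : Type*} [LinearOrderedCommGroupWithZero Γ₀]
  {v : Valuation K Γ₀} {W : Affine K}

/-- Moving a point by inertia: if `v(η(P)) = v(z)` and `v(x(P)-e) ≤ v(z)` for fixed `z, e`, then
`P - σP` is in the kernel of reduction. -/
lemma sub_inE1 (h2 : v (2 : K) = 1) (hb2 : v W.b₂ ≤ 1) (σ : K →+* K)
    (hσ1 : ∀ x, v x ≤ 1 → v (σ x - x) < 1) {x y : K} (h : W.Nonsingular x y)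
    (h' : W.Nonsingular (σ x) (σ y)) (ha₁ : σ W.a₁ = W.a₁) (ha₃ : σ W.a₃ = W.a₃)
    {z e : K} (hz0 : z ≠ 0) (hz : σ z = z) (he : σ e = e) (hx : v x ≤ 1)
    (hη : v (2 * y + W.a₁ * x + W.a₃) = v z) (hxe : v (x - e) ≤ v z) :
    InE1 v (some x y h - some (σ x) (σ y) h') := by
  have hvz : v z ≠ 0 := (Valuation.ne_zero_iff v).mpr hz0
  have hvz' : 0 < v z := zero_lt_iff.mpr hvz
  set η := 2 * y + W.a₁ * x + W.a₃ with hηdef
  have hση : σ η = 2 * σ y + W.a₁ * σ x + W.a₃ := by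
    rw [hηdef, map_add, map_add, map_mul, map_mul, ha₁, ha₃, map_ofNat]
  -- `s = η / z`
  have hs : v (η / z) = 1 := by rw [map_div₀, hη, div_self hvz]
  have hσs : v (σ (η / z) - η / z) < 1 := hσ1 _ hs.le
  have hsum : v (η + σ η) = v z := by
    have e1 : η + σ η = z * (2 * (η / z) + (σ (η / z) - η / z)) := by
      rw [map_div₀, hz]; field_simp; ring
    rw [e1, map_mul]
    have e2 : v (2 * (η / z)) = 1 := by rw [map_mul, h2, hs, one_mul]
    rw [v.map_add_eq_of_lt_left (by rw [e2]; exact hσs), e2, mul_one]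
  have hr : v ((x - e) / z) ≤ 1 := by
    rw [map_div₀]
    exact div_le_one_of_le₀ hxe zero_le
  have hdiff : v (x - σ x) < v z := by
    have e1 : x - σ x = - (z * (σ ((x - e) / z) - (x - e) / z)) := by
      rw [map_div₀, hz, map_sub, he]; field_simp; ring
    rw [e1, Valuation.map_neg, map_mul]
    calc v z * v (σ ((x - e) / z) - (x - e) / z) < v z * 1 :=
          mul_lt_mul_of_pos_left (hσ1 _ hr) hvz'
      _ = v z := mul_one _
  by_cases hxx : x = σ x
  · have h1 := h'.1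
    rw [← hxx] at h1
    rcases Y_eq_of_X_eq h1 h.1 rfl with h3 | h3
    · have : some x y h = some (σ x) (σ y) h' := by
        rw [some.injEq]; exact ⟨hxx, h3.symm⟩
      rw [← this, sub_self]
      exact inE1_zero
    · exfalso
      have h4 : η + σ η = 0 := by
        rw [hση, ← hxx, h3, negY, hηdef]; ring
      rw [h4, _root_.map_zero] at hsum
      exact hvz hsum.symm
  · obtain ⟨α, α', hα, hsub, hform⟩ := exists_add_psi h ((nonsingular_neg _ _).mpr h') hxx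
    rw [sub_eq_add_neg, neg_some, hsub, inE1_some]
    have e1 : (2 * y + W.a₁ * x + W.a₃) - (2 * (W.negY (σ x) (σ y)) + W.a₁ * σ x + W.a₃) =
        η + σ η := by
      rw [hση, negY, hηdef]; ring
    rw [e1] at hform
    by_contra hcon
    rw [not_lt] at hcon
    have hσx : v (σ x) ≤ 1 := by
      have : σ x = (σ x - x) + x := by ring
      rw [this]
      exact v.map_add_le (hσ1 x hx).le hx
    have h4 : v (4 : K) ≤ 1 := by
      have : (4 : K) = 2 * 2 := by norm_num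
      rw [this, map_mul, h2, one_mul]
    have h5 : v (4 * (α + x + σ x) + W.b₂) ≤ 1 := by
      refine v.map_add_le ?_ hb2
      rw [map_mul]
      exact mul_le_one' h4 (v.map_add_le (v.map_add_le hcon hx) hσx)
    have h6 := congrArg v hform
    rw [map_mul, map_pow, map_pow, hsum] at h6
    have h7 : v (x - σ x) ^ 2 * v (4 * (α + x + σ x) + W.b₂) < v z ^ 2 := by
      calc v (x - σ x) ^ 2 * v (4 * (α + x + σ x) + W.b₂) ≤ v (x - σ x) ^ 2 * 1 :=
            mul_le_mul_right h5 _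
        _ = v (x - σ x) ^ 2 := mul_one _
        _ < v z ^ 2 := pow_lt_pow_left₀ hdiff zero_le (by norm_num)
    rw [h6] at h7
    exact lt_irrefl _ h7

omit [DecidableEq K] in
/-- Good reduction: the duplication polynomials have no common root modulo the maximal ideal. -/
lemma val_psi_eq_one (hb2 : v W.b₂ ≤ 1) (hb4 : v W.b₄ ≤ 1) (hb6 : v W.b₆ ≤ 1)
    (_hb8 : v W.b₈ ≤ 1) (hΔ : v W.Δ = 1) {x ψ α : K} (hx : v x ≤ 1)
    (hψ : ψ ^ 2 = 4 * x ^ 3 + W.b₂ * x ^ 2 + 2 * W.b₄ * x + W.b₆)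
    (hα : v α ≤ 1) (hform : ψ ^ 2 * α = x ^ 4 - W.b₄ * x ^ 2 - 2 * W.b₆ * x - W.b₈) :
    v ψ = 1 := by
  have hnat : ∀ n : ℕ, v (n : K) ≤ 1 := by
    intro n
    induction n with
    | zero => simp
    | succ n ih =>
      rw [Nat.cast_succ]
      exact v.map_add_le ih (by rw [_root_.map_one])
  have hx2 : v (x ^ 2) ≤ 1 := by rw [map_pow]; exact pow_le_one₀ zero_le hx
  have hx3 : v (x ^ 3) ≤ 1 := by rw [map_pow]; exact pow_le_one₀ zero_le hx
  have hmul : ∀ a b : K, v a ≤ 1 → v b ≤ 1 → v (a * b) ≤ 1 := by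
    intro a b ha hb; rw [map_mul]; exact mul_le_one' ha hb
  have hψle : v ψ ≤ 1 := by
    have h1 : v (ψ ^ 2) ≤ 1 := by
      rw [hψ]
      refine v.map_add_le (v.map_add_le (v.map_add_le ?_ ?_) ?_) hb6
      · exact hmul _ _ (by exact_mod_cast hnat 4) hx3
      · exact hmul _ _ hb2 hx2
      · exact hmul _ _ (hmul _ _ (by exact_mod_cast hnat 2) hb4) hx
    rw [map_pow] at h1
    by_contra hcon
    rw [not_le] at hcon
    exact absurd (one_lt_pow₀ hcon (by norm_num)) (not_lt.mpr h1)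
  refine le_antisymm hψle ?_
  by_contra hcon
  rw [not_le] at hcon
  have hid : W.Δ = (-48 * x ^ 2 - 8 * W.b₂ * x + W.b₂ ^ 2 - 32 * W.b₄) * (ψ ^ 2 * α) +
      (12 * x ^ 3 - W.b₂ * x ^ 2 - 10 * W.b₄ * x + W.b₂ * W.b₄ - 27 * W.b₆) * ψ ^ 2 := by
    rw [hform, hψ, WeierstrassCurve.Δ]
    have hrel := W.b_relation
    linear_combination (-12 * x ^ 2 - 2 * W.b₂ * x - 8 * W.b₄) * hrel
  have hψ2 : v (ψ ^ 2) < 1 := by
    rw [map_pow]; exact pow_lt_one₀ zero_le hcon (by norm_num)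
  have hψ2α : v (ψ ^ 2 * α) < 1 := by
    rw [map_mul]
    exact mul_lt_one_of_lt_of_le hψ2 hα
  have hint : ∀ n : ℤ, v (n : K) ≤ 1 := by
    intro n
    rcases Int.eq_nat_or_neg n with ⟨m, rfl | rfl⟩
    · exact_mod_cast hnat m
    · push_cast; rw [Valuation.map_neg]; exact hnat m
  have hc1 : v (-48 * x ^ 2 - 8 * W.b₂ * x + W.b₂ ^ 2 - 32 * W.b₄) ≤ 1 := by
    refine v.map_sub_le (v.map_add_le (v.map_sub_le ?_ ?_) ?_) ?_
    · exact hmul _ _ (by exact_mod_cast hint (-48)) hx2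
    · exact hmul _ _ (hmul _ _ (by exact_mod_cast hint 8) hb2) hx
    · rw [pow_two]; exact hmul _ _ hb2 hb2
    · exact hmul _ _ (by exact_mod_cast hint 32) hb4
  have hc2 : v (12 * x ^ 3 - W.b₂ * x ^ 2 - 10 * W.b₄ * x + W.b₂ * W.b₄ - 27 * W.b₆) ≤ 1 := by
    refine v.map_sub_le (v.map_add_le (v.map_sub_le (v.map_sub_le ?_ ?_) ?_) ?_) ?_
    · exact hmul _ _ (by exact_mod_cast hint 12) hx3
    · exact hmul _ _ hb2 hx2
    · exact hmul _ _ (hmul _ _ (by exact_mod_cast hint 10) hb4) hx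
    · exact hmul _ _ hb2 hb4
    · exact hmul _ _ (by exact_mod_cast hint 27) hb6
  have hlt : v W.Δ < 1 := by
    rw [hid]
    refine v.map_add_lt ?_ ?_
    · rw [map_mul, mul_comm]
      exact mul_lt_one_of_lt_of_le hψ2α hc1
    · rw [map_mul, mul_comm]
      exact mul_lt_one_of_lt_of_le hψ2 hc2
  rw [hΔ] at hlt
  exact lt_irrefl _ hlt

/-- Good reduction at `v`, `v(2) = 1`: inertia moves points of odd order by elements of `E₁`. -/
theorem sub_inE1_good (h2 : v (2 : K) = 1) (hb2 : v W.b₂ ≤ 1) (hb4 : v W.b₄ ≤ 1)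
    (hb6 : v W.b₆ ≤ 1) (hb8 : v W.b₈ ≤ 1) (hΔ : v W.Δ = 1) (σ : K →+* K)
    (hσv : ∀ x, v (σ x) = v x)
    (hσ1 : ∀ x, v x ≤ 1 → v (σ x - x) < 1) {x y : K} (h : W.Nonsingular x y)
    (h' : W.Nonsingular (σ x) (σ y)) (ha₁ : σ W.a₁ = W.a₁) (ha₃ : σ W.a₃ = W.a₃)
    {n : ℕ} (hn : Odd n) (hP : n • some x y h = 0) :
    InE1 v (some x y h - some (σ x) (σ y) h') := by
  by_cases hx : v x ≤ 1
  swap
  · rw [not_le] at hx
    rw [sub_eq_add_neg]
    refine inE1_add hb2 hb4 hb6 hb8 (inE1_some.mpr hx) (inE1_neg (inE1_some.mpr ?_))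
    rw [hσv]; exact hx
  -- `2P` is not in `E₁`
  obtain ⟨m, hm⟩ := hn
  have hPm : some x y h = - (m • (some x y h + some x y h)) := by
    have : n • some x y h = m • (some x y h + some x y h) + some x y h := by
      rw [hm]; module
    rw [hP] at this
    exact (neg_eq_of_add_eq_zero_right this.symm).symm
  have h2P : ¬ InE1 v (some x y h + some x y h) := by
    intro hin
    have : InE1 v (some x y h) := by
      rw [hPm]
      refine inE1_neg ?_
      exact (E1 v W hb2 hb4 hb6 hb8).nsmul_mem hin m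
    rw [inE1_some] at this
    exact absurd this (not_lt.mpr hx)
  rcases double_cases h with ⟨hz, -⟩ | ⟨hψ, α, α', hα, hsum, hform⟩
  · exact absurd (hz ▸ inE1_zero) h2P
  · rw [hsum, inE1_some, not_lt] at h2P
    have hη := val_psi_eq_one hb2 hb4 hb6 hb8 hΔ hx (psi2_sq h.1) h2P hform
    refine sub_inE1 (z := 1) (e := 0) h2 hb2 σ hσ1 h h' ha₁ ha₃ one_ne_zero (_root_.map_one σ)
      (_root_.map_zero σ) hx ?_ ?_
    · rw [hη, _root_.map_one]
    · rw [sub_zero, _root_.map_one]; exact hx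

end inertia

section eisenstein

open Polynomial Fermat.Agent.Frob Fermat.Agent.Torsion

/-- the place `A` is integral on the invariants of an integral curve. -/
lemma val_baseChange_int (A : ValuationSubring (AlgebraicClosure ℚ)) {c : ℚ} {n : ℤ}
    (h : c = n) : A.valuation (algebraMap ℚ (AlgebraicClosure ℚ) c) ≤ 1 := by
  rw [h]
  have : algebraMap ℚ (AlgebraicClosure ℚ) (n : ℚ) = (n : AlgebraicClosure ℚ) := map_intCast _ n
  rw [this]
  exact val_intCast_le_one A n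

/-- **Eisenstein trick**, applied: if there is a Galois stable proper nonzero subspace of `E[p]`
then `E[p]` is not contained in the kernel of reduction. -/
theorem exists_not_inE1 (W₀ : WeierstrassCurve ℤ) (hΔ : W₀.Δ ≠ 0) (W : WeierstrassCurve ℚ)
    (hWdef : W = W₀.map (Int.castRingHom ℚ)) {p : ℕ} (hp : p.Prime)
    (hp2 : p ≠ 2) {A : ValuationSubring (AlgebraicClosure ℚ)} (hA : A.LiesOverPrime p)
    (N : Submodule (ZMod p) (Submodule.torsionBy ℤ (W⁄(AlgebraicClosure ℚ)).Point p))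
    (hN : IsGaloisStable ℚ N) (hN0 : N ≠ ⊥)
    (hNcard : Nat.card N = p) :
    ∃ P : Submodule.torsionBy ℤ (W⁄(AlgebraicClosure ℚ)).Point p,
      ¬ InE1 A.valuation (P : (W⁄(AlgebraicClosure ℚ)).Point) := by
  classical
  by_contra hcon
  push Not at hcon
  have hodd : Odd p := hp.odd_of_ne_two hp2
  have hnev : ¬ Even p := Nat.not_even_iff_odd.mpr hodd
  have hWΔ : W.Δ ≠ 0 := by
    rw [hWdef, WeierstrassCurve.map_Δ]
    simpa using hΔ
  have hWKΔ : (W⁄(AlgebraicClosure ℚ)).Δ ≠ 0 := baseChange_Δ_ne_zero hWΔ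
  have hWK : W⁄(AlgebraicClosure ℚ) = W₀.map (algebraMap ℤ (AlgebraicClosure ℚ)) := by
    change W.map (algebraMap ℚ (AlgebraicClosure ℚ)) = _
    rw [hWdef, WeierstrassCurve.map_map]
    congr 1
  let f : ℤ[X] := W₀.preΨ' p
  have hpZ : ((p : ℕ) : ℤ) ≠ 0 := by exact_mod_cast hp.ne_zero
  have hfdeg : f.natDegree = (p ^ 2 - 1) / 2 := by
    have := W₀.natDegree_preΨ' hpZ
    rwa [if_neg hnev] at this
  have hflead : f.leadingCoeff = p := by
    have := W₀.leadingCoeff_preΨ' hpZ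
    rwa [if_neg hnev] at this
  have hΨ : ∀ x : AlgebraicClosure ℚ, aeval x f = 0 ↔
      ((W⁄(AlgebraicClosure ℚ)).ΨSq p).eval x = 0 := by
    intro x
    rw [WeierstrassCurve.ΨSq_ofNat, if_neg hnev, mul_one, eval_pow, sq_eq_zero_iff, hWK,
      WeierstrassCurve.map_preΨ', eval_map_algebraMap]
  have hroots : ∀ x : AlgebraicClosure ℚ, aeval x f = 0 → x ∉ A := by
    intro x hx hxA
    obtain ⟨y, hxy⟩ := exists_point_over hWKΔ x
    have h1 : p • Point.some x y hxy = 0 := (nsmul_eq_zero_iff hxy p).mpr ((hΨ x).mp hx)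
    have h2 := hcon ⟨Point.some x y hxy, (mem_torsionBy_nat_iff p _).mpr h1⟩
    have h3 := inE1_some.mp h2
    exact absurd h3 (not_lt.mpr ((A.valuation_le_one_iff x).mpr hxA))
  obtain ⟨Q₀, hQ₀, hQ₀0⟩ := N.ne_bot_iff.mp hN0
  have hfin : Finite N := Nat.finite_of_card_ne_zero (by rw [hNcard]; exact hp.ne_zero)
  have : Fintype N := Fintype.ofFinite N
  let F : N → AlgebraicClosure ℚ := fun Q => xOf (Q.1).1
  let O : Finset (AlgebraicClosure ℚ) := ((Finset.univ : Finset N).erase 0).image F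
  have hOcard : O.card ≤ p - 1 := by
    refine Finset.card_image_le.trans ?_
    rw [Finset.card_erase_of_mem (Finset.mem_univ _), Finset.card_univ, ← Nat.card_eq_fintype_card,
      hNcard]
  obtain ⟨⟨x₀, y₀, h₀, hQ₀eq⟩⟩ : Nonempty (∃ (x₀ y₀ : AlgebraicClosure ℚ)
      (h₀ : (W⁄(AlgebraicClosure ℚ)).Nonsingular x₀ y₀), (Q₀ : (W⁄(AlgebraicClosure ℚ)).Point) =
        Point.some x₀ y₀ h₀) := by
    rcases hQ : (Q₀ : (W⁄(AlgebraicClosure ℚ)).Point) with _ | ⟨x₀, y₀, h₀⟩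
    · exact absurd (Subtype.ext hQ) hQ₀0
    · exact ⟨⟨x₀, y₀, h₀, rfl⟩⟩
  have hconj : ∀ σ : AlgebraicClosure ℚ ≃ₐ[ℚ] AlgebraicClosure ℚ, σ x₀ ∈ O := by
    intro σ
    have h1 : σ • Q₀ ∈ N := hN σ Q₀ hQ₀
    have h2 : σ • Q₀ ≠ 0 := by
      intro h
      exact hQ₀0 ((smul_eq_zero_iff_eq σ).mp h)
    have h3 : xOf (σ • Q₀ : Submodule.torsionBy ℤ (W⁄(AlgebraicClosure ℚ)).Point p).1 = σ x₀ := by
      change xOf (Point.map σ.toAlgHom (Q₀ : (W⁄(AlgebraicClosure ℚ)).Point)) = σ x₀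
      rw [hQ₀eq, map_some]
      rfl
    rw [← h3]
    refine Finset.mem_image_of_mem F (a := (⟨σ • Q₀, h1⟩ : N)) ?_
    rw [Finset.mem_erase]
    exact ⟨fun h => h2 (congrArg Subtype.val h), Finset.mem_univ _⟩
  have hx₀ : aeval x₀ f = 0 := by
    rw [hΨ, ← nsmul_eq_zero_iff h₀ p, ← hQ₀eq]
    exact (mem_torsionBy_nat_iff p _).mp Q₀.2
  have h1 := natDegree_le_minpoly_of_forall_root hp hA f hflead hroots x₀ hx₀
  have h2 := natDegree_minpoly_le_card x₀ O hconj
  rw [hfdeg] at h1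
  have h3 : (p ^ 2 - 1) / 2 ≤ p - 1 := h1.trans (h2.trans hOcard)
  obtain ⟨m, hm⟩ := hodd
  have hm1 : 1 ≤ m := by
    have := hp.two_le
    omega
  have h4 : (p ^ 2 - 1) / 2 = 2 * m ^ 2 + 2 * m := by
    have : p ^ 2 - 1 = 2 * (2 * m ^ 2 + 2 * m) := by
      rw [hm]
      have : (2 * m + 1) ^ 2 = 2 * (2 * m ^ 2 + 2 * m) + 1 := by ring
      omega
    rw [this]
    omega
  rw [h4, hm] at h3
  have h5 : 1 ≤ m ^ 2 := Nat.one_le_pow _ _ hm1
  omega

end eisenstein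

end Fermat.Agent.S13aux
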