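import Fermat.Agent.S05
import Fermat.Agent.S13_AtP
import Fermat.Agent.MultRed.InertiaVal

/-!
# S13: inertia at `p` when the Frey curve has multiplicative reduction at `p`
-/

set_option autoImplicit false

namespace Fermat.Agent.S13mult

open WeierstrassCurve WeierstrassCurve.Affine WeierstrassCurve.Affine.Point
open FermatAgent.ECVal

section

variable {R : Type*} [CommRing R] [Algebra R ℚ] {K : Type*} [Field K] [Algebra ℚ K]
  [Algebra.IsAlgebraic ℚ K] [DecidableEq K] [Algebra R K] [IsScalarTower R ℚ K]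
  {A : ValuationSubring K} {q : ℕ}

omit [DecidableEq K] in
lemma val_le_of_is_ge (hq : q.Prime) (hA : A.LiesOverPrime q) {m : ℚ} {x z : K}
    (hz : (valOf hq hA).Is m z) (hx : (valOf hq hA).Ge m x) : A.valuation x ≤ A.valuation z := by
  have := qVal_ge_iff A.valuation hq (lt_one_of_liesOver hA) (x := x) hz.1
  refine this.mp ?_
  have h2 : (qVal A.valuation hq (lt_one_of_liesOver hA)).val z = m := hz.2
  rw [h2]
  exact hx

omit [DecidableEq K] in
lemma val_eq_of_is (hq : q.Prime) (hA : A.LiesOverPrime q) {m : ℚ} {x z : K}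
    (hz : (valOf hq hA).Is m z) (hx : (valOf hq hA).Is m x) : A.valuation x = A.valuation z :=
  le_antisymm (val_le_of_is_ge hq hA hz hx.ge) (val_le_of_is_ge hq hA hx hz.ge)

/-- **Multiplicative reduction** with a rational `2`-torsion point reducing to the node:
if `n` is odd and divides `h = v(D)` then inertia at the odd prime `q` moves the `n`-torsion points
by points in the kernel of reduction. Here `q` may divide `n`. -/
theorem sub_inE1_node (hq : q.Prime) (hq2 : q ≠ 2) (hA : A.LiesOverPrime q)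
    {W' : Affine R}
    (h1 : (W'⁄K).a₁ ∈ A) (h2 : (W'⁄K).a₂ ∈ A) (h3 : (W'⁄K).a₃ ∈ A) (h4 : (W'⁄K).a₄ ∈ A)
    (h6 : (W'⁄K).a₆ ∈ A) {n : ℕ} (hnodd : Odd n) {e : ℚ} {D : K} {N : ℕ}
    (hN : NodeData (valOf hq hA) (W'⁄K) (algebraMap ℚ K e) D ((n : ℚ) * N))
    (he : algebraMap ℚ K e ∈ A)
    {σ : K ≃ₐ[ℚ] K} (hσ : σ ∈ A.inertiaSubgroupIn ℚ) {x y : K} {h : (W'⁄K).Nonsingular x y}
    (hP : n • some x y h = 0) (h' : (W'⁄K).Nonsingular (σ x) (σ y)) :
    S13aux.InE1 A.valuation (some x y h - some (σ x) (σ y) h') := by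
  have : CharZero K := algebraRat.charZero K
  set w := valOf hq hA with hw
  have m2 : (2 : K) ∈ A := by exact_mod_cast natCast_mem A 2
  have m3 : (3 : K) ∈ A := by exact_mod_cast natCast_mem A 3
  have m4 : (4 : K) ∈ A := by exact_mod_cast natCast_mem A 4
  have mb2 : (W'⁄K).b₂ ∈ A := A.add_mem _ _ (pow_mem h1 2) (A.mul_mem _ _ m4 h2)
  have mb4 : (W'⁄K).b₄ ∈ A := A.add_mem _ _ (A.mul_mem _ _ m2 h4) (A.mul_mem _ _ h1 h3)
  have mb6 : (W'⁄K).b₆ ∈ A := A.add_mem _ _ (pow_mem h3 2) (A.mul_mem _ _ m4 h6)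
  have mb8 : (W'⁄K).b₈ ∈ A := by
    rw [WeierstrassCurve.b₈]
    exact sub_mem (add_mem (sub_mem (add_mem (mul_mem (pow_mem h1 2) h6)
      (mul_mem (mul_mem m4 h2) h6)) (mul_mem (mul_mem h1 h3) h4)) (mul_mem h2 (pow_mem h3 2)))
      (pow_mem h4 2)
  have hb2 := (A.valuation_le_one_iff _).mpr mb2
  have hb4 := (A.valuation_le_one_iff _).mpr mb4
  have hb6 := (A.valuation_le_one_iff _).mpr mb6
  have hb8 := (A.valuation_le_one_iff _).mpr mb8
  have h2v : w.Is 0 (2 : K) := by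
    exact_mod_cast valOf_natCast_of_not_dvd hq hA (not_dvd_two hq hq2)
  have hv2 : A.valuation (2 : K) = 1 := by
    have := val_eq_of_is hq hA (QVal.is_one) h2v
    rwa [_root_.map_one] at this
  have hσ1 : ∀ z, A.valuation z ≤ 1 → A.valuation (σ z - z) < 1 :=
    fun z hz => MultRed.val_inertia_sub hσ z hz
  by_cases hxA : A.valuation x ≤ 1
  swap
  · rw [not_le] at hxA
    rw [sub_eq_add_neg]
    refine S13aux.inE1_add hb2 hb4 hb6 hb8 (S13aux.inE1_some.mpr hxA)
      (S13aux.inE1_neg (S13aux.inE1_some.mpr ?_))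
    rw [MultRed.val_inertia_eq hσ]; exact hxA
  have hx : x ∈ A := (A.valuation_le_one_iff x).mp hxA
  -- `2P` is not in `E₁`
  have h2P : ¬ S13aux.InE1 A.valuation (some x y h + some x y h) := by
    intro hin
    obtain ⟨m, hm⟩ := hnodd
    have hPm : some x y h = - (m • (some x y h + some x y h)) := by
      have : n • some x y h = m • (some x y h + some x y h) + some x y h := by
        rw [hm]; module
      rw [hP] at this
      exact (neg_eq_of_add_eq_zero_right this.symm).symm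
    have : S13aux.InE1 A.valuation (some x y h) := by
      rw [hPm]
      refine S13aux.inE1_neg ?_
      exact (S13aux.E1 A.valuation _ hb2 hb4 hb6 hb8).nsmul_mem hin m
    rw [S13aux.inE1_some] at this
    exact absurd this (not_lt.mpr hxA)
  have ha1 : σ (W'⁄K).a₁ = (W'⁄K).a₁ := algEquiv_algebraMap_base σ _
  have ha3 : σ (W'⁄K).a₃ = (W'⁄K).a₃ := algEquiv_algebraMap_base σ _
  set x' : K := x - algebraMap ℚ K e with hx'
  have hx'A : w.Ge 0 x' := (valOf_ge_zero_iff hq hA).mpr (sub_mem hx he)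
  set ψ : K := 2 * y + (W'⁄K).a₁ * x + (W'⁄K).a₃ with hψdef
  have hψ2 : ψ ^ 2 = 4 * x' ^ 3 +
        ((W'⁄K).b₂ + 12 * algebraMap ℚ K e) * x' ^ 2 + 4 * D * x' := by
    rw [hψdef, psi2_sq h.1]
    linear_combination 2 * x' * hN.h4 + hN.h6
  have hn0 : (0 : ℚ) < n := by exact_mod_cast hnodd.pos
  by_cases hx0 : w.Gt 0 x'
  · obtain ⟨j, hj0, hj1, hval⟩ := torsion_val hN hnodd hP hx0
    have hval' : w.Is ((2 * j * N : ℤ) : ℚ) x' := hval.congr (by
      push_cast; field_simp)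
    have hNpos : (0 : ℚ) < (2 * j * N : ℤ) := hval'.lt_of_gt hx0
    have hlt : ((2 * j * N : ℤ) : ℚ) < n * N := by
      have hN' : (0 : ℚ) < N := by
        have := hN.hh
        by_contra hcon
        have h0 : (N : ℚ) = 0 := le_antisymm (not_lt.mp hcon) (Nat.cast_nonneg N)
        rw [h0, mul_zero] at this
        exact lt_irrefl _ this
      have hj1' : (2 * j : ℚ) < n := by exact_mod_cast hj1
      push_cast
      nlinarith
    set m : ℤ := 2 * j * N with hm
    have hψm : w.Is m ψ := by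
      have e1 : w.Is (2 * m) (ψ ^ 2) := by
        rw [hψ2]
        have c3 : w.Ge (3 * m) (x' ^ 3) := by exact_mod_cast hval'.ge.pow 3
        refine (QVal.Gt.add_is ((QVal.ge_four.mul c3).gt ?_)
          ((hN.hB.mul hval'.sq).congr ?_)).add_gt
          (((QVal.ge_four.mul hN.hD.ge).mul hval'.ge).gt ?_) <;> linarith
      have hψ0 : ψ ≠ 0 := by
        intro h0; rw [h0] at e1; exact e1.1 (by ring)
      have e2 := (QVal.Is.of_ne (w := w) hψ0).sq
      have e3 := e1.unique e2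
      exact ⟨hψ0, by linarith⟩
    -- `z = q ^ m`
    have hm0 : 0 < m := by exact_mod_cast hNpos
    obtain ⟨k, hk⟩ := Int.eq_ofNat_of_zero_le hm0.le
    have hz : w.Is m ((q : K) ^ k) :=
      ((valOf_prime hq hA).pow k).congr (by rw [hk]; push_cast; ring)
    refine S13aux.sub_inE1 (z := (q : K) ^ k) (e := algebraMap ℚ K e) hv2 hb2
      (σ : K →+* K) hσ1 h h' ha1 ha3 hz.1 ?_ (σ.commutes e) hxA ?_ ?_
    · change σ ((q : K) ^ k) = _
      rw [map_pow, map_natCast]
    · exact val_eq_of_is hq hA hz hψm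
    · exact val_le_of_is_ge hq hA hz hval'.ge
  · have hx00 : w.Is 0 x' := by
      rw [QVal.not_gt_iff] at hx0
      exact ⟨hx0.1, le_antisymm hx0.2 (hx'A.resolve_left hx0.1)⟩
    obtain ⟨hz, -⟩ | ⟨hψ, α, α', hα, hsum, hform⟩ := double_cases h
    · exact absurd (hz ▸ S13aux.inE1_zero) h2P
    rw [hsum, S13aux.inE1_some, not_lt, A.valuation_le_one_iff] at h2P
    have hform' : ψ ^ 2 * (α - algebraMap ℚ K e) = (x' ^ 2 - D) ^ 2 := by
      have hpsi := psi2_sq h.1
      linear_combination hform - (algebraMap ℚ K e) * hpsi - (x') ^ 2 * hN.h4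
        - 2 * x' * hN.h6 - hN.h8
    have hψ2A : w.Ge 0 (ψ ^ 2) := by
      rw [hψ2]
      refine (((QVal.ge_four.mul (hx'A.pow 3)).mono ?_).add
        ((hN.hB.ge.mul hx'A.sq).mono ?_)).add (((QVal.ge_four.mul hN.hD.ge).mul hx'A).mono ?_)
      · norm_num
      · norm_num
      · have := hN.hh; linarith
    have hψ0 : w.Is 0 ψ := by
      have hψne : ψ ≠ 0 := by
        intro h0
        have e3 : w.Is (2 * (2 * 0)) ((x' ^ 2 - D) ^ 2) :=
          (hx00.sq.sub_gt (hN.hD.gt (by have := hN.hh; linarith))).sq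
        rw [← hform', h0] at e3
        exact e3.1 (by ring)
      obtain ⟨r, hr⟩ : ∃ r, w.Is r ψ := ⟨_, QVal.Is.of_ne hψne⟩
      have hr0 : 0 ≤ r := by
        have := hr.sq.le_of_ge hψ2A
        linarith
      have e3 : w.Is (2 * (2 * 0)) ((x' ^ 2 - D) ^ 2) :=
          (hx00.sq.sub_gt (hN.hD.gt (by have := hN.hh; linarith))).sq
      have e4 : w.Ge (2 * r + 0) ((x' ^ 2 - D) ^ 2) := by
        rw [← hform']
        exact hr.sq.ge.mul ((valOf_ge_zero_iff hq hA).mpr (sub_mem h2P he))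
      have := e3.le_of_ge e4
      exact hr.congr (by linarith)
    refine S13aux.sub_inE1 (z := 1) (e := algebraMap ℚ K e) hv2 hb2
      (σ : K →+* K) hσ1 h h' ha1 ha3 one_ne_zero (_root_.map_one σ) (σ.commutes e) hxA ?_ ?_
    · exact val_eq_of_is hq hA QVal.is_one hψ0
    · exact val_le_of_is_ge hq hA QVal.is_one hx'A

end

open Fermat.Agent.S05 in
/-- The Frey curve at an odd prime `q` dividing `abc`. -/
theorem frey_sub_inE1 (P : FreyPackage) {K : Type*} [Field K] [Algebra ℚ K]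
    [Algebra.IsAlgebraic ℚ K] [DecidableEq K] {q : ℕ} (hq : q.Prime) (hq2 : q ≠ 2)
    {A : ValuationSubring K} (hA : A.LiesOverPrime q) (hdvd : (q : ℤ) ∣ P.a * P.b * P.c)
    {σ : K ≃ₐ[ℚ] K} (hσ : σ ∈ A.inertiaSubgroupIn ℚ) {x y : K}
    {h : (P.freyCurve⁄K).Nonsingular x y}
    (hP : P.p • some x y h = 0) (h' : (P.freyCurve⁄K).Nonsingular (σ x) (σ y)) :
    S13aux.InE1 A.valuation (some x y h - some (σ x) (σ y) h') := by
  have : CharZero K := algebraRat.charZero K
  obtain ⟨h1, h2, h3, h4, h6⟩ := coeffs P K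
  obtain ⟨k2, k4, k6, k8⟩ := invariants P K
  set w := valOf hq hA with hw
  have i2 : w.Is 0 (2 : K) := is_two hq hq2 hA
  have i4 : w.Is 0 (4 : K) := by
    have := i2.sq
    norm_num at this
    exact this
  have i16 : w.Is 0 (16 : K) := by
    have := i4.sq
    norm_num at this
    exact this
  have hI : ∀ n : ℤ, (n : K) ∈ A := fun n => (valOf_ge_zero_iff hq hA).mp (QVal.ge_intCast n)
  have mem_div : ∀ {x y : K}, x ∈ A → w.Is 0 y → x / y ∈ A := by
    intro x y hx hy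
    rw [← valOf_ge_zero_iff hq hA, div_eq_mul_inv]
    exact (((valOf_ge_zero_iff hq hA).mpr hx).mul hy.inv.ge).mono (by norm_num)
  have hodd : Odd P.p := P.hp_odd
  have m1 : (P.freyCurve⁄K).a₁ ∈ A := by rw [h1]; exact A.one_mem
  have m2 : (P.freyCurve⁄K).a₂ ∈ A := by
    rw [h2]
    exact mem_div (sub_mem (sub_mem (pow_mem (hI _) _) A.one_mem) (pow_mem (hI _) _)) i4
  have m3 : (P.freyCurve⁄K).a₃ ∈ A := by rw [h3]; exact A.zero_mem
  have m4 : (P.freyCurve⁄K).a₄ ∈ A := by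
    rw [h4]
    exact mem_div (A.neg_mem _ (mul_mem (pow_mem (hI _) _) (pow_mem (hI _) _))) i16
  have m6 : (P.freyCurve⁄K).a₆ ∈ A := by rw [h6]; exact A.zero_mem
  have hc : (P.c : K) ^ P.p = (P.a : K) ^ P.p + (P.b : K) ^ P.p := by exact_mod_cast P.hFLT.symm
  have hp0 : (0 : ℚ) < P.p := by exact_mod_cast P.hppos
  by_cases ha : (q : ℤ) ∣ P.a
  · -- `q ∣ a`
    have hb : ¬ (q : ℤ) ∣ P.b := not_dvd_right_of_dvd_left hq P.hgcdab ha
    obtain ⟨N, hN, iN⟩ := exists_is_of_dvd hq hA P.ha0 ha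
    have ib := (is_zero_of_not_dvd hq hA hb).pow P.p
    rw [mul_zero] at ib
    have ia := iN.pow P.p
    have hN' : (0 : ℚ) < N := by exact_mod_cast hN
    refine sub_inE1_node (e := 0) (N := N)
      (D := -((P.a : K) ^ P.p * (P.b : K) ^ P.p) / 16) hq hq2 hA m1 m2 m3 m4 m6 hodd ?_
      (by rw [_root_.map_zero]; exact A.zero_mem) hσ hP h'
    refine ⟨by positivity, ?_, ?_, ?_, ?_, ?_⟩
    · rw [div_eq_mul_inv]
      exact ((ia.mul ib).neg.mul i16.inv).congr (by ring)
    · rw [k2, _root_.map_zero, mul_zero, add_zero]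
      exact ib.sub_gt (ia.gt (by positivity))
    · rw [k4, _root_.map_zero]; ring
    · rw [k6, _root_.map_zero]; ring
    · rw [k8, _root_.map_zero]; ring
  by_cases hb : (q : ℤ) ∣ P.b
  · -- `q ∣ b`
    obtain ⟨N, hN, iN⟩ := exists_is_of_dvd hq hA P.hb0 hb
    have ia := (is_zero_of_not_dvd hq hA ha).pow P.p
    rw [mul_zero] at ia
    have ib := iN.pow P.p
    have hN' : (0 : ℚ) < N := by exact_mod_cast hN
    refine sub_inE1_node (e := 0) (N := N)
      (D := -((P.a : K) ^ P.p * (P.b : K) ^ P.p) / 16) hq hq2 hA m1 m2 m3 m4 m6 hodd ?_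
      (by rw [_root_.map_zero]; exact A.zero_mem) hσ hP h'
    refine ⟨by positivity, ?_, ?_, ?_, ?_, ?_⟩
    · rw [div_eq_mul_inv]
      exact ((ia.mul ib).neg.mul i16.inv).congr (by ring)
    · rw [k2, _root_.map_zero, mul_zero, add_zero]
      exact (ib.gt (by positivity)).sub_is ia
    · rw [k4, _root_.map_zero]; ring
    · rw [k6, _root_.map_zero]; ring
    · rw [k8, _root_.map_zero]; ring
  -- `q ∣ c`
  have hcq : (q : ℤ) ∣ P.c := by
    have hqp : Prime (q : ℤ) := Nat.prime_iff_prime_int.mp hq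
    rcases hqp.dvd_or_dvd hdvd with h | h
    · rcases hqp.dvd_or_dvd h with h | h
      · exact absurd h ha
      · exact absurd h hb
    · exact h
  obtain ⟨N, hN, iN⟩ := exists_is_of_dvd hq hA P.hc0 hcq
  have ia := (is_zero_of_not_dvd hq hA ha).pow P.p
  rw [mul_zero] at ia
  have ic := iN.pow P.p
  have hN' : (0 : ℚ) < N := by exact_mod_cast hN
  have he : algebraMap ℚ K ((P.a : ℚ) ^ P.p / 4) = (P.a : K) ^ P.p / 4 := by
    simp
  refine sub_inE1_node (e := (P.a : ℚ) ^ P.p / 4) (N := N)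
    (D := ((P.a : K) ^ P.p * (P.c : K) ^ P.p) / 16) hq hq2 hA m1 m2 m3 m4 m6 hodd ?_
    (by rw [he]; exact mem_div (pow_mem (hI _) _) i4) hσ hP h'
  refine ⟨by positivity, ?_, ?_, ?_, ?_, ?_⟩
  · rw [div_eq_mul_inv]
    exact ((ia.mul ic).mul i16.inv).congr (by ring)
  · rw [k2, he]
    have : (P.b : K) ^ P.p - (P.a : K) ^ P.p + 12 * ((P.a : K) ^ P.p / 4) =
        (P.a : K) ^ P.p + (P.c : K) ^ P.p := by rw [hc]; ring
    rw [this]
    exact ia.add_gt (ic.gt (by positivity))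
  · rw [k2, k4, he, hc]; ring
  · rw [k2, k4, k6, he]; ring
  · rw [k2, k4, k6, k8, he, hc]; ring

/-- **S13, multiplicative case at `p`.** -/
theorem sub_inE1_mult (P : FreyPackage) (A : ValuationSubring (AlgebraicClosure ℚ))
    (hA : A.LiesOverPrime P.p) (hdvd : (P.p : ℤ) ∣ P.a * P.b * P.c)
    (σ : AlgebraicClosure ℚ ≃ₐ[ℚ] AlgebraicClosure ℚ) (hσ : σ ∈ A.inertiaSubgroupIn ℚ)
    (x : Submodule.torsionBy ℤ (P.freyCurve⁄(AlgebraicClosure ℚ)).Point P.p) :
    S13aux.InE1 A.valuation ((x - σ • x : Submodule.torsionBy ℤ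
      (P.freyCurve⁄(AlgebraicClosure ℚ)).Point P.p) :
        (P.freyCurve⁄(AlgebraicClosure ℚ)).Point) := by
  have hp2 : P.p ≠ 2 := by
    have := P.hp5
    omega
  have hxt := (Fermat.Agent.Torsion.mem_torsionBy_nat_iff P.p _).mp x.2
  rcases hx : (x : (P.freyCurve⁄(AlgebraicClosure ℚ)).Point) with _ | ⟨X, Y, h⟩
  · have hx0 : x = 0 := Subtype.ext hx
    rw [hx0, smul_zero, sub_zero]
    exact S13aux.inE1_zero
  · have e1 : ((x - σ • x : Submodule.torsionBy ℤ
        (P.freyCurve⁄(AlgebraicClosure ℚ)).Point P.p) :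
          (P.freyCurve⁄(AlgebraicClosure ℚ)).Point) =
        (x : (P.freyCurve⁄(AlgebraicClosure ℚ)).Point) -
          Point.map σ.toAlgHom (x : (P.freyCurve⁄(AlgebraicClosure ℚ)).Point) := rfl
    rw [e1, hx, map_some]
    rw [hx] at hxt
    exact frey_sub_inE1 P P.pp hp2 hA hdvd hσ hxt _

end Fermat.Agent.S13mult
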