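-- Statement S13 (row 12): a reducible mod-p representation of the Frey curve has a cofixed line.
import Fermat.Statements.S13
import Fermat.Agent.S13_Assembly
import Fermat.Agent.S13_MultP
import Fermat.Agent.S05

set_option autoImplicit false
open WeierstrassCurve WeierstrassCurve.Affine WeierstrassCurve.Affine.Point
open CuspForm ModularFormClass UpperHalfPlane
open FreyPackage

namespace Fermat.Agent.S13

theorem result (P : FreyPackage) (hred : ¬ GaloisRepIsIrreducible (K := AlgebraicClosure ℚ) ℚ P.freyCurve P.p) : HasGaloisStableCofixedLine (K := AlgebraicClosure ℚ) ℚ P.freyCurve P.p :=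
  Fermat.Agent.S13aux.cofixed_of P (fun _ hq hq2 hqp => Fermat.Agent.S05.result P hq hq2 hqp)
    (fun A hA hd σ hσ x => Fermat.Agent.S13mult.sub_inE1_mult P A hA hd σ hσ x) hred

end Fermat.Agent.S13
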