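import Fermat.Statements.S09
-- import your own Fermat.Agent.* helpers here
import Fermat.Agent.S09_wiring
import Fermat.Agent.S10
import Fermat.Agent.S11
import Fermat.Agent.S12
import Fermat.Agent.S13

set_option autoImplicit false
open WeierstrassCurve WeierstrassCurve.Affine WeierstrassCurve.Affine.Point
open CuspForm ModularFormClass UpperHalfPlane
open FreyPackage

namespace Fermat.Agent.S09

theorem result (P : FreyPackage) : GaloisRepIsIrreducible (K := AlgebraicClosure ℚ) ℚ P.freyCurve P.p := by
  exact Fermat.Agent.S09aux.irreducible_of_parts Fermat.Agent.S10.result Fermat.Agent.S11.result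
    Fermat.Agent.S12.result Fermat.Agent.S13.result P

end Fermat.Agent.S09
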