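import Fermat.Agent.S35_Separate

/-!
# Assembly of S35

* `frobSqInput_of_norm`: the relation `t (φ² - 1)(φ² - q²) = 0` on `J[p^m]` from the norm relation
  `α_* x = 0 → (1 + φ w) x ∈ T₁` and `φ² = q²` on `T₁ ∩ w T₁`.
* `stmt35_of_input`: the frozen statement S35 from S30, the Eichler--Shimura modules and the
  geometric input at the primes `q ∥ M`.
-/

set_option autoImplicit false

noncomputable section

open CuspForm ModularCurve Polynomial Fermat.Agent.GalRep FermatAgent.HeckeEigen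

namespace Fermat.Agent.S35aux

/-! ### The formal deduction of the relation at `q` -/

section Norm

variable {J J' : Type*} [AddCommGroup J] [Module HeckeAlg J] [DistribMulAction GQ J]
  [SMulCommClass GQ HeckeAlg J] [AddCommGroup J']

/-- `t (φ² - 1)(φ² - q²) = 0` on `J[p^m]`. -/
theorem frobSqInput_of_norm {p q : ℕ} (α : J →+ J') (w : J →+ J) (hww : ∀ x, w (w x) = x)
    (hwg : ∀ (g : GQ) (x : J), w (g • x) = g • w x) (t : HeckeAlg)
    (hwt : ∀ (m : ℕ) (x : J), p ^ m • x = 0 → w (t • x) = t • w x)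
    (hαt : ∀ (m : ℕ) (x : J), p ^ m • x = 0 → α (t • x) = 0)
    (T₁ : ValuationSubring (AlgebraicClosure ℚ) → ℕ → J → Prop)
    (hN : ∀ A : ValuationSubring (AlgebraicClosure ℚ), A.LiesOverPrime q →
      ∀ φ : GQ, A.IsFrobeniusAt φ q → ∀ (m : ℕ) (x : J), p ^ m • x = 0 → α x = 0 →
        T₁ A m (x + φ • w x))
    (hT : ∀ A : ValuationSubring (AlgebraicClosure ℚ), A.LiesOverPrime q →
      ∀ φ : GQ, A.IsFrobeniusAt φ q → ∀ (m : ℕ) (x : J), p ^ m • x = 0 → T₁ A m x →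
        T₁ A m (w x) → φ • φ • x = q ^ 2 • x) :
    FrobSqInput p q J t 1 := by
  intro A hA φ hφ m
  ext ⟨x, hx⟩
  rw [pow_one, pow_one]
  have hxm : p ^ m • x = 0 := hx
  have htx : ∀ z : J, p ^ m • z = 0 → p ^ m • (t • z) = 0 := fun z hz => by
    rw [smul_comm, hz, smul_zero]
  have hwx : ∀ z : J, p ^ m • z = 0 → p ^ m • w z = 0 := fun z hz => by
    rw [← map_nsmul, hz, map_zero]
  have hφx : ∀ z : J, p ^ m • z = 0 → p ^ m • (φ • z) = 0 := fun z hz => by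
    rw [smul_comm, hz, smul_zero]
  -- `y = t x`
  set y : J := t • x with hy
  have hym : p ^ m • y = 0 := htx x hxm
  have hαy : α y = 0 := hαt m x hxm
  have hαwy : α (w y) = 0 := by
    rw [hy, hwt m x hxm]
    exact hαt m _ (hwx x hxm)
  set z : J := y + φ • w y with hz
  have hwz : w z = w y + φ • w (w y) := by rw [hz, map_add, hwg]
  have hzm : p ^ m • z = 0 := by
    rw [hz, smul_add, hym, hφx _ (hwx _ hym), add_zero]
  have h1 : T₁ A m z := hN A hA φ hφ m y hym hαy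
  have h2 : T₁ A m (w z) := by
    rw [hwz]
    exact hN A hA φ hφ m (w y) (hwx _ hym) hαwy
  have h3 := hT A hA φ hφ m z hzm h1 h2
  -- the same for `w z`
  have h4 : φ • φ • w z = q ^ 2 • w z := by
    rw [← hwg, ← hwg, h3, map_nsmul]
  -- `z - φ w z = y - φ² y`
  have h5 : z - φ • w z = y - φ • φ • y := by
    rw [hwz, hz, hww, smul_add]
    abel
  have h6 : φ • φ • (y - φ • φ • y) = q ^ 2 • (y - φ • φ • y) := by
    rw [← h5, smul_sub, smul_sub, h3, smul_sub]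
    congr 1
    rw [h4, smul_comm φ (q ^ 2)]
  -- conclusion
  have hcomm : ∀ (g : GQ) (u : J), t • (g • u) = g • (t • u) := fun g u => (smul_comm g t u).symm
  set F : Module.End HeckeAlg (torsSub J p m) := actTors J p m φ with hF
  set Q : Module.End HeckeAlg (torsSub J p m) :=
    algebraMap HeckeAlg (Module.End HeckeAlg (torsSub J p m)) ((q : HeckeAlg) ^ 2) with hQ
  set B : Module.End HeckeAlg (torsSub J p m) := F ^ 2 - Q with hB
  set C' : Module.End HeckeAlg (torsSub J p m) := F ^ 2 - 1 with hC'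
  have e1 : ((B (⟨x, hx⟩ : torsSub J p m) : torsSub J p m) : J) = φ • φ • x - q ^ 2 • x := by
    rw [hB, LinearMap.sub_apply, pow_two, Module.End.mul_apply, Submodule.coe_sub]
    congr 1
    change ((q : HeckeAlg) ^ 2) • x = q ^ 2 • x
    rw [← Nat.cast_pow, Nat.cast_smul_eq_nsmul]
  have e2 : ∀ u : torsSub J p m, ((C' u : torsSub J p m) : J) = φ • φ • (u : J) - u := by
    intro u
    rw [hC', LinearMap.sub_apply, pow_two, Module.End.mul_apply, Submodule.coe_sub]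
    rfl
  rw [Module.End.mul_apply, Module.End.mul_apply]
  change t • ((C' (B (⟨x, hx⟩ : torsSub J p m)) : torsSub J p m) : J) = 0
  rw [e2, e1]
  have h7 : t • (φ • φ • (φ • φ • x - q ^ 2 • x) - (φ • φ • x - q ^ 2 • x)) =
      -(φ • φ • (y - φ • φ • y) - q ^ 2 • (y - φ • φ • y)) := by
    have hq2 : ∀ u : J, t • (q ^ 2 • u) = q ^ 2 • (t • u) := fun u => smul_comm _ _ _
    have hφ2 : ∀ u : J, φ • (q ^ 2 • u) = q ^ 2 • (φ • u) := fun u => smul_comm _ _ _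
    simp only [smul_sub, hcomm, hq2, ← hy, hφ2]
    abel
  rw [h7, h6, sub_self, neg_zero]

end Norm

/-! ### The final assembly -/

/-- The statement S30. -/
def Stmt30 : Prop :=
    ∀ (p : ℕ) [Fact p.Prime] (N : ℕ) [NeZero N] (S : Finset ℕ)
      (_hpS : p ∈ S) (_hNS : ∀ q : ℕ, q.Prime → q ∣ N → q ∈ S)
      (𝒪' : Type) [CommRing 𝒪'] [IsDomain 𝒪'] [IsDiscreteValuationRing 𝒪']
      [IsAdicComplete (IsLocalRing.maximalIdeal 𝒪') 𝒪'] [Finite (IsLocalRing.ResidueField 𝒪')]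
      [CharZero 𝒪'] (_hp𝒪' : (p : 𝒪') ∈ IsLocalRing.maximalIdeal 𝒪')
      (χ : CuspForm.heckeAlgebra N 2 (↑S : Set ℕ) →+* 𝒪'),
      ∃ (𝒪'' : Type) (_ : CommRing 𝒪'') (_ : IsDomain 𝒪'') (_ : IsDiscreteValuationRing 𝒪'')
        (_ : IsAdicComplete (IsLocalRing.maximalIdeal 𝒪'') 𝒪'')
        (_ : Finite (IsLocalRing.ResidueField 𝒪'')) (_ : CharZero 𝒪'')
        (_ : Algebra 𝒪' 𝒪'') (_ : Module.Finite 𝒪' 𝒪'') (_ : IsLocalHom (algebraMap 𝒪' 𝒪'')),
      Function.Injective (algebraMap 𝒪' 𝒪'') ∧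
      ∃ ρ : GaloisRepAdic 𝒪'',
        (∀ (ℓ : ℕ) (hℓ : ℓ.Prime) (hℓN : ¬ ℓ ∣ N) (hℓS : ℓ ∉ (↑S : Set ℕ)),
          ∀ A : ValuationSubring (AlgebraicClosure ℚ), A.LiesOverPrime ℓ →
            ∀ σ : AlgebraicClosure ℚ ≃ₐ[ℚ] AlgebraicClosure ℚ, A.IsFrobeniusAt σ ℓ →
              LinearMap.charpoly (ρ.ρ σ) =
                X ^ 2 - C (algebraMap 𝒪' 𝒪'' (χ (CuspForm.heckeAlgebra.T hℓ hℓN hℓS))) * X
                  + C ((ℓ : 𝒪''))) ∧
        (∀ q : ℕ, q.Prime → ¬ q ∣ N → q ≠ p → ρ.IsUnramifiedAt q)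

/-- A ring homomorphism from an integral subring of `ℂ` to a domain of characteristic zero is
injective. -/
lemma injective_of_isIntegral {R O : Type*} [CommRing R] [IsDomain R] [CommRing O] [IsDomain O]
    [CharZero O] (hR : Algebra.IsIntegral ℤ R) (f : R →+* O) : Function.Injective f := by
  rw [injective_iff_map_eq_zero]
  intro x hx
  by_contra hx0
  have hxi : IsIntegral ℤ x := hR.isIntegral x
  have halg : IsAlgebraic ℤ x := hxi.isAlgebraic
  obtain ⟨y, hy0, hy⟩ := halg.exists_nonzero_dvd (mem_nonZeroDivisors_of_ne_zero hx0)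
  obtain ⟨z, hz⟩ := hy
  have h1 := congrArg f hz
  rw [map_mul, hx, zero_mul] at h1
  have h2 : f (algebraMap ℤ R y) = (y : O) := by simp
  rw [h2] at h1
  exact hy0 (Int.cast_eq_zero.mp h1)

/-- **S35** from S30 and the geometric input at the primes `q ∥ M`. -/
theorem stmt35_of_input
    {M : ℕ} [NeZero M] {g : CuspForm (CongruenceSubgroup.Gamma0 M) 2} (hg : g.IsNewform)
    (lam : ℕ) [Fact lam.Prime]
    (S : Finset ℕ)
    (O' : Type) [CommRing O'] [IsDomain O'] [IsDiscreteValuationRing O']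
    [IsAdicComplete (IsLocalRing.maximalIdeal O') O'] [Finite (IsLocalRing.ResidueField O')]
    [CharZero O'] (hlamO' : (lam : O') ∈ IsLocalRing.maximalIdeal O')
    (chig : CuspForm.heckeAlgebra M 2 (↑S : Set ℕ) →+* ℂ)
    (hchig : ∀ (ℓ : ℕ) (hℓ : ℓ.Prime) (hℓM : ¬ ℓ ∣ M) (hℓS : ℓ ∉ (↑S : Set ℕ)),
      chig (CuspForm.heckeAlgebra.T hℓ hℓM hℓS) = ModularFormClass.qCoeff g ℓ)
    (iota : chig.range →+* O')
    (hlamS : lam ∈ S) (hMS : ∀ q : ℕ, q.Prime → q ∣ M → q ∈ S)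
    (h30 : Stmt30)
    (hrat : ∀ (ℓ : ℕ) (hℓ : ℓ.Prime) (hℓM : ¬ ℓ ∣ M), ∃ c : ℤ, c ≠ 0 ∧
      c • heckeTLin 2 hℓ hℓM ∈ heckeAlgebra M 2 (↑S : Set ℕ))
    {J : Type*} [AddCommGroup J] [Module HeckeAlg J] [DistribMulAction GQ J]
    [SMulCommClass GQ HeckeAlg J] (hJ : ESInput M lam (↑S : Set ℕ) J)
    (hgeo : ∀ q : ℕ, q.Prime → q ≠ lam → q ∣ M → ¬ q ^ 2 ∣ M → ∀ [NeZero (M / q)],
      ∀ t : HeckeAlgS (↑S : Set ℕ), evS (M / q) (↑S : Set ℕ) t = 0 →
        ∃ (c a : ℕ), c ≠ 0 ∧ FrobSqInput lam q J (inclS (↑S : Set ℕ) ((c : ℕ) * t)) a)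
    :
    ∃ (O'' : Type) (_ : CommRing O'') (_ : IsDomain O'') (_ : IsDiscreteValuationRing O'')
      (_ : IsAdicComplete (IsLocalRing.maximalIdeal O'') O'') (_ : Finite (IsLocalRing.ResidueField O''))
      (_ : CharZero O'') (_ : Algebra O' O'') (_ : Module.Finite O' O'') (_ : IsLocalHom (algebraMap O' O'')),
      Function.Injective (algebraMap O' O'') ∧
      ∃ ρ : GaloisRepAdic O'',
        (∀ (ℓ : ℕ) (hℓ : ℓ.Prime) (hℓM : ¬ ℓ ∣ M) (hℓS : ℓ ∉ (↑S : Set ℕ)),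
          ∀ A : ValuationSubring (AlgebraicClosure ℚ), A.LiesOverPrime ℓ →
            ∀ σ : AlgebraicClosure ℚ ≃ₐ[ℚ] AlgebraicClosure ℚ, A.IsFrobeniusAt σ ℓ →
              LinearMap.charpoly (ρ.ρ σ) =
                X ^ 2 - C (algebraMap O' O'' ((iota.comp chig.rangeRestrict) (CuspForm.heckeAlgebra.T hℓ hℓM hℓS))) * X
                  + C ((ℓ : O''))) ∧
        (∀ q : ℕ, q.Prime → q ≠ lam → q ∣ M → ¬ q ^ 2 ∣ M →
          ∀ A : ValuationSubring (AlgebraicClosure ℚ), A.LiesOverPrime q →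
            ∀ σ : AlgebraicClosure ℚ ≃ₐ[ℚ] AlgebraicClosure ℚ, A.IsFrobeniusAt σ q →
              LinearMap.charpoly (ρ.ρ σ) = X ^ 2 - C ((q : O'') + 1) * X + C ((q : O'')) ∨
              LinearMap.charpoly (ρ.ρ σ) = X ^ 2 + C ((q : O'') + 1) * X + C ((q : O''))) := by
  obtain ⟨O'', i1, i2, i3, i4, i5, i6, i7, i8, i9, hinj, ρ, hρ, -⟩ :=
    h30 lam M S hlamS hMS O' hlamO' (iota.comp chig.rangeRestrict)
  refine ⟨O'', i1, i2, i3, i4, i5, i6, i7, i8, i9, hinj, ρ, hρ, ?_⟩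
  intro q hq hqlam hqM hq2 A hA σ hσ
  have hM0 : M ≠ 0 := NeZero.ne M
  haveI : NeZero (M / q) := ⟨(Nat.div_pos (Nat.le_of_dvd (Nat.pos_of_ne_zero hM0) hqM) hq.pos).ne'⟩
  obtain ⟨t, ht0, htg⟩ := exists_separating (M' := M / q) (Nat.div_dvd_of_dvd hqM)
    (Nat.div_lt_self (Nat.pos_of_ne_zero hM0) hq.one_lt).ne hg S hMS hrat chig hchig
  obtain ⟨c, a, hc, hfs⟩ := hgeo q hq hqlam hqM hq2 t ht0
  have hp : lam.Prime := Fact.out
  have hpT : (lam : O'') ∈ IsLocalRing.maximalIdeal O'' := by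
    have h := map_nonunit (algebraMap O' O'') (lam : O') hlamO'
    rwa [map_natCast] at h
  -- integrality
  haveI : Module.Finite ℤ (heckeAlgebra M 2 (↑S : Set ℕ)) := Fermat.Agent.S22.result M 2 _
  have hint : Algebra.IsIntegral ℤ chig.range := by
    refine ⟨?_⟩
    rintro ⟨_, x, rfl⟩
    have h1 : IsIntegral ℤ x := Algebra.IsIntegral.isIntegral x
    have h2 := h1.map chig.rangeRestrict.toIntAlgHom
    exact h2
  have hiota : Function.Injective iota := injective_of_isIntegral hint iota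
  set π : heckeAlgebra M 2 (↑S : Set ℕ) →+* O'' :=
    (algebraMap O' O'').comp (iota.comp chig.rangeRestrict) with hπ
  have hfrob : HasFrobCharpoly π ρ := hρ
  have hπt : π (evS M (↑S : Set ℕ) ((c : ℕ) * t)) ≠ 0 := by
    rw [map_mul, map_natCast, map_mul, map_natCast]
    refine mul_ne_zero (Nat.cast_ne_zero.mpr hc) ?_
    intro h0
    rw [hπ, RingHom.comp_apply, RingHom.comp_apply] at h0
    have h1 := hiota (((hinj (h0.trans (map_zero _).symm))).trans (map_zero _).symm)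
    exact htg (congrArg Subtype.val h1)
  exact charpoly_frobenius_of_input hJ hp hpT hlamS hMS hfrob hq hqlam hfs hπt hA hσ

end Fermat.Agent.S35aux

end
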