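import Fermat.Agent.QX4.Input
import Fermat.Agent.Cofaith.ES
import Fermat.Agent.S35_Assembly

/-!
# S35 from S30, S37 and the relation on toric classes
-/

set_option autoImplicit false
set_option linter.style.haveILetI false
set_option linter.unusedSectionVars false

noncomputable section

open ModularCurve AlgebraicCurve IntermediateField Polynomial CuspForm
open Fermat.Agent.GaussVal Fermat.Agent.GalRep Fermat.Agent.FF Fermat.Agent.S35aux
open scoped Fermat.Agent.GaussVal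
open Fermat.Agent.TwoGauss (wq mkData)
open Fermat.Agent.Cofaith (smulCommClass_JZero)

namespace Fermat.Agent.QX4

/-- The relation on toric classes for all concrete two-component data. -/
def AllTCore : Prop :=
  ∀ (m q : ℕ) [NeZero m] [Fact q.Prime] (hm : ¬ q ∣ m)
    (A : ValuationSubring (AlgebraicClosure ℚ)) [CharP (IsLocalRing.ResidueField A) q]
      [PerfectRing (IsLocalRing.ResidueField A) q] (hA : A.LiesOverPrime q)
      (H3 : S18aux.DegThm (IsLocalRing.ResidueField A) m) H2,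
      TCore (mkData Fact.out hm hA H3 H2)

theorem finrankAlong_ne_zero' {K F F' : Type*} [Field K] [Field F] [Algebra K F] [Field F']
    [Algebra K F'] (φ : F →ₐ[K] F') (h : FiniteAlong K φ) : finrankAlong K φ ≠ 0 := by
  letI := algebraAlong φ
  haveI : Module.Finite F F' := h
  exact (Module.finrank_pos (R := F) (M := F')).ne'

/-- the geometric input of S35. -/
theorem hgeo_JZero (HT : AllTCore) {M : ℕ} [NeZero M] (S : Set ℕ)
    (hMS : ∀ q : ℕ, q.Prime → q ∣ M → q ∈ S) {lam : ℕ} (hlam : lam.Prime) (q : ℕ) (hq : q.Prime)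
    (hqlam : q ≠ lam) (hqM : q ∣ M) (hq2 : ¬ q ^ 2 ∣ M) [NeZero (M / q)] (t : HeckeAlgS S)
    (ht : evS (M / q) S t = 0) :
    letI := heckeModuleBar M
    haveI := smulCommClass_JZero M
    ∃ c a : ℕ, c ≠ 0 ∧ FrobSqInput lam q (JZero M) (inclS S ((c : ℕ) * t)) a := by
  letI := heckeModuleBar M
  haveI := smulCommClass_JZero M
  haveI : Fact q.Prime := ⟨hq⟩
  obtain ⟨m, rfl⟩ : ∃ m, M = m * q := by
    obtain ⟨m, hm⟩ := hqM
    exact ⟨m, by rw [hm, mul_comm]⟩
  have hm : ¬ q ∣ m := by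
    rintro ⟨r, rfl⟩
    exact hq2 ⟨r, by ring⟩
  haveI hm0 : NeZero m := ⟨fun h => NeZero.ne (m * q) (by rw [h, zero_mul])⟩
  haveI : NeZero (GoodRed.auxLevel q m) := ⟨GoodRed.auxLevel_ne_zero hm0.ne⟩
  have ht' : evS m S t = 0 := by
    have key : ∀ (m' : ℕ) [NeZero m'], m' = m → evS m' S t = 0 → evS m S t = 0 := by
      intro m' _ h
      subst h
      exact id
    exact key _ (Nat.mul_div_cancel _ hq.pos) ht
  obtain ⟨e, he, hco⟩ := Fermat.Agent.Cofaith.cofaithful' m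
  have hgeo := geoInput_aux hm (fun A _ _ hA H3 H2 => HT _ q _ A hA H3 H2)
  have hfs := frobSqInput_JZero hm (GoodRed.not_dvd_auxLevel hq hm)
    (GoodRed.dvd_auxLevel q m) hgeo hlam hqlam S hMS ((e : ℕ) * t) (fun k y hy =>
      hco S (fun ℓ hℓ hd => hMS ℓ hℓ (hd.mul_right q)) t ht' _ (pow_ne_zero k hlam.ne_zero) y hy)
  have hd := finrankAlong_ne_zero' (S37aux.inclBar
    (Nat.mul_dvd_mul_right (GoodRed.dvd_auxLevel q m) q)) (FF.finiteAlong _)
  refine ⟨finrankAlong (AlgebraicClosure ℚ) (S37aux.inclBar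
    (Nat.mul_dvd_mul_right (GoodRed.dvd_auxLevel q m) q)) * e, 1, mul_ne_zero hd he, ?_⟩
  rw [Nat.cast_mul, mul_assoc]
  exact hfs

/-- S37 for all levels and primes. -/
def AllSpec : Prop := ∀ (N p : ℕ) [NeZero N],
  letI := heckeModuleBar N
  haveI := smulCommClass_JZero N
  p.Prime → SpecializationExists (K := ℚ) (L := AlgebraicClosure ℚ) N p (JZero N)

/-- the rationality hypothesis. -/
theorem hrat_JZero (hspec : AllSpec) {M : ℕ} [NeZero M] (S : Finset ℕ) :
    ∀ (ℓ : ℕ) (hℓ : ℓ.Prime) (hℓM : ¬ ℓ ∣ M), ∃ c : ℤ, c ≠ 0 ∧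
      c • heckeTLin 2 hℓ hℓM ∈ heckeAlgebra M 2 (↑S : Set ℕ) := by
  refine exists_smul_heckeTLin_mem S (fun ℓ hℓ hℓM => ?_)
  obtain ⟨p, hpM, hp⟩ := Nat.exists_infinite_primes (ℓ + 1)
  have hpℓ : ℓ ≠ p := by omega
  refine ⟨p, insert p M.primeFactors, JZero M, inferInstance, heckeModuleBar M, inferInstance,
    smulCommClass_JZero M, ?_, hp, Finset.mem_insert_self _ _, fun q hq hqM => ?_, ?_⟩
  · exact Fermat.Agent.Cofaith.esInput_JZero M hp _ (fun q hq hqM => by
      rw [Finset.mem_coe, Finset.mem_insert, Nat.mem_primeFactors]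
      exact Or.inr ⟨hq, hqM, NeZero.ne M⟩) (hspec M p hp)
  · rw [Finset.mem_insert, Nat.mem_primeFactors]
    exact Or.inr ⟨hq, hqM, NeZero.ne M⟩
  · rw [Finset.mem_insert, Nat.mem_primeFactors]
    rintro (h | h)
    · exact hpℓ h
    · exact hℓM h.2.1

/-- **S35** from S30, S37 and the relation on toric classes. -/
theorem stmt35 (HT : AllTCore) (hspec : AllSpec) (h30 : Stmt30)
    {M : ℕ} [NeZero M] {g : CuspForm (CongruenceSubgroup.Gamma0 M) 2} (hg : g.IsNewform)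
    (lam : ℕ) [Fact lam.Prime]
    (S : Finset ℕ)
    (O' : Type) [CommRing O'] [IsDomain O'] [IsDiscreteValuationRing O']
    [IsAdicComplete (IsLocalRing.maximalIdeal O') O'] [Finite (IsLocalRing.ResidueField O')]
    [CharZero O'] (hlamO' : (lam : O') ∈ IsLocalRing.maximalIdeal O')
    (chig : CuspForm.heckeAlgebra M 2 (↑S : Set ℕ) →+* ℂ)
    (hchig : ∀ (ℓ : ℕ) (hℓ : ℓ.Prime) (hℓM : ¬ ℓ ∣ M) (hℓS : ℓ ∉ (↑S : Set ℕ)),
      chig (CuspForm.heckeAlgebra.T hℓ hℓM hℓS) = ModularFormClass.qCoeff g ℓ)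
    (iota : chig.range →+* O')
    (hlamS : lam ∈ S) (hMS : ∀ q : ℕ, q.Prime → q ∣ M → q ∈ S)
    :
    ∃ (O'' : Type) (_ : CommRing O'') (_ : IsDomain O'') (_ : IsDiscreteValuationRing O'')
      (_ : IsAdicComplete (IsLocalRing.maximalIdeal O'') O'') (_ : Finite (IsLocalRing.ResidueField O''))
      (_ : CharZero O'') (_ : Algebra O' O'') (_ : Module.Finite O' O'') (_ : IsLocalHom (algebraMap O' O'')),
      Function.Injective (algebraMap O' O'') ∧
      ∃ ρ : GaloisRepAdic O'',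
        (∀ (ℓ : ℕ) (hℓ : ℓ.Prime) (hℓM : ¬ ℓ ∣ M) (hℓS : ℓ ∉ (↑S : Set ℕ)),
          ∀ A : ValuationSubring (AlgebraicClosure ℚ), A.LiesOverPrime ℓ →
            ∀ σ : AlgebraicClosure ℚ ≃ₐ[ℚ] AlgebraicClosure ℚ, A.IsFrobeniusAt σ ℓ →
              LinearMap.charpoly (ρ.ρ σ) =
                X ^ 2 - C (algebraMap O' O'' ((iota.comp chig.rangeRestrict) (CuspForm.heckeAlgebra.T hℓ hℓM hℓS))) * X
                  + C ((ℓ : O''))) ∧
        (∀ q : ℕ, q.Prime → q ≠ lam → q ∣ M → ¬ q ^ 2 ∣ M →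
          ∀ A : ValuationSubring (AlgebraicClosure ℚ), A.LiesOverPrime q →
            ∀ σ : AlgebraicClosure ℚ ≃ₐ[ℚ] AlgebraicClosure ℚ, A.IsFrobeniusAt σ q →
              LinearMap.charpoly (ρ.ρ σ) = X ^ 2 - C ((q : O'') + 1) * X + C ((q : O'')) ∨
              LinearMap.charpoly (ρ.ρ σ) = X ^ 2 + C ((q : O'') + 1) * X + C ((q : O''))) := by
  letI := heckeModuleBar M
  haveI := smulCommClass_JZero M
  have hlam : lam.Prime := Fact.out
  have hJ : ESInput M lam (↑S : Set ℕ) (JZero M) :=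
    Fermat.Agent.Cofaith.esInput_JZero M hlam _ (fun q hq hqM => hMS q hq hqM) (hspec M lam hlam)
  exact stmt35_of_input hg lam S O' hlamO' chig hchig iota hlamS hMS h30 (hrat_JZero hspec S) hJ
    (fun q hq hqlam hqM hq2 _ t ht => hgeo_JZero HT _ hMS hlam q hq hqlam hqM hq2 t ht)

end Fermat.Agent.QX4

end
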