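import Fermat.Statements.S53

set_option autoImplicit false

/-!
# S53, part B: matrix calculus for normal forms of lifts
-/

namespace Fermat.Agent.S53norm

open IsLocalRing Matrix

/-- `2 × 2` matrices. -/
abbrev M2 (A : Type) := Matrix (Fin 2) (Fin 2) A

section MemI

variable {A : Type} [CommRing A]

/-- All entries of `X` are in the ideal `I`. -/
def MemI (I : Ideal A) (X : M2 A) : Prop := ∀ i j, X i j ∈ I

lemma MemI.add {I : Ideal A} {X Y : M2 A} (hX : MemI I X) (hY : MemI I Y) : MemI I (X + Y) :=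
  fun i j => I.add_mem (hX i j) (hY i j)

lemma MemI.sub {I : Ideal A} {X Y : M2 A} (hX : MemI I X) (hY : MemI I Y) : MemI I (X - Y) :=
  fun i j => I.sub_mem (hX i j) (hY i j)

lemma MemI.neg {I : Ideal A} {X : M2 A} (hX : MemI I X) : MemI I (-X) :=
  fun i j => I.neg_mem (hX i j)

lemma MemI.mul_left {I : Ideal A} {X : M2 A} (Y : M2 A) (hX : MemI I X) : MemI I (Y * X) :=
  fun i j => by
    rw [Matrix.mul_apply]
    exact I.sum_mem fun l _ => I.mul_mem_left _ (hX l j)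

lemma MemI.mul_right {I : Ideal A} {X : M2 A} (Y : M2 A) (hX : MemI I X) : MemI I (X * Y) :=
  fun i j => by
    rw [Matrix.mul_apply]
    exact I.sum_mem fun l _ => I.mul_mem_right _ (hX i l)

lemma MemI.mul {I J : Ideal A} {X Y : M2 A} (hX : MemI I X) (hY : MemI J Y) :
    MemI (I * J) (X * Y) :=
  fun i j => by
    rw [Matrix.mul_apply]
    exact (I * J).sum_mem fun l _ => Ideal.mul_mem_mul (hX i l) (hY l j)

lemma MemI.mono {I J : Ideal A} (h : I ≤ J) {X : M2 A} (hX : MemI I X) : MemI J X :=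
  fun i j => h (hX i j)

lemma MemI.smul {I : Ideal A} {X : M2 A} (a : A) (hX : MemI I X) : MemI I (a • X) :=
  fun i j => by
    rw [Matrix.smul_apply, smul_eq_mul]
    exact I.mul_mem_left _ (hX i j)

/-- The traceless-like slice: matrices with zero lower right entry. -/
def E (d : Fin 3 → A) : M2 A := !![d 0, d 1; d 2, 0]

lemma E_memI {I : Ideal A} {d : Fin 3 → A} (hd : ∀ s, d s ∈ I) : MemI I (E d) := by
  intro i j
  fin_cases i <;> fin_cases j <;> simp [E, hd]

/-- The bracket matrix at three positions `(i t, j t)` for matrices `h t`. -/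
def brk (i j : Fin 3 → Fin 2) (h : Fin 3 → M2 A) : Matrix (Fin 3) (Fin 3) A :=
  fun t s => (E (Pi.single s 1) * h t - h t * E (Pi.single s 1) : M2 A) (i t) (j t)

lemma brk_mulVec (i j : Fin 3 → Fin 2) (h : Fin 3 → M2 A) (d : Fin 3 → A) (t : Fin 3) :
    (brk i j h *ᵥ d) t = (E d * h t - h t * E d) (i t) (j t) := by
  have key : ∀ (a b : Fin 2) (H : M2 A),
      (E (Pi.single 0 1) * H - H * E (Pi.single 0 1) : M2 A) a b * d 0 +
      (E (Pi.single 1 1) * H - H * E (Pi.single 1 1) : M2 A) a b * d 1 +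
      (E (Pi.single 2 1) * H - H * E (Pi.single 2 1) : M2 A) a b * d 2 =
      (E d * H - H * E d) a b := by
    intro a b H
    fin_cases a <;> fin_cases b <;>
      simp [E, Matrix.mul_apply, Matrix.vecMul, dotProduct, Fin.sum_univ_succ] <;> ring
  rw [Matrix.mulVec, dotProduct, Fin.sum_univ_three]
  exact key (i t) (j t) (h t)

lemma brk_map {B : Type} [CommRing B] (φ : A →+* B) (i j : Fin 3 → Fin 2) (h : Fin 3 → M2 A) :
    brk i j (fun t => (h t).map φ) = (brk i j h).map φ := by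
  ext t s
  have hE : ∀ s : Fin 3, (E (Pi.single s 1) : M2 B) = (E (Pi.single s 1) : M2 A).map φ := by
    intro s
    ext a b
    fin_cases s <;> fin_cases a <;> fin_cases b <;> simp [E]
  simp only [brk, Matrix.map_apply]
  rw [hE s, ← Matrix.map_mul, ← Matrix.map_mul, Matrix.sub_apply, Matrix.sub_apply,
    Matrix.map_apply, Matrix.map_apply, map_sub]

end MemI

section Local

variable {A : Type} [CommRing A]

/-- If `brk h` is invertible and `(E d) h - h (E d)` has entries at the marked positions in `J`,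
then `d` has entries in `J`. -/
lemma mem_of_brk {i j : Fin 3 → Fin 2} {h : Fin 3 → M2 A} (hdet : IsUnit (brk i j h).det)
    {J : Ideal A} {d : Fin 3 → A}
    (hd : ∀ t, (E d * h t - h t * E d) (i t) (j t) ∈ J) : ∀ s, d s ∈ J := by
  intro s
  have h1 : d = (brk i j h)⁻¹ *ᵥ (brk i j h *ᵥ d) := by
    rw [Matrix.mulVec_mulVec, Matrix.nonsing_inv_mul _ hdet, Matrix.one_mulVec]
  rw [h1, Matrix.mulVec, dotProduct]
  refine J.sum_mem fun t _ => J.mul_mem_left _ ?_
  rw [brk_mulVec]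
  exact hd t

/-- Uniqueness of normal forms. -/
lemma uniq_aux [IsLocalRing A] {ι : Type} {r r' : ι → M2 A} {g : Fin 3 → ι} {i j : Fin 3 → Fin 2}
    (hdet : IsUnit (brk i j (fun t => r' (g t))).det)
    (hpos : ∀ t, r (g t) (i t) (j t) = r' (g t) (i t) (j t))
    {U : M2 A} (hU1 : IsUnit (U 1 1)) (hU : MemI (maximalIdeal A) (U - (U 1 1) • 1))
    (hconj : ∀ σ, U * r σ = r' σ * U) :
    U = (U 1 1) • 1 ∧ ∀ σ, r σ = r' σ := by
  set lam := U 1 1 with hlam
  set d : Fin 3 → A := ![U 0 0 - lam, U 0 1, U 1 0] with hd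
  have hED : E d = U - lam • 1 := by
    ext a b
    fin_cases a <;> fin_cases b <;> simp [E, hd, hlam, Matrix.sub_apply, Matrix.smul_apply]
  set 𝔞 : Ideal A := Ideal.span (Set.range d) with h𝔞
  have hd𝔞 : ∀ s, d s ∈ 𝔞 := fun s => Ideal.subset_span ⟨s, rfl⟩
  have hE𝔞 : MemI 𝔞 (E d) := E_memI hd𝔞
  have hEm : MemI (maximalIdeal A) (E d) := by rw [hED]; exact hU
  have hUeq : U = lam • 1 + E d := by rw [hED]; abel
  -- the difference `r - r'`
  have hdiff : ∀ σ, lam • (r σ - r' σ) = r' σ * E d - E d * r σ := by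
    intro σ
    have h1 := hconj σ
    rw [hUeq] at h1
    rw [add_mul, mul_add, smul_mul_assoc, one_mul, mul_smul_comm, mul_one] at h1
    rw [smul_sub]
    have h2 : lam • r σ = lam • r' σ + r' σ * E d - E d * r σ := by
      rw [← h1]; abel
    rw [h2]; abel
  obtain ⟨u, hu⟩ := hU1
  have hdiff' : ∀ σ, MemI 𝔞 (r σ - r' σ) := by
    intro σ
    have h1 : r σ - r' σ = ((u⁻¹ : Aˣ) : A) • (lam • (r σ - r' σ)) := by
      rw [smul_smul, ← hu, Units.inv_mul, one_smul]
    rw [h1, hdiff σ]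
    exact ((hE𝔞.mul_left _).sub (hE𝔞.mul_right _)).smul _
  have hle : 𝔞 ≤ maximalIdeal A • 𝔞 := by
    rw [h𝔞, Ideal.span_le]
    rintro _ ⟨s, rfl⟩
    rw [← h𝔞]
    refine mem_of_brk (J := maximalIdeal A • 𝔞) hdet (fun t => ?_) s
    have h1 := hdiff (g t)
    have h2 : E d * r' (g t) - r' (g t) * E d =
        - (lam • (r (g t) - r' (g t))) - E d * (r (g t) - r' (g t)) := by
      rw [h1, mul_sub]; abel
    show (E d * r' (g t) - r' (g t) * E d) (i t) (j t) ∈ _
    rw [h2]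
    have h3 : (lam • (r (g t) - r' (g t))) (i t) (j t) = 0 := by
      rw [Matrix.smul_apply, Matrix.sub_apply, hpos t, sub_self, smul_zero]
    rw [Matrix.sub_apply, Matrix.neg_apply, h3, neg_zero, zero_sub]
    exact Ideal.neg_mem_iff _ |>.mpr ((hEm.mul (hdiff' (g t))) (i t) (j t))
  have h𝔞0 : 𝔞 = ⊥ := by
    refine Submodule.eq_bot_of_le_smul_of_le_jacobson_bot (maximalIdeal A) 𝔞 ?_ hle ?_
    · exact Submodule.fg_span (Set.finite_range d)
    · rw [IsLocalRing.jacobson_eq_maximalIdeal ⊥ bot_ne_top]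
  have hd0 : ∀ s, d s = 0 := fun s => by
    have := hd𝔞 s
    rw [h𝔞0] at this
    exact this
  have hE0 : E d = 0 := by
    ext a b
    fin_cases a <;> fin_cases b <;> simp [E, hd0]
  refine ⟨by rw [hUeq, hE0, add_zero], fun σ => ?_⟩
  have := hdiff' σ
  rw [h𝔞0] at this
  ext a b
  have h := this a b
  rw [Matrix.sub_apply] at h
  exact sub_eq_zero.mp h

/-- `1 + X` is invertible if `X` has entries in the maximal ideal. -/
lemma isUnit_of_memI [IsLocalRing A] {X : M2 A} (hX : MemI (maximalIdeal A) (X - 1)) :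
    IsUnit X := by
  rw [Matrix.isUnit_iff_isUnit_det, ← IsLocalRing.residue_ne_zero_iff_isUnit]
  have h1 : X.map (residue A) = 1 := by
    ext a b
    have h := hX a b
    rw [Matrix.sub_apply, ← IsLocalRing.residue_eq_zero_iff, map_sub, sub_eq_zero] at h
    rw [Matrix.map_apply, h, Matrix.one_apply, Matrix.one_apply]
    split_ifs <;> simp
  rw [RingHom.map_det, RingHom.mapMatrix_apply, h1, Matrix.det_one]
  exact one_ne_zero

lemma isUnit_brk_det [IsLocalRing A] {i j : Fin 3 → Fin 2} {h : Fin 3 → M2 A}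
    (hdet : (brk i j (fun t => (h t).map (residue A))).det ≠ 0) : IsUnit (brk i j h).det := by
  rw [← IsLocalRing.residue_ne_zero_iff_isUnit, RingHom.map_det, RingHom.mapMatrix_apply,
    ← brk_map]
  exact hdet

lemma map_residue_eq [IsLocalRing A] {X Y : M2 A} (h : MemI (maximalIdeal A) (X - Y)) :
    X.map (residue A) = Y.map (residue A) := by
  ext a b
  have h := h a b
  rw [Matrix.sub_apply, ← IsLocalRing.residue_eq_zero_iff, map_sub, sub_eq_zero] at h
  rw [Matrix.map_apply, Matrix.map_apply, h]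

lemma conj_sub_memI {I : Ideal A} {U V : (M2 A)ˣ} (h : MemI I ((U : M2 A) - V)) (X : M2 A) :
    MemI I ((U : M2 A) * X * ((U⁻¹ : (M2 A)ˣ) : M2 A) - V * X * ((V⁻¹ : (M2 A)ˣ) : M2 A)) := by
  have h1 : (U : M2 A) * X * ((U⁻¹ : (M2 A)ˣ) : M2 A) - V * X * ((V⁻¹ : (M2 A)ˣ) : M2 A) =
      ((U : M2 A) - V) * (X * ((U⁻¹ : (M2 A)ˣ) : M2 A)) -
      (V * X * ((V⁻¹ : (M2 A)ˣ) : M2 A)) * (((U : M2 A) - V) * ((U⁻¹ : (M2 A)ˣ) : M2 A)) := by
    have h2 : (V * X * ((V⁻¹ : (M2 A)ˣ) : M2 A)) * (((U : M2 A) - V) * ((U⁻¹ : (M2 A)ˣ) : M2 A)) =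
        (V * X * ((V⁻¹ : (M2 A)ˣ) : M2 A)) - V * X * ((U⁻¹ : (M2 A)ˣ) : M2 A) := by
      rw [sub_mul, Units.mul_inv, mul_sub, mul_one, ← mul_assoc, mul_assoc _ _ (V : M2 A),
        Units.inv_mul, mul_one]
    rw [h2, sub_mul]
    simp only [mul_assoc]
    abel
  rw [h1]
  exact (h.mul_right _).sub ((h.mul_right _).mul_left _)

/-- One Newton step. -/
lemma newton_step [IsLocalRing A] {i j : Fin 3 → Fin 2} {h : Fin 3 → M2 A} {c : Fin 3 → A}
    (hdet : IsUnit (brk i j h).det) (n : ℕ)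
    (hpos : ∀ t, h t (i t) (j t) - c t ∈ maximalIdeal A ^ (n + 1)) :
    ∃ V : (M2 A)ˣ, MemI (maximalIdeal A ^ (n + 1)) ((V : M2 A) - 1) ∧
      ∀ t, ((V : M2 A) * h t * ((V⁻¹ : (M2 A)ˣ) : M2 A)) (i t) (j t) - c t ∈
        maximalIdeal A ^ (n + 1 + 1) := by
  set e : Fin 3 → A := fun t => h t (i t) (j t) - c t with he
  set d : Fin 3 → A := - ((brk i j h)⁻¹ *ᵥ e) with hd
  have hbd : brk i j h *ᵥ d = - e := by
    rw [hd, Matrix.mulVec_neg, Matrix.mulVec_mulVec, Matrix.mul_nonsing_inv _ hdet,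
      Matrix.one_mulVec]
  have hdI : ∀ s, d s ∈ maximalIdeal A ^ (n + 1) := by
    intro s
    rw [hd, Pi.neg_apply, Matrix.mulVec, dotProduct]
    exact Ideal.neg_mem_iff _ |>.mpr (Ideal.sum_mem _ fun t _ => Ideal.mul_mem_left _ _ (hpos t))
  have hEI : MemI (maximalIdeal A ^ (n + 1)) (E d) := E_memI hdI
  have hle1 : maximalIdeal A ^ (n + 1) ≤ maximalIdeal A := Ideal.pow_le_self (Nat.succ_ne_zero n)
  obtain ⟨V, hV⟩ := isUnit_of_memI (X := 1 + E d) (by
    rw [add_sub_cancel_left]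
    exact hEI.mono hle1)
  have hV1 : (V : M2 A) - 1 = E d := by rw [hV, add_sub_cancel_left]
  refine ⟨V, by rw [hV1]; exact hEI, fun t => ?_⟩
  have h1 : (V : M2 A) * h t * ((V⁻¹ : (M2 A)ˣ) : M2 A) - h t =
      (E d * h t - h t * E d) * ((V⁻¹ : (M2 A)ˣ) : M2 A) := by
    have h2 : E d * h t - h t * E d = (V : M2 A) * h t - h t * V := by
      rw [← hV1]; noncomm_ring
    rw [h2, sub_mul, mul_assoc (h t), Units.mul_inv, mul_one]
  have hVinv : MemI (maximalIdeal A ^ (n + 1)) (((V⁻¹ : (M2 A)ˣ) : M2 A) - 1) := by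
    have h2 : ((V⁻¹ : (M2 A)ˣ) : M2 A) - 1 = ((V⁻¹ : (M2 A)ˣ) : M2 A) * (-(E d)) := by
      rw [← hV1, neg_sub, mul_sub, mul_one, Units.inv_mul]
    rw [h2]
    exact (hEI.neg).mul_left _
  have h3 : (V : M2 A) * h t * ((V⁻¹ : (M2 A)ˣ) : M2 A) =
      h t + (E d * h t - h t * E d) +
        (E d * h t - h t * E d) * (((V⁻¹ : (M2 A)ˣ) : M2 A) - 1) := by
    rw [mul_sub, mul_one, ← h1]; abel
  have h4 : ((V : M2 A) * h t * ((V⁻¹ : (M2 A)ˣ) : M2 A)) (i t) (j t) - c t =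
      ((E d * h t - h t * E d) * (((V⁻¹ : (M2 A)ˣ) : M2 A) - 1)) (i t) (j t) := by
    rw [h3, Matrix.add_apply, Matrix.add_apply, ← brk_mulVec, hbd, Pi.neg_apply]
    simp only [he]
    ring
  rw [h4]
  have h5 := (((hEI.mul_right (h t)).sub (hEI.mul_left (h t))).mul hVinv) (i t) (j t)
  rw [← pow_add] at h5
  exact Ideal.pow_le_pow_right (by omega) h5

/-- Existence of normal forms over complete local rings. -/
theorem exists_normal [IsLocalRing A] [IsAdicComplete (maximalIdeal A) A]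
    (i j : Fin 3 → Fin 2) (h : Fin 3 → M2 A) (c : Fin 3 → A)
    (hdet : (brk i j (fun t => (h t).map (residue A))).det ≠ 0)
    (hpos : ∀ t, h t (i t) (j t) - c t ∈ maximalIdeal A) :
    ∃ U : (M2 A)ˣ, MemI (maximalIdeal A) ((U : M2 A) - 1) ∧
      ∀ t, ((U : M2 A) * h t * ((U⁻¹ : (M2 A)ˣ) : M2 A)) (i t) (j t) = c t := by
  classical
  let Q : ℕ → (M2 A)ˣ → Prop := fun n U => MemI (maximalIdeal A) ((U : M2 A) - 1) ∧
    ∀ t, ((U : M2 A) * h t * ((U⁻¹ : (M2 A)ˣ) : M2 A)) (i t) (j t) - c t ∈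
      maximalIdeal A ^ (n + 1)
  have hQ0 : Q 0 1 := by
    refine ⟨?_, fun t => ?_⟩
    · rw [Units.val_one, sub_self]
      exact fun a b => Ideal.zero_mem _
    · rw [Units.val_one, inv_one, Units.val_one, one_mul, mul_one, zero_add, pow_one]
      exact hpos t
  have step : ∀ n, ∀ U : {U : (M2 A)ˣ // Q n U}, ∃ U' : {U' : (M2 A)ˣ // Q (n + 1) U'},
      MemI (maximalIdeal A ^ (n + 1)) ((U'.1 : M2 A) - (U.1 : M2 A)) := by
    rintro n ⟨U, hU1, hU2⟩
    have hle1 : maximalIdeal A ^ (n + 1) ≤ maximalIdeal A :=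
      Ideal.pow_le_self (Nat.succ_ne_zero n)
    have hdet' : IsUnit (brk i j (fun t => (U : M2 A) * h t * ((U⁻¹ : (M2 A)ˣ) : M2 A))).det := by
      refine isUnit_brk_det ?_
      have h1 : ∀ t, ((U : M2 A) * h t * ((U⁻¹ : (M2 A)ˣ) : M2 A)).map (residue A) =
          (h t).map (residue A) := by
        intro t
        refine map_residue_eq ?_
        have := conj_sub_memI (U := U) (V := 1) (by rw [Units.val_one]; exact hU1) (h t)
        simpa using this
      simp only [h1]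
      exact hdet
    obtain ⟨V, hV1, hV2⟩ := newton_step hdet' n hU2
    refine ⟨⟨V * U, ?_, fun t => ?_⟩, ?_⟩
    · have h1 : ((V * U : (M2 A)ˣ) : M2 A) - 1 = ((V : M2 A) - 1) * U + ((U : M2 A) - 1) := by
        rw [Units.val_mul]; noncomm_ring
      rw [h1]
      exact ((hV1.mono hle1).mul_right _).add hU1
    · have h1 : ((V * U : (M2 A)ˣ) : M2 A) * h t * (((V * U)⁻¹ : (M2 A)ˣ) : M2 A) =
          (V : M2 A) * ((U : M2 A) * h t * ((U⁻¹ : (M2 A)ˣ) : M2 A)) *
            ((V⁻¹ : (M2 A)ˣ) : M2 A) := by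
        rw [_root_.mul_inv_rev, Units.val_mul, Units.val_mul]
        simp only [mul_assoc]
      rw [h1]
      exact hV2 t
    · have h1 : ((V * U : (M2 A)ˣ) : M2 A) - (U : M2 A) = ((V : M2 A) - 1) * U := by
        rw [Units.val_mul]; noncomm_ring
      show MemI _ (((V * U : (M2 A)ˣ) : M2 A) - (U : M2 A))
      rw [h1]
      exact hV1.mul_right _
  choose f hf using step
  let seq : (n : ℕ) → {U : (M2 A)ˣ // Q n U} := fun n => Nat.rec ⟨1, hQ0⟩ (fun n U => f n U) n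
  have hseq : ∀ n, MemI (maximalIdeal A ^ (n + 1)) (((seq (n + 1)).1 : M2 A) - ((seq n).1 : M2 A)) :=
    fun n => hf n (seq n)
  have hcauchy : ∀ a b : Fin 2, ∀ {m n : ℕ}, m ≤ n →
      ((seq m).1 : M2 A) a b ≡ ((seq n).1 : M2 A) a b
        [SMOD (maximalIdeal A ^ m • ⊤ : Submodule A A)] := by
    intro a b m n hmn
    induction n, hmn using Nat.le_induction with
    | base => rfl
    | succ n hmn ih =>
      refine ih.trans ?_
      rw [SModEq.comm, SModEq.sub_mem, smul_eq_mul, Ideal.mul_top]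
      exact Ideal.pow_le_pow_right (by omega) (hseq n a b)
  have hlim : ∀ a b : Fin 2, ∃ L : A, ∀ n, ((seq n).1 : M2 A) a b ≡ L
      [SMOD (maximalIdeal A ^ n • ⊤ : Submodule A A)] :=
    fun a b => IsPrecomplete.prec inferInstance (hcauchy a b)
  choose L hL using hlim
  have hL' : ∀ n, MemI (maximalIdeal A ^ n) ((Matrix.of L : M2 A) - ((seq n).1 : M2 A)) := by
    intro n a b
    have := hL a b n
    rw [SModEq.comm, SModEq.sub_mem, smul_eq_mul, Ideal.mul_top] at this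
    exact this
  have hL1 : MemI (maximalIdeal A) ((Matrix.of L : M2 A) - 1) := by
    have h1 : (Matrix.of L : M2 A) - 1 = ((Matrix.of L : M2 A) - ((seq 1).1 : M2 A)) +
        (((seq 1).1 : M2 A) - 1) := by abel
    rw [h1]
    exact ((hL' 1).mono (by rw [pow_one])).add (seq 1).2.1
  obtain ⟨U, hU⟩ := isUnit_of_memI hL1
  refine ⟨U, by rw [hU]; exact hL1, fun t => ?_⟩
  rw [← sub_eq_zero]
  refine IsHausdorff.haus (I := maximalIdeal A) inferInstance _ fun n => ?_
  rw [SModEq.sub_mem, sub_zero, smul_eq_mul, Ideal.mul_top]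
  have h1 := conj_sub_memI (U := U) (V := (seq n).1) (by rw [hU]; exact hL' n) (h t) (i t) (j t)
  have h2 := (seq n).2.2 t
  have h3 : ((U : M2 A) * h t * ((U⁻¹ : (M2 A)ˣ) : M2 A)) (i t) (j t) - c t =
      ((U : M2 A) * h t * ((U⁻¹ : (M2 A)ˣ) : M2 A) -
        (((seq n).1 : (M2 A)ˣ) : M2 A) * h t * (((seq n).1⁻¹ : (M2 A)ˣ) : M2 A)) (i t) (j t) +
      (((((seq n).1 : (M2 A)ˣ) : M2 A) * h t * (((seq n).1⁻¹ : (M2 A)ˣ) : M2 A)) (i t) (j t) -
        c t) := by
    rw [Matrix.sub_apply]; ring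
  rw [h3]
  exact Ideal.add_mem _ h1 (Ideal.pow_le_pow_right (Nat.le_succ n) h2)

end Local

end Fermat.Agent.S53norm
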