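import Fermat.Statements.S53
import Fermat.Agent.S53_Normal

set_option autoImplicit false

/-!
# S53, part B: matrices of representations
-/

namespace Fermat.Agent.S53norm

open IsLocalRing Matrix
open scoped TensorProduct

section General

variable {G : Type} {A : Type} [CommRing A]
variable {V : Type} [AddCommGroup V] [Module A V]
variable {V' : Type} [AddCommGroup V'] [Module A V']

/-- `r` is the matrix of `ρ` in some basis. -/
def HasMat (ρ : G → Module.End A V) (r : G → M2 A) : Prop :=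
  ∃ e : V ≃ₗ[A] (Fin 2 → A), ∀ σ v, e (ρ σ v) = r σ *ᵥ e v

lemma HasMat.conj {ρ : G → Module.End A V} {r : G → M2 A} (h : HasMat ρ r) (U : (M2 A)ˣ) :
    HasMat ρ (fun σ => (U : M2 A) * r σ * ((U⁻¹ : (M2 A)ˣ) : M2 A)) := by
  obtain ⟨e, he⟩ := h
  let u : (Fin 2 → A) ≃ₗ[A] (Fin 2 → A) :=
    LinearEquiv.ofLinearMap (Matrix.mulVecLin (U : M2 A))
      (Matrix.mulVecLin ((U⁻¹ : (M2 A)ˣ) : M2 A))
      (by rw [← Matrix.mulVecLin_mul, Units.mul_inv, Matrix.mulVecLin_one])
      (by rw [← Matrix.mulVecLin_mul, Units.inv_mul, Matrix.mulVecLin_one])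
  refine ⟨e.trans u, fun σ v => ?_⟩
  show (U : M2 A) *ᵥ (e (ρ σ v)) = _ *ᵥ ((U : M2 A) *ᵥ (e v))
  rw [he, Matrix.mulVec_mulVec, Matrix.mulVec_mulVec, mul_assoc, mul_assoc, Units.inv_mul,
    mul_one]

lemma HasMat.exists_conj {ρ : G → Module.End A V} {r r' : G → M2 A} (h : HasMat ρ r)
    (h' : HasMat ρ r') : ∃ U : (M2 A)ˣ, ∀ σ, (U : M2 A) * r σ = r' σ * (U : M2 A) := by
  obtain ⟨e, he⟩ := h
  obtain ⟨e', he'⟩ := h'
  let f : (Fin 2 → A) →ₗ[A] (Fin 2 → A) := (e.symm.trans e').toLinearMap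
  let f' : (Fin 2 → A) →ₗ[A] (Fin 2 → A) := (e'.symm.trans e).toLinearMap
  have h1 : f ∘ₗ f' = LinearMap.id := by ext; simp [f, f']
  have h2 : f' ∘ₗ f = LinearMap.id := by ext; simp [f, f']
  let U : (M2 A)ˣ :=
    { val := LinearMap.toMatrix' f
      inv := LinearMap.toMatrix' f'
      val_inv := by rw [← LinearMap.toMatrix'_comp, h1, LinearMap.toMatrix'_id]
      inv_val := by rw [← LinearMap.toMatrix'_comp, h2, LinearMap.toMatrix'_id] }
  refine ⟨U, fun σ => ?_⟩
  have hU : ∀ v, (U : M2 A) *ᵥ v = e' (e.symm v) := fun v =>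
    LinearMap.toMatrix'_mulVec f v
  apply Matrix.toLin'.injective
  refine LinearMap.ext fun v => ?_
  rw [Matrix.toLin'_apply, Matrix.toLin'_apply, ← Matrix.mulVec_mulVec, ← Matrix.mulVec_mulVec,
    hU, hU]
  have h3 : r σ *ᵥ v = e (ρ σ (e.symm v)) := by rw [he, LinearEquiv.apply_symm_apply]
  rw [h3, LinearEquiv.symm_apply_apply, he']

lemma HasMat.exists_equiv {ρ : G → Module.End A V} {ρ' : G → Module.End A V'} {r : G → M2 A}
    (h : HasMat ρ r) (h' : HasMat ρ' r) :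
    ∃ e : V ≃ₗ[A] V', ∀ σ v, e (ρ σ v) = ρ' σ (e v) := by
  obtain ⟨e, he⟩ := h
  obtain ⟨e', he'⟩ := h'
  refine ⟨e.trans e'.symm, fun σ v => ?_⟩
  apply e'.injective
  rw [he', LinearEquiv.trans_apply, LinearEquiv.apply_symm_apply, he, LinearEquiv.trans_apply,
    LinearEquiv.apply_symm_apply]

lemma HasMat.of_equiv {ρ : G → Module.End A V} {ρ' : G → Module.End A V'} {r : G → M2 A}
    (h : HasMat ρ r) (e : V ≃ₗ[A] V') (he : ∀ σ v, e (ρ σ v) = ρ' σ (e v)) : HasMat ρ' r := by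
  obtain ⟨f, hf⟩ := h
  refine ⟨e.symm.trans f, fun σ v => ?_⟩
  have h1 : e.symm (ρ' σ v) = ρ σ (e.symm v) := by
    apply e.injective
    rw [he, LinearEquiv.apply_symm_apply, LinearEquiv.apply_symm_apply]
  rw [LinearEquiv.trans_apply, LinearEquiv.trans_apply, h1, hf]

lemma HasMat.of_eq {ρ : G → Module.End A V} {r r' : G → M2 A} (h : HasMat ρ r)
    (hr : ∀ σ, r σ = r' σ) : HasMat ρ r' := by
  have : r = r' := funext hr
  rwa [← this]

lemma exists_hasMat [Nontrivial A] [Module.Free A V] [Module.Finite A V]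
    (hV : Module.finrank A V = 2) (ρ : G → Module.End A V) : ∃ r : G → M2 A, HasMat ρ r := by
  let b := Module.finBasisOfFinrankEq A V hV
  refine ⟨fun σ => LinearMap.toMatrix b b (ρ σ), b.equivFun, fun σ v => ?_⟩
  have := LinearMap.toMatrix_mulVec_repr b b (ρ σ) v
  exact this.symm

lemma HasMat.injective {ρ : G → Module.End A V} {r : G → M2 A} (h : HasMat ρ r) {σ τ : G}
    (hr : r σ = r τ) : ρ σ = ρ τ := by
  obtain ⟨e, he⟩ := h
  refine LinearMap.ext fun v => e.injective ?_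
  rw [he, he, hr]

/-- Extensionality of matrices through `mulVec`. -/
lemma mat_ext {X Y : M2 A} (h : ∀ v, X *ᵥ v = Y *ᵥ v) : X = Y := by
  apply Matrix.toLin'.injective
  refine LinearMap.ext fun v => ?_
  rw [Matrix.toLin'_apply, Matrix.toLin'_apply, h]

lemma HasMat.map_one [Monoid G] {ρ : G →* Module.End A V} {r : G → M2 A} (h : HasMat ρ r) :
    r 1 = 1 := by
  obtain ⟨e, he⟩ := h
  refine mat_ext fun v => ?_
  have h1 := he 1 (e.symm v)
  rw [_root_.map_one, Module.End.one_apply, LinearEquiv.apply_symm_apply] at h1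
  rw [← h1, Matrix.one_mulVec]

lemma HasMat.map_mul [Monoid G] {ρ : G →* Module.End A V} {r : G → M2 A} (h : HasMat ρ r)
    (σ τ : G) : r (σ * τ) = r σ * r τ := by
  obtain ⟨e, he⟩ := h
  refine mat_ext fun v => ?_
  have h1 := he (σ * τ) (e.symm v)
  rw [_root_.map_mul, Module.End.mul_apply, he, he, LinearEquiv.apply_symm_apply] at h1
  rw [← h1, Matrix.mulVec_mulVec]

/-- The matrices of a base change. -/
lemma HasMat.baseChange {B : Type} [CommRing B] [Algebra A B] {ρ : G → Module.End A V}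
    {r : G → M2 A} (h : HasMat ρ r) :
    HasMat (fun σ => ((ρ σ).baseChange B : Module.End B (B ⊗[A] V)))
      (fun σ => (r σ).map (algebraMap A B)) := by
  obtain ⟨e, he⟩ := h
  refine ⟨(e.baseChange A B V (Fin 2 → A)).trans (TensorProduct.piScalarRight A B B (Fin 2)),
    fun σ v => ?_⟩
  induction v using TensorProduct.induction_on with
  | zero => simp only [_root_.map_zero, Matrix.mulVec_zero]
  | tmul b v =>
    rw [LinearMap.baseChange_tmul, LinearEquiv.trans_apply, LinearEquiv.trans_apply,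
      LinearEquiv.baseChange_tmul, LinearEquiv.baseChange_tmul, he]
    ext i
    simp only [TensorProduct.piScalarRight_apply, TensorProduct.piScalarRightHom_tmul,
      Matrix.mulVec, dotProduct, Finset.sum_smul, Matrix.map_apply]
    refine Finset.sum_congr rfl fun j _ => ?_
    rw [mul_smul, Algebra.smul_def (r σ i j)]
  | add x y hx hy =>
    rw [map_add, map_add, hx, hy, map_add, Matrix.mulVec_add]

end General

section Galois

/-- The absolute Galois group of `ℚ`. -/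
abbrev GQ := AlgebraicClosure ℚ ≃ₐ[ℚ] AlgebraicClosure ℚ

variable {A : Type} [CommRing A] [IsLocalRing A]

/-- Adic continuity in terms of matrices. -/
def IsCont (r : GQ → M2 A) : Prop :=
  ∀ n : ℕ, ∃ L : IntermediateField ℚ (AlgebraicClosure ℚ), FiniteDimensional ℚ L ∧
    ∀ σ : GQ, (∀ x ∈ L, σ x = x) → MemI (maximalIdeal A ^ n) (r σ - 1)

omit [IsLocalRing A] in
/-- Membership in `I • ⊤` for `Fin 2 → A`. -/
lemma mem_smul_top_iff {I : Ideal A} (v : Fin 2 → A) :
    v ∈ (I • ⊤ : Submodule A (Fin 2 → A)) ↔ ∀ i, v i ∈ I := by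
  constructor
  · intro hv i
    refine Submodule.smul_induction_on (p := fun x : Fin 2 → A => x i ∈ I) hv ?_ ?_
    · intro a ha w _
      rw [Pi.smul_apply, smul_eq_mul]
      exact I.mul_mem_right _ ha
    · intro x y hx hy
      exact I.add_mem hx hy
  · intro hv
    have h1 : v = v 0 • Pi.single 0 1 + v 1 • Pi.single 1 1 := by
      ext i
      fin_cases i <;> simp
    rw [h1]
    exact Submodule.add_mem _ (Submodule.smul_mem_smul (hv 0) Submodule.mem_top)
      (Submodule.smul_mem_smul (hv 1) Submodule.mem_top)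

omit [IsLocalRing A] in
lemma mem_smul_top_equiv {V V' : Type} [AddCommGroup V] [Module A V] [AddCommGroup V'] [Module A V']
    (e : V ≃ₗ[A] V') {I : Ideal A} {v : V} :
    v ∈ (I • ⊤ : Submodule A V) ↔ e v ∈ (I • ⊤ : Submodule A V') := by
  have h1 : (I • ⊤ : Submodule A V').comap (e : V →ₗ[A] V') = I • ⊤ := by
    have h2 := Submodule.map_smul'' I (⊤ : Submodule A V) (e : V →ₗ[A] V')
    rw [Submodule.map_top, LinearEquiv.range] at h2
    rw [← h2, Submodule.comap_map_eq_of_injective e.injective]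
  rw [← h1, Submodule.mem_comap]
  rfl

lemma HasMat.isCont {ρ : GaloisRepAdic A} {r : GQ → M2 A} (h : HasMat (A := A) (ρ.ρ : GQ → _) r) :
    IsCont r := by
  intro n
  obtain ⟨L, hL, h1⟩ := ρ.isAdicContinuous n
  obtain ⟨e, he⟩ := h
  refine ⟨L, hL, fun σ hσ i j => ?_⟩
  have h2 := h1 σ hσ (e.symm (Pi.single j 1))
  rw [mem_smul_top_equiv e, mem_smul_top_iff, map_sub, he, LinearEquiv.apply_symm_apply] at h2
  have h3 := h2 i
  rw [Pi.sub_apply, Matrix.mulVec_single_one] at h3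
  rw [Matrix.sub_apply, Matrix.one_apply]
  rw [Matrix.col_apply, Pi.single_apply] at h3
  exact h3

/-- The Galois representation attached to a continuous matrix representation. -/
noncomputable def toAdic (r : GQ →* M2 A) (h : IsCont (r : GQ → M2 A)) : GaloisRepAdic A where
  V := Fin 2 → A
  finrank_eq := by simp
  ρ := (Matrix.toLinAlgEquiv' : M2 A ≃ₐ[A] _).toAlgHom.toRingHom.toMonoidHom.comp r
  isAdicContinuous := by
    intro n
    obtain ⟨L, hL, h1⟩ := h n
    refine ⟨L, hL, fun σ hσ v => ?_⟩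
    rw [mem_smul_top_iff]
    intro i
    have h2 : ((r σ - 1) *ᵥ v) i ∈ maximalIdeal A ^ n := by
      rw [Matrix.mulVec, dotProduct]
      exact Ideal.sum_mem _ fun j _ => Ideal.mul_mem_right _ _ (h1 σ hσ i j)
    rw [Matrix.sub_mulVec, Matrix.one_mulVec] at h2
    exact h2

lemma toAdic_hasMat (r : GQ →* M2 A) (h : IsCont (r : GQ → M2 A)) :
    HasMat (A := A) ((toAdic r h).ρ : GQ → _) r :=
  ⟨LinearEquiv.refl A _, fun _ _ => rfl⟩

/-- Existence of matrices for a Galois representation. -/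
lemma exists_hasMat_adic (ρ : GaloisRepAdic A) : ∃ r : GQ → M2 A, HasMat (ρ.ρ : GQ → _) r :=
  exists_hasMat ρ.finrank_eq _

lemma isEquiv_of_hasMat {ρ ρ' : GaloisRepAdic A} {r : GQ → M2 A}
    (h : HasMat (ρ.ρ : GQ → _) r) (h' : HasMat (ρ'.ρ : GQ → _) r) : ρ.IsEquiv ρ' := by
  obtain ⟨e, he⟩ := h.exists_equiv h'
  exact ⟨⟨e, he⟩⟩

lemma HasMat.of_isEquiv {ρ ρ' : GaloisRepAdic A} {r : GQ → M2 A}
    (h : HasMat (ρ.ρ : GQ → _) r) (he : ρ.IsEquiv ρ') : HasMat (ρ'.ρ : GQ → _) r := by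
  obtain ⟨e⟩ := he
  exact h.of_equiv e.toLinearEquiv e.map_apply

lemma HasMat.baseChangeAlong {B : Type} [CommRing B] [IsLocalRing B] (φ : A →+* B)
    (hφ : IsLocalHom φ) {ρ : GaloisRepAdic A} {r : GQ → M2 A}
    (h : HasMat (ρ.ρ : GQ → _) r) :
    HasMat ((ρ.baseChangeAlong φ hφ).ρ : GQ → _) (fun σ => (r σ).map φ) := by
  letI : Algebra A B := φ.toAlgebra
  exact h.baseChange (B := B)

lemma HasMat.residual {ρ : GaloisRepAdic A} {r : GQ → M2 A}
    (h : HasMat (ρ.ρ : GQ → _) r) :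
    HasMat (ρ.residual.ρ : GQ → _) (fun σ => (r σ).map (residue A)) :=
  h.baseChange (B := ResidueField A)

section Residual

variable {k : Type} [Field k]

lemma isEquiv_of_hasMat_res {ρ ρ' : ResidualGaloisRep k} {r : GQ → M2 k}
    (h : HasMat (ρ.ρ : GQ → _) r) (h' : HasMat (ρ'.ρ : GQ → _) r) : ρ.IsEquiv ρ' := by
  obtain ⟨e, he⟩ := h.exists_equiv h'
  exact ⟨⟨e, he⟩⟩

lemma HasMat.of_isEquiv_res {ρ ρ' : ResidualGaloisRep k} {r : GQ → M2 k}
    (h : HasMat (ρ.ρ : GQ → _) r) (he : ρ.IsEquiv ρ') : HasMat (ρ'.ρ : GQ → _) r := by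
  obtain ⟨e⟩ := he
  exact h.of_equiv e.toLinearEquiv e.map_apply

lemma HasMat.baseChangeAlong_res {k' : Type} [Field k'] (φ : k →+* k')
    {ρ : ResidualGaloisRep k} {r : GQ → M2 k} (h : HasMat (ρ.ρ : GQ → _) r) :
    HasMat ((ρ.baseChangeAlong φ).ρ : GQ → _) (fun σ => (r σ).map φ) := by
  letI : Algebra k k' := φ.toAlgebra
  exact h.baseChange (B := k')

lemma HasMat.baseChange_res {k' : Type} [Field k'] [Algebra k k']
    {ρ : ResidualGaloisRep k} {r : GQ → M2 k} (h : HasMat (ρ.ρ : GQ → _) r) :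
    HasMat ((ρ.baseChange k').ρ : GQ → _) (fun σ => (r σ).map (algebraMap k k')) :=
  h.baseChange (B := k')

lemma exists_hasMat_res (ρ : ResidualGaloisRep k) : ∃ r : GQ → M2 k, HasMat (ρ.ρ : GQ → _) r :=
  exists_hasMat ρ.finrank_eq _

lemma HasMat.ofResidual {ρ : ResidualGaloisRep k} {r : GQ → M2 k}
    (h : HasMat (ρ.ρ : GQ → _) r) :
    HasMat ((GaloisRepAdic.ofResidualGaloisRep ρ).ρ : GQ → _) r := h

end Residual

end Galois

end Fermat.Agent.S53norm
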