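import Fermat.Statements.S53
import Fermat.Agent.S53_HasMat

set_option autoImplicit false

/-!
# S53, part B: Schur's lemma and the choice of marked positions
-/

namespace Fermat.Agent.S53norm

open IsLocalRing Matrix
open scoped TensorProduct

variable {k : Type} [Field k]

/-- Schur's lemma for an absolutely irreducible two-dimensional representation. -/
lemma scalar_of_commute {ρbar : ResidualGaloisRep k} (habs : ρbar.IsAbsolutelyIrreducible)
    {r : GQ → M2 k} (hr : HasMat (ρbar.ρ : GQ → _) r) (U : M2 k)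
    (hU : ∀ σ, U * r σ = r σ * U) : U = (U 1 1) • 1 := by
  set K := AlgebraicClosure k with hK
  obtain ⟨e, he⟩ := hr.baseChange_res (k' := K)
  set UK : M2 K := U.map (algebraMap k K) with hUK
  have hcomm : ∀ σ, UK * (r σ).map (algebraMap k K) = (r σ).map (algebraMap k K) * UK := by
    intro σ
    rw [hUK, ← Matrix.map_mul, ← Matrix.map_mul, hU]
  obtain ⟨μ, hμ⟩ := Module.End.exists_eigenvalue (K := K) (V := Fin 2 → K)
    (Matrix.toLin' UK : Module.End K (Fin 2 → K))
  let W : Submodule K (ρbar.baseChange K).V :=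
    (Module.End.eigenspace (Matrix.toLin' UK : Module.End K (Fin 2 → K)) μ).comap
      (e : (ρbar.baseChange K).V →ₗ[K] (Fin 2 → K))
  have hW : ∀ x, x ∈ W ↔ UK *ᵥ (e x) = μ • e x := by
    intro x
    rw [Submodule.mem_comap, Module.End.mem_eigenspace_iff]
    rfl
  have hinv : ∀ σ : GQ, ∀ x ∈ W, (ρbar.baseChange K).ρ σ x ∈ W := by
    intro σ x hx
    rw [hW] at hx ⊢
    rw [he, Matrix.mulVec_mulVec, hcomm, ← Matrix.mulVec_mulVec, hx, Matrix.mulVec_smul]
  have hirr := habs W hinv
  have hne : W ≠ ⊥ := by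
    intro h0
    obtain ⟨v, hv⟩ := hμ.exists_hasEigenvector
    have h1 : e.symm v ∈ W := by
      rw [hW, LinearEquiv.apply_symm_apply]
      have := hv.apply_eq_smul
      rwa [Matrix.toLin'_apply] at this
    rw [h0, Submodule.mem_bot] at h1
    exact hv.2 (by rw [← e.apply_symm_apply v, h1, map_zero])
  have htop := hirr.resolve_left hne
  have hUμ : UK = μ • (1 : M2 K) := by
    refine mat_ext fun v => ?_
    have h1 : e.symm v ∈ W := by rw [htop]; exact Submodule.mem_top
    rw [hW, LinearEquiv.apply_symm_apply] at h1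
    rw [h1, Matrix.smul_mulVec, Matrix.one_mulVec]
  have hentry : ∀ a b, algebraMap k K (U a b) = μ • (1 : M2 K) a b := by
    intro a b
    have := congrFun (congrFun hUμ a) b
    rwa [hUK, Matrix.map_apply, Matrix.smul_apply] at this
  have hinj : Function.Injective (algebraMap k K) := (algebraMap k K).injective
  have h00 : U 0 0 = U 1 1 := by
    apply hinj; rw [hentry, hentry]; simp
  have h01 : U 0 1 = 0 := by
    apply hinj; rw [hentry]; simp
  have h10 : U 1 0 = 0 := by
    apply hinj; rw [hentry]; simp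
  ext a b
  fin_cases a <;> fin_cases b <;> simp [h00, h01, h10]

/-- Schur's lemma after a bijective change of fields. -/
lemma scalar_of_commute' {ρbar : ResidualGaloisRep k} (habs : ρbar.IsAbsolutelyIrreducible)
    {r : GQ → M2 k} (hr : HasMat (ρbar.ρ : GQ → _) r) {k' : Type} [Field k'] (φ : k →+* k')
    (hφ : Function.Surjective φ) (U : M2 k')
    (hU : ∀ σ, U * (r σ).map φ = (r σ).map φ * U) : U = (U 1 1) • 1 := by
  choose f hf using hφ
  have hUf : U = (U.map f).map φ := by
    ext a b; simp [hf]
  have h1 : ∀ σ, U.map f * r σ = r σ * U.map f := by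
    intro σ
    have h2 := hU σ
    rw [hUf, ← Matrix.map_mul, ← Matrix.map_mul] at h2
    exact Matrix.map_injective φ.injective h2
  have h2 := scalar_of_commute habs hr _ h1
  have hentry : ∀ a b, f (U a b) = (U.map f) 1 1 • (1 : M2 k) a b := fun a b =>
    congrFun (congrFun h2 a) b
  have h00 : U 0 0 = U 1 1 := by
    rw [← hf (U 0 0), ← hf (U 1 1), hentry, hentry]; simp
  have h01 : U 0 1 = 0 := by
    rw [← hf (U 0 1), hentry]; simp
  have h10 : U 1 0 = 0 := by
    rw [← hf (U 1 0), hentry]; simp
  ext a b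
  fin_cases a <;> fin_cases b <;> simp [h00, h01, h10]

/-- Existence of marked positions. -/
lemma exists_positions {ρbar : ResidualGaloisRep k} (habs : ρbar.IsAbsolutelyIrreducible)
    {r : GQ → M2 k} (hr : HasMat (ρbar.ρ : GQ → _) r) :
    ∃ (g : Fin 3 → GQ) (i j : Fin 3 → Fin 2), (brk i j (fun t => r (g t))).det ≠ 0 := by
  let v : GQ × Fin 2 × Fin 2 → (Fin 3 → k) := fun x s =>
    (E (Pi.single s 1) * r x.1 - r x.1 * E (Pi.single s 1) : M2 k) x.2.1 x.2.2
  have hspan : Submodule.span k (Set.range v) = ⊤ := by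
    by_contra hne
    obtain ⟨f, hf0, hf⟩ := Submodule.exists_le_ker_of_lt_top _ (lt_top_iff_ne_top.mpr hne)
    let d : Fin 3 → k := fun s => f (Pi.single s 1)
    have hfd : ∀ w : Fin 3 → k, f w = w ⬝ᵥ d := by
      intro w
      have h1 : w = ∑ s, w s • (Pi.single s 1 : Fin 3 → k) := by
        ext s
        simp [Finset.sum_apply, Pi.single_apply]
      conv_lhs => rw [h1]
      rw [map_sum, dotProduct]
      exact Finset.sum_congr rfl fun s _ => by rw [map_smul, smul_eq_mul]
    have hcomm : ∀ σ, E d * r σ = r σ * E d := by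
      intro σ
      rw [← sub_eq_zero]
      ext a b
      have h1 := brk_mulVec (fun _ => a) (fun _ => b) (fun _ => r σ) d 0
      rw [← h1]
      have h2 : f (v (σ, a, b)) = 0 := hf (Submodule.subset_span ⟨_, rfl⟩)
      rw [hfd] at h2
      exact h2
    have h1 := scalar_of_commute habs hr _ hcomm
    have h11 : E d 1 1 = 0 := by simp [E]
    rw [h11, zero_smul] at h1
    have hd0 : d = 0 := by
      ext s
      fin_cases s
      · exact congrFun (congrFun h1 0) 0
      · exact congrFun (congrFun h1 0) 1
      · exact congrFun (congrFun h1 1) 0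
    apply hf0
    refine LinearMap.ext fun w => ?_
    rw [hfd, hd0, dotProduct_zero, LinearMap.zero_apply]
  obtain ⟨f, hf1, hf2, hf3⟩ := Submodule.exists_fun_fin_finrank_span_eq k (Set.range v)
  have hfr : Module.finrank k (Submodule.span k (Set.range v)) = 3 := by
    rw [hspan, finrank_top]; simp
  let f' : Fin 3 → (Fin 3 → k) := fun t => f (Fin.cast hfr.symm t)
  have hf' : LinearIndependent k f' := hf3.comp _ (Fin.cast_injective _)
  have hx : ∀ t, ∃ x, v x = f' t := fun t => hf1 _
  choose x hx using hx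
  refine ⟨fun t => (x t).1, fun t => (x t).2.1, fun t => (x t).2.2, ?_⟩
  have hM : (brk (fun t => (x t).2.1) (fun t => (x t).2.2) (fun t => r (x t).1)) = f' := by
    funext t
    rw [← hx t]
    rfl
  rw [← isUnit_iff_ne_zero, ← Matrix.isUnit_iff_isUnit_det,
    ← Matrix.linearIndependent_rows_iff_isUnit, hM]
  exact hf'

end Fermat.Agent.S53norm
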