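import Fermat.Statements.S53
import Fermat.Agent.S53_Schur

set_option autoImplicit false

/-!
# S53, part C: the functor of normalised lifts of type `𝒟`
-/

namespace Fermat.Agent.S53norm

open IsLocalRing Matrix
open scoped TensorProduct

variable {𝒪 : Type} [CommRing 𝒪] [IsLocalRing 𝒪]

/-- Data for normal forms. -/
structure NFData (ρbar : ResidualGaloisRep (ResidueField 𝒪)) where
  habs : ρbar.IsAbsolutelyIrreducible
  rbar : GQ → M2 (ResidueField 𝒪)
  hrbar : HasMat (ρbar.ρ : GQ → _) rbar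
  g : Fin 3 → GQ
  i : Fin 3 → Fin 2
  j : Fin 3 → Fin 2
  hdet : (brk i j (fun t => rbar (g t))).det ≠ 0
  c : Fin 3 → 𝒪
  hc : ∀ t, residue 𝒪 (c t) = rbar (g t) (i t) (j t)

lemma exists_nfData {ρbar : ResidualGaloisRep (ResidueField 𝒪)}
    (habs : ρbar.IsAbsolutelyIrreducible) : Nonempty (NFData ρbar) := by
  obtain ⟨r, hr⟩ := exists_hasMat_res ρbar
  obtain ⟨g, i, j, hdet⟩ := exists_positions habs hr
  have h1 : ∀ t, ∃ c : 𝒪, residue 𝒪 c = r (g t) (i t) (j t) := fun t => residue_surjective _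
  choose c hc using h1
  exact ⟨⟨habs, r, hr, g, i, j, hdet, c, hc⟩⟩

namespace NFData

variable {ρbar : ResidualGaloisRep (ResidueField 𝒪)} (D : NFData ρbar)

/-- `r` reduces to `rbar`. -/
def IsLift {A : Type} [CommRing A] [IsLocalRing A] [Algebra 𝒪 A] (r : GQ → M2 A) : Prop :=
  ∀ σ a b (z : 𝒪), residue 𝒪 z = D.rbar σ a b → r σ a b - algebraMap 𝒪 A z ∈ maximalIdeal A

/-- `r` is in normal form. -/
def IsNormal {A : Type} [CommRing A] [Algebra 𝒪 A] (r : GQ → M2 A) : Prop :=
  ∀ t, r (D.g t) (D.i t) (D.j t) = algebraMap 𝒪 A (D.c t)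

variable {A : Type} [CommRing A] [IsLocalRing A] [Algebra 𝒪 A]

lemma isLift_iff [IsLocalHom (algebraMap 𝒪 A)] (r : GQ → M2 A) :
    D.IsLift r ↔ ∀ σ, (r σ).map (residue A) =
      (D.rbar σ).map (ResidueField.map (algebraMap 𝒪 A)) := by
  constructor
  · intro h σ
    ext a b
    obtain ⟨z, hz⟩ := residue_surjective (R := 𝒪) (D.rbar σ a b)
    have h1 := h σ a b z hz
    rw [← residue_eq_zero_iff, map_sub, sub_eq_zero] at h1
    rw [Matrix.map_apply, Matrix.map_apply, h1, ← hz, ResidueField.map_residue]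
  · intro h σ a b z hz
    have h1 := congrFun (congrFun (h σ) a) b
    rw [Matrix.map_apply, Matrix.map_apply, ← hz, ResidueField.map_residue] at h1
    rw [← residue_eq_zero_iff, map_sub, sub_eq_zero, h1]

lemma map_surjective [IsLocalHom (algebraMap 𝒪 A)]
    (hs : Function.Surjective (residue A ∘ algebraMap 𝒪 A)) :
    Function.Surjective (ResidueField.map (algebraMap 𝒪 A)) := by
  intro y
  obtain ⟨z, hz⟩ := hs y
  exact ⟨residue 𝒪 z, by rw [ResidueField.map_residue]; exact hz⟩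

/-- Uniqueness of normal forms. -/
theorem eq_of_conj [IsLocalHom (algebraMap 𝒪 A)]
    (hs : Function.Surjective (residue A ∘ algebraMap 𝒪 A)) {r r' : GQ → M2 A}
    (hr : D.IsLift r) (hr' : D.IsLift r') (hn : D.IsNormal r) (hn' : D.IsNormal r')
    (U : (M2 A)ˣ) (hU : ∀ σ, (U : M2 A) * r σ = r' σ * (U : M2 A)) (σ : GQ) : r σ = r' σ := by
  rw [isLift_iff] at hr hr'
  have h1 : ∀ σ, (U : M2 A).map (residue A) * (D.rbar σ).map (ResidueField.map (algebraMap 𝒪 A)) =
      (D.rbar σ).map (ResidueField.map (algebraMap 𝒪 A)) * (U : M2 A).map (residue A) := by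
    intro σ
    conv_lhs => rw [← hr σ]
    rw [← hr' σ, ← Matrix.map_mul, ← Matrix.map_mul, hU]
  have h2 := scalar_of_commute' D.habs D.hrbar _ (map_surjective hs) _ h1
  have hdetU : IsUnit ((U : M2 A).map (residue A)).det := by
    rw [← RingHom.mapMatrix_apply, ← RingHom.map_det]
    exact ((Matrix.isUnit_iff_isUnit_det _).mp U.isUnit).map _
  have hU1 : IsUnit ((U : M2 A) 1 1) := by
    rw [← residue_ne_zero_iff_isUnit]
    intro h0
    rw [Matrix.map_apply, h0, zero_smul] at h2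
    rw [h2, Matrix.det_zero] at hdetU
    exact not_isUnit_zero hdetU
  have hUm : MemI (maximalIdeal A) ((U : M2 A) - ((U : M2 A) 1 1) • 1) := by
    intro a b
    rw [← residue_eq_zero_iff, Matrix.sub_apply, map_sub, sub_eq_zero]
    have h3 := congrFun (congrFun h2 a) b
    rw [Matrix.map_apply, Matrix.map_apply, Matrix.smul_apply] at h3
    rw [h3, Matrix.smul_apply, smul_eq_mul, smul_eq_mul, map_mul]
    congr 1
    rw [Matrix.one_apply, Matrix.one_apply]
    split_ifs <;> simp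
  have hdet : IsUnit (brk D.i D.j (fun t => r' (D.g t))).det := by
    refine isUnit_brk_det ?_
    simp only [hr']
    rw [brk_map, ← RingHom.mapMatrix_apply, ← RingHom.map_det]
    exact (map_ne_zero _).mpr D.hdet
  exact (uniq_aux hdet (fun t => by rw [hn t, hn' t]) hU1 hUm hU).2 σ

/-- Existence of normal forms. -/
theorem exists_normalForm [IsLocalHom (algebraMap 𝒪 A)] [IsAdicComplete (maximalIdeal A) A]
    {ρ : GaloisRepAdic A}
    (hρ : ρ.residual.IsEquiv (ρbar.baseChangeAlong (ResidueField.map (algebraMap 𝒪 A)))) :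
    ∃ r : GQ → M2 A, HasMat (ρ.ρ : GQ → _) r ∧ D.IsLift r ∧ D.IsNormal r := by
  obtain ⟨r0, hr0⟩ := exists_hasMat_adic ρ
  obtain ⟨U, hU⟩ := (hr0.residual.of_isEquiv_res hρ).exists_conj
    (D.hrbar.baseChangeAlong_res (ResidueField.map (algebraMap 𝒪 A)))
  have hlift : ∀ a b, ∃ u : A, residue A u = (U : M2 (ResidueField A)) a b :=
    fun a b => residue_surjective _
  choose u hu using hlift
  have humap : (Matrix.of u : M2 A).map (residue A) = U := by
    ext a b; rw [Matrix.map_apply, Matrix.of_apply, hu]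
  have hunit : IsUnit (Matrix.of u : M2 A) := by
    rw [Matrix.isUnit_iff_isUnit_det, ← residue_ne_zero_iff_isUnit, RingHom.map_det,
      RingHom.mapMatrix_apply, humap, ← isUnit_iff_ne_zero, ← Matrix.isUnit_iff_isUnit_det]
    exact U.isUnit
  obtain ⟨W, hW⟩ := hunit
  set r1 : GQ → M2 A := fun σ => (W : M2 A) * r0 σ * ((W⁻¹ : (M2 A)ˣ) : M2 A) with hr1def
  have hr1 : HasMat (ρ.ρ : GQ → _) r1 := hr0.conj W
  have key : ∀ X Y : M2 A, X * (W : M2 A) = (W : M2 A) * Y →
      X.map (residue A) * (U : M2 (ResidueField A)) =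
        (U : M2 (ResidueField A)) * Y.map (residue A) := by
    intro X Y h
    rw [← humap, ← Matrix.map_mul, ← Matrix.map_mul, ← hW, h]
  have hr1lift : ∀ σ, (r1 σ).map (residue A) =
      (D.rbar σ).map (ResidueField.map (algebraMap 𝒪 A)) := by
    intro σ
    have h1 : r1 σ * W = W * r0 σ := by
      rw [hr1def]
      show (W : M2 A) * r0 σ * ((W⁻¹ : (M2 A)ˣ) : M2 A) * W = W * r0 σ
      rw [mul_assoc, Units.inv_mul, mul_one]
    have h2 := key _ _ h1
    rw [hU σ] at h2
    exact U.isUnit.mul_right_cancel h2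
  obtain ⟨V, hV1, hV2⟩ := exists_normal (A := A) D.i D.j (fun t => r1 (D.g t))
    (fun t => algebraMap 𝒪 A (D.c t))
    (by
      simp only [hr1lift]
      rw [brk_map, ← RingHom.mapMatrix_apply, ← RingHom.map_det]
      exact (map_ne_zero _).mpr D.hdet)
    (fun t => (D.isLift_iff r1).mpr hr1lift _ _ _ _ (D.hc t))
  refine ⟨_, hr1.conj V, ?_, fun t => hV2 t⟩
  rw [isLift_iff]
  intro σ
  rw [← hr1lift σ]
  refine map_residue_eq ?_
  have := conj_sub_memI (U := V) (V := 1) (by rw [Units.val_one]; exact hV1) (r1 σ)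
  simpa using this

/-- A lift has the right residual representation. -/
lemma residual_isEquiv [IsLocalHom (algebraMap 𝒪 A)] {ρ : GaloisRepAdic A} {r : GQ → M2 A}
    (h : HasMat (ρ.ρ : GQ → _) r) (hr : D.IsLift r) :
    ρ.residual.IsEquiv (ρbar.baseChangeAlong (ResidueField.map (algebraMap 𝒪 A))) := by
  rw [isLift_iff] at hr
  exact isEquiv_of_hasMat_res (h.residual.of_eq hr)
    (D.hrbar.baseChangeAlong_res (ResidueField.map (algebraMap 𝒪 A)))

end NFData

end Fermat.Agent.S53norm
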