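import Fermat.Statements.S53
import Fermat.Agent.S53_Points

set_option autoImplicit false

/-!
# S53, part C: the functor of normalised lifts of type `𝒟`
-/

namespace Fermat.Agent.S53norm

open IsLocalRing Matrix GaloisRep
open scoped TensorProduct

/-- The index set of matrix coordinates. -/
abbrev Idx := GQ × Fin 2 × Fin 2

/-- The matrix valued function attached to a family of coordinates. -/
def mat {A : Type} (x : Idx → A) (σ : GQ) : M2 A := Matrix.of fun a b => x (σ, a, b)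

@[simp] lemma mat_apply {A : Type} (x : Idx → A) (σ : GQ) (a b : Fin 2) :
    mat x σ a b = x (σ, a, b) := rfl

lemma mat_comp {A B : Type} (f : A → B) (x : Idx → A) (σ : GQ) :
    mat (f ∘ x) σ = (mat x σ).map f := rfl

lemma exists_adic {A : Type} [CommRing A] [IsLocalRing A] (x : Idx → A) (h1 : mat x 1 = 1)
    (hmul : ∀ σ τ, mat x (σ * τ) = mat x σ * mat x τ) (hc : IsCont (mat x)) :
    ∃ ρ : GaloisRepAdic A, HasMat (ρ.ρ : GQ → _) (mat x) := by
  let r : GQ →* M2 A := { toFun := mat x, map_one' := h1, map_mul' := hmul }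
  exact ⟨toAdic r hc, toAdic_hasMat r hc⟩

variable {𝒪 : Type} [CommRing 𝒪] [IsLocalRing 𝒪]

/-- The functor of normalised lifts of type `𝒟`. -/
def Pt {ρbar : ResidualGaloisRep (ResidueField 𝒪)} (D : NFData ρbar)
    (𝒟 : ∀ ⦃A : Type⦄ [CommRing A] [IsLocalRing A] [Algebra 𝒪 A], GaloisRepAdic A → Prop)
    ⦃A : Type⦄ [CommRing A] [IsLocalRing A] [Algebra 𝒪 A] (x : Idx → A) : Prop :=
  ∃ ρ : GaloisRepAdic A, HasMat (ρ.ρ : GQ → _) (mat x) ∧ D.IsLift (mat x) ∧ D.IsNormal (mat x) ∧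
    𝒟 ρ

variable {ρbar : ResidualGaloisRep (ResidueField 𝒪)} (D : NFData ρbar)
    {𝒟 : ∀ ⦃A : Type⦄ [CommRing A] [IsLocalRing A] [Algebra 𝒪 A], GaloisRepAdic A → Prop}

lemma isArtinianTestAlgebra_residueField : IsArtinianTestAlgebra 𝒪 (ResidueField 𝒪) where
  isLocalHom := inferInstanceAs (IsLocalHom (residue 𝒪))
  residue_surjective := by
    intro y
    obtain ⟨z, rfl⟩ := residue_surjective y
    obtain ⟨w, rfl⟩ := residue_surjective z
    exact ⟨w, rfl⟩
  isArtinian := inferInstance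

/-- The residual point. -/
def x0 : Idx → ResidueField 𝒪 := fun x => D.rbar x.1 x.2.1 x.2.2

lemma pt_x0 (hbar : 𝒟 (GaloisRepAdic.ofResidualGaloisRep ρbar)) : Pt D 𝒟 (x0 D) := by
  refine ⟨_, D.hrbar.ofResidual, ?_, ?_, hbar⟩
  · intro σ a b z hz
    rw [mat_apply]
    show D.rbar σ a b - residue 𝒪 z ∈ _
    rw [hz, sub_self]
    exact Ideal.zero_mem _
  · intro t
    exact (D.hc t).symm

lemma Pt.sub_mem {A : Type} [CommRing A] [IsLocalRing A] [Algebra 𝒪 A] {x : Idx → A}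
    (h : Pt D 𝒟 x) (i : Idx) (z : 𝒪) (hz : residue 𝒪 z = x0 D i) :
    x i - algebraMap 𝒪 A z ∈ maximalIdeal A := by
  obtain ⟨ρ, h1, h2, h3, h4⟩ := h
  exact h2 i.1 i.2.1 i.2.2 z hz

lemma isLift_map {A B : Type} [CommRing A] [IsLocalRing A] [Algebra 𝒪 A] [CommRing B]
    [IsLocalRing B] [Algebra 𝒪 B] (f : A →ₐ[𝒪] B) (hf : IsLocalHom (f : A →+* B)) {x : Idx → A} :
    D.IsLift (mat (f ∘ x)) ↔ D.IsLift (mat x) := by
  have key : ∀ (y : A), f y ∈ maximalIdeal B ↔ y ∈ maximalIdeal A := by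
    intro y
    constructor
    · intro h hy
      exact h (hy.map f)
    · intro h hy
      exact h (hf.map_nonunit y hy)
  constructor
  · intro h σ a b z hz
    have h1 := h σ a b z hz
    rw [mat_apply, Function.comp_apply, ← f.commutes, ← map_sub] at h1
    exact (key _).mp h1
  · intro h σ a b z hz
    rw [mat_apply, Function.comp_apply, ← f.commutes, ← map_sub]
    exact (key _).mpr (h σ a b z hz)

lemma Pt.map (h𝒟 : IsDeformationCondition 𝒪 𝒟) {A B : Type} [CommRing A] [IsLocalRing A]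
    [Algebra 𝒪 A] [CommRing B] [IsLocalRing B] [Algebra 𝒪 B]
    (hA : IsArtinianTestAlgebra 𝒪 A) (hB : IsArtinianTestAlgebra 𝒪 B)
    (f : A →ₐ[𝒪] B) (hf : IsLocalHom (f : A →+* B)) {x : Idx → A} (h : Pt D 𝒟 x) :
    Pt D 𝒟 (f ∘ x) := by
  obtain ⟨ρ, h1, h2, h3, h4⟩ := h
  refine ⟨ρ.baseChangeAlong (f : A →+* B) hf, h1.baseChangeAlong (f : A →+* B) hf,
    (isLift_map D f hf).mpr h2, ?_, h𝒟.baseChangeAlong hA hB f hf h4⟩
  intro t
  rw [mat_apply, Function.comp_apply, ← f.commutes, ← h3 t, mat_apply]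

/-- Continuity over Artinian rings. -/
lemma HasMat.exists_fixing {A : Type} [CommRing A] [IsLocalRing A] [IsArtinianRing A]
    {ρ : GaloisRepAdic A} {r : GQ → M2 A} (h : HasMat (ρ.ρ : GQ → _) r) :
    ∃ L : IntermediateField ℚ (AlgebraicClosure ℚ), FiniteDimensional ℚ L ∧
      ∀ σ : GQ, (∀ x ∈ L, σ x = x) → r σ = 1 := by
  obtain ⟨n, hn⟩ := IsArtinianRing.isNilpotent_jacobson_bot (R := A)
  rw [IsLocalRing.jacobson_eq_maximalIdeal ⊥ bot_ne_top] at hn
  obtain ⟨L, hL, h1⟩ := h.isCont n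
  refine ⟨L, hL, fun σ hσ => ?_⟩
  have h2 := h1 σ hσ
  rw [hn] at h2
  ext a b
  exact sub_eq_zero.mp (h2 a b)

lemma Pt.of_injective (h𝒟 : IsDeformationCondition 𝒪 𝒟) {A B : Type} [CommRing A] [IsLocalRing A]
    [Algebra 𝒪 A] [CommRing B] [IsLocalRing B] [Algebra 𝒪 B]
    (hA : IsArtinianTestAlgebra 𝒪 A) (hB : IsArtinianTestAlgebra 𝒪 B)
    (f : A →ₐ[𝒪] B) (hf : IsLocalHom (f : A →+* B)) (hinj : Function.Injective f)
    {x : Idx → A} (h : Pt D 𝒟 (f ∘ x)) : Pt D 𝒟 x := by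
  obtain ⟨ρ, h1, h2, h3, h4⟩ := h
  have hfi : Function.Injective (fun X : M2 A => X.map f) := Matrix.map_injective hinj
  have hm1 : mat x 1 = 1 := by
    apply hfi
    show (mat x 1).map f = (1 : M2 A).map f
    rw [← mat_comp, h1.map_one, Matrix.map_one _ (map_zero f) (map_one f)]
  have hmm : ∀ σ τ, mat x (σ * τ) = mat x σ * mat x τ := by
    intro σ τ
    apply hfi
    show (mat x (σ * τ)).map f = (mat x σ * mat x τ).map f
    rw [Matrix.map_mul, ← mat_comp, ← mat_comp, ← mat_comp, h1.map_mul]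
  have hcont : IsCont (mat x) := by
    intro n
    haveI := hB.isArtinian
    obtain ⟨L, hL, h5⟩ := h1.exists_fixing
    refine ⟨L, hL, fun σ hσ => ?_⟩
    have h6 : mat x σ = 1 := by
      apply hfi
      show (mat x σ).map f = (1 : M2 A).map f
      rw [← mat_comp, h5 σ hσ, Matrix.map_one _ (map_zero f) (map_one f)]
    rw [h6, sub_self]
    exact fun a b => Ideal.zero_mem _
  obtain ⟨ρ', h7⟩ := exists_adic x hm1 hmm hcont
  refine ⟨ρ', h7, (isLift_map D f hf).mp h2, ?_, ?_⟩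
  · intro t
    apply hinj
    rw [f.commutes]
    exact h3 t
  · refine h𝒟.of_baseChangeAlong_injective hA hB f hf hinj ?_
    exact h𝒟.of_isEquiv hB (isEquiv_of_hasMat h1 (h7.baseChangeAlong (f : A →+* B) hf)) h4

lemma Pt.of_fibreProduct (h𝒟 : IsDeformationCondition 𝒪 𝒟) {A B C P : Type} [CommRing A]
    [IsLocalRing A] [Algebra 𝒪 A] [CommRing B] [IsLocalRing B] [Algebra 𝒪 B] [CommRing C]
    [IsLocalRing C] [Algebra 𝒪 C] [CommRing P] [IsLocalRing P] [Algebra 𝒪 P]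
    (hA : IsArtinianTestAlgebra 𝒪 A) (hB : IsArtinianTestAlgebra 𝒪 B)
    (hC : IsArtinianTestAlgebra 𝒪 C) (hP : IsArtinianTestAlgebra 𝒪 P)
    (f : A →ₐ[𝒪] C) (g : B →ₐ[𝒪] C) (pA : P →ₐ[𝒪] A) (pB : P →ₐ[𝒪] B)
    (hpA : IsLocalHom (pA : P →+* A)) (hpB : IsLocalHom (pB : P →+* B))
    (hcomm : f.comp pA = g.comp pB)
    (hinj : Function.Injective (fun x => (pA x, pB x)))
    (hsurj : ∀ a b, f a = g b → ∃ x, pA x = a ∧ pB x = b)
    {x : Idx → P} (hxA : Pt D 𝒟 (pA ∘ x)) (hxB : Pt D 𝒟 (pB ∘ x)) : Pt D 𝒟 x := by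
  obtain ⟨ρ, h1, h2, h3, h4⟩ := hxA
  obtain ⟨ρ', h1', h2', h3', h4'⟩ := hxB
  have hfi : ∀ X Y : M2 P, X.map pA = Y.map pA → X.map pB = Y.map pB → X = Y := by
    intro X Y h h'
    ext a b
    refine hinj (Prod.ext ?_ ?_)
    · exact congrFun (congrFun h a) b
    · exact congrFun (congrFun h' a) b
  have hm1 : mat x 1 = 1 := by
    apply hfi
    · rw [← mat_comp, h1.map_one, Matrix.map_one _ (map_zero pA) (map_one pA)]
    · rw [← mat_comp, h1'.map_one, Matrix.map_one _ (map_zero pB) (map_one pB)]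
  have hmm : ∀ σ τ, mat x (σ * τ) = mat x σ * mat x τ := by
    intro σ τ
    apply hfi
    · rw [Matrix.map_mul, ← mat_comp, ← mat_comp, ← mat_comp, h1.map_mul]
    · rw [Matrix.map_mul, ← mat_comp, ← mat_comp, ← mat_comp, h1'.map_mul]
  have hcont : IsCont (mat x) := by
    intro n
    haveI := hA.isArtinian
    haveI := hB.isArtinian
    obtain ⟨L, hL, h5⟩ := h1.exists_fixing
    obtain ⟨L', hL', h5'⟩ := h1'.exists_fixing
    refine ⟨L ⊔ L', inferInstance, fun σ hσ => ?_⟩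
    have h6 : mat x σ = 1 := by
      apply hfi
      · rw [← mat_comp, h5 σ (fun y hy => hσ y (le_sup_left (a := L) (b := L') hy)),
          Matrix.map_one _ (map_zero pA) (map_one pA)]
      · rw [← mat_comp, h5' σ (fun y hy => hσ y (le_sup_right (a := L) (b := L') hy)),
          Matrix.map_one _ (map_zero pB) (map_one pB)]
    rw [h6, sub_self]
    exact fun a b => Ideal.zero_mem _
  obtain ⟨ρ'', h7⟩ := exists_adic x hm1 hmm hcont
  refine ⟨ρ'', h7, (isLift_map D pA hpA).mp h2, ?_, ?_⟩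
  · intro t
    refine hinj (Prod.ext ?_ ?_)
    · show pA _ = pA _
      rw [pA.commutes]
      exact h3 t
    · show pB _ = pB _
      rw [pB.commutes]
      exact h3' t
  · refine h𝒟.of_fibreProduct hA hB hC hP f g pA pB hpA hpB hcomm hinj hsurj ?_ ?_
    · exact h𝒟.of_isEquiv hA (isEquiv_of_hasMat h1 (h7.baseChangeAlong (pA : P →+* A) hpA)) h4
    · exact h𝒟.of_isEquiv hB (isEquiv_of_hasMat h1' (h7.baseChangeAlong (pB : P →+* B) hpB)) h4'

/-- Two normalised points whose representations are equivalent are equal. -/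
lemma eq_of_isEquiv {A : Type} [CommRing A] [IsLocalRing A] [Algebra 𝒪 A]
    [IsLocalHom (algebraMap 𝒪 A)] (hs : Function.Surjective (residue A ∘ algebraMap 𝒪 A))
    {x y : Idx → A} {ρ ρ' : GaloisRepAdic A} (hx : HasMat (ρ.ρ : GQ → _) (mat x))
    (hy : HasMat (ρ'.ρ : GQ → _) (mat y)) (hρ : ρ.IsEquiv ρ')
    (hxl : D.IsLift (mat x)) (hyl : D.IsLift (mat y)) (hxn : D.IsNormal (mat x))
    (hyn : D.IsNormal (mat y)) : x = y := by
  obtain ⟨U, hU⟩ := (hx.of_isEquiv hρ).exists_conj hy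
  have h := D.eq_of_conj hs hxl hyl hxn hyn U hU
  funext ⟨σ, a, b⟩
  exact congrFun (congrFun (h σ) a) b

end Fermat.Agent.S53norm
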