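import Fermat.Statements.S53
import Fermat.Agent.S53_Functor

set_option autoImplicit false

/-!
# S53, part C: finiteness of the tangent space
-/

namespace Fermat.Agent.S53norm

open IsLocalRing Matrix GaloisRep
open scoped TensorProduct

variable {𝒪 : Type} [CommRing 𝒪] [IsLocalRing 𝒪]

variable (𝒪) in
/-- The `𝒪`-algebra structure on the dual numbers used in `TangentFinite`. -/
@[reducible] noncomputable def dualAlg : Algebra 𝒪 (DualNumber (ResidueField 𝒪)) :=
  ((algebraMap (ResidueField 𝒪) (DualNumber (ResidueField 𝒪))).comp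
      (algebraMap 𝒪 (ResidueField 𝒪))).toAlgebra

lemma eps_mem {k : Type} [Field k] (a : k) :
    (TrivSqZeroExt.inr a : DualNumber k) ∈ maximalIdeal (DualNumber k) := by
  intro h
  have h1 : (TrivSqZeroExt.inr a : DualNumber k) * TrivSqZeroExt.inr a = 0 :=
    TrivSqZeroExt.inr_mul_inr _ _ _
  have h2 := h.mul h
  rw [h1] at h2
  exact not_isUnit_zero h2

lemma dual_isArtinianTestAlgebra [Finite (ResidueField 𝒪)] :
    letI := dualAlg 𝒪
    IsArtinianTestAlgebra 𝒪 (DualNumber (ResidueField 𝒪)) := by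
  letI := dualAlg 𝒪
  refine ⟨?_, ?_, ?_⟩
  · show IsLocalHom ((algebraMap (ResidueField 𝒪) (DualNumber (ResidueField 𝒪))).comp
      (algebraMap 𝒪 (ResidueField 𝒪)))
    haveI : IsLocalHom (algebraMap 𝒪 (ResidueField 𝒪)) := inferInstanceAs (IsLocalHom (residue 𝒪))
    exact RingHom.isLocalHom_comp _ _
  · intro y
    obtain ⟨y, rfl⟩ := residue_surjective y
    obtain ⟨z, hz⟩ := residue_surjective (TrivSqZeroExt.fst y)
    refine ⟨z, ?_⟩
    rw [Function.comp_apply, ← sub_eq_zero, ← map_sub, residue_eq_zero_iff]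
    have h1 : algebraMap 𝒪 (DualNumber (ResidueField 𝒪)) z = TrivSqZeroExt.inl (residue 𝒪 z) := rfl
    have h2 : algebraMap 𝒪 (DualNumber (ResidueField 𝒪)) z - y =
        TrivSqZeroExt.inr (- TrivSqZeroExt.snd y) := by
      rw [h1, hz]
      ext
      · simp
      · simp
    rw [h2]
    exact eps_mem _
  · haveI : Finite (DualNumber (ResidueField 𝒪)) :=
      inferInstanceAs (Finite (ResidueField 𝒪 × ResidueField 𝒪))
    infer_instance

variable {ρbar : ResidualGaloisRep (ResidueField 𝒪)} (D : NFData ρbar)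
    {𝒟 : ∀ ⦃A : Type⦄ [CommRing A] [IsLocalRing A] [Algebra 𝒪 A], GaloisRepAdic A → Prop}

lemma tangent_finite [Finite (ResidueField 𝒪)] (hfin : TangentFinite 𝒪 ρbar 𝒟) :
    letI := dualAlg 𝒪
    {x : Idx → DualNumber (ResidueField 𝒪) | Pt D 𝒟 x}.Finite := by
  letI := dualAlg 𝒪
  letI : Algebra (ResidueField 𝒪) (ResidueField (DualNumber (ResidueField 𝒪))) :=
    ((IsLocalRing.residue (DualNumber (ResidueField 𝒪))).comp
      (algebraMap (ResidueField 𝒪) (DualNumber (ResidueField 𝒪)))).toAlgebra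
  have hA := dual_isArtinianTestAlgebra (𝒪 := 𝒪)
  haveI := hA.isLocalHom
  have hres : ∀ (x : Idx → DualNumber (ResidueField 𝒪)) (ρ : GaloisRepAdic _),
      HasMat (ρ.ρ : GQ → _) (mat x) → D.IsLift (mat x) →
      ρ.residual.IsEquiv (ρbar.baseChange (ResidueField (DualNumber (ResidueField 𝒪)))) := by
    intro x ρ hx hl
    refine isEquiv_of_hasMat_res hx.residual (D.hrbar.baseChange_res.of_eq fun σ => ?_)
    ext a b
    obtain ⟨z, hz⟩ := residue_surjective (D.rbar σ a b)
    have h1 := hl σ a b z hz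
    rw [← residue_eq_zero_iff, map_sub, sub_eq_zero] at h1
    rw [Matrix.map_apply, Matrix.map_apply, h1, ← hz]
    rfl
  have hch : ∀ x : {x : Idx → DualNumber (ResidueField 𝒪) | Pt D 𝒟 x},
      ∃ ρ : {ρ : GaloisRepAdic (DualNumber (ResidueField 𝒪)) //
        𝒟 ρ ∧ ρ.residual.IsEquiv (ρbar.baseChange (ResidueField (DualNumber (ResidueField 𝒪)))) },
        HasMat (ρ.1.ρ : GQ → _) (mat x.1) := by
    rintro ⟨x, ρ, h1, h2, h3, h4⟩
    exact ⟨⟨ρ, h4, hres x ρ h1 h2⟩, h1⟩
  choose F hF using hch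
  unfold TangentFinite at hfin
  rw [← Set.finite_coe_iff]
  refine @Finite.of_injective _ _ hfin (fun x => Quotient.mk _ (F x)) ?_
  intro x y hxy
  have h1 : (F x).1.IsEquiv (F y).1 := Quotient.exact hxy
  refine Subtype.ext (eq_of_isEquiv D hA.residue_surjective (hF x) (hF y) h1 ?_ ?_ ?_ ?_)
  · exact x.2.choose_spec.2.1
  · exact y.2.choose_spec.2.1
  · exact x.2.choose_spec.2.2.1
  · exact y.2.choose_spec.2.2.1

end Fermat.Agent.S53norm
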