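import Mathlib

set_option autoImplicit false

/-!
Completeness of `MvPowerSeries σ 𝒪` (σ finite) for its maximal ideal, when `𝒪` is a complete
local ring with finitely generated maximal ideal.
-/

namespace Fermat.Agent.S53rep

open IsLocalRing

section Complete

variable {σ : Type*} {𝒪 : Type*} [CommRing 𝒪] [IsLocalRing 𝒪]

lemma mem_maximalIdeal_mvPowerSeries_iff (f : MvPowerSeries σ 𝒪) :
    f ∈ maximalIdeal (MvPowerSeries σ 𝒪) ↔
      MvPowerSeries.constantCoeff f ∈ maximalIdeal 𝒪 := by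
  rw [mem_maximalIdeal, mem_maximalIdeal, mem_nonunits_iff, mem_nonunits_iff,
    MvPowerSeries.isUnit_iff_constantCoeff]

lemma C_mem_maximalIdeal_pow {n : ℕ} {c : 𝒪} (hc : c ∈ maximalIdeal 𝒪 ^ n) :
    (MvPowerSeries.C c : MvPowerSeries σ 𝒪) ∈ maximalIdeal (MvPowerSeries σ 𝒪) ^ n := by
  have h1 : (maximalIdeal 𝒪).map (MvPowerSeries.C : 𝒪 →+* MvPowerSeries σ 𝒪) ≤
      maximalIdeal (MvPowerSeries σ 𝒪) := by
    rw [Ideal.map_le_iff_le_comap]
    intro x hx
    rw [Ideal.mem_comap, mem_maximalIdeal_mvPowerSeries_iff]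
    simpa using hx
  have h2 := Ideal.mem_map_of_mem (MvPowerSeries.C : 𝒪 →+* MvPowerSeries σ 𝒪) hc
  rw [Ideal.map_pow] at h2
  exact Ideal.pow_right_mono h1 n h2

lemma X_mem_maximalIdeal (s : σ) :
    (MvPowerSeries.X s : MvPowerSeries σ 𝒪) ∈ maximalIdeal (MvPowerSeries σ 𝒪) := by
  rw [mem_maximalIdeal_mvPowerSeries_iff]
  simp

lemma monomial_mem_maximalIdeal_pow {n : ℕ} (α : σ →₀ ℕ) {c : 𝒪}
    (hc : c ∈ maximalIdeal 𝒪 ^ (n - α.degree)) :
    (MvPowerSeries.monomial α c : MvPowerSeries σ 𝒪) ∈ maximalIdeal (MvPowerSeries σ 𝒪) ^ n := by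
  have h1 : (MvPowerSeries.monomial α c : MvPowerSeries σ 𝒪) =
      MvPowerSeries.C c * α.prod (fun s e => (MvPowerSeries.X s : MvPowerSeries σ 𝒪) ^ e) := by
    rw [← MvPolynomial.coe_monomial, MvPolynomial.monomial_eq]
    have := map_finsuppProd (MvPolynomial.coeToMvPowerSeries.ringHom (σ := σ) (R := 𝒪)) α
      (fun n e => (MvPolynomial.X n : MvPolynomial σ 𝒪) ^ e)
    simp only [MvPolynomial.coeToMvPowerSeries.ringHom_apply, MvPolynomial.coe_pow,
      MvPolynomial.coe_X] at this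
    rw [MvPolynomial.coe_mul, MvPolynomial.coe_C, this]
  rw [h1]
  have h2 : (α.prod (fun s e => (MvPowerSeries.X s : MvPowerSeries σ 𝒪) ^ e)) ∈
      maximalIdeal (MvPowerSeries σ 𝒪) ^ α.degree := by
    rw [Finsupp.prod, Finsupp.degree_apply, ← Finset.prod_pow_eq_pow_sum]
    exact Ideal.prod_mem_prod (fun i _ => Ideal.pow_mem_pow (X_mem_maximalIdeal i) _)
  have h3 := Ideal.mul_mem_mul (C_mem_maximalIdeal_pow (σ := σ) hc) h2
  rw [← pow_add] at h3
  exact Ideal.pow_le_pow_right (by omega) h3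

lemma coeff_mem_of_mem_pow {n : ℕ} {f : MvPowerSeries σ 𝒪}
    (hf : f ∈ maximalIdeal (MvPowerSeries σ 𝒪) ^ n) (α : σ →₀ ℕ) :
    MvPowerSeries.coeff α f ∈ maximalIdeal 𝒪 ^ (n - α.degree) := by
  classical
  induction n generalizing f α with
  | zero => simp
  | succ n ih =>
    rw [pow_succ] at hf
    refine Submodule.mul_induction_on hf ?_ ?_
    · intro g hg h hh
      rw [MvPowerSeries.coeff_mul]
      refine Ideal.sum_mem _ ?_
      rintro ⟨β, γ⟩ hβγ
      rw [Finset.HasAntidiagonal.mem_antidiagonal] at hβγ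
      simp only at hβγ
      have h1 : MvPowerSeries.coeff γ h ∈ maximalIdeal 𝒪 ^ (1 - γ.degree) := by
        by_cases hγ : γ = 0
        · subst hγ
          rw [mem_maximalIdeal_mvPowerSeries_iff] at hh
          simpa using hh
        · have : γ.degree ≠ 0 := by
            rwa [Ne, Finsupp.degree_eq_zero_iff]
          have h0 : 1 - γ.degree = 0 := by omega
          rw [h0]; simp
      have h2 := Ideal.mul_mem_mul (ih hg β) h1
      rw [← pow_add] at h2
      have h3 : α.degree = β.degree + γ.degree := by rw [← hβγ, map_add]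
      exact Ideal.pow_le_pow_right (by omega) h2
    · intro x y hx hy
      rw [map_add]
      exact Ideal.add_mem _ hx hy

variable [Finite σ]

omit [IsLocalRing 𝒪] in
lemma mem_span_X_pow_of_coeff_eq_zero {n : ℕ} {f : MvPowerSeries σ 𝒪}
    (hf : ∀ α : σ →₀ ℕ, α.degree < n → MvPowerSeries.coeff α f = 0) :
    f ∈ (Ideal.span (Set.range (MvPowerSeries.X : σ → MvPowerSeries σ 𝒪))) ^ n := by
  have h0 : MvPowerSeries.truncTotal n f = 0 := by
    ext α
    by_cases h : α.degree < n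
    · rw [MvPowerSeries.coeff_truncTotal _ h, hf α h]; simp
    · rw [MvPowerSeries.coeff_truncTotal_eq_zero _ (not_lt.mp h)]; simp
  have h1 : MvPowerSeries.toAdicCompletion σ 𝒪 f ∈
      (MvPolynomial.idealOfVars σ 𝒪 ^ n • (⊤ : Submodule (MvPolynomial σ 𝒪)
        (AdicCompletion (MvPolynomial.idealOfVars σ 𝒪) (MvPolynomial σ 𝒪)))) := by
    rw [AdicCompletion.pow_smul_top_eq_ker_eval (MvPolynomial.idealOfVars_fg σ 𝒪),
      LinearMap.mem_ker]
    change (MvPowerSeries.toAdicCompletion σ 𝒪 f).val n = 0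
    rw [MvPowerSeries.toAdicCompletion_apply_eq_mk_truncTotal, h0]
    rfl
  let e := MvPowerSeries.toAdicCompletionAlgEquiv σ 𝒪
  have h2 : e.toLinearEquiv.symm (MvPowerSeries.toAdicCompletion σ 𝒪 f) = f :=
    e.toLinearEquiv.symm_apply_apply f
  have h3 := Submodule.mem_map_of_mem (f := e.toLinearEquiv.symm.toLinearMap) h1
  rw [Submodule.map_smul''] at h3
  have h4 : f ∈ MvPolynomial.idealOfVars σ 𝒪 ^ n •
      (⊤ : Submodule (MvPolynomial σ 𝒪) (MvPowerSeries σ 𝒪)) := by
    rw [← LinearEquiv.coe_coe] at h2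
    rw [← h2]
    exact Submodule.smul_mono le_rfl le_top h3
  refine Submodule.smul_induction_on h4 ?_ ?_
  · intro r hr g _
    rw [Algebra.smul_def]
    refine Ideal.mul_mem_right _ _ ?_
    have h5 := Ideal.mem_map_of_mem (algebraMap (MvPolynomial σ 𝒪) (MvPowerSeries σ 𝒪)) hr
    rw [Ideal.map_pow] at h5
    refine Ideal.pow_right_mono ?_ n h5
    rw [MvPolynomial.idealOfVars, Ideal.map_span]
    refine Ideal.span_mono ?_
    rintro _ ⟨_, ⟨i, rfl⟩, rfl⟩
    exact ⟨i, (MvPolynomial.coe_X i).symm⟩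
  · intro x y hx hy
    exact Ideal.add_mem _ hx hy

lemma mem_pow_of_coeff_mem {n : ℕ} {f : MvPowerSeries σ 𝒪}
    (hf : ∀ α : σ →₀ ℕ, MvPowerSeries.coeff α f ∈ maximalIdeal 𝒪 ^ (n - α.degree)) :
    f ∈ maximalIdeal (MvPowerSeries σ 𝒪) ^ n := by
  have h1 : f - (MvPowerSeries.truncTotal n f : MvPolynomial σ 𝒪) ∈
      maximalIdeal (MvPowerSeries σ 𝒪) ^ n := by
    have h2 : (Ideal.span (Set.range (MvPowerSeries.X : σ → MvPowerSeries σ 𝒪))) ≤
        maximalIdeal (MvPowerSeries σ 𝒪) := by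
      rw [Ideal.span_le]
      rintro _ ⟨i, rfl⟩
      exact X_mem_maximalIdeal i
    refine Ideal.pow_right_mono h2 n (mem_span_X_pow_of_coeff_eq_zero ?_)
    intro α hα
    rw [map_sub, MvPolynomial.coeff_coe, MvPowerSeries.coeff_truncTotal _ hα, sub_self]
  have h2 : ((MvPowerSeries.truncTotal n f : MvPolynomial σ 𝒪) : MvPowerSeries σ 𝒪) ∈
      maximalIdeal (MvPowerSeries σ 𝒪) ^ n := by
    rw [(MvPowerSeries.truncTotal n f : MvPolynomial σ 𝒪).as_sum]
    rw [← MvPolynomial.coeToMvPowerSeries.ringHom_apply, map_sum]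
    refine Ideal.sum_mem _ fun α _ => ?_
    rw [MvPolynomial.coeToMvPowerSeries.ringHom_apply, MvPolynomial.coe_monomial]
    refine monomial_mem_maximalIdeal_pow α ?_
    by_cases h : α.degree < n
    · rw [MvPowerSeries.coeff_truncTotal _ h]; exact hf α
    · rw [MvPowerSeries.coeff_truncTotal_eq_zero _ (not_lt.mp h)]; exact Ideal.zero_mem _
  have := Ideal.add_mem _ h1 h2
  simpa using this

/-- The power series ring in finitely many variables over a complete local ring is complete. -/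
theorem isPrecomplete_mvPowerSeries [IsAdicComplete (maximalIdeal 𝒪) 𝒪] :
    IsPrecomplete (maximalIdeal (MvPowerSeries σ 𝒪)) (MvPowerSeries σ 𝒪) := by
  constructor
  intro f hf
  have hf' : ∀ {m n : ℕ}, m ≤ n → f m - f n ∈ maximalIdeal (MvPowerSeries σ 𝒪) ^ m := by
    intro m n hmn
    have := hf hmn
    rw [SModEq.sub_mem] at this
    simpa using this
  -- coefficientwise limits
  have hc : ∀ α : σ →₀ ℕ, ∃ L : 𝒪, ∀ n, MvPowerSeries.coeff α (f (n + α.degree)) - L ∈
      maximalIdeal 𝒪 ^ n := by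
    intro α
    obtain ⟨L, hL⟩ := IsPrecomplete.prec (I := maximalIdeal 𝒪) (M := 𝒪) inferInstance
      (f := fun n => MvPowerSeries.coeff α (f (n + α.degree))) (by
        intro m n hmn
        rw [SModEq.sub_mem]
        have h1 := coeff_mem_of_mem_pow (hf' (show m + α.degree ≤ n + α.degree by omega)) α
        rw [map_sub, Nat.add_sub_cancel] at h1
        simpa using h1)
    refine ⟨L, fun n => ?_⟩
    have := hL n
    rw [SModEq.sub_mem] at this
    simpa using this
  choose L hL using hc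
  let L' : MvPowerSeries σ 𝒪 := fun α => L α
  refine ⟨L', fun n => ?_⟩
  rw [SModEq.sub_mem]
  have : f n - L' ∈ maximalIdeal (MvPowerSeries σ 𝒪) ^ n := by
    refine mem_pow_of_coeff_mem fun α => ?_
    have h0 : MvPowerSeries.coeff α (f n - L') = MvPowerSeries.coeff α (f n) - L α := by
      rw [map_sub]; rfl
    rw [h0]
    by_cases h : α.degree ≤ n
    · have h1 := hL α (n - α.degree)
      rwa [Nat.sub_add_cancel h] at h1
    · have : n - α.degree = 0 := by omega
      rw [this]; simp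
  simpa using this

theorem isAdicComplete_mvPowerSeries [IsNoetherianRing 𝒪] [IsAdicComplete (maximalIdeal 𝒪) 𝒪] :
    IsAdicComplete (maximalIdeal (MvPowerSeries σ 𝒪)) (MvPowerSeries σ 𝒪) := by
  have := isPrecomplete_mvPowerSeries (σ := σ) (𝒪 := 𝒪)
  constructor

end Complete

end Fermat.Agent.S53rep
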