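import Mathlib
import Fermat.Prelude.Thm_IsAdicComplete_of_module_finite
import Fermat.Agent.S53_PowerSeries

set_option autoImplicit false

/-!
Pro-representability of "closed" subfunctors of `Hom_𝒪(P, -)` with finite tangent space.
-/

namespace Fermat.Agent.S53rep

open IsLocalRing

variable {𝒪 : Type} [CommRing 𝒪] [IsLocalRing 𝒪] {P : Type} [CommRing P] [Algebra 𝒪 P]

/-- A set of ideals of `P` (the kernels of the "points" `P → A`, `A` an Artinian test algebra),
closed under finite intersections and going up, with a finite tangent space. -/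
structure ProRepDatum (π : P →ₐ[𝒪] ResidueField 𝒪) (S : Set (Ideal P)) : Prop where
  le_ker : ∀ J ∈ S, J ≤ RingHom.ker π
  pow_le : ∀ J ∈ S, ∃ n : ℕ, (RingHom.ker π) ^ n ≤ J
  finite_quot : ∀ J ∈ S, Finite (P ⧸ J)
  ker_mem : RingHom.ker π ∈ S
  inf_mem : ∀ J₁ ∈ S, ∀ J₂ ∈ S, J₁ ⊓ J₂ ∈ S
  up_mem : ∀ J ∈ S, ∀ J', J ≤ J' → J' ≤ RingHom.ker π → J' ∈ S
  tangent : Set.Finite {f : P →+* DualNumber (ResidueField 𝒪) |
    f.comp (algebraMap 𝒪 P) =
      (algebraMap (ResidueField 𝒪) (DualNumber (ResidueField 𝒪))).comp (residue 𝒪) ∧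
    RingHom.ker f ∈ S}

section Functional

variable (π : P →ₐ[𝒪] ResidueField 𝒪)

lemma residue_eq_pi_algebraMap (c : 𝒪) : π (algebraMap 𝒪 P c) = residue 𝒪 c := by
  rw [AlgHom.commutes]; rfl

lemma exists_sub_mem_ker (p : P) : ∃ c : 𝒪, p - algebraMap 𝒪 P c ∈ RingHom.ker π := by
  obtain ⟨c, hc⟩ := residue_surjective (π p)
  refine ⟨c, ?_⟩
  rw [RingHom.mem_ker, map_sub, residue_eq_pi_algebraMap, hc, sub_self]

lemma map_maximalIdeal_le_ker : (maximalIdeal 𝒪).map (algebraMap 𝒪 P) ≤ RingHom.ker π := by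
  rw [Ideal.map_le_iff_le_comap]
  intro x hx
  rw [Ideal.mem_comap, RingHom.mem_ker, residue_eq_pi_algebraMap]
  exact (residue_eq_zero_iff x).mpr hx

lemma exists_dualNumber_hom (J : Ideal P) (hJ2 : (RingHom.ker π) ^ 2 ≤ J)
    (hJ : J ≤ RingHom.ker π)
    (hJ𝒪 : (maximalIdeal 𝒪).map (algebraMap 𝒪 P) ≤ J) (x : P) (hx : x ∈ RingHom.ker π)
    (hxJ : x ∉ J) :
    ∃ f : P →+* DualNumber (ResidueField 𝒪),
      f.comp (algebraMap 𝒪 P) =
        (algebraMap (ResidueField 𝒪) (DualNumber (ResidueField 𝒪))).comp (residue 𝒪) ∧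
      J ≤ RingHom.ker f ∧ RingHom.ker f ≤ RingHom.ker π ∧ f x ≠ 0 := by
  let j : ResidueField 𝒪 →+* P ⧸ J :=
    Ideal.Quotient.lift (maximalIdeal 𝒪) ((Ideal.Quotient.mk J).comp (algebraMap 𝒪 P)) (by
      intro a ha
      exact Ideal.Quotient.eq_zero_iff_mem.mpr (hJ𝒪 (Ideal.mem_map_of_mem _ ha)))
  have hj : ∀ c : 𝒪, j (residue 𝒪 c) = Ideal.Quotient.mk J (algebraMap 𝒪 P c) := fun c => rfl
  let _ : Algebra (ResidueField 𝒪) (P ⧸ J) := j.toAlgebra
  have hx0 : Ideal.Quotient.mk J x ≠ 0 := fun h => hxJ (Ideal.Quotient.eq_zero_iff_mem.mp h)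
  obtain ⟨l, hl⟩ : ∃ l : Module.Dual (ResidueField 𝒪) (P ⧸ J), l (Ideal.Quotient.mk J x) ≠ 0 := by
    by_contra hcon
    push Not at hcon
    exact hx0 ((Module.forall_dual_apply_eq_zero_iff (ResidueField 𝒪) _).mp hcon)
  let d : P → ResidueField 𝒪 := fun p => l (Ideal.Quotient.mk J p - j (π p))
  have hsmul : ∀ (a : ResidueField 𝒪) (q : P ⧸ J), l (j a * q) = a * l q := by
    intro a q
    have := l.map_smul a q
    rw [smul_eq_mul] at this
    rw [← this]
    rfl
  have hmk : ∀ p : P, ∃ c : 𝒪, residue 𝒪 c = π p ∧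
      Ideal.Quotient.mk J p - j (π p) = Ideal.Quotient.mk J (p - algebraMap 𝒪 P c) ∧
      p - algebraMap 𝒪 P c ∈ RingHom.ker π := by
    intro p
    obtain ⟨c, hc⟩ := residue_surjective (π p)
    refine ⟨c, hc, ?_, ?_⟩
    · rw [← hc, hj, map_sub]
    · rw [RingHom.mem_ker, map_sub, residue_eq_pi_algebraMap, hc, sub_self]
  have hprod : ∀ p q : P, (Ideal.Quotient.mk J p - j (π p)) * (Ideal.Quotient.mk J q - j (π q)) = 0 := by
    intro p q
    obtain ⟨c, _, h1, h2⟩ := hmk p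
    obtain ⟨c', _, h1', h2'⟩ := hmk q
    rw [h1, h1', ← map_mul, Ideal.Quotient.eq_zero_iff_mem]
    apply hJ2
    rw [pow_two]
    exact Ideal.mul_mem_mul h2 h2'
  have hdmul : ∀ p q : P, d (p * q) = π p * d q + π q * d p := by
    intro p q
    simp only [d]
    rw [← hsmul, ← hsmul, ← map_add]
    congr 1
    have := hprod p q
    rw [map_mul, map_mul, map_mul]
    linear_combination this
  have hdadd : ∀ p q : P, d (p + q) = d p + d q := by
    intro p q
    simp only [d]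
    rw [← map_add]
    congr 1
    rw [map_add, map_add, map_add]
    ring
  have hdalg : ∀ c : 𝒪, d (algebraMap 𝒪 P c) = 0 := by
    intro c
    simp only [d]
    rw [residue_eq_pi_algebraMap, hj, sub_self, map_zero]
  let f : P →+* DualNumber (ResidueField 𝒪) :=
    { toFun := fun p => TrivSqZeroExt.inl (π p) + TrivSqZeroExt.inr (d p)
      map_one' := by
        have : d 1 = 0 := by simpa using hdalg 1
        rw [this, map_one]; simp
      map_zero' := by
        have : d 0 = 0 := by simpa using hdalg 0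
        rw [this, map_zero]; simp
      map_add' := by
        intro p q
        rw [hdadd, map_add]
        ext <;> simp
      map_mul' := by
        intro p q
        rw [hdmul, map_mul]
        ext
        · simp
        · simp [mul_comm] }
  refine ⟨f, ?_, ?_, ?_, ?_⟩
  · have hk : ∀ a : ResidueField 𝒪, algebraMap (ResidueField 𝒪) (DualNumber (ResidueField 𝒪)) a =
        TrivSqZeroExt.inl a := fun a => rfl
    ext c
    · simp [f, hdalg, hk]
    · simp [f, hdalg, hk]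
  · intro p hp
    rw [RingHom.mem_ker]
    have h1 : π p = 0 := hJ hp
    have h2 : d p = 0 := by
      simp only [d]
      rw [h1, map_zero, sub_zero, Ideal.Quotient.eq_zero_iff_mem.mpr hp, map_zero]
    show TrivSqZeroExt.inl (π p) + TrivSqZeroExt.inr (d p) = 0
    rw [h1, h2]; simp
  · intro p hp
    rw [RingHom.mem_ker] at hp ⊢
    have := congrArg TrivSqZeroExt.fst hp
    simpa [f] using this
  · intro h
    have h1 := congrArg TrivSqZeroExt.snd h
    have h2 : d x = 0 := by simpa [f] using h1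
    simp only [d] at h2
    rw [RingHom.mem_ker] at hx
    rw [hx, map_zero, sub_zero] at h2
    exact hl h2

end Functional

namespace ProRepDatum

variable {π : P →ₐ[𝒪] ResidueField 𝒪} {S : Set (Ideal P)}

/-- A finite set generating the maximal ideal in every point. -/
lemma exists_finset (D : ProRepDatum π S) : ∃ X : Finset P, (∀ x ∈ X, x ∈ RingHom.ker π) ∧
    ∀ J ∈ S, RingHom.ker π ≤
      Ideal.span (X : Set P) ⊔ (maximalIdeal 𝒪).map (algebraMap 𝒪 P) ⊔ J := by
  classical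
  set K := RingHom.ker π with hK
  set T : Set (P →+* DualNumber (ResidueField 𝒪)) := {f : P →+* DualNumber (ResidueField 𝒪) |
    f.comp (algebraMap 𝒪 P) =
      (algebraMap (ResidueField 𝒪) (DualNumber (ResidueField 𝒪))).comp (residue 𝒪) ∧
    RingHom.ker f ∈ S} with hT
  have hTfin : T.Finite := D.tangent
  obtain ⟨J2, hJ2S, hJ2⟩ : ∃ J2 ∈ S, ∀ f ∈ T, J2 ≤ RingHom.ker f := by
    refine Set.Finite.induction_on_subset (motive := fun s _ => ∃ J2 ∈ S, ∀ f ∈ s, J2 ≤ RingHom.ker f)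
      T hTfin ⟨K, D.ker_mem, by simp⟩ ?_
    intro f s hf _ _ ih
    obtain ⟨J, hJ, h⟩ := ih
    refine ⟨J ⊓ RingHom.ker f, D.inf_mem _ hJ _ hf.2, ?_⟩
    intro g hg
    rcases Set.mem_insert_iff.mp hg with rfl | hg
    · exact inf_le_right
    · exact inf_le_left.trans (h g hg)
  have := D.finite_quot J2 hJ2S
  let r : P ⧸ J2 → P := fun q => if h : ∃ x ∈ K, Ideal.Quotient.mk J2 x = q then h.choose else 0
  have hr : ∀ q, r q ∈ K := by
    intro q
    simp only [r]
    split_ifs with h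
    · exact h.choose_spec.1
    · exact Ideal.zero_mem _
  have hr2 : ∀ x ∈ K, x - r (Ideal.Quotient.mk J2 x) ∈ J2 := by
    intro x hx
    have h : ∃ y ∈ K, Ideal.Quotient.mk J2 y = Ideal.Quotient.mk J2 x := ⟨x, hx, rfl⟩
    have h1 : r (Ideal.Quotient.mk J2 x) = h.choose := by simp only [r]; rw [dif_pos h]
    rw [h1, ← Ideal.Quotient.mk_eq_mk_iff_sub_mem]
    exact h.choose_spec.2.symm
  refine ⟨(Set.toFinite (Set.range r)).toFinset, ?_, ?_⟩
  · intro x hx
    rw [Set.Finite.mem_toFinset] at hx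
    obtain ⟨q, rfl⟩ := hx
    exact hr q
  intro J hJS
  rw [Set.Finite.coe_toFinset]
  set m := (maximalIdeal 𝒪).map (algebraMap 𝒪 P) with hm
  have hmK : m ≤ K := map_maximalIdeal_le_ker π
  have hJK : J ≤ K := D.le_ker J hJS
  have hrK : Ideal.span (Set.range r) ≤ K := by
    rw [Ideal.span_le]
    rintro _ ⟨q, rfl⟩
    exact hr q
  -- the key inequality
  have key : J2 ≤ J ⊔ K ^ 2 ⊔ m := by
    intro x hx
    by_contra hx'
    have hK2 : K ^ 2 ≤ K := Ideal.pow_le_self (by norm_num)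
    have hle : J ⊔ K ^ 2 ⊔ m ≤ K := sup_le (sup_le hJK hK2) hmK
    obtain ⟨f, hf1, hf2, hf3, hf4⟩ := exists_dualNumber_hom π (J ⊔ K ^ 2 ⊔ m)
      ((le_sup_right.trans le_sup_left)) hle le_sup_right x (D.le_ker J2 hJ2S hx) hx'
    have hfT : f ∈ T := ⟨hf1, D.up_mem J hJS _ ((le_sup_left.trans le_sup_left).trans hf2) hf3⟩
    exact hf4 (hJ2 f hfT hx)
  set N := Ideal.span (Set.range r) ⊔ m ⊔ J with hN
  have hN1 : Ideal.span (Set.range r) ≤ N := le_sup_left.trans le_sup_left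
  have hN2 : m ≤ N := le_sup_right.trans le_sup_left
  have hN3 : J ≤ N := le_sup_right
  have h1 : K ≤ N ⊔ K ^ 2 := by
    intro x hx
    have h2 : x = r (Ideal.Quotient.mk J2 x) + (x - r (Ideal.Quotient.mk J2 x)) := by ring
    rw [h2]
    refine Ideal.add_mem _ ?_ ?_
    · exact Ideal.mem_sup_left (hN1 (Ideal.subset_span ⟨_, rfl⟩))
    · have h3 : J ⊔ K ^ 2 ⊔ m ≤ N ⊔ K ^ 2 :=
        sup_le (sup_le (hN3.trans le_sup_left) le_sup_right) (hN2.trans le_sup_left)
      exact h3 (key (hr2 x hx))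
  have hNK : N ≤ K := sup_le (sup_le hrK hmK) hJK
  have h2 : ∀ n : ℕ, K ≤ N ⊔ K ^ n := by
    intro n
    induction n with
    | zero => simp
    | succ n ih =>
      refine h1.trans (sup_le le_sup_left ?_)
      rw [pow_two]
      calc K * K ≤ K * (N ⊔ K ^ n) := Ideal.mul_mono_right ih
        _ = K * N ⊔ K * K ^ n := Ideal.mul_sup _ _ _
        _ ≤ N ⊔ K ^ (n + 1) := by
            refine sup_le ((Ideal.mul_le_right (I := K) (J := N)).trans le_sup_left) ?_
            rw [← pow_succ']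
            exact le_sup_right
  obtain ⟨n, hn⟩ := D.pow_le J hJS
  exact (h2 n).trans (sup_le le_rfl (hn.trans le_sup_right))

lemma mem_map_exists {P₀ : Type} [CommRing P₀] [Algebra 𝒪 P₀] (π : P →ₐ[𝒪] ResidueField 𝒪)
    (e : P₀ →ₐ[𝒪] P) (I : Ideal P₀) {y : P} (hy : y ∈ I.map e) :
    ∃ q ∈ I, y - e q ∈ (I.map e) * RingHom.ker π := by
  refine Submodule.span_induction (p := fun y _ => ∃ q ∈ I, y - e q ∈ (I.map e) * RingHom.ker π)
    ?_ ?_ ?_ ?_ hy
  · rintro _ ⟨u, hu, rfl⟩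
    exact ⟨u, hu, by simp⟩
  · exact ⟨0, Ideal.zero_mem _, by simp⟩
  · rintro a b _ _ ⟨q, hq, h⟩ ⟨q', hq', h'⟩
    refine ⟨q + q', Ideal.add_mem _ hq hq', ?_⟩
    rw [map_add, add_sub_add_comm]
    exact Ideal.add_mem _ h h'
  · rintro a b hb ⟨q, hq, h⟩
    obtain ⟨c, hc⟩ := exists_sub_mem_ker π a
    refine ⟨algebraMap 𝒪 P₀ c * q, Ideal.mul_mem_left _ _ hq, ?_⟩
    rw [map_mul, AlgHom.commutes]
    have h1 : a • b - algebraMap 𝒪 P c * e q =
        b * (a - algebraMap 𝒪 P c) + algebraMap 𝒪 P c * (b - e q) := by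
      rw [smul_eq_mul]; ring
    rw [h1]
    exact Ideal.add_mem _ (Ideal.mul_mem_mul hb hc) (Ideal.mul_mem_left _ _ h)

section Gen

variable {σ : Type} (x : σ → P) (hx : ∀ s, x s ∈ RingHom.ker π)
  (hgen : ∀ J ∈ S, RingHom.ker π ≤
      Ideal.span (Set.range x) ⊔ (maximalIdeal 𝒪).map (algebraMap 𝒪 P) ⊔ J)

include hx hgen

lemma gen_surjective (D : ProRepDatum π S) {J : Ideal P} (hJ : J ∈ S) :
    Function.Surjective ((Ideal.Quotient.mkₐ 𝒪 J).comp (MvPolynomial.aeval x)) := by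
  set K := RingHom.ker π with hK
  set e : MvPolynomial σ 𝒪 →ₐ[𝒪] P := MvPolynomial.aeval x with he
  set M₀ : Ideal (MvPolynomial σ 𝒪) := K.comap e with hM₀
  have hKle : K ≤ M₀.map e ⊔ J := by
    refine (hgen J hJ).trans (sup_le (sup_le ?_ ?_) le_sup_right)
    · rw [Ideal.span_le]
      rintro _ ⟨s, rfl⟩
      refine Ideal.mem_sup_left ?_
      have h1 : e (MvPolynomial.X s) = x s := MvPolynomial.aeval_X _ _
      rw [← h1]
      refine Ideal.mem_map_of_mem e ?_
      rw [hM₀, Ideal.mem_comap, h1]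
      exact hx s
    · rw [Ideal.map_le_iff_le_comap]
      intro c hc
      refine Ideal.mem_sup_left ?_
      have h1 : e (algebraMap 𝒪 _ c) = algebraMap 𝒪 P c := AlgHom.commutes _ _
      rw [← h1]
      refine Ideal.mem_map_of_mem e ?_
      rw [hM₀, Ideal.mem_comap, h1]
      exact map_maximalIdeal_le_ker π (Ideal.mem_map_of_mem _ hc)
  have claim : ∀ n : ℕ, ∀ b : P, ∃ q : MvPolynomial σ 𝒪, b - e q ∈ (M₀ ^ n).map e ⊔ J := by
    intro n
    induction n with
    | zero =>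
      intro b
      refine ⟨0, ?_⟩
      rw [pow_zero, Ideal.one_eq_top, Ideal.map_top]
      simp
    | succ n ih =>
      intro b
      obtain ⟨q, hq⟩ := ih b
      obtain ⟨y, hy, z, hz, hyz⟩ := Submodule.mem_sup.mp hq
      obtain ⟨q', hq', h'⟩ := mem_map_exists π e (M₀ ^ n) hy
      refine ⟨q + q', ?_⟩
      have h1 : b - e (q + q') = (y - e q') + z := by
        rw [map_add]; linear_combination -hyz
      rw [h1]
      refine Ideal.add_mem _ ?_ (Ideal.mem_sup_right hz)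
      have h2 : (M₀ ^ n).map e * K ≤ (M₀ ^ (n + 1)).map e ⊔ J := by
        calc (M₀ ^ n).map e * K ≤ (M₀ ^ n).map e * (M₀.map e ⊔ J) := Ideal.mul_mono_right hKle
          _ = (M₀ ^ n).map e * M₀.map e ⊔ (M₀ ^ n).map e * J := Ideal.mul_sup _ _ _
          _ ≤ (M₀ ^ (n + 1)).map e ⊔ J := by
            refine sup_le ?_ (Ideal.mul_le_right.trans le_sup_right)
            rw [← Ideal.map_mul, ← pow_succ]
            exact le_sup_left
      exact h2 h'
  obtain ⟨n, hn⟩ := D.pow_le J hJ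
  intro b
  obtain ⟨b, rfl⟩ := Ideal.Quotient.mk_surjective b
  obtain ⟨q, hq⟩ := claim n b
  refine ⟨q, ?_⟩
  have h1 : (M₀ ^ n).map e ⊔ J ≤ J := by
    refine sup_le ?_ le_rfl
    rw [Ideal.map_pow]
    refine (Ideal.pow_right_mono ?_ n).trans hn
    exact Ideal.map_comap_le
  show Ideal.Quotient.mk J (e q) = Ideal.Quotient.mk J b
  rw [eq_comm, Ideal.Quotient.mk_eq_mk_iff_sub_mem]
  exact h1 hq

variable [Finite σ] [IsNoetherianRing 𝒪] [Finite (ResidueField 𝒪)]

/-- the least element of `S` containing `K ^ (n+1)` -/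
lemma exists_least (D : ProRepDatum π S) (n : ℕ) :
    ∃ J ∈ S, RingHom.ker π ^ (n + 1) ≤ J ∧
      ∀ J' ∈ S, RingHom.ker π ^ (n + 1) ≤ J' → J ≤ J' := by
  classical
  set K := RingHom.ker π with hK
  set e : MvPolynomial σ 𝒪 →ₐ[𝒪] P := MvPolynomial.aeval x with he
  set M₀ : Ideal (MvPolynomial σ 𝒪) := K.comap e with hM₀
  have hfin0 : Finite (MvPolynomial σ 𝒪 ⧸ M₀) := by
    let g : MvPolynomial σ 𝒪 ⧸ M₀ →+* ResidueField 𝒪 :=
      Ideal.Quotient.lift M₀ ((π : P →+* ResidueField 𝒪).comp (e : MvPolynomial σ 𝒪 →+* P))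
        (fun a ha => ha)
    have hg : Function.Injective g := by
      rw [RingHom.injective_iff_ker_eq_bot, RingHom.ker_eq_bot_iff_eq_zero]
      intro a ha
      obtain ⟨a, rfl⟩ := Ideal.Quotient.mk_surjective a
      rw [Ideal.Quotient.eq_zero_iff_mem]
      exact ha
    exact Finite.of_injective g hg
  have hfin : Finite (MvPolynomial σ 𝒪 ⧸ M₀ ^ (n + 1)) :=
    Ideal.finite_quotient_pow (IsNoetherian.noetherian M₀) (n + 1)
  set N := Nat.card (MvPolynomial σ 𝒪 ⧸ M₀ ^ (n + 1)) with hN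
  set Z : Set (Ideal P) := {J | J ∈ S ∧ K ^ (n + 1) ≤ J} with hZ
  have hbound : ∀ J ∈ Z, Nat.card (P ⧸ J) ≤ N := by
    intro J hJ
    let g : MvPolynomial σ 𝒪 ⧸ M₀ ^ (n + 1) →+* P ⧸ J :=
      Ideal.Quotient.lift (M₀ ^ (n + 1)) ((Ideal.Quotient.mk J).comp (e : _ →+* P)) (by
        intro a ha
        refine Ideal.Quotient.eq_zero_iff_mem.mpr (hJ.2 ?_)
        have h1 := Ideal.mem_map_of_mem (e : _ →+* P) ha
        rw [Ideal.map_pow] at h1
        exact Ideal.pow_right_mono Ideal.map_comap_le _ h1)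
    have hg : Function.Surjective g := by
      intro b
      obtain ⟨q, hq⟩ := gen_surjective x hx hgen D hJ.1 b
      exact ⟨Ideal.Quotient.mk _ q, hq⟩
    exact Nat.card_le_card_of_surjective g hg
  have hKZ : K ∈ Z := ⟨D.ker_mem, Ideal.pow_le_self (by omega)⟩
  obtain ⟨J, hJ, hmin⟩ := WellFounded.has_min
    (measure (fun J : Ideal P => N - Nat.card (P ⧸ J))).wf Z ⟨K, hKZ⟩
  refine ⟨J, hJ.1, hJ.2, fun J' hJ'S hJ' => ?_⟩
  have hJ'' : J ⊓ J' ∈ Z := ⟨D.inf_mem _ hJ.1 _ hJ'S, le_inf hJ.2 hJ'⟩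
  have h1 : ¬ (N - Nat.card (P ⧸ (J ⊓ J')) < N - Nat.card (P ⧸ J)) := hmin _ hJ''
  have h2 := hbound _ hJ''
  have h3 := hbound _ hJ
  have h4 : Nat.card (P ⧸ (J ⊓ J')) ≤ Nat.card (P ⧸ J) := by omega
  have := D.finite_quot _ hJ''.1
  have h5 := (Ideal.Quotient.factor_surjective (inf_le_left : J ⊓ J' ≤ J)).bijective_of_nat_card_le h4
  intro a ha
  have h6 : Ideal.Quotient.mk (J ⊓ J') a = 0 := by
    apply h5.1
    rw [map_zero, Ideal.Quotient.factor_mk]
    exact Ideal.Quotient.eq_zero_iff_mem.mpr ha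
  exact (Ideal.Quotient.eq_zero_iff_mem.mp h6).2

end Gen

end ProRepDatum

/-- The chain of least elements of `S` containing the powers of the maximal ideal. -/
structure ProRepChain (π : P →ₐ[𝒪] ResidueField 𝒪) (S : Set (Ideal P)) where
  J : ℕ → Ideal P
  mem : ∀ n, J n ∈ S
  pow_le : ∀ n, RingHom.ker π ^ (n + 1) ≤ J n
  least : ∀ n, ∀ J' ∈ S, RingHom.ker π ^ (n + 1) ≤ J' → J n ≤ J'

namespace ProRepChain

variable {π : P →ₐ[𝒪] ResidueField 𝒪} {S : Set (Ideal P)} (C : ProRepChain π S)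

lemma succ_le (n : ℕ) : C.J (n + 1) ≤ C.J n :=
  C.least (n + 1) _ (C.mem n) ((Ideal.pow_le_pow_right (by omega)).trans (C.pow_le n))

lemma le_sup (D : ProRepDatum π S) (n : ℕ) : C.J n ≤ C.J (n + 1) ⊔ RingHom.ker π ^ (n + 1) :=
  C.least n _ (D.up_mem (C.J (n + 1)) (C.mem _) _ le_sup_left
    (sup_le (D.le_ker _ (C.mem _)) (Ideal.pow_le_self (by omega)))) le_sup_right

/-- The limit ring `lim P / J n`. -/
def lim : Subalgebra 𝒪 (∀ n, P ⧸ C.J n) where
  carrier := {a | ∀ n, Ideal.Quotient.factor (C.succ_le n) (a (n + 1)) = a n}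
  mul_mem' := by
    intro a b ha hb n
    rw [Pi.mul_apply, Pi.mul_apply, map_mul, ha n, hb n]
  add_mem' := by
    intro a b ha hb n
    rw [Pi.add_apply, Pi.add_apply, map_add, ha n, hb n]
  algebraMap_mem' := by
    intro c n
    rfl

/-- evaluation at level `n` -/
def ev (n : ℕ) : C.lim →ₐ[𝒪] P ⧸ C.J n :=
  (Pi.evalAlgHom 𝒪 (fun n => P ⧸ C.J n) n).comp C.lim.val

lemma ev_apply (n : ℕ) (a : C.lim) : C.ev n a = a.1 n := rfl

lemma factor_ev (n : ℕ) (a : C.lim) :
    Ideal.Quotient.factor (C.succ_le n) (C.ev (n + 1) a) = C.ev n a := a.2 n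

lemma lim_ext {a b : C.lim} (h : ∀ n, C.ev n a = C.ev n b) : a = b :=
  Subtype.ext (funext h)

/-- the canonical map `P → lim` -/
def toLim : P →ₐ[𝒪] C.lim where
  toFun p := ⟨fun n => Ideal.Quotient.mk (C.J n) p, fun n => rfl⟩
  map_one' := rfl
  map_mul' _ _ := rfl
  map_zero' := rfl
  map_add' _ _ := rfl
  commutes' _ := rfl

lemma ev_toLim (n : ℕ) (p : P) : C.ev n (C.toLim p) = Ideal.Quotient.mk (C.J n) p := rfl

section Theta

variable {σ : Type} [Finite σ] (x : σ → P) (hx : ∀ s, x s ∈ RingHom.ker π)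

omit [Finite σ] in
include hx in
lemma aeval_mem_pow {n : ℕ} {q : MvPolynomial σ 𝒪} (hq : q ∈ MvPolynomial.idealOfVars σ 𝒪 ^ n) :
    MvPolynomial.aeval x q ∈ RingHom.ker π ^ n := by
  have h1 := Ideal.mem_map_of_mem (MvPolynomial.aeval x : MvPolynomial σ 𝒪 →ₐ[𝒪] P) hq
  rw [Ideal.map_pow] at h1
  refine Ideal.pow_right_mono ?_ n h1
  rw [MvPolynomial.idealOfVars, Ideal.map_span, Ideal.span_le]
  rintro _ ⟨_, ⟨s, rfl⟩, rfl⟩
  have h2 : (MvPolynomial.aeval x : MvPolynomial σ 𝒪 →ₐ[𝒪] P) (MvPolynomial.X s) = x s :=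
    MvPolynomial.aeval_X _ _
  rw [h2]
  exact hx s

/-- The evaluation `𝒪⟦X⟧ → P / J n`. -/
noncomputable def theta (n : ℕ) : MvPowerSeries σ 𝒪 →+* P ⧸ C.J n :=
  (Ideal.Quotient.lift (MvPolynomial.idealOfVars σ 𝒪 ^ (n + 1))
    ((Ideal.Quotient.mk (C.J n)).comp
      (MvPolynomial.aeval x : MvPolynomial σ 𝒪 →ₐ[𝒪] P).toRingHom)
    (fun _ ha => Ideal.Quotient.eq_zero_iff_mem.mpr (C.pow_le n (aeval_mem_pow x hx ha)))).comp
  (MvPowerSeries.truncTotalAlgHom σ 𝒪 (n + 1)).toRingHom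

lemma theta_apply (n : ℕ) (f : MvPowerSeries σ 𝒪) :
    C.theta x hx n f = Ideal.Quotient.mk (C.J n)
      (MvPolynomial.aeval x (MvPowerSeries.truncTotal (n + 1) f)) := rfl

lemma factor_theta (n : ℕ) (f : MvPowerSeries σ 𝒪) :
    Ideal.Quotient.factor (C.succ_le n) (C.theta x hx (n + 1) f) = C.theta x hx n f := by
  rw [theta_apply, theta_apply, Ideal.Quotient.factor_mk, Ideal.Quotient.mk_eq_mk_iff_sub_mem,
    ← map_sub]
  exact C.pow_le n (aeval_mem_pow x hx
    (MvPowerSeries.truncTotal_sub_truncTotal_mem_pow_idealOfVars (by omega) (by omega) f))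

lemma theta_coe (n : ℕ) (q : MvPolynomial σ 𝒪) :
    C.theta x hx n (q : MvPowerSeries σ 𝒪) =
      Ideal.Quotient.mk (C.J n) (MvPolynomial.aeval x q) := by
  rw [theta_apply, Ideal.Quotient.mk_eq_mk_iff_sub_mem, ← map_sub]
  refine C.pow_le n (aeval_mem_pow x hx ?_)
  rw [MvPolynomial.mem_pow_idealOfVars_iff']
  intro α hα
  rw [MvPolynomial.coeff_sub, MvPowerSeries.coeff_truncTotal _ hα, MvPolynomial.coeff_coe, sub_self]

/-- The evaluation `𝒪⟦X⟧ → lim`. -/
noncomputable def thetaLim : MvPowerSeries σ 𝒪 →+* C.lim where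
  toFun f := ⟨fun n => C.theta x hx n f, fun n => C.factor_theta x hx n f⟩
  map_one' := C.lim_ext fun n => map_one (C.theta x hx n)
  map_mul' f g := C.lim_ext fun n => map_mul (C.theta x hx n) f g
  map_zero' := C.lim_ext fun n => map_zero (C.theta x hx n)
  map_add' f g := C.lim_ext fun n => map_add (C.theta x hx n) f g

lemma ev_thetaLim (n : ℕ) (f : MvPowerSeries σ 𝒪) :
    C.ev n (C.thetaLim x hx f) = C.theta x hx n f := rfl

variable (hgen : ∀ J ∈ S, RingHom.ker π ≤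
      Ideal.span (Set.range x) ⊔ (maximalIdeal 𝒪).map (algebraMap 𝒪 P) ⊔ J)

include hgen in
lemma theta_surjective (D : ProRepDatum π S) (n : ℕ) : Function.Surjective (C.theta x hx n) := by
  intro b
  obtain ⟨q, hq⟩ := ProRepDatum.gen_surjective x hx hgen D (C.mem n) b
  exact ⟨q, (C.theta_coe x hx n q).trans hq⟩

omit [Finite σ] in
include hx in
lemma pi_aeval (q : MvPolynomial σ 𝒪) :
    π (MvPolynomial.aeval x q) = residue 𝒪 (MvPolynomial.constantCoeff q) := by
  have h : (π.comp (MvPolynomial.aeval x : MvPolynomial σ 𝒪 →ₐ[𝒪] P)).toRingHom =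
      (residue 𝒪).comp (MvPolynomial.constantCoeff) := by
    apply MvPolynomial.ringHom_ext
    · intro c
      have : (MvPolynomial.aeval x : MvPolynomial σ 𝒪 →ₐ[𝒪] P) (MvPolynomial.C c) =
        algebraMap 𝒪 P c := MvPolynomial.aeval_C _ _
      show π ((MvPolynomial.aeval x : MvPolynomial σ 𝒪 →ₐ[𝒪] P) (MvPolynomial.C c)) = _
      rw [this, residue_eq_pi_algebraMap]
      simp
    · intro s
      have : (MvPolynomial.aeval x : MvPolynomial σ 𝒪 →ₐ[𝒪] P) (MvPolynomial.X s) = x s :=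
        MvPolynomial.aeval_X _ _
      show π ((MvPolynomial.aeval x : MvPolynomial σ 𝒪 →ₐ[𝒪] P) (MvPolynomial.X s)) = _
      rw [this, show π (x s) = 0 from hx s]
      simp
  exact congrArg (fun g : MvPolynomial σ 𝒪 →+* ResidueField 𝒪 => g q) h

omit [Finite σ] in
lemma mk_mem_map_ker_iff (D : ProRepDatum π S) (n : ℕ) (p : P) :
    Ideal.Quotient.mk (C.J n) p ∈ (RingHom.ker π).map (Ideal.Quotient.mk (C.J n)) ↔
      p ∈ RingHom.ker π := by
  rw [← Ideal.mem_comap, Ideal.comap_map_of_surjective _ Ideal.Quotient.mk_surjective]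
  have h1 : (⊥ : Ideal (P ⧸ C.J n)).comap (Ideal.Quotient.mk (C.J n)) = C.J n := by
    rw [← RingHom.ker_eq_comap_bot, Ideal.mk_ker]
  rw [h1, sup_eq_left.mpr (D.le_ker _ (C.mem n))]

lemma mem_maximalIdeal_iff_theta (D : ProRepDatum π S) (n : ℕ) (f : MvPowerSeries σ 𝒪) :
    f ∈ maximalIdeal (MvPowerSeries σ 𝒪) ↔
      C.theta x hx n f ∈ (RingHom.ker π).map (Ideal.Quotient.mk (C.J n)) := by
  rw [theta_apply, mem_maximalIdeal_mvPowerSeries_iff, C.mk_mem_map_ker_iff D, RingHom.mem_ker,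
    pi_aeval x hx, residue_eq_zero_iff, MvPowerSeries.constantCoeff_truncTotal_eq_ite]
  simp

include hgen in
lemma map_theta_pow (D : ProRepDatum π S) (n j : ℕ) :
    (maximalIdeal (MvPowerSeries σ 𝒪) ^ j).map (C.theta x hx n) =
      (RingHom.ker π ^ j).map (Ideal.Quotient.mk (C.J n)) := by
  rw [Ideal.map_pow, Ideal.map_pow]
  congr 1
  apply le_antisymm
  · rw [Ideal.map_le_iff_le_comap]
    intro f hf
    exact (C.mem_maximalIdeal_iff_theta x hx D n f).mp hf
  · rw [Ideal.map_le_iff_le_comap]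
    intro k hk
    obtain ⟨f, hf⟩ := C.theta_surjective x hx hgen D n (Ideal.Quotient.mk (C.J n) k)
    rw [Ideal.mem_comap, ← hf]
    refine Ideal.mem_map_of_mem _ ?_
    rw [C.mem_maximalIdeal_iff_theta x hx D n f, hf]
    exact Ideal.mem_map_of_mem _ hk

include hgen in
lemma exists_sub (D : ProRepDatum π S) (n : ℕ) {z : MvPowerSeries σ 𝒪}
    (hz : C.theta x hx n z = 0) :
    ∃ w ∈ maximalIdeal (MvPowerSeries σ 𝒪) ^ (n + 1),
      C.theta x hx (n + 1) w = C.theta x hx (n + 1) z := by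
  obtain ⟨b, hb⟩ := Ideal.Quotient.mk_surjective (C.theta x hx (n + 1) z)
  have h1 : b ∈ C.J n := by
    rw [← Ideal.Quotient.eq_zero_iff_mem, ← hz, ← C.factor_theta, ← hb, Ideal.Quotient.factor_mk]
  obtain ⟨j, hj, k, hk, hjk⟩ := Submodule.mem_sup.mp (C.le_sup D n h1)
  have h2 : C.theta x hx (n + 1) z ∈
      (RingHom.ker π ^ (n + 1)).map (Ideal.Quotient.mk (C.J (n + 1))) := by
    have h3 : Ideal.Quotient.mk (C.J (n + 1)) b = Ideal.Quotient.mk (C.J (n + 1)) k := by
      rw [Ideal.Quotient.mk_eq_mk_iff_sub_mem, ← hjk, add_sub_cancel_right]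
      exact hj
    rw [← hb, h3]
    exact Ideal.mem_map_of_mem _ hk
  rw [← C.map_theta_pow x hx hgen D] at h2
  obtain ⟨w, hw, hw'⟩ := (Ideal.mem_map_iff_of_surjective _
    (C.theta_surjective x hx hgen D (n + 1))).mp h2
  exact ⟨w, hw, hw'⟩

include hgen in
lemma exists_lift [IsNoetherianRing 𝒪] [IsAdicComplete (maximalIdeal 𝒪) 𝒪]
    (D : ProRepDatum π S) (n : ℕ) (a : C.lim) (l : MvPowerSeries σ 𝒪)
    (hl : C.theta x hx n l = C.ev n a) :
    ∃ L : MvPowerSeries σ 𝒪, C.thetaLim x hx L = a ∧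
      L - l ∈ maximalIdeal (MvPowerSeries σ 𝒪) ^ (n + 1) := by
  classical
  have := isAdicComplete_mvPowerSeries (σ := σ) (𝒪 := 𝒪)
  set M := maximalIdeal (MvPowerSeries σ 𝒪) with hM
  -- one step
  have step : ∀ (m : ℕ) (f : {f : MvPowerSeries σ 𝒪 // C.theta x hx m f = C.ev m a}),
      ∃ g : {g : MvPowerSeries σ 𝒪 // C.theta x hx (m + 1) g = C.ev (m + 1) a},
        g.1 - f.1 ∈ M ^ (m + 1) := by
    rintro m ⟨f, hf⟩
    obtain ⟨μ, hμ⟩ := C.theta_surjective x hx hgen D (m + 1) (C.ev (m + 1) a)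
    have h1 : C.theta x hx m (μ - f) = 0 := by
      rw [map_sub, hf, ← C.factor_theta, hμ, C.factor_ev, sub_self]
    obtain ⟨w, hw, hw'⟩ := C.exists_sub x hx hgen D m h1
    refine ⟨⟨f + w, ?_⟩, ?_⟩
    · rw [map_add, hw', map_sub, hμ]; ring
    · simpa using hw
  choose g hg using step
  let F : ∀ m : ℕ, {f : MvPowerSeries σ 𝒪 // C.theta x hx (n + m) f = C.ev (n + m) a} :=
    fun m => Nat.rec (motive := fun m =>
      {f : MvPowerSeries σ 𝒪 // C.theta x hx (n + m) f = C.ev (n + m) a})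
      ⟨l, hl⟩ (fun m f => g (n + m) f) m
  have hF0 : (F 0).1 = l := rfl
  have hF : ∀ m, (F (m + 1)).1 - (F m).1 ∈ M ^ (n + m + 1) := fun m => hg (n + m) (F m)
  have hF' : ∀ m j, (F (m + j)).1 - (F m).1 ∈ M ^ (n + m + 1) := by
    intro m j
    induction j with
    | zero => simp
    | succ j ih =>
      have h1 := hF (m + j)
      have h2 : (F (m + (j + 1))).1 - (F m).1 =
        ((F (m + j + 1)).1 - (F (m + j)).1) + ((F (m + j)).1 - (F m).1) := by
          change (F (m + j + 1)).1 - (F m).1 = _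
          ring
      rw [h2]
      exact Ideal.add_mem _ (Ideal.pow_le_pow_right (by omega) h1) ih
  obtain ⟨L, hL⟩ := IsPrecomplete.prec (I := M) (M := MvPowerSeries σ 𝒪) inferInstance
    (f := fun m => (F m).1) (by
      intro m m' hmm'
      rw [SModEq.sub_mem]
      obtain ⟨j, rfl⟩ := Nat.exists_eq_add_of_le hmm'
      have h1 := Ideal.pow_le_pow_right (I := M) (show m ≤ n + m + 1 by omega) (hF' m j)
      have h2 := (Ideal.neg_mem_iff _).mpr h1
      rw [neg_sub] at h2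
      simpa using h2)
  have hL' : ∀ m, (F m).1 - L ∈ M ^ m := by
    intro m
    have := hL m
    rw [SModEq.sub_mem] at this
    simpa using this
  have hL'' : ∀ m, L - (F m).1 ∈ M ^ (n + m + 1) := by
    intro m
    have h1 := hL' (m + (n + m + 1))
    have h2 := hF' m (n + m + 1)
    have h3 : L - (F m).1 = -((F (m + (n + m + 1))).1 - L) +
        ((F (m + (n + m + 1))).1 - (F m).1) := by ring
    rw [h3]
    exact Ideal.add_mem _ (Ideal.neg_mem_iff _ |>.mpr
      (Ideal.pow_le_pow_right (by omega) h1)) h2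
  refine ⟨L, ?_, ?_⟩
  · have h1 : ∀ m, C.theta x hx (n + m) L = C.ev (n + m) a := by
      intro m
      rw [← (F m).2, ← sub_eq_zero, ← map_sub]
      have h2 := Ideal.mem_map_of_mem (C.theta x hx (n + m)) (hL'' m)
      rw [C.map_theta_pow x hx hgen D] at h2
      have h3 : (RingHom.ker π ^ (n + m + 1)).map (Ideal.Quotient.mk (C.J (n + m))) = ⊥ := by
        rw [← le_bot_iff, Ideal.map_le_iff_le_comap, ← RingHom.ker_eq_comap_bot, Ideal.mk_ker]
        exact C.pow_le (n + m)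
      rw [h3] at h2
      exact h2
    have h2 : ∀ m, C.theta x hx (m + 1) L = C.ev (m + 1) a → C.theta x hx m L = C.ev m a := by
      intro m h
      rw [← C.factor_theta, h, C.factor_ev]
    have h3 : ∀ j m, C.theta x hx (m + j) L = C.ev (m + j) a → C.theta x hx m L = C.ev m a := by
      intro j
      induction j with
      | zero => intro m h; exact h
      | succ j ih => intro m h; exact ih m (h2 (m + j) h)
    refine C.lim_ext fun m => ?_
    rw [ev_thetaLim]
    apply h3 n m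
    have := h1 m
    rwa [add_comm n m] at this
  · have := hL'' 0
    rwa [hF0] at this

end Theta

end ProRepChain

/-- A pro-representing ring for a `ProRepDatum`. -/
structure ProRepRing (π : P →ₐ[𝒪] ResidueField 𝒪) (S : Set (Ideal P)) : Type 1 where
  R : Type
  [instCommRing : CommRing R]
  [instIsLocalRing : IsLocalRing R]
  [instIsNoetherianRing : IsNoetherianRing R]
  [instIsAdicComplete : IsAdicComplete (maximalIdeal R) R]
  [instAlgebra : Algebra 𝒪 R]
  [instIsLocalHom : IsLocalHom (algebraMap 𝒪 R)]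
  residue_surjective : Function.Surjective (residue R ∘ algebraMap 𝒪 R)
  toR : P →ₐ[𝒪] R
  dense : ∀ (n : ℕ) (x : R), ∃ p : P, x - toR p ∈ maximalIdeal R ^ (n + 1)
  mem : ∀ n : ℕ, (maximalIdeal R ^ (n + 1)).comap toR ∈ S
  cofinal : ∀ n : ℕ, ∀ J ∈ S, RingHom.ker π ^ (n + 1) ≤ J →
    (maximalIdeal R ^ (n + 1)).comap toR ≤ J

attribute [instance] ProRepRing.instCommRing ProRepRing.instIsLocalRing
  ProRepRing.instIsNoetherianRing ProRepRing.instIsAdicComplete
  ProRepRing.instAlgebra ProRepRing.instIsLocalHom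

theorem ProRepDatum.nonempty_proRepRing [IsNoetherianRing 𝒪] [IsAdicComplete (maximalIdeal 𝒪) 𝒪]
    [Finite (ResidueField 𝒪)]
    {π : P →ₐ[𝒪] ResidueField 𝒪} {S : Set (Ideal P)} (D : ProRepDatum π S) :
    Nonempty (ProRepRing π S) := by
  classical
  obtain ⟨X, hX, hXgen⟩ := D.exists_finset
  let σ : Type := X
  let x : σ → P := fun s => s.1
  have hx : ∀ s, x s ∈ RingHom.ker π := fun s => hX s.1 s.2
  have hrange : Set.range x = (X : Set P) := Subtype.range_coe
  have hgen : ∀ J ∈ S, RingHom.ker π ≤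
      Ideal.span (Set.range x) ⊔ (maximalIdeal 𝒪).map (algebraMap 𝒪 P) ⊔ J := by
    rw [hrange]; exact hXgen
  have hleast := ProRepDatum.exists_least x hx hgen D
  choose J hJ1 hJ2 hJ3 using hleast
  let C : ProRepChain π S := ⟨J, hJ1, hJ2, hJ3⟩
  let θ : MvPowerSeries σ 𝒪 →+* C.lim := C.thetaLim x hx
  have hθ : Function.Surjective θ := by
    intro a
    obtain ⟨l, hl⟩ := C.theta_surjective x hx hgen D 0 (C.ev 0 a)
    obtain ⟨L, hL, _⟩ := C.exists_lift x hx hgen D 0 a l hl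
    exact ⟨L, hL⟩
  have hK : RingHom.ker π ≠ ⊤ := RingHom.ker_ne_top _
  have hnt0 : Nontrivial (P ⧸ C.J 0) :=
    Ideal.Quotient.nontrivial_iff.mpr (fun h => hK (top_le_iff.mp (h ▸ D.le_ker _ (C.mem 0))))
  have hnt : Nontrivial C.lim := (C.ev 0).toRingHom.domain_nontrivial
  have hloc : IsLocalRing C.lim := IsLocalRing.of_surjective' θ hθ
  have hθloc : IsLocalHom θ := IsLocalHom.of_surjective θ hθ
  have hnoeth : IsNoetherianRing C.lim :=
    isNoetherianRing_of_surjective _ _ θ hθ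
  have hmap : (maximalIdeal (MvPowerSeries σ 𝒪)).map θ = maximalIdeal C.lim := by
    apply le_antisymm
    · exact map_maximalIdeal_le θ
    · intro y hy
      obtain ⟨f, rfl⟩ := hθ y
      refine Ideal.mem_map_of_mem θ ?_
      rw [mem_maximalIdeal, mem_nonunits_iff] at hy ⊢
      exact fun h => hy (h.map θ)
  have hΛ := isAdicComplete_mvPowerSeries (σ := σ) (𝒪 := 𝒪)
  have hcomplete : IsAdicComplete (maximalIdeal C.lim) C.lim := by
    let _ : Algebra (MvPowerSeries σ 𝒪) C.lim := θ.toAlgebra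
    have hfin : Module.Finite (MvPowerSeries σ 𝒪) C.lim :=
      Module.Finite.of_surjective (Algebra.linearMap (MvPowerSeries σ 𝒪) C.lim) hθ
    have h1 : IsAdicComplete (maximalIdeal (MvPowerSeries σ 𝒪)) C.lim :=
      IsAdicComplete.of_module_finite _ _
    have h2 := (IsAdicComplete.map_algebraMap_iff (S := C.lim)
      (I := maximalIdeal (MvPowerSeries σ 𝒪)) (M := C.lim)).mpr h1
    rw [← hmap]
    exact h2
  -- kernels of the evaluations
  have hker : ∀ (n : ℕ) (a : C.lim), C.ev n a = 0 ↔ a ∈ maximalIdeal C.lim ^ (n + 1) := by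
    intro n a
    rw [← hmap, ← Ideal.map_pow]
    constructor
    · intro ha
      obtain ⟨L, hL, hL'⟩ := C.exists_lift x hx hgen D n a 0 (by rw [map_zero, ha])
      rw [sub_zero] at hL'
      rw [← hL]
      exact Ideal.mem_map_of_mem θ hL'
    · intro ha
      obtain ⟨f, hf, rfl⟩ := (Ideal.mem_map_iff_of_surjective θ hθ).mp ha
      have h2 := Ideal.mem_map_of_mem (C.theta x hx n) hf
      rw [C.map_theta_pow x hx hgen D] at h2
      have h3 : (RingHom.ker π ^ (n + 1)).map (Ideal.Quotient.mk (C.J n)) = ⊥ := by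
        rw [← le_bot_iff, Ideal.map_le_iff_le_comap, ← RingHom.ker_eq_comap_bot, Ideal.mk_ker]
        exact C.pow_le n
      rw [h3] at h2
      exact h2
  have hcomap : ∀ n : ℕ, (maximalIdeal C.lim ^ (n + 1)).comap C.toLim = C.J n := by
    intro n
    ext p
    rw [Ideal.mem_comap, ← hker, C.ev_toLim, Ideal.Quotient.eq_zero_iff_mem]
  have hmem0 : ∀ p ∈ RingHom.ker π, C.toLim p ∈ maximalIdeal C.lim := by
    intro p hp
    have h0 : p ∈ C.J 0 := C.pow_le 0 (by simpa using hp)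
    rw [← hcomap 0] at h0
    simpa using h0
  have hres : Function.Surjective (residue C.lim ∘ algebraMap 𝒪 C.lim) := by
    intro y
    obtain ⟨a, rfl⟩ := residue_surjective y
    obtain ⟨p, hp⟩ := Ideal.Quotient.mk_surjective (C.ev 0 a)
    obtain ⟨c, hc⟩ := exists_sub_mem_ker π p
    refine ⟨c, ?_⟩
    have h1 : a - C.toLim p ∈ maximalIdeal C.lim := by
      have h1 : C.ev 0 (a - C.toLim p) = 0 := by
        rw [map_sub, C.ev_toLim, hp, sub_self]
      rw [hker] at h1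
      simpa using h1
    have h2 := hmem0 _ hc
    rw [map_sub, AlgHom.commutes] at h2
    have h3 : residue C.lim (a - C.toLim p) = 0 := (residue_eq_zero_iff _).mpr h1
    have h4 := (residue_eq_zero_iff _).mpr h2
    rw [map_sub, sub_eq_zero] at h3 h4
    rw [Function.comp_apply, h3, h4]
  have halg : IsLocalHom (algebraMap 𝒪 C.lim) := by
    constructor
    intro c hc
    by_contra hcon
    have h1 : c ∈ maximalIdeal 𝒪 := hcon
    have h2 := hmem0 _ (map_maximalIdeal_le_ker π (Ideal.mem_map_of_mem _ h1))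
    rw [AlgHom.commutes] at h2
    exact h2 hc
  exact ⟨{
    R := C.lim
    residue_surjective := hres
    toR := C.toLim
    dense := by
      intro n a
      obtain ⟨p, hp⟩ := Ideal.Quotient.mk_surjective (C.ev n a)
      refine ⟨p, ?_⟩
      rw [← hker, map_sub, C.ev_toLim, hp, sub_self]
    mem := by
      intro n
      rw [hcomap]
      exact C.mem n
    cofinal := by
      intro n J hJ hJ'
      rw [hcomap]
      exact C.least n J hJ hJ' }⟩

end Fermat.Agent.S53rep
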