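import Fermat.Agent.LocE.Main
import Fermat.Agent.S05
import Fermat.Agent.S13_Assembly

/-!
# The `p`-torsion of the Frey curve at a place above `p`, when `p ∣ abc`

`frey_local` : there is a line `L` of `E[p]` on which the inertia group at `A` acts through the
cyclotomic character, inertia acts trivially on `E[p]/L`, and the Kummer classes of the extension
are classes of units ("peu ramifiée").
-/

set_option autoImplicit false

namespace Fermat.Agent.LocE

open WeierstrassCurve WeierstrassCurve.Affine WeierstrassCurve.Affine.Point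
open Fermat.Agent.Torsion FermatAgent.ECVal Fermat.Agent.S13aux Fermat.Agent.S05

local notation "Qbar" => AlgebraicClosure ℚ

/-- Node data for the Frey curve at an odd prime `q ∣ abc`. -/
theorem exists_frey_node (P : FreyPackage) {q : ℕ} (hq : q.Prime) (hq2 : q ≠ 2)
    {A : ValuationSubring Qbar} (hA : A.LiesOverPrime q) (hd : (q : ℤ) ∣ P.a * P.b * P.c) :
    ∃ (e : ℚ) (D : Qbar) (n : ℕ), algebraMap ℚ Qbar e ∈ A ∧
      NodeData (valOf hq hA) (P.freyCurve⁄Qbar) (algebraMap ℚ Qbar e) D ((P.p : ℚ) * n) := by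
  obtain ⟨h1, h2, h3, h4, h6⟩ := coeffs P Qbar
  obtain ⟨k2, k4, k6, k8⟩ := invariants P Qbar
  set w := valOf hq hA with hw
  have i2 : w.Is 0 (2 : Qbar) := is_two hq hq2 hA
  have i4 : w.Is 0 (4 : Qbar) := by
    have := i2.sq
    norm_num at this
    exact this
  have i16 : w.Is 0 (16 : Qbar) := by
    have := i4.sq
    norm_num at this
    exact this
  have hI : ∀ n : ℤ, (n : Qbar) ∈ A := fun n => (valOf_ge_zero_iff hq hA).mp (QVal.ge_intCast n)
  have mem_div : ∀ {x y : Qbar}, x ∈ A → w.Is 0 y → x / y ∈ A := by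
    intro x y hx hy
    rw [← valOf_ge_zero_iff hq hA, div_eq_mul_inv]
    exact (((valOf_ge_zero_iff hq hA).mpr hx).mul hy.inv.ge).mono (by norm_num)
  have hc : (P.c : Qbar) ^ P.p = (P.a : Qbar) ^ P.p + (P.b : Qbar) ^ P.p := by
    exact_mod_cast P.hFLT.symm
  have hp0 : (0 : ℚ) < P.p := by exact_mod_cast P.hppos
  by_cases ha : (q : ℤ) ∣ P.a
  · -- `q ∣ a`
    have hb : ¬ (q : ℤ) ∣ P.b := not_dvd_right_of_dvd_left hq P.hgcdab ha
    obtain ⟨N, hN, iN⟩ := exists_is_of_dvd hq hA P.ha0 ha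
    have ib := (is_zero_of_not_dvd hq hA hb).pow P.p
    rw [mul_zero] at ib
    have ia := iN.pow P.p
    have hN' : (0 : ℚ) < N := by exact_mod_cast hN
    refine ⟨0, -((P.a : Qbar) ^ P.p * (P.b : Qbar) ^ P.p) / 16, N,
      by rw [_root_.map_zero]; exact A.zero_mem, ?_⟩
    refine ⟨by positivity, ?_, ?_, ?_, ?_, ?_⟩
    · rw [div_eq_mul_inv]
      exact ((ia.mul ib).neg.mul i16.inv).congr (by ring)
    · rw [k2, _root_.map_zero, mul_zero, add_zero]
      exact ib.sub_gt (ia.gt (by positivity))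
    · rw [k4, _root_.map_zero]; ring
    · rw [k6, _root_.map_zero]; ring
    · rw [k8, _root_.map_zero]; ring
  by_cases hb : (q : ℤ) ∣ P.b
  · -- `q ∣ b`
    obtain ⟨N, hN, iN⟩ := exists_is_of_dvd hq hA P.hb0 hb
    have ia := (is_zero_of_not_dvd hq hA ha).pow P.p
    rw [mul_zero] at ia
    have ib := iN.pow P.p
    have hN' : (0 : ℚ) < N := by exact_mod_cast hN
    refine ⟨0, -((P.a : Qbar) ^ P.p * (P.b : Qbar) ^ P.p) / 16, N,
      by rw [_root_.map_zero]; exact A.zero_mem, ?_⟩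
    refine ⟨by positivity, ?_, ?_, ?_, ?_, ?_⟩
    · rw [div_eq_mul_inv]
      exact ((ia.mul ib).neg.mul i16.inv).congr (by ring)
    · rw [k2, _root_.map_zero, mul_zero, add_zero]
      exact (ib.gt (by positivity)).sub_is ia
    · rw [k4, _root_.map_zero]; ring
    · rw [k6, _root_.map_zero]; ring
    · rw [k8, _root_.map_zero]; ring
  have hcq : (q : ℤ) ∣ P.c := by
    have hqp : Prime (q : ℤ) := Nat.prime_iff_prime_int.mp hq
    rcases hqp.dvd_or_dvd hd with h | h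
    · rcases hqp.dvd_or_dvd h with h' | h'
      · exact absurd h' ha
      · exact absurd h' hb
    · exact h
  · -- `q ∣ c`
    obtain ⟨N, hN, iN⟩ := exists_is_of_dvd hq hA P.hc0 hcq
    have ia := (is_zero_of_not_dvd hq hA ha).pow P.p
    rw [mul_zero] at ia
    have ic := iN.pow P.p
    have hN' : (0 : ℚ) < N := by exact_mod_cast hN
    have he : algebraMap ℚ Qbar ((P.a : ℚ) ^ P.p / 4) = (P.a : Qbar) ^ P.p / 4 := by
      simp
    refine ⟨(P.a : ℚ) ^ P.p / 4, ((P.a : Qbar) ^ P.p * (P.c : Qbar) ^ P.p) / 16, N,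
      by rw [he]; exact mem_div (pow_mem (hI _) _) i4, ?_⟩
    refine ⟨by positivity, ?_, ?_, ?_, ?_, ?_⟩
    · rw [div_eq_mul_inv]
      exact ((ia.mul ic).mul i16.inv).congr (by ring)
    · rw [k2, he]
      have : (P.b : Qbar) ^ P.p - (P.a : Qbar) ^ P.p + 12 * ((P.a : Qbar) ^ P.p / 4) =
          (P.a : Qbar) ^ P.p + (P.c : Qbar) ^ P.p := by rw [hc]; ring
      rw [this]
      exact ia.add_gt (ic.gt (by positivity))
    · rw [k2, k4, he, hc]; ring
    · rw [k2, k4, k6, he]; ring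
    · rw [k2, k4, k6, k8, he, hc]; ring

/-- **The local structure of `E[p]` at `p ∣ abc` for the Frey curve.** -/
theorem frey_local (P : FreyPackage) {A : ValuationSubring Qbar} (hA : A.LiesOverPrime P.p)
    (hd : (P.p : ℤ) ∣ P.a * P.b * P.c) {ζ : Qbar} (hζ : IsPrimitiveRoot ζ P.p) :
    haveI : Fact P.p.Prime := ⟨P.pp⟩
    ∃ L : Submodule (ZMod P.p) (Submodule.torsionBy ℤ (P.freyCurve⁄Qbar).Point P.p),
      Module.finrank (ZMod P.p) L = 1 ∧
      (∀ σ ∈ A.inertiaSubgroupIn ℚ,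
        ∀ x : Submodule.torsionBy ℤ (P.freyCurve⁄Qbar).Point P.p, σ • x - x ∈ L) ∧
      (∀ σ ∈ A.inertiaSubgroupIn ℚ, ∀ z ∈ L, σ • z = ECFrob.cycMod P.p σ • z) ∧
      (∀ z ∈ L, z ≠ 0 → ∀ x : Submodule.torsionBy ℤ (P.freyCurve⁄Qbar).Point P.p,
        ∃ ρ : Qbar, A.valuation ρ = 1 ∧ ρ ≠ 0 ∧
          (∀ σ ∈ A.inertiaSubgroupIn ℚ, σ (ρ ^ P.p) = ρ ^ P.p) ∧
          ∀ σ ∈ A.inertiaSubgroupIn ℚ, ∃ k : ZMod P.p,
            σ • x = x + k • z ∧ σ ρ = ζ ^ k.val * ρ) := by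
  have hpF : Fact P.p.Prime := ⟨P.pp⟩
  have hp5 := P.hp5
  obtain ⟨e, D, n, he, N⟩ := exists_frey_node P P.pp (by omega) hA hd
  obtain ⟨hb2, hb4, hb6, hb8⟩ := frey_b_le P A
  have hb : BInt P.freyCurve A := ⟨hb2, hb4, hb6, hb8⟩
  have hef : IsFixed A (algebraMap ℚ Qbar e) := fun σ _ => σ.commutes e
  have hΔ₀ := Frey.freyCurveInt_Δ_ne_zero P
  have hW : P.freyCurve = P.freyCurveInt.map (Int.castRingHom ℚ) := (Frey.freyCurveInt_map P).symm
  have hΔ : P.freyCurve.Δ ≠ 0 := freyCurve_Δ_ne_zero P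
  refine ⟨line N P.hp_odd, finrank_line hΔ N P.hp_odd,
    fun σ hσ x => smul_sub_mem_line hΔ hb he hef N P.hp_odd hσ x,
    fun σ hσ z hz => smul_eq_of_mem_line hΔ₀ hW hb he hef N P.hp_odd hσ hz, ?_⟩
  intro z hz hz0 x
  obtain ⟨ρ, hρ, hρσ⟩ := exists_unit hΔ₀ hW hb he hef N P.hp_odd hζ hz hz0 x
  refine ⟨ρ, ?_, hρ.1, ?_, hρσ⟩
  · rw [val_eq_of_is (hA := hA) hρ QVal.is_one, _root_.map_one]
  · intro σ hσ
    obtain ⟨k, -, hk⟩ := hρσ σ hσ
    have h1 : (ζ ^ k.val) ^ P.p = 1 := by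
      rw [← pow_mul, mul_comm, pow_mul, hζ.pow_eq_one, one_pow]
    rw [map_pow, hk, mul_pow, h1, one_mul]

end Fermat.Agent.LocE
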