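import Fermat.Statements.S44
import Fermat.Agent.S44w.FreyInst
import Fermat.Agent.Star.LocalInst
import Fermat.Agent.S33.OrdNInst
import Fermat.Agent.EC.RedFrob

set_option autoImplicit false
open WeierstrassCurve WeierstrassCurve.Affine WeierstrassCurve.Affine.Point
open CuspForm ModularFormClass UpperHalfPlane
open FreyPackage

namespace Fermat.Agent.S44

theorem result (P : FreyPackage) {N : ℕ} (hcond : P.IsConductorLevel N) (hpN : P.p ∣ N) (hirr : GaloisRepIsIrreducible (K := AlgebraicClosure ℚ) ℚ P.freyCurve P.p) (hmod : P.ModularRepOfLevel N) : ∃ M : ℕ, M ∣ N ∧ ¬ P.p ∣ M ∧ P.ModularRepOfLevel M := by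
  refine Fermat.Agent.S44w.frey_level_lower P hcond hpN hirr hmod ?_ ?_
  · intro A p m _ _ _ hp hm hA H3 hp5 ζ ρ hζ hρ hfix
    exact ⟨Fermat.Agent.Star.Inst.inertiaStab A {ζ, ρ}, fun σ hσ => hσ.1,
      fun σ hσ => ⟨hσ.2 ζ (by simp), hσ.2 ρ (by simp)⟩,
      Fermat.Agent.Star.Inst.wild_or_tame hp hm hA H3 (by omega) hζ hρ hfix⟩
  · intro A p m _ _ _ hp hm hA H3 _
    haveI : IsAlgClosed (IsLocalRing.ResidueField A) := inferInstance
    exact Fermat.Agent.S33aux.ordN hp hm hA H3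

end Fermat.Agent.S44
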