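import Fermat.Agent.S51_Torsion

/-!
# The curve `X₀(15)` and the four exceptional `j`-invariants
-/

set_option autoImplicit false

namespace Fermat.Agent.S51alg

open WeierstrassCurve Fermat.Agent.S51tor

/-- The purely algebraic core. -/
lemma core (pts : ∀ x y : ℚ, y ^ 2 = x * (x + 16) * (x + 25) →
      x = 0 ∨ x = -16 ∨ x = -25 ∨ x = -20 ∨ x = 20)
    (s t A B C : ℚ) (hC : C ≠ 0) (hD : s ^ 2 - 4 * t ≠ 0) (hrel : A * C = B ^ 2)
    (hA : s ^ 3 - 6 * t * s - B * s - A * t - C = 0)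
    (hB : -s ^ 4 + 5 * t * s ^ 2 + 5 * t ^ 2 + B * s ^ 2 - B * t + A * t * s = 0)
    (hΔ : -8 * B ^ 3 - 27 * C ^ 2 + 9 * A * B * C ≠ 0) :
    (2 * (A ^ 2 - 24 * B) ^ 3 = -25 * (-8 * B ^ 3 - 27 * C ^ 2 + 9 * A * B * C)) ∨
    (8 * (A ^ 2 - 24 * B) ^ 3 = -25 * 241 ^ 3 * (-8 * B ^ 3 - 27 * C ^ 2 + 9 * A * B * C)) ∨
    (32 * (A ^ 2 - 24 * B) ^ 3 = -5 * 29 ^ 3 * (-8 * B ^ 3 - 27 * C ^ 2 + 9 * A * B * C)) ∨
    (2 ^ 15 * (A ^ 2 - 24 * B) ^ 3 = 5 * 211 ^ 3 * (-8 * B ^ 3 - 27 * C ^ 2 + 9 * A * B * C)) := by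
  -- E : C s = t (5 t - s² - B)
  have hE : C * s = t * (5 * t - s ^ 2 - B) := by
    have : C * (C * s - t * (5 * t - s ^ 2 - B)) = 0 := by
      linear_combination (-C) * hB - C * s * hA
    rcases mul_eq_zero.mp this with h | h
    · exact absurd h hC
    · linear_combination h
  obtain ⟨G, hG⟩ : ∃ G, G = 5 * t - s ^ 2 - B := ⟨_, rfl⟩
  have hBG : B = 5 * t - s ^ 2 - G := by linear_combination hG
  rw [← hG] at hE
  have ht : t ≠ 0 := by
    rintro rfl
    have : C * s = 0 := by rw [hE]; ring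
    rcases mul_eq_zero.mp this with h | h
    · exact hC h
    · apply hD; rw [h]; ring
  by_cases hs : s = 0
  · -- s = 0
    subst hs
    have hG0 : G = 0 := by
      have : t * G = 0 := by rw [← hE]; ring
      exact (mul_eq_zero.mp this).resolve_left ht
    have hB5 : B = 5 * t := by rw [hBG, hG0]; ring
    have hCA : C = -A * t := by linear_combination -hA
    have hA2 : A ^ 2 = -25 * t := by
      have : t * (A ^ 2 + 25 * t) = 0 := by
        rw [hCA, hB5] at hrel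
        linear_combination -hrel
      have := (mul_eq_zero.mp this).resolve_left ht
      linear_combination this
    right; right; left
    have hC2 : C ^ 2 = -25 * t ^ 3 := by rw [hCA, mul_pow, neg_sq, hA2]; ring
    have hAC : A * C = 25 * t ^ 2 := by rw [hrel, hB5]; ring
    rw [hA2, hC2, hB5]
    linear_combination (5 * 29 ^ 3 * 45 * t) * hAC
  · obtain ⟨m, hm⟩ : ∃ m, t = m * s ^ 2 := ⟨t / s ^ 2, by field_simp⟩
    obtain ⟨n, hn⟩ : ∃ n, G = n * s ^ 2 := ⟨G / s ^ 2, by field_simp⟩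
    obtain ⟨a, ha⟩ : ∃ a, A = a * s := ⟨A / s, by field_simp⟩
    have hB' : B = (5 * m - 1 - n) * s ^ 2 := by rw [hBG, hm, hn]; ring
    have hC' : C = m * n * s ^ 3 := by
      have : s * (C - m * n * s ^ 3) = 0 := by
        rw [hm, hn] at hE
        linear_combination hE
      have := (mul_eq_zero.mp this).resolve_left hs
      linear_combination this
    have hs4 : s ^ 4 ≠ 0 := pow_ne_zero _ hs
    have hs3 : s ^ 3 ≠ 0 := pow_ne_zero _ hs
    have hs2 : s ^ 2 ≠ 0 := pow_ne_zero _ hs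
    have ha' : a * (m * n) = (5 * m - 1 - n) ^ 2 := by
      have : s ^ 4 * (a * (m * n) - (5 * m - 1 - n) ^ 2) = 0 := by
        rw [ha, hC', hB'] at hrel
        linear_combination hrel
      have := (mul_eq_zero.mp this).resolve_left hs4
      linear_combination this
    have hm0 : m ≠ 0 := by
      rintro rfl
      apply ht; rw [hm]; ring
    have hn0 : n ≠ 0 := by
      rintro rfl
      apply hC; rw [hC']; ring
    have hA' : 1 - 6 * m - (5 * m - 1 - n) - a * m - m * n = 0 := by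
      have : s ^ 3 * (1 - 6 * m - (5 * m - 1 - n) - a * m - m * n) = 0 := by
        rw [hB', hC', ha, hm] at hA
        linear_combination hA
      exact (mul_eq_zero.mp this).resolve_left hs3
    have hQ : m * n ^ 2 + m * n + (5 * m - 1) ^ 2 = 0 := by
      linear_combination (-n) * hA' - ha'
    have hm4 : m ≠ 1 / 4 := by
      rintro rfl
      apply hD; rw [hm]; ring
    have hpt := pts (-100 * m) (100 * (2 * m * n + m)) (by linear_combination (40000 * m) * hQ)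
    rw [hB', hC', ha] at hΔ ⊢
    have hΔ' : (-8 * (5 * m - 1 - n) ^ 3 - 27 * (m * n) ^ 2
        + 9 * a * (5 * m - 1 - n) * (m * n)) ≠ 0 := by
      intro h
      apply hΔ
      linear_combination s ^ 6 * h
    rcases hpt with h | h | h | h | h
    · exact absurd (by linear_combination (-1 / 100 : ℚ) * h) hm0
    · -- m = 4 / 25
      have hm' : m = 4 / 25 := by linear_combination (-1 / 100 : ℚ) * h
      subst hm'
      have hn' : n = -1 / 2 := by
        have : (2 * n + 1) ^ 2 = 0 := by linear_combination 25 * hQ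
        have := pow_eq_zero_iff (n := 2) (by norm_num) |>.mp this
        linear_combination this / 2
      subst hn'
      have ha'' : a = -9 / 8 := by linear_combination (-25 / 2 : ℚ) * ha'
      subst ha''
      right; right; right
      ring
    · exact absurd (by linear_combination (-1 / 100 : ℚ) * h) hm4
    · -- m = 1 / 5
      have hm' : m = 1 / 5 := by linear_combination (-1 / 100 : ℚ) * h
      subst hm'
      have hn' : n = -1 := by
        have : n * (n + 1) = 0 := by linear_combination 5 * hQ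
        have := (mul_eq_zero.mp this).resolve_left hn0
        linear_combination this
      subst hn'
      have ha'' : a = -5 := by linear_combination (-5 : ℚ) * ha'
      subst ha''
      left
      ring
    · -- m = -1 / 5
      have hm' : m = -1 / 5 := by linear_combination (-1 / 100 : ℚ) * h
      subst hm'
      have hn' : (n - 4) * (n + 5) = 0 := by linear_combination -5 * hQ
      rcases mul_eq_zero.mp hn' with h0 | h0
      · have hn' : n = 4 := by linear_combination h0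
        subst hn'
        have ha'' : a = -45 := by linear_combination (-5 / 4 : ℚ) * ha'
        subst ha''
        right; left
        ring
      · have hn' : n = -5 := by linear_combination h0
        subst hn'
        have ha'' : a = 9 := by linear_combination ha'
        subst ha''
        exact absurd (by norm_num) hΔ'

lemma Δ_shift {F : Type*} [Field F] (W : WeierstrassCurve F) (x : F) :
    W.Δ = -(W.b₂ + 12 * x) ^ 2 * ψ₃ W x - 8 * (W.b₄ + W.b₂ * x + 6 * x ^ 2) ^ 3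
      - 27 * (W.b₆ + 2 * W.b₄ * x + W.b₂ * x ^ 2 + 4 * x ^ 3) ^ 2
      + 9 * (W.b₂ + 12 * x) * (W.b₄ + W.b₂ * x + 6 * x ^ 2) *
        (W.b₆ + 2 * W.b₄ * x + W.b₂ * x ^ 2 + 4 * x ^ 3) := by
  simp only [WeierstrassCurve.Δ, ψ₃, WeierstrassCurve.b₂, WeierstrassCurve.b₄,
    WeierstrassCurve.b₆, WeierstrassCurve.b₈]
  ring

/-- Passing from the invariants of `W` to the normal form with `x(P) = 0`. -/
theorem exceptional (pts : ∀ x y : ℚ, y ^ 2 = x * (x + 16) * (x + 25) →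
      x = 0 ∨ x = -16 ∨ x = -25 ∨ x = -20 ∨ x = 20) (W : WeierstrassCurve ℚ) (hΔ : W.Δ ≠ 0)
    (x₀ S T : ℚ) (h3 : ψ₃ W x₀ = 0) (hD : S ^ 2 - 4 * T ≠ 0)
    (hA : relA W S T = 0) (hB : relB W S T = 0) :
    2 * W.c₄ ^ 3 = -25 * W.Δ ∨ 8 * W.c₄ ^ 3 = -25 * 241 ^ 3 * W.Δ ∨
    32 * W.c₄ ^ 3 = -5 * 29 ^ 3 * W.Δ ∨ 2 ^ 15 * W.c₄ ^ 3 = 5 * 211 ^ 3 * W.Δ := by
  have hrel := W.b_relation
  have hshift := Δ_shift W x₀
  rw [h3] at hshift
  simp only [ψ₃, relA, relB] at h3 hA hB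
  obtain ⟨A, hA_⟩ : ∃ A, A = W.b₂ + 12 * x₀ := ⟨_, rfl⟩
  obtain ⟨B, hB_⟩ : ∃ B, B = W.b₄ + W.b₂ * x₀ + 6 * x₀ ^ 2 := ⟨_, rfl⟩
  obtain ⟨C, hC_⟩ : ∃ C, C = W.b₆ + 2 * W.b₄ * x₀ + W.b₂ * x₀ ^ 2 + 4 * x₀ ^ 3 := ⟨_, rfl⟩
  have hrel' : A * C = B ^ 2 := by
    rw [hA_, hB_, hC_]
    linear_combination 4 * h3 - hrel
  have hΔeq : W.Δ = -8 * B ^ 3 - 27 * C ^ 2 + 9 * A * B * C := by
    rw [hshift, hA_, hB_, hC_]; ring
  have hc4 : W.c₄ = A ^ 2 - 24 * B := by
    rw [WeierstrassCurve.c₄, hA_, hB_]; ring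
  have hC0 : C ≠ 0 := by
    rintro hC0
    have hB0 : B = 0 := by
      rw [hC0, mul_zero] at hrel'
      exact pow_eq_zero_iff (n := 2) (by norm_num) |>.mp hrel'.symm
    apply hΔ
    rw [hΔeq, hB0, hC0]; ring
  rw [hc4, hΔeq]
  refine core pts (S - 2 * x₀) (T - x₀ * S + x₀ ^ 2) A B C hC0 ?_ hrel' ?_ ?_ ?_
  · intro h; apply hD; linear_combination h
  · rw [hA_, hB_, hC_]
    linear_combination hA
  · rw [hA_, hB_]
    linear_combination hB + h3 + 3 * x₀ * hA
  · rw [← hΔeq]; exact hΔ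

/-- Semistability at `5` excludes the four exceptional `j`-invariants. -/
theorem not_exceptional (c Δ : ℤ) (hss : (5 : ℤ) ∣ Δ → ¬ (5 : ℤ) ∣ c) :
    ¬ (2 * c ^ 3 = -25 * Δ ∨ 8 * c ^ 3 = -25 * 241 ^ 3 * Δ ∨
      32 * c ^ 3 = -5 * 29 ^ 3 * Δ ∨ 2 ^ 15 * c ^ 3 = 5 * 211 ^ 3 * Δ) := by
  intro h
  have hp : Prime (5 : ℤ) := by norm_num
  have key : ∀ a : ℤ, ¬ (5 : ℤ) ∣ a → ∀ b : ℤ, (5 : ℤ) ∣ a * b → (5 : ℤ) ∣ b :=
    fun a ha b hab => (hp.dvd_or_dvd hab).resolve_left ha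
  have h5c : (5 : ℤ) ∣ c := by
    have h3 : (5 : ℤ) ∣ c ^ 3 := by
      rcases h with h | h | h | h
      · exact key 2 (by norm_num) _ ⟨-5 * Δ, by linarith⟩
      · exact key 8 (by norm_num) _ ⟨-5 * 241 ^ 3 * Δ, by linarith⟩
      · exact key 32 (by norm_num) _ ⟨-29 ^ 3 * Δ, by linarith⟩
      · exact key (2 ^ 15) (by norm_num) _ ⟨211 ^ 3 * Δ, by linarith⟩
    exact hp.dvd_of_dvd_pow h3
  obtain ⟨k, rfl⟩ := h5c
  have hk : (5 * k) ^ 3 = 125 * k ^ 3 := by ring
  rw [hk] at h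
  have h5Δ : (5 : ℤ) ∣ Δ := by
    rcases h with h | h | h | h
    · exact ⟨-2 * k ^ 3, by linarith⟩
    · exact key (241 ^ 3) (by norm_num) _ ⟨-8 * k ^ 3, by linarith⟩
    · exact key (29 ^ 3) (by norm_num) _ ⟨-160 * k ^ 3, by linarith⟩
    · exact key (211 ^ 3) (by norm_num) _ ⟨2 ^ 15 * 5 * k ^ 3, by linarith⟩
  exact hss h5Δ (dvd_mul_right _ _)

end Fermat.Agent.S51alg
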