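import Mathlib

set_option autoImplicit false

/-!
# The rational points on `y² = x (x + 16) (x + 25)`

Elementary `2`-isogeny descent.  The system `x² + y² = □`, `16 x² + y² = □` has no nontrivial
integral solutions (infinite descent); doubling a rational point on `y² = x (x+1) (x+16)` gives a
solution of that system, which determines all rational points on that curve, and
`x ↦ x (x+16) / (4 (x+25))` is a `2`-isogeny from `y² = x (x+16) (x+25)` to it.
-/

namespace Fermat.Agent.S51desc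

lemma three_not_dvd_sq_add_sq {a d : ℤ} (h : IsCoprime a d) : ¬ (3 : ℤ) ∣ a ^ 2 + d ^ 2 := by
  intro h3
  have key : ∀ u v : ZMod 3, u ^ 2 + v ^ 2 = 0 → u = 0 ∧ v = 0 := by decide
  have h0 : ((a ^ 2 + d ^ 2 : ℤ) : ZMod 3) = 0 := (ZMod.intCast_zmod_eq_zero_iff_dvd _ 3).2 h3
  push_cast at h0
  obtain ⟨ha, hd⟩ := key _ _ h0
  have ha' : (3 : ℤ) ∣ a := (ZMod.intCast_zmod_eq_zero_iff_dvd a 3).1 ha
  have hd' : (3 : ℤ) ∣ d := (ZMod.intCast_zmod_eq_zero_iff_dvd d 3).1 hd
  have := h.isUnit_of_dvd' ha' hd'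
  exact absurd this (by decide)

lemma odd_sq_mod8 {a : ℤ} (h : Odd a) : a ^ 2 % 8 = 1 := by
  obtain ⟨k, rfl⟩ := h
  have h2 : (2 * k + 1) ^ 2 = 4 * (k * (k + 1)) + 1 := by ring
  have hev : Even (k * (k + 1)) := Int.even_mul_succ_self k
  obtain ⟨m, hm⟩ := hev
  rw [h2, hm]
  omega

lemma k_cases {k : ℤ} (hk : k ∣ 15) (hpos : 0 < k) : k = 1 ∨ k = 3 ∨ k = 5 ∨ k = 15 := by
  have hle : k ≤ 15 := Int.le_of_dvd (by norm_num) hk
  interval_cases k <;> revert hk <;> decide

lemma dvd15 {a d k : ℤ} (h : IsCoprime a d) (h1 : k ∣ 15 * a ^ 2) (h2 : k ∣ 15 * d ^ 2) :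
    k ∣ 15 := by
  have hc : IsCoprime (a ^ 2) (d ^ 2) := h.pow
  obtain ⟨u, v, huv⟩ := hc
  have : (15 : ℤ) = u * (15 * a ^ 2) + v * (15 * d ^ 2) := by linear_combination (-15) * huv
  rw [this]
  exact dvd_add (Dvd.dvd.mul_left h1 u) (Dvd.dvd.mul_left h2 v)

lemma natAbs_lt_of_eq {x a m : ℤ} (hm : m ≠ 0) (ha : a ≠ 0) (hx : x = 2 * (a * m)) :
    a.natAbs < x.natAbs := by
  have h1 : x.natAbs = 2 * (a.natAbs * m.natAbs) := by
    rw [hx, Int.natAbs_mul, Int.natAbs_mul]; rfl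
  have h2 : 1 ≤ m.natAbs := Int.natAbs_pos.2 hm
  have h3 : 1 ≤ a.natAbs := Int.natAbs_pos.2 ha
  rw [h1]
  nlinarith

/-- The key infinite descent. -/
theorem no_solution_aux (n : ℕ) : ∀ (x y c d : ℤ), x.natAbs = n → IsCoprime x y → Odd y →
    x ≠ 0 → x ^ 2 + y ^ 2 = c ^ 2 → 16 * x ^ 2 + y ^ 2 = d ^ 2 → False := by
  induction n using Nat.strong_induction_on with
  | _ n ih =>
  intro x y c₀ d₀ hn hxy hy hx hc hd
  have hc0 : c₀ ≠ 0 := by
    rintro rfl
    have := sq_pos_of_ne_zero hx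
    have := sq_nonneg y
    nlinarith
  have hd0 : d₀ ≠ 0 := by
    rintro rfl
    have := sq_pos_of_ne_zero hx
    have := sq_nonneg y
    nlinarith
  have hyodd : y % 2 = 1 := Int.odd_iff.1 hy
  -- the two Pythagorean triples
  have ht1 : PythagoreanTriple y x |c₀| := by
    unfold PythagoreanTriple
    have : |c₀| * |c₀| = c₀ ^ 2 := by rw [abs_mul_abs_self]; ring
    rw [this, ← hc]; ring
  have ht2 : PythagoreanTriple y (4 * x) |d₀| := by
    unfold PythagoreanTriple
    have : |d₀| * |d₀| = d₀ ^ 2 := by rw [abs_mul_abs_self]; ring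
    rw [this, ← hd]; ring
  have h2y : IsCoprime (2 : ℤ) y := by
    obtain ⟨k, hk⟩ := hy
    exact ⟨-k, 1, by rw [hk]; ring⟩
  have h4y : IsCoprime (4 : ℤ) y := by
    have : (4 : ℤ) = 2 * 2 := by norm_num
    rw [this]
    exact IsCoprime.mul_left h2y h2y
  obtain ⟨s, t, hys, hxs, -, hst, -, -⟩ := ht1.coprime_classification'
    (Int.isCoprime_iff_gcd_eq_one.1 hxy.symm) hyodd (abs_pos.2 hc0)
  obtain ⟨S, T, hyS, hxS, -, hST, hpar, -⟩ := ht2.coprime_classification'
    (Int.isCoprime_iff_gcd_eq_one.1 (h4y.mul_left hxy).symm) hyodd (abs_pos.2 hd0)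
  have hst' : IsCoprime s t := Int.isCoprime_iff_gcd_eq_one.2 hst
  have hST' : IsCoprime S T := Int.isCoprime_iff_gcd_eq_one.2 hST
  have hprod : S * T = 4 * (s * t) := by linarith
  have hs0 : s ≠ 0 := by rintro rfl; apply hx; rw [hxs]; ring
  have ht0 : t ≠ 0 := by rintro rfl; apply hx; rw [hxs]; ring
  rcases hpar with ⟨hSe, hTo⟩ | ⟨hSo, hTe⟩
  · -- `S` even, `T` odd
    have hTodd : Odd T := Int.odd_iff.2 hTo
    have h2T : IsCoprime (2 : ℤ) T := by
      obtain ⟨k, hk⟩ := hTodd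
      exact ⟨-k, 1, by rw [hk]; ring⟩
    have h4T : IsCoprime (4 : ℤ) T := by
      have : (4 : ℤ) = 2 * 2 := by norm_num
      rw [this]
      exact IsCoprime.mul_left h2T h2T
    obtain ⟨S', hS'⟩ : (4 : ℤ) ∣ S := h4T.dvd_of_dvd_mul_right ⟨s * t, hprod⟩
    have hprod' : S' * T = s * t := by
      have : 4 * (S' * T) = 4 * (s * t) := by rw [← hprod, hS']; ring
      exact mul_left_cancel₀ (by norm_num) this
    obtain ⟨a, c, ⟨b, hb⟩, ⟨d, hdd⟩, hsac⟩ := exists_dvd_and_dvd_of_dvd_mul (Dvd.intro t hprod'.symm)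
    have ha0 : a ≠ 0 := by rintro rfl; apply hs0; rw [hsac]; ring
    have hcc0 : c ≠ 0 := by rintro rfl; apply hs0; rw [hsac]; ring
    have htbd : t = b * d := by
      have : (a * c) * t = (a * c) * (b * d) := by
        rw [← hsac, ← hprod', hb, hdd, hsac]; ring
      exact mul_left_cancel₀ (mul_ne_zero ha0 hcc0) this
    have hb0 : b ≠ 0 := by rintro rfl; apply ht0; rw [htbd]; ring
    have hd0' : d ≠ 0 := by rintro rfl; apply ht0; rw [htbd]; ring
    rw [hsac, htbd] at hst'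
    have hbc : IsCoprime b c := (hst'.of_mul_left_right.of_mul_right_left).symm
    have had : IsCoprime a d := hst'.of_mul_left_left.of_mul_right_right
    have hmain : c ^ 2 * (a ^ 2 + d ^ 2) = b ^ 2 * (16 * a ^ 2 + d ^ 2) := by
      have h1 : s ^ 2 - t ^ 2 = S ^ 2 - T ^ 2 := by rw [← hys, ← hyS]
      rw [hsac, htbd, hS', hb, hdd] at h1
      linear_combination h1
    have hb2 : b ^ 2 ∣ a ^ 2 + d ^ 2 := by
      have : IsCoprime (b ^ 2) (c ^ 2) := hbc.pow
      exact this.dvd_of_dvd_mul_left (Dvd.intro _ hmain.symm)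
    obtain ⟨k, hk⟩ := hb2
    have hk2 : 16 * a ^ 2 + d ^ 2 = c ^ 2 * k := by
      have : b ^ 2 * (16 * a ^ 2 + d ^ 2) = b ^ 2 * (c ^ 2 * k) := by
        rw [← hmain, hk]; ring
      exact mul_left_cancel₀ (pow_ne_zero 2 hb0) this
    have hkpos : 0 < k := by
      have h1 : 0 < a ^ 2 + d ^ 2 := by positivity
      rw [hk] at h1
      exact (mul_pos_iff_of_pos_left (by positivity)).1 h1
    have hk15 : k ∣ 15 := dvd15 had ⟨c ^ 2 - b ^ 2, by linear_combination hk2 - hk⟩
      ⟨16 * b ^ 2 - c ^ 2, by linear_combination 16 * hk - hk2⟩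
    have h3k : ¬ (3 : ℤ) ∣ k := fun h => three_not_dvd_sq_add_sq had (by
      rw [hk]; exact Dvd.dvd.mul_left h _)
    have hTodd' : Odd (c * d) := by rw [← hdd]; exact hTodd
    have hco : Odd c := (Int.odd_mul.1 hTodd').1
    have hdo : Odd d := (Int.odd_mul.1 hTodd').2
    rcases k_cases hk15 hkpos with rfl | rfl | rfl | rfl
    · -- descent
      have hlt : a.natAbs < x.natAbs := natAbs_lt_of_eq (m := c * (b * d))
        (mul_ne_zero hcc0 (mul_ne_zero hb0 hd0')) ha0 (by rw [hxs, hsac, htbd]; ring)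
      exact ih a.natAbs (hn ▸ hlt) a d b c rfl had hdo ha0 (by rw [hk]; ring) (by rw [hk2]; ring)
    · exact h3k (by norm_num)
    · have h1 := odd_sq_mod8 hco
      have h2 := odd_sq_mod8 hdo
      omega
    · exact h3k (by norm_num)
  · -- `S` odd, `T` even
    have hSodd : Odd S := Int.odd_iff.2 hSo
    have h2S : IsCoprime (2 : ℤ) S := by
      obtain ⟨k, hk⟩ := hSodd
      exact ⟨-k, 1, by rw [hk]; ring⟩
    have h4S : IsCoprime (4 : ℤ) S := by
      have : (4 : ℤ) = 2 * 2 := by norm_num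
      rw [this]
      exact IsCoprime.mul_left h2S h2S
    obtain ⟨T', hT'⟩ : (4 : ℤ) ∣ T := h4S.dvd_of_dvd_mul_left ⟨s * t, hprod⟩
    have hprod' : S * T' = s * t := by
      have : 4 * (S * T') = 4 * (s * t) := by rw [← hprod, hT']; ring
      exact mul_left_cancel₀ (by norm_num) this
    obtain ⟨a, c, ⟨b, hb⟩, ⟨d, hdd⟩, hsac⟩ := exists_dvd_and_dvd_of_dvd_mul (Dvd.intro t hprod'.symm)
    have ha0 : a ≠ 0 := by rintro rfl; apply hs0; rw [hsac]; ring
    have hcc0 : c ≠ 0 := by rintro rfl; apply hs0; rw [hsac]; ring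
    have htbd : t = b * d := by
      have : (a * c) * t = (a * c) * (b * d) := by
        rw [← hsac, ← hprod', hb, hdd, hsac]; ring
      exact mul_left_cancel₀ (mul_ne_zero ha0 hcc0) this
    have hb0 : b ≠ 0 := by rintro rfl; apply ht0; rw [htbd]; ring
    have hd0' : d ≠ 0 := by rintro rfl; apply ht0; rw [htbd]; ring
    rw [hsac, htbd] at hst'
    have had : IsCoprime a d := hst'.of_mul_left_left.of_mul_right_right
    have hmain : a ^ 2 * (b ^ 2 - c ^ 2) = d ^ 2 * (16 * c ^ 2 - b ^ 2) := by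
      have h1 : s ^ 2 - t ^ 2 = S ^ 2 - T ^ 2 := by rw [← hys, ← hyS]
      rw [hsac, htbd, hT', hb, hdd] at h1
      linear_combination (-1) * h1
    have hd2 : d ^ 2 ∣ b ^ 2 - c ^ 2 := by
      have : IsCoprime (d ^ 2) (a ^ 2) := had.symm.pow
      exact this.dvd_of_dvd_mul_left (Dvd.intro _ hmain.symm)
    obtain ⟨k, hk⟩ := hd2
    have hk2 : 16 * c ^ 2 - b ^ 2 = a ^ 2 * k := by
      have : d ^ 2 * (16 * c ^ 2 - b ^ 2) = d ^ 2 * (a ^ 2 * k) := by
        rw [← hmain, hk]; ring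
      exact mul_left_cancel₀ (pow_ne_zero 2 hd0') this
    have hbc : IsCoprime b c := (hst'.of_mul_left_right.of_mul_right_left).symm
    have h15 : 15 * c ^ 2 = k * (a ^ 2 + d ^ 2) := by linear_combination hk + hk2
    have h15' : 15 * b ^ 2 = k * (a ^ 2 + 16 * d ^ 2) := by linear_combination 16 * hk + hk2
    have hkpos : 0 < k := by
      have h1 : 0 < k * (a ^ 2 + d ^ 2) := by rw [← h15]; positivity
      exact (mul_pos_iff_of_pos_right (by positivity)).1 h1
    have hk15 : k ∣ 15 := dvd15 hbc ⟨_, h15'⟩ ⟨_, h15⟩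
    have h3k : (3 : ℤ) ∣ k := by
      have h3 : (3 : ℤ) ∣ k * (a ^ 2 + d ^ 2) := ⟨5 * c ^ 2, by rw [← h15]; ring⟩
      exact (Int.prime_three.dvd_or_dvd h3).resolve_right (three_not_dvd_sq_add_sq had)
    have hSodd' : Odd (a * b) := by rw [← hb]; exact hSodd
    have hao : Odd a := (Int.odd_mul.1 hSodd').1
    have hbo : Odd b := (Int.odd_mul.1 hSodd').2
    rcases k_cases hk15 hkpos with rfl | rfl | rfl | rfl
    · revert h3k; decide
    · have h1 := odd_sq_mod8 hao
      have h2 := odd_sq_mod8 hbo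
      omega
    · revert h3k; decide
    · -- descent
      have hlt : d.natAbs < x.natAbs := natAbs_lt_of_eq (m := a * (c * b))
        (mul_ne_zero ha0 (mul_ne_zero hcc0 hb0)) hd0' (by rw [hxs, hsac, htbd]; ring)
      exact ih d.natAbs (hn ▸ hlt) d a c b rfl had.symm hao hd0' (by linarith) (by linarith)

/-- The system `x² + y² = □`, `16 x² + y² = □` has only trivial solutions: coprime case. -/
theorem no_solution_coprime {x y c d : ℤ} (hxy : IsCoprime x y) (hx : x ≠ 0) (hy : y ≠ 0)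
    (hc : x ^ 2 + y ^ 2 = c ^ 2) (hd : 16 * x ^ 2 + y ^ 2 = d ^ 2) : False := by
  rcases Int.even_or_odd y with hye | hyo
  · obtain ⟨y₁, hy₁⟩ := hye.two_dvd
    have hxo : Odd x := by
      rcases Int.even_or_odd x with hxe | hxo
      · exact absurd (hxy.isUnit_of_dvd' hxe.two_dvd hye.two_dvd) (by decide)
      · exact hxo
    have hde : (2 : ℤ) ∣ d := by
      have : (2 : ℤ) ∣ d ^ 2 := by
        rw [← hd, hy₁]; exact ⟨8 * x ^ 2 + 2 * y₁ ^ 2, by ring⟩
      exact Int.prime_two.dvd_of_dvd_pow this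
    obtain ⟨d₁, hd₁⟩ := hde
    have h1 : 4 * x ^ 2 + y₁ ^ 2 = d₁ ^ 2 := by
      rw [hy₁, hd₁] at hd; linarith
    have hy1e : (2 : ℤ) ∣ y₁ := by
      rcases Int.even_or_odd y₁ with h | h
      · exact h.two_dvd
      · exfalso
        have e1 := odd_sq_mod8 h
        have e2 := odd_sq_mod8 hxo
        have hd1o : Odd d₁ := by
          rcases Int.even_or_odd d₁ with h' | h'
          · obtain ⟨m, hm⟩ := h'.two_dvd
            rw [hm] at h1
            have : (2 * m) ^ 2 = 4 * m ^ 2 := by ring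
            omega
          · exact h'
        have e3 := odd_sq_mod8 hd1o
        omega
    obtain ⟨y₂, hy₂⟩ := hy1e
    have hd1e : (2 : ℤ) ∣ d₁ := by
      have : (2 : ℤ) ∣ d₁ ^ 2 := by
        rw [← h1, hy₂]; exact ⟨2 * x ^ 2 + 2 * y₂ ^ 2, by ring⟩
      exact Int.prime_two.dvd_of_dvd_pow this
    obtain ⟨d₂, hd₂⟩ := hd1e
    refine no_solution_aux y₂.natAbs y₂ x d₂ c rfl ?_ hxo ?_ ?_ ?_
    · have h4 : y = 4 * y₂ := by rw [hy₁, hy₂]; ring
      rw [h4] at hxy
      exact hxy.of_mul_right_right.symm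
    · rintro rfl
      apply hy; rw [hy₁, hy₂]; ring
    · rw [hy₂, hd₂] at h1; linarith
    · rw [← hc, hy₁, hy₂]; ring
  · exact no_solution_aux x.natAbs x y c d rfl hxy hyo hx hc hd

/-- The system `x² + y² = □`, `16 x² + y² = □` has only trivial integral solutions. -/
theorem no_solution_int {x y c d : ℤ} (hx : x ≠ 0) (hy : y ≠ 0)
    (hc : x ^ 2 + y ^ 2 = c ^ 2) (hd : 16 * x ^ 2 + y ^ 2 = d ^ 2) : False := by
  obtain ⟨g, x', y', hg, hco, hx', hy'⟩ : ∃ (g : ℤ) (x' y' : ℤ), g ≠ 0 ∧ IsCoprime x' y' ∧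
      x = g * x' ∧ y = g * y' := by
    have hpos : 0 < Int.gcd x y := Int.gcd_pos_of_ne_zero_left _ hx
    obtain ⟨x', y', h1, h2, h3⟩ := Int.exists_gcd_one hpos
    exact ⟨Int.gcd x y, x', y', by exact_mod_cast hpos.ne', Int.isCoprime_iff_gcd_eq_one.2 h1,
      by rw [mul_comm]; exact h2, by rw [mul_comm]; exact h3⟩
  have hx0 : x' ≠ 0 := by rintro rfl; apply hx; rw [hx']; ring
  have hy0 : y' ≠ 0 := by rintro rfl; apply hy; rw [hy']; ring
  have hgc : g ∣ c := by
    have : g ^ 2 ∣ c ^ 2 := ⟨x' ^ 2 + y' ^ 2, by rw [← hc, hx', hy']; ring⟩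
    exact (Int.pow_dvd_pow_iff two_ne_zero).1 this
  have hgd : g ∣ d := by
    have : g ^ 2 ∣ d ^ 2 := ⟨16 * x' ^ 2 + y' ^ 2, by rw [← hd, hx', hy']; ring⟩
    exact (Int.pow_dvd_pow_iff two_ne_zero).1 this
  obtain ⟨c', hc'⟩ := hgc
  obtain ⟨d', hd'⟩ := hgd
  refine no_solution_coprime (c := c') (d := d') hco hx0 hy0 ?_ ?_
  · have : g ^ 2 * (x' ^ 2 + y' ^ 2) = g ^ 2 * c' ^ 2 := by
      rw [hx', hy', hc'] at hc; linarith
    exact mul_left_cancel₀ (pow_ne_zero 2 hg) this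
  · have : g ^ 2 * (16 * x' ^ 2 + y' ^ 2) = g ^ 2 * d' ^ 2 := by
      rw [hx', hy', hd'] at hd; linarith
    exact mul_left_cancel₀ (pow_ne_zero 2 hg) this

/-- The system `x² + y² = □`, `16 x² + y² = □` has only trivial rational solutions. -/
theorem no_solution_rat {x y c d : ℚ} (hx : x ≠ 0) (hy : y ≠ 0)
    (hc : x ^ 2 + y ^ 2 = c ^ 2) (hd : 16 * x ^ 2 + y ^ 2 = d ^ 2) : False := by
  have key : ∀ r : ℚ, (r.num : ℚ) = r * r.den := fun r => (Rat.mul_den_eq_num r).symm
  refine no_solution_int (x := x.num * y.den * c.den * d.den) (y := y.num * x.den * c.den * d.den)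
    (c := c.num * x.den * y.den * d.den) (d := d.num * x.den * y.den * c.den) ?_ ?_ ?_ ?_
  · have := Rat.num_ne_zero.2 hx
    have h1 := y.den_nz
    have h2 := c.den_nz
    have h3 := d.den_nz
    positivity
  · have := Rat.num_ne_zero.2 hy
    have h1 := x.den_nz
    have h2 := c.den_nz
    have h3 := d.den_nz
    positivity
  · have : ((x.num * y.den * c.den * d.den : ℤ) : ℚ) ^ 2 + ((y.num * x.den * c.den * d.den : ℤ) : ℚ) ^ 2
        = ((c.num * x.den * y.den * d.den : ℤ) : ℚ) ^ 2 := by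
      push_cast
      rw [key x, key y, key c]
      linear_combination ((x.den : ℚ) * y.den * c.den * d.den) ^ 2 * hc
    exact_mod_cast this
  · have : 16 * ((x.num * y.den * c.den * d.den : ℤ) : ℚ) ^ 2
        + ((y.num * x.den * c.den * d.den : ℤ) : ℚ) ^ 2
        = ((d.num * x.den * y.den * c.den : ℤ) : ℚ) ^ 2 := by
      push_cast
      rw [key x, key y, key d]
      linear_combination ((x.den : ℚ) * y.den * c.den * d.den) ^ 2 * hd
    exact_mod_cast this

/-- The rational points of `y² = x (x + 1) (x + 16)`. -/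
theorem rational_points' (x y : ℚ) (h : y ^ 2 = x * (x + 1) * (x + 16)) :
    x = 0 ∨ x = -1 ∨ x = -16 ∨ x = 4 ∨ x = -4 := by
  by_cases hy : y = 0
  · have h0 : x * (x + 1) * (x + 16) = 0 := by rw [← h, hy]; ring
    rcases mul_eq_zero.1 h0 with h1 | h1
    · rcases mul_eq_zero.1 h1 with h2 | h2
      · exact Or.inl h2
      · exact Or.inr (Or.inl (by linarith))
    · exact Or.inr (Or.inr (Or.inl (by linarith)))
  · by_cases hx : x ^ 2 - 16 = 0
    · have h0 : (x - 4) * (x + 4) = 0 := by linear_combination hx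
      rcases mul_eq_zero.1 h0 with h1 | h1
      · exact Or.inr (Or.inr (Or.inr (Or.inl (by linarith))))
      · exact Or.inr (Or.inr (Or.inr (Or.inr (by linarith))))
    · exfalso
      refine no_solution_rat (x := 2 * y) (y := x ^ 2 - 16) (c := x ^ 2 + 2 * x + 16)
        (d := x ^ 2 + 32 * x + 16) (mul_ne_zero two_ne_zero hy) hx ?_ ?_
      · linear_combination 4 * h
      · linear_combination 64 * h

/-- The rational points of `y² = x (x + 16) (x + 25)`. -/
theorem rational_points (x y : ℚ) (h : y ^ 2 = x * (x + 16) * (x + 25)) :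
    x = 0 ∨ x = -16 ∨ x = -25 ∨ x = -20 ∨ x = 20 := by
  by_cases hw : x + 25 = 0
  · exact Or.inr (Or.inr (Or.inl (by linarith)))
  by_cases hy : y = 0
  · have h0 : x * (x + 16) * (x + 25) = 0 := by rw [← h, hy]; ring
    rcases mul_eq_zero.1 h0 with h1 | h1
    · rcases mul_eq_zero.1 h1 with h2 | h2
      · exact Or.inl h2
      · exact Or.inr (Or.inl (by linarith))
    · exact absurd h1 hw
  · have hX : (y / (2 * (x + 25))) ^ 2 = x * (x + 16) / (4 * (x + 25)) := by
      field_simp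
      linear_combination 4 * h
    have hpos : 0 < x * (x + 16) / (4 * (x + 25)) := by
      rw [← hX]
      have : y / (2 * (x + 25)) ≠ 0 := div_ne_zero hy (mul_ne_zero two_ne_zero hw)
      positivity
    have := rational_points' (x * (x + 16) / (4 * (x + 25)))
      (y * (x + 10) * (x + 40) / (8 * (x + 25) ^ 2)) (by
        field_simp
        linear_combination 64 * (x + 10) ^ 2 * (x + 40) ^ 2 * h)
    rcases this with h1 | h1 | h1 | h1 | h1
    · rw [h1] at hpos; exact absurd hpos (lt_irrefl _)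
    · rw [h1] at hpos; norm_num at hpos
    · rw [h1] at hpos; norm_num at hpos
    · have h2 : x * (x + 16) = 4 * (4 * (x + 25)) := by
        rw [div_eq_iff (mul_ne_zero four_ne_zero hw)] at h1; exact h1
      have h0 : (x - 20) * (x + 20) = 0 := by linear_combination h2
      rcases mul_eq_zero.1 h0 with h1 | h1
      · exact Or.inr (Or.inr (Or.inr (Or.inr (by linarith))))
      · exact Or.inr (Or.inr (Or.inr (Or.inl (by linarith))))
    · rw [h1] at hpos; norm_num at hpos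

end Fermat.Agent.S51desc
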