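import Mathlib.AlgebraicGeometry.EllipticCurve.Affine.Point
import Mathlib.FieldTheory.IsAlgClosed.AlgebraicClosure
import Mathlib.Tactic

/-!
# Duplication formula and explicit 3- and 5-torsion on the x-line
-/

set_option autoImplicit false

namespace Fermat.Agent.S51tor

open WeierstrassCurve WeierstrassCurve.Affine WeierstrassCurve.Affine.Point

section defs

variable {F : Type*} [Field F] (W : WeierstrassCurve F)

/-- `ψ₂²` -/
def g (x : F) : F := 4 * x ^ 3 + W.b₂ * x ^ 2 + 2 * W.b₄ * x + W.b₆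

/-- numerator of the duplication formula -/
def φ (x : F) : F := x ^ 4 - W.b₄ * x ^ 2 - 2 * W.b₆ * x - W.b₈

/-- `ψ₃` -/
def ψ₃ (x : F) : F := 3 * x ^ 4 + W.b₂ * x ^ 3 + 3 * W.b₄ * x ^ 2 + 3 * W.b₆ * x + W.b₈

/-- `ψ₅` -/
def ψ₅ (x : F) : F := (x * g W x + φ W x) ^ 3 - 6 * x * φ W x * (x * g W x + φ W x) * g W x
  - W.b₄ * (x * g W x + φ W x) * g W x ^ 2 - W.b₂ * x * φ W x * g W x ^ 2 - W.b₆ * g W x ^ 3

/-- First relation between `x(P)`, `x(2P)` for `P` of order 5. -/
def relA (S T : F) : F := S ^ 3 - 6 * T * S - W.b₄ * S - W.b₂ * T - W.b₆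

/-- Second relation between `x(P)`, `x(2P)` for `P` of order 5. -/
def relB (S T : F) : F := -S ^ 4 + 5 * T * S ^ 2 + 5 * T ^ 2 + W.b₄ * S ^ 2 - W.b₄ * T
  + W.b₂ * T * S - W.b₈

lemma resultant_φ_g (x : F) :
    (12 * x ^ 3 - W.b₂ * x ^ 2 - 10 * W.b₄ * x + W.b₂ * W.b₄ - 27 * W.b₆) * g W x
      + (-48 * x ^ 2 - 8 * W.b₂ * x + W.b₂ ^ 2 - 32 * W.b₄) * φ W x = W.Δ := by
  simp only [g, φ, WeierstrassCurve.Δ]
  linear_combination (12 * x ^ 2 + 2 * W.b₂ * x + 8 * W.b₄) * W.b_relation

lemma ψ₃_eq (x : F) : ψ₃ W x = x * g W x - φ W x := by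
  simp only [ψ₃, g, φ]; ring

lemma g_ne_zero_or_φ_ne_zero (hΔ : W.Δ ≠ 0) (x : F) (hg : g W x = 0) : φ W x ≠ 0 := by
  intro hφ
  apply hΔ
  rw [← resultant_φ_g W x, hg, hφ]; ring

lemma ψ₅_eq (x x' : F) (h : x' * g W x = φ W x) :
    ψ₅ W x = g W x ^ 3 * relA W (x + x') (x * x') := by
  simp only [ψ₅, relA, ← h]; ring

lemma rel_sub (x x' : F) :
    (x' * g W x - φ W x) - (x * g W x' - φ W x') = -(x - x') * relA W (x + x') (x * x') := by
  simp only [relA, g, φ]; ring

lemma rel_add (x x' : F) :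
    (x' * g W x - φ W x) + (x * g W x' - φ W x') =
      -2 * relB W (x + x') (x * x') - 3 * (x + x') * relA W (x + x') (x * x') := by
  simp only [relA, relB, g, φ]; ring

end defs

section points

variable {F : Type*} [Field F] [DecidableEq F] {W : Affine F}

omit [DecidableEq F] in
lemma g_eq_sq {x y : F} (h : W.Equation x y) : g W x = (y - W.negY x y) ^ 2 := by
  rw [equation_iff] at h
  simp only [g, negY, WeierstrassCurve.b₂, WeierstrassCurve.b₄, WeierstrassCurve.b₆]
  linear_combination (-4 : F) * h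

omit [DecidableEq F] in
lemma g_eq_zero_iff {x y : F} (h : W.Equation x y) : g W x = 0 ↔ y = W.negY x y := by
  rw [g_eq_sq h, sq_eq_zero_iff, sub_eq_zero]

lemma addX_mul_g {x y : F} (h : W.Equation x y) (hy : y ≠ W.negY x y) :
    W.addX x x (W.slope x x y y) * g W x = φ W x := by
  have hd : y - W.negY x y ≠ 0 := sub_ne_zero.mpr hy
  rw [slope_of_Y_ne rfl hy, g_eq_sq h, addX]
  rw [equation_iff] at h
  have h1 : ((3 * x ^ 2 + 2 * W.a₂ * x + W.a₄ - W.a₁ * y) / (y - W.negY x y)) * (y - W.negY x y) =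
    (3 * x ^ 2 + 2 * W.a₂ * x + W.a₄ - W.a₁ * y) := div_mul_cancel₀ _ hd
  set ℓ := (3 * x ^ 2 + 2 * W.a₂ * x + W.a₄ - W.a₁ * y) / (y - W.negY x y) with hℓ
  have h2 : (ℓ ^ 2 + W.a₁ * ℓ - W.a₂ - x - x) * (y - W.negY x y) ^ 2 =
    (3 * x ^ 2 + 2 * W.a₂ * x + W.a₄ - W.a₁ * y) ^ 2 +
      W.a₁ * (3 * x ^ 2 + 2 * W.a₂ * x + W.a₄ - W.a₁ * y) * (y - W.negY x y)
      - (W.a₂ + 2 * x) * (y - W.negY x y) ^ 2 := by
    rw [← h1]; ring
  rw [h2]
  simp only [φ, negY, WeierstrassCurve.b₄, WeierstrassCurve.b₆,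
    WeierstrassCurve.b₈]
  linear_combination (-(W.a₁ ^ 2 + 4 * W.a₂ + 8 * x)) * h

/-- duplication -/
lemma double_some {x y : F} (h : W.Nonsingular x y) (hg : g W x ≠ 0) :
    ∃ (x' y' : F) (h' : W.Nonsingular x' y'),
      Point.some x y h + Point.some x y h = Point.some x' y' h' ∧ x' * g W x = φ W x := by
  have hy : y ≠ W.negY x y := fun hy => hg ((g_eq_zero_iff h.1).mpr hy)
  exact ⟨_, _, _, add_self_of_Y_ne hy, addX_mul_g h.1 hy⟩

lemma double_some_eq_zero {x y : F} (h : W.Nonsingular x y) (hg : g W x = 0) :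
    Point.some x y h + Point.some x y h = 0 :=
  add_self_of_Y_eq ((g_eq_zero_iff h.1).mp hg)

/-- `3`-torsion points have `x`-coordinate a root of `ψ₃`. -/
lemma three_torsion {x y : F} (h : W.Nonsingular x y) (h3 : 3 • (Point.some x y h) = 0) :
    ψ₃ W x = 0 := by
  set P := Point.some x y h with hP
  have hP0 : P ≠ 0 := some_ne_zero h
  have h2 : P + P = -P := by
    rw [eq_neg_iff_add_eq_zero, ← h3]; abel
  have hg : g W x ≠ 0 := by
    intro hg
    have := double_some_eq_zero h hg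
    rw [← hP, h2, neg_eq_zero] at this
    exact hP0 this
  obtain ⟨x', y', h', he, hx⟩ := double_some h hg
  rw [← hP, h2] at he
  have : x = x' := X_eq_iff.mpr (Or.inr (by rw [← he, neg_neg]) :
    Point.some x y h = Point.some x' y' h' ∨ Point.some x y h = -Point.some x' y' h')
  rw [ψ₃_eq, sub_eq_zero, ← hx, this]

/-- Conversely roots of `ψ₃` give 3-torsion points. -/
lemma three_torsion_of_root (hΔ : W.Δ ≠ 0) {x y : F} (h : W.Nonsingular x y) (h3 : ψ₃ W x = 0) :
    3 • (Point.some x y h) = 0 := by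
  have hg : g W x ≠ 0 := by
    intro hg
    apply g_ne_zero_or_φ_ne_zero W hΔ x hg
    rw [ψ₃_eq, hg] at h3; linear_combination -h3
  obtain ⟨x', y', h', he, hx⟩ := double_some h hg
  have hxx : x = x' := by
    have : (x' - x) * g W x = 0 := by rw [ψ₃_eq] at h3; linear_combination hx - h3
    rcases mul_eq_zero.mp this with h0 | h0
    · linear_combination -h0
    · exact absurd h0 hg
  rcases (X_eq_iff (h₁ := h) (h₂ := h')).mp hxx with h0 | h0
  · rw [h0] at he ⊢
    have : Point.some x' y' h' = 0 := by simp at he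
    exact absurd this (some_ne_zero h')
  · have : Point.some x' y' h' = - Point.some x y h := by rw [h0, neg_neg]
    rw [this] at he
    have h3' : 3 • Point.some x y h = (Point.some x y h + Point.some x y h) + Point.some x y h := by
      abel
    rw [h3', he, neg_add_cancel]

/-- Data attached to a nonzero 5-torsion point. -/
lemma five_torsion {x y : F} (h : W.Nonsingular x y) (h5 : 5 • (Point.some x y h) = 0) :
    ∃ (x' y' : F) (h' : W.Nonsingular x' y'),
      Point.some x y h + Point.some x y h = Point.some x' y' h' ∧ x ≠ x' ∧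
      relA W (x + x') (x * x') = 0 ∧ 2 * relB W (x + x') (x * x') = 0 ∧ ψ₅ W x = 0 := by
  set P := Point.some x y h with hP
  have hP0 : P ≠ 0 := some_ne_zero h
  have h4 : (P + P) + (P + P) = -P := by
    rw [eq_neg_iff_add_eq_zero, ← h5]; abel
  have hg : g W x ≠ 0 := by
    intro hg
    have := double_some_eq_zero h hg
    rw [← hP] at this
    rw [this, add_zero] at h4
    exact hP0 (neg_eq_zero.mp h4.symm)
  obtain ⟨x', y', h', he, hx⟩ := double_some h hg
  refine ⟨x', y', h', he, ?_⟩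
  rw [← hP] at he
  have hne : x ≠ x' := by
    intro hxx
    rcases (X_eq_iff (h₁ := h) (h₂ := h')).mp hxx with h0 | h0
    · rw [← h0, ← hP] at he
      simp at he
    · have h1 : P + P = -P := by rw [he, hP, h0, neg_neg]
      rw [h1] at h4
      simp at h4
  have hg' : g W x' ≠ 0 := by
    intro hg
    have := double_some_eq_zero h' hg
    rw [← he, h4, neg_eq_zero] at this
    exact hP0 this
  obtain ⟨x'', y'', h'', he', hx'⟩ := double_some h' hg'
  rw [← he, h4] at he'
  have hxx : x = x'' := X_eq_iff.mpr (Or.inr (by rw [← he', neg_neg]) :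
    Point.some x y h = Point.some x'' y'' h'' ∨ Point.some x y h = -Point.some x'' y'' h'')
  subst hxx
  have hA : relA W (x + x') (x * x') = 0 := by
    have := rel_sub W x x'
    rw [hx, hx', sub_self, sub_self, sub_self] at this
    rcases mul_eq_zero.mp this.symm with h0 | h0
    · exact absurd (sub_eq_zero.mp (neg_eq_zero.mp h0)) hne
    · exact h0
  refine ⟨hne, hA, ?_, ?_⟩
  · have := rel_add W x x'
    rw [hx, hx', hA, sub_self, sub_self] at this
    linear_combination this
  · rw [ψ₅_eq W x x' hx, hA, mul_zero]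

/-- Conversely roots of `ψ₅` give 5-torsion points. -/
lemma five_torsion_of_root (hΔ : W.Δ ≠ 0) {x y : F} (h : W.Nonsingular x y) (h5 : ψ₅ W x = 0) :
    5 • (Point.some x y h) = 0 := by
  have hg : g W x ≠ 0 := by
    intro hg
    apply g_ne_zero_or_φ_ne_zero W hΔ x hg
    rw [ψ₅, hg] at h5
    have : φ W x ^ 3 = 0 := by linear_combination h5
    simpa using this
  obtain ⟨x', y', h', he, hx⟩ := double_some h hg
  have hA : relA W (x + x') (x * x') = 0 := by
    rw [ψ₅_eq W x x' hx] at h5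
    rcases mul_eq_zero.mp h5 with h0 | h0
    · exact absurd (pow_eq_zero_iff (n := 3) (by norm_num) |>.mp h0) hg
    · exact h0
  have hx' : x * g W x' = φ W x' := by
    have := rel_sub W x x'
    rw [hx, hA, sub_self, mul_zero] at this
    linear_combination -this
  have hne : x ≠ x' := by
    intro hxx
    subst hxx
    have : g W x = - relA W (x + x) (x * x) := by simp only [g, relA]; ring
    rw [hA] at this
    exact hg (by simpa using this)
  have hg' : g W x' ≠ 0 := by
    intro hg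
    apply g_ne_zero_or_φ_ne_zero W hΔ x' hg
    rw [← hx', hg, mul_zero]
  obtain ⟨x'', y'', h'', he', hx''⟩ := double_some h' hg'
  have hxx : x = x'' := by
    have : (x - x'') * g W x' = 0 := by linear_combination hx' - hx''
    rcases mul_eq_zero.mp this with h0 | h0
    · linear_combination h0
    · exact absurd h0 hg'
  subst hxx
  set P := Point.some x y h with hP
  rcases (X_eq_iff (h₁ := h) (h₂ := h'')).mp rfl with h0 | h0
  · rw [← h0, ← hP] at he'
    -- 4P = P, so 3P = 0
    rw [← he] at he'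
    exfalso
    have h3 : 3 • P = 0 := by
      have : 3 • P = (P + P + (P + P)) - P := by abel
      rw [this, he', sub_self]
    have := three_torsion h h3
    rw [ψ₃_eq, sub_eq_zero] at this
    have h1 : (x - x') * g W x = 0 := by linear_combination this - hx
    rcases mul_eq_zero.mp h1 with h0 | h0
    · exact hne (sub_eq_zero.mp h0)
    · exact hg h0
  · rw [← he] at he'
    have h1 : Point.some x y'' h'' = -P := by rw [hP, h0, neg_neg]
    rw [h1] at he'
    have : 5 • P = (P + P + (P + P)) + P := by abel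
    rw [this, he', neg_add_cancel]

omit [DecidableEq F] in
lemma exists_point [IsAlgClosed F] [CharZero F] (hΔ : W.Δ ≠ 0) (x : F) :
    ∃ y, W.Nonsingular x y := by
  obtain ⟨z, hz⟩ := IsAlgClosed.exists_pow_nat_eq (g W x) (n := 2) (by norm_num)
  refine ⟨(z - W.a₁ * x - W.a₃) / 2, ?_⟩
  rw [← equation_iff_nonsingular_of_Δ_ne_zero hΔ, equation_iff]
  simp only [g, WeierstrassCurve.b₂, WeierstrassCurve.b₄, WeierstrassCurve.b₆] at hz
  have h2 : (2 : F) ≠ 0 := two_ne_zero
  field_simp
  linear_combination hz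

open Polynomial in
lemma exists_three_torsion [IsAlgClosed F] [CharZero F] (hΔ : W.Δ ≠ 0) :
    ∃ P : W.Point, P ≠ 0 ∧ 3 • P = 0 := by
  set p : F[X] := 3 * X ^ 4 + C W.b₂ * X ^ 3 + 3 * C W.b₄ * X ^ 2 + 3 * C W.b₆ * X + C W.b₈ with hp
  have hdeg : p.natDegree = 4 := by rw [hp]; compute_degree!
  obtain ⟨x, hx⟩ := IsAlgClosed.exists_root p (by
    intro h; rw [natDegree_eq_of_degree_eq_some h] at hdeg; exact absurd hdeg (by norm_num))
  obtain ⟨y, h⟩ := exists_point hΔ x
  refine ⟨Point.some x y h, some_ne_zero h, three_torsion_of_root hΔ h ?_⟩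
  rw [IsRoot.def, hp] at hx
  simp only [eval_add, eval_mul, eval_pow, eval_X, eval_C, eval_ofNat] at hx
  simpa only [ψ₃] using hx

open Polynomial in
omit [DecidableEq F] in
/-- `ψ₅` as a polynomial. -/
lemma exists_poly_five [CharZero F] : ∃ p : F[X], p.natDegree = 12 ∧ ∀ x, p.eval x = ψ₅ W x := by
  set G : F[X] := 4 * X ^ 3 + C W.b₂ * X ^ 2 + 2 * C W.b₄ * X + C W.b₆ with hG
  set Φ : F[X] := X ^ 4 - C W.b₄ * X ^ 2 - 2 * C W.b₆ * X - C W.b₈ with hΦ
  refine ⟨(X * G + Φ) ^ 3 - 6 * X * Φ * (X * G + Φ) * G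
    - C W.b₄ * (X * G + Φ) * G ^ 2 - C W.b₂ * X * Φ * G ^ 2 - C W.b₆ * G ^ 3, ?_, ?_⟩
  · rw [hG, hΦ]
    compute_degree!
  · intro x
    have h1 : G.eval x = g W x := by
      rw [hG]; simp only [eval_add, eval_mul, eval_pow, eval_X, eval_C, eval_ofNat, g]
    have h2 : Φ.eval x = φ W x := by
      rw [hΦ]; simp only [eval_sub, eval_mul, eval_pow, eval_X, eval_C, eval_ofNat, φ]
    simp only [eval_add, eval_sub, eval_mul, eval_pow, eval_X, eval_C, eval_ofNat, h1, h2, ψ₅]

open Polynomial in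
lemma exists_five_torsion [IsAlgClosed F] [CharZero F] (hΔ : W.Δ ≠ 0) :
    ∃ P : W.Point, P ≠ 0 ∧ 5 • P = 0 := by
  obtain ⟨p, hdeg, hp⟩ := exists_poly_five (W := W)
  obtain ⟨x, hx⟩ := IsAlgClosed.exists_root p (by
    intro h; rw [natDegree_eq_of_degree_eq_some h] at hdeg; exact absurd hdeg (by norm_num))
  obtain ⟨y, h⟩ := exists_point hΔ x
  refine ⟨Point.some x y h, some_ne_zero h, five_torsion_of_root hΔ h ?_⟩
  rw [← hp]; exact hx

omit [DecidableEq F] in
lemma finite_fib (x : F) : Set.Finite {P : W.Point | ∃ y h, P = Point.some x y h} ∧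
    Set.ncard {P : W.Point | ∃ y h, P = Point.some x y h} ≤ 2 := by
  by_cases hne : Set.Nonempty {P : W.Point | ∃ y h, P = Point.some x y h}
  · obtain ⟨P, y, h, hP⟩ := hne
    have hsub : {P : W.Point | ∃ y h, P = Point.some x y h} ⊆ {P, -P} := by
      rintro Q ⟨y', h', rfl⟩
      rcases (X_eq_iff (h₁ := h') (h₂ := h)).mp rfl with h0 | h0
      · left; rw [h0, hP]
      · right; rw [h0, hP]; rfl
    have hfin : Set.Finite ({P, -P} : Set W.Point) := Set.toFinite _
    refine ⟨hfin.subset hsub, (Set.ncard_le_ncard hsub hfin).trans ?_⟩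
    refine (Set.ncard_insert_le _ _).trans ?_
    rw [Set.ncard_singleton]
  · rw [Set.not_nonempty_iff_eq_empty] at hne
    rw [hne]; simp

omit [DecidableEq F] in
lemma finite_of_x_mem (s : Finset F) (T : Set W.Point)
    (hT : ∀ P ∈ T, P ≠ 0 → ∃ x ∈ s, ∃ y h, P = Point.some x y h) :
    T.Finite ∧ T.ncard ≤ 2 * s.card + 1 := by
  classical
  let U : Finset W.Point := insert 0 (s.biUnion fun x => (finite_fib (W := W) x).1.toFinset)
  have hTU : T ⊆ (U : Set W.Point) := by
    intro P hP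
    by_cases h0 : P = 0
    · simp [U, h0]
    · obtain ⟨x, hx, y, h, rfl⟩ := hT P hP h0
      simp only [U, Finset.coe_insert, Finset.coe_biUnion, Set.mem_insert_iff]
      right
      simp only [Set.mem_iUnion]
      exact ⟨x, hx, by simpa using h⟩
  have hU : U.card ≤ 2 * s.card + 1 := by
    refine (Finset.card_insert_le _ _).trans ?_
    gcongr
    refine (Finset.card_biUnion_le_card_mul _ _ 2 ?_).trans (by rw [mul_comm])
    intro x hx
    rw [← Set.ncard_eq_toFinset_card _ (finite_fib (W := W) x).1]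
    exact (finite_fib (W := W) x).2
  refine ⟨U.finite_toSet.subset hTU, ?_⟩
  refine (Set.ncard_le_ncard hTU U.finite_toSet).trans ?_
  rwa [Set.ncard_coe_finset]

open Polynomial in
lemma card_three_torsion [CharZero F] :
    Set.Finite {P : W.Point | 3 • P = 0} ∧ Set.ncard {P : W.Point | 3 • P = 0} ≤ 9 := by
  set p : F[X] := 3 * X ^ 4 + C W.b₂ * X ^ 3 + 3 * C W.b₄ * X ^ 2 + 3 * C W.b₆ * X + C W.b₈ with hp
  have hdeg : p.natDegree = 4 := by rw [hp]; compute_degree!
  have hp0 : p ≠ 0 := by rintro h; rw [h] at hdeg; simp at hdeg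
  classical
  have := finite_of_x_mem (W := W) p.roots.toFinset {P : W.Point | 3 • P = 0} (by
    intro P hP hP0
    rcases P with _ | ⟨x, y, h⟩
    · exact absurd rfl hP0
    · refine ⟨x, ?_, y, h, rfl⟩
      rw [Multiset.mem_toFinset, mem_roots hp0, IsRoot.def, hp]
      have := three_torsion h hP
      simp only [ψ₃] at this
      simp only [eval_add, eval_mul, eval_pow, eval_X, eval_C, eval_ofNat]
      exact this)
  refine ⟨this.1, this.2.trans ?_⟩
  have h1 : p.roots.toFinset.card ≤ 4 :=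
    (Multiset.toFinset_card_le _).trans ((card_roots' p).trans hdeg.le)
  omega

open Polynomial in
lemma card_five_torsion [CharZero F] :
    Set.Finite {P : W.Point | 5 • P = 0} ∧ Set.ncard {P : W.Point | 5 • P = 0} ≤ 25 := by
  obtain ⟨p, hdeg, hp⟩ := exists_poly_five (W := W)
  have hp0 : p ≠ 0 := by rintro h; rw [h] at hdeg; simp at hdeg
  classical
  have := finite_of_x_mem (W := W) p.roots.toFinset {P : W.Point | 5 • P = 0} (by
    intro P hP hP0
    rcases P with _ | ⟨x, y, h⟩
    · exact absurd rfl hP0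
    · refine ⟨x, ?_, y, h, rfl⟩
      rw [Multiset.mem_toFinset, mem_roots hp0, IsRoot.def, hp]
      obtain ⟨_, _, _, _, _, _, _, h5⟩ := five_torsion h hP
      exact h5)
  refine ⟨this.1, this.2.trans ?_⟩
  have h1 : p.roots.toFinset.card ≤ 12 :=
    (Multiset.toFinset_card_le _).trans ((card_roots' p).trans hdeg.le)
  omega

end points

end Fermat.Agent.S51tor
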