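import Mathlib.FieldTheory.Galois.Infinite
import Fermat.Prelude.Def_FLTPrelim_GaloisRep
import Fermat.Agent.S51_Torsion

/-!
# Reducibility of `E[3]` and `E[5]` in terms of rational data
-/

set_option autoImplicit false

namespace Fermat.Agent.S51gal

open WeierstrassCurve WeierstrassCurve.Affine WeierstrassCurve.Affine.Point
open Fermat.Agent.S51tor

/-- A proper non-trivial subspace of an at most two-dimensional space over `ZMod p` is a line. -/
lemma line_of_card_le {p : ℕ} [Fact p.Prime] {V : Type*} [AddCommGroup V] [Module (ZMod p) V]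
    [Finite V] (hcard : Nat.card V ≤ p ^ 2) (N : Submodule (ZMod p) V) (hb : N ≠ ⊥) (ht : N ≠ ⊤) :
    ∃ v ∈ N, v ≠ 0 ∧ ∀ w ∈ N, ∃ m : ℕ, m < p ∧ w = m • v := by
  have hp := (Fact.out : p.Prime)
  have : NeZero p := ⟨hp.ne_zero⟩
  have h1 : Module.finrank (ZMod p) V ≤ 2 := by
    rw [Module.natCard_eq_pow_finrank (K := ZMod p), Nat.card_zmod] at hcard
    exact (Nat.pow_le_pow_iff_right hp.one_lt).mp hcard
  have h2 : Module.finrank (ZMod p) N < Module.finrank (ZMod p) V := Submodule.finrank_lt ht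
  obtain ⟨v, hv, hv0⟩ := Submodule.exists_mem_ne_zero_of_ne_bot hb
  have h3 : 0 < Module.finrank (ZMod p) N := by
    rw [Nat.pos_iff_ne_zero]
    intro h
    exact hb (Submodule.finrank_eq_zero.mp h)
  have h4 : Module.finrank (ZMod p) N = 1 := by omega
  refine ⟨v, hv, hv0, fun w hw => ?_⟩
  obtain ⟨c, hc⟩ := exists_smul_eq_of_finrank_eq_one h4 (x := (⟨v, hv⟩ : N))
    (by simpa using hv0) (⟨w, hw⟩ : N)
  have hc' : c • v = w := by simpa using congrArg Subtype.val hc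
  refine ⟨c.val, c.val_lt, ?_⟩
  rw [← hc', ← Nat.cast_smul_eq_nsmul (ZMod p), ZMod.natCast_zmod_val]

section

variable {K : Type*} [Field K] [DecidableEq K] [Algebra ℚ K] {W : Affine ℚ}

lemma smul_some (σ : K ≃ₐ[ℚ] K) {x y : K} (h : (W⁄K).Nonsingular x y) :
    ∃ h', σ • (Point.some x y h : (W⁄K).Point) = Point.some (σ x) (σ y) h' :=
  ⟨_, rfl⟩

lemma finite_torsion (n : ℕ) (hfin : Set.Finite {P : (W⁄K).Point | n • P = 0}) (m : ℕ)
    (hm : Set.ncard {P : (W⁄K).Point | n • P = 0} ≤ m) :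
    Finite (Submodule.torsionBy ℤ (W⁄K).Point n) ∧
      Nat.card (Submodule.torsionBy ℤ (W⁄K).Point n) ≤ m := by
  have hset : ((Submodule.torsionBy ℤ (W⁄K).Point n : Submodule ℤ (W⁄K).Point) :
      Set (W⁄K).Point) = {P : (W⁄K).Point | n • P = 0} := by
    ext P
    simp only [SetLike.mem_coe, Submodule.mem_torsionBy_iff, Set.mem_ofPred_eq]
    rw [← natCast_zsmul]
  have h1 : Finite ((Submodule.torsionBy ℤ (W⁄K).Point n : Submodule ℤ (W⁄K).Point) :
      Set (W⁄K).Point) := by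
    rw [hset]; exact hfin
  refine ⟨h1, ?_⟩
  have h2 : Nat.card (Submodule.torsionBy ℤ (W⁄K).Point n) =
    Set.ncard ((Submodule.torsionBy ℤ (W⁄K).Point n : Submodule ℤ (W⁄K).Point) :
      Set (W⁄K).Point) := rfl
  rw [h2, hset]
  exact hm

lemma nontrivial_torsion (n : ℕ) (P : (W⁄K).Point) (h0 : P ≠ 0) (hP : n • P = 0) :
    Nontrivial (Submodule.torsionBy ℤ (W⁄K).Point n) := by
  have hmem : P ∈ Submodule.torsionBy ℤ (W⁄K).Point n := by
    rw [Submodule.mem_torsionBy_iff, natCast_zsmul]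
    exact hP
  exact ⟨⟨⟨P, hmem⟩, 0, fun h => h0 (congrArg Subtype.val h)⟩⟩

/-- If the mod-`p` representation is reducible there is a Galois-stable line. -/
lemma stable_line (p : ℕ) [Fact p.Prime] (hne : ∃ P : (W⁄K).Point, P ≠ 0 ∧ p • P = 0)
    (hfin : Set.Finite {P : (W⁄K).Point | p • P = 0})
    (hm : Set.ncard {P : (W⁄K).Point | p • P = 0} ≤ p ^ 2)
    (h : ¬ GaloisRepIsIrreducible (K := K) ℚ W p) :
    ∃ P : (W⁄K).Point, P ≠ 0 ∧ p • P = 0 ∧
      ∀ σ : K ≃ₐ[ℚ] K, ∃ m : ℕ, m < p ∧ σ • P = m • P := by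
  rw [GaloisRepIsIrreducible, not_and_or] at h
  rcases h with h | h
  · obtain ⟨P, hP0, hP⟩ := hne
    exact absurd (nontrivial_torsion p P hP0 hP) h
  push Not at h
  obtain ⟨N, hN, hb, ht⟩ := h
  obtain ⟨hfin, hcard⟩ := finite_torsion (W := W) (K := K) p hfin _ hm
  obtain ⟨v, hv, hv0, hline⟩ := line_of_card_le (p := p) hcard N hb ht
  refine ⟨v, fun h0 => hv0 (Subtype.ext h0), ?_, fun σ => ?_⟩
  · have := v.2
    rw [Submodule.mem_torsionBy_iff, natCast_zsmul] at this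
    exact this
  · obtain ⟨m, hm, hc⟩ := hline _ (hN σ _ hv)
    exact ⟨m, hm, congrArg Subtype.val hc⟩

omit [DecidableEq K] in
lemma baseChange_Δ_ne_zero (hΔ : W.Δ ≠ 0) : (W⁄K).Δ ≠ 0 := by
  rw [show (W⁄K).Δ = algebraMap ℚ K W.Δ from WeierstrassCurve.map_Δ ..]
  exact (_root_.map_ne_zero _).mpr hΔ

variable [IsAlgClosed K] [CharZero K]

theorem three (hΔ : W.Δ ≠ 0)
    (hfix : ∀ x : K, (∀ σ : K ≃ₐ[ℚ] K, σ x = x) → ∃ q : ℚ, algebraMap ℚ K q = x)
    (h : ¬ GaloisRepIsIrreducible (K := K) ℚ W 3) : ∃ x : ℚ, ψ₃ W x = 0 := by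
  have hΔK := baseChange_Δ_ne_zero (K := K) hΔ
  have : Fact (Nat.Prime 3) := ⟨Nat.prime_three⟩
  obtain ⟨P, hP0, hP3, hline⟩ := stable_line (W := W) (K := K) 3 (exists_three_torsion hΔK)
    card_three_torsion.1 card_three_torsion.2 h
  rcases P with _ | ⟨x, y, hxy⟩
  · exact absurd rfl hP0
  obtain ⟨q, hq⟩ := hfix x (by
    intro σ
    obtain ⟨m, hm, hc⟩ := hline σ
    obtain ⟨h', hσ⟩ := smul_some (W := W) σ hxy
    rw [hσ] at hc
    interval_cases m
    · rw [zero_smul] at hc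
      exact absurd hc (some_ne_zero _)
    · rw [one_smul] at hc
      exact (X_eq_iff (h₁ := h') (h₂ := hxy)).mpr (Or.inl hc)
    · have : 2 • Point.some x y hxy = - Point.some x y hxy := by
        rw [eq_neg_iff_add_eq_zero, ← hP3]; abel
      rw [this] at hc
      exact (X_eq_iff (h₁ := h') (h₂ := hxy)).mpr (Or.inr hc))
  refine ⟨q, ?_⟩
  have h3 := three_torsion hxy hP3
  have : algebraMap ℚ K (ψ₃ W q) = ψ₃ (W⁄K) x := by
    rw [← hq]
    simp only [ψ₃, map_add, map_mul, map_pow, map_ofNat]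
    rw [← WeierstrassCurve.map_b₂, ← WeierstrassCurve.map_b₄, ← WeierstrassCurve.map_b₆,
      ← WeierstrassCurve.map_b₈]
    rfl
  rw [h3] at this
  exact (map_eq_zero _).mp this

theorem five (hΔ : W.Δ ≠ 0)
    (hfix : ∀ x : K, (∀ σ : K ≃ₐ[ℚ] K, σ x = x) → ∃ q : ℚ, algebraMap ℚ K q = x)
    (h : ¬ GaloisRepIsIrreducible (K := K) ℚ W 5) : ∃ S T : ℚ, S ^ 2 - 4 * T ≠ 0 ∧
      relA W S T = 0 ∧ relB W S T = 0 := by
  have hΔK := baseChange_Δ_ne_zero (K := K) hΔ
  have : Fact (Nat.Prime 5) := ⟨Nat.prime_five⟩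
  obtain ⟨P, hP0, hP5, hline⟩ := stable_line (W := W) (K := K) 5 (exists_five_torsion hΔK)
    card_five_torsion.1 card_five_torsion.2 h
  rcases P with _ | ⟨x, y, hxy⟩
  · exact absurd rfl hP0
  obtain ⟨x', y', hxy', h2, hne, hA, hB, -⟩ := five_torsion hxy hP5
  have key : ∀ σ : K ≃ₐ[ℚ] K, (σ x = x ∧ σ x' = x') ∨ (σ x = x' ∧ σ x' = x) := by
    intro σ
    obtain ⟨m, hm, hc⟩ := hline σ
    obtain ⟨h', hσ⟩ := smul_some (W := W) σ hxy
    obtain ⟨h'', hσ'⟩ := smul_some (W := W) σ hxy'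
    have hd : Point.some (σ x') (σ y') h'' = Point.some (σ x) (σ y) h' +
        Point.some (σ x) (σ y) h' := by
      rw [← hσ', ← hσ, ← h2]
      exact smul_add σ (Point.some x y hxy) (Point.some x y hxy)
    have h4 : Point.some x' y' hxy' + Point.some x' y' hxy' = - Point.some x y hxy := by
      rw [eq_neg_iff_add_eq_zero, ← h2, ← hP5]
      abel
    rw [hσ] at hc
    interval_cases m
    · rw [zero_smul] at hc
      exact absurd hc (some_ne_zero _)
    · rw [one_smul] at hc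
      refine Or.inl ⟨(X_eq_iff (h₁ := h') (h₂ := hxy)).mpr (Or.inl hc),
        (X_eq_iff (h₁ := h'') (h₂ := hxy')).mpr (Or.inl ?_)⟩
      rw [hd, hc, ← h2]
    · have hc2 : Point.some (σ x) (σ y) h' = Point.some x' y' hxy' := by
        rw [hc, ← h2, two_nsmul]
      refine Or.inr ⟨(X_eq_iff (h₁ := h') (h₂ := hxy')).mpr (Or.inl hc2),
        (X_eq_iff (h₁ := h'') (h₂ := hxy)).mpr (Or.inr ?_)⟩
      rw [hd, hc2, h4]
    · have hc2 : Point.some (σ x) (σ y) h' = - Point.some x' y' hxy' := by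
        rw [hc, ← h2, eq_neg_iff_add_eq_zero, ← hP5]; abel
      refine Or.inr ⟨(X_eq_iff (h₁ := h') (h₂ := hxy')).mpr (Or.inr hc2),
        (X_eq_iff (h₁ := h'') (h₂ := hxy)).mpr (Or.inl ?_)⟩
      rw [hd, hc2, ← neg_add, h4, neg_neg]
    · have hc2 : Point.some (σ x) (σ y) h' = - Point.some x y hxy := by
        rw [hc, eq_neg_iff_add_eq_zero, ← hP5]; abel
      refine Or.inl ⟨(X_eq_iff (h₁ := h') (h₂ := hxy)).mpr (Or.inr hc2),
        (X_eq_iff (h₁ := h'') (h₂ := hxy')).mpr (Or.inr ?_)⟩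
      rw [hd, hc2, ← h2, neg_add]
  obtain ⟨S, hS⟩ := hfix (x + x') (by
    intro σ
    rcases key σ with ⟨h1, h2⟩ | ⟨h1, h2⟩
    · rw [map_add, h1, h2]
    · rw [map_add, h1, h2, add_comm])
  obtain ⟨T, hT⟩ := hfix (x * x') (by
    intro σ
    rcases key σ with ⟨h1, h2⟩ | ⟨h1, h2⟩
    · rw [map_mul, h1, h2]
    · rw [map_mul, h1, h2, mul_comm])
  refine ⟨S, T, ?_, ?_, ?_⟩
  · intro h0
    have : (x - x') ^ 2 = 0 := by
      have h1 : algebraMap ℚ K (S ^ 2 - 4 * T) = (x - x') ^ 2 := by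
        rw [map_sub, map_pow, map_mul, hS, hT, map_ofNat]; ring
      rw [← h1, h0, _root_.map_zero]
    exact hne (sub_eq_zero.mp (pow_eq_zero_iff (n := 2) (by norm_num) |>.mp this))
  · have : algebraMap ℚ K (relA W S T) = relA (W⁄K) (x + x') (x * x') := by
      rw [← hS, ← hT]
      simp only [relA, map_sub, map_mul, map_pow, map_ofNat]
      rw [← WeierstrassCurve.map_b₂, ← WeierstrassCurve.map_b₄, ← WeierstrassCurve.map_b₆]
      rfl
    rw [hA] at this
    exact (map_eq_zero _).mp this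
  · have : algebraMap ℚ K (relB W S T) = relB (W⁄K) (x + x') (x * x') := by
      rw [← hS, ← hT]
      simp only [relB, map_add, map_sub, map_mul, map_pow, map_ofNat, map_neg]
      rw [← WeierstrassCurve.map_b₂, ← WeierstrassCurve.map_b₄,
        ← WeierstrassCurve.map_b₈]
      rfl
    have hB' : relB (W⁄K) (x + x') (x * x') = 0 := by
      rcases mul_eq_zero.mp hB with h0 | h0
      · exact absurd h0 two_ne_zero
      · exact h0
    rw [hB'] at this
    exact (map_eq_zero _).mp this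

end

end Fermat.Agent.S51gal
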