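import Fermat.Statements.S51
import Fermat.Agent.S51_Galois
import Fermat.Agent.S51_Algebra
import Fermat.Agent.S51_Descent

set_option autoImplicit false
open WeierstrassCurve WeierstrassCurve.Affine WeierstrassCurve.Affine.Point
open CuspForm ModularFormClass UpperHalfPlane
open WeierstrassCurve

namespace Fermat.Agent.S51

lemma fixed_rational (x : AlgebraicClosure ℚ)
    (hx : ∀ σ : AlgebraicClosure ℚ ≃ₐ[ℚ] AlgebraicClosure ℚ, σ x = x) :
    ∃ q : ℚ, algebraMap ℚ (AlgebraicClosure ℚ) q = x := by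
  have : Algebra.IsAlgebraic ℚ (AlgebraicClosure ℚ) := AlgebraicClosure.isAlgebraic ℚ
  have : IsAlgClosure ℚ (AlgebraicClosure ℚ) := ⟨AlgebraicClosure.isAlgClosed ℚ, this⟩
  have : IsGalois ℚ (AlgebraicClosure ℚ) := IsAlgClosure.isGalois ℚ _
  have h := (InfiniteGalois.mem_bot_iff_fixed (k := ℚ) (K := AlgebraicClosure ℚ) x).mpr hx
  rwa [IntermediateField.mem_bot] at h

theorem result (W : WeierstrassCurve ℤ) (hΔ : W.Δ ≠ 0) (hW : W.IsSemistableModel) : W.ModRepIsIrreducible 3 ∨ W.ModRepIsIrreducible 5 := by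
  by_contra hcon
  rw [not_or] at hcon
  obtain ⟨h3, h5⟩ := hcon
  have hΔQ : (W.map (Int.castRingHom ℚ)).Δ ≠ 0 := by
    rw [WeierstrassCurve.map_Δ]
    simpa using hΔ
  obtain ⟨x₀, hx₀⟩ := S51gal.three (K := AlgebraicClosure ℚ)
    (W := W.map (Int.castRingHom ℚ)) hΔQ fixed_rational h3
  obtain ⟨S, T, hD, hA, hB⟩ := S51gal.five (K := AlgebraicClosure ℚ)
    (W := W.map (Int.castRingHom ℚ)) hΔQ fixed_rational h5
  have hex := S51alg.exceptional S51desc.rational_points _ hΔQ x₀ S T hx₀ hD hA hB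
  rw [WeierstrassCurve.map_c₄, WeierstrassCurve.map_Δ] at hex
  simp only [eq_intCast] at hex
  refine S51alg.not_exceptional W.c₄ W.Δ (fun h => hW 5 Nat.prime_five (by exact_mod_cast h)) ?_
  rcases hex with h | h | h | h
  · left; exact_mod_cast h
  · right; left; exact_mod_cast h
  · right; right; left; exact_mod_cast h
  · right; right; right; exact_mod_cast h

end Fermat.Agent.S51
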