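-- S23: S₂(Γ₀(N)) has an integral structure.
import Fermat.Statements.S23
import Fermat.Agent.IntStruct.Assembly
import Fermat.Agent.IntStruct.EN

set_option autoImplicit false
open CuspForm

namespace Fermat.Agent.S23

/-- all weights -/
theorem hasIntegralStructure (N : ℕ) [NeZero N] (k : ℤ) : CuspForm.HasIntegralStructure N k :=
  Fermat.Agent.IntStruct.hasIntegralStructure_of_form N (Fermat.Agent.IntStruct.EN N)
    (Fermat.Agent.IntStruct.EN_mem_intForms N)
    (fun γ h => Fermat.Agent.IntStruct.mem_Gamma0_of_slash_EN_eq γ h) k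

theorem result (N : ℕ) [NeZero N] : CuspForm.HasIntegralStructure N 2 :=
  hasIntegralStructure N 2

end Fermat.Agent.S23
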