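import Fermat.Agent.S32_reduction
import Fermat.Agent.Cofaith.ES
import Fermat.Agent.GalRep.Density

/-!
# S32 from S19 and S37
-/

set_option autoImplicit false

open CuspForm ModularCurve IsLocalRing

namespace Fermat.Agent.S32aux

open Fermat.Agent.FlatGS Fermat.Agent.GalRep

variable {p : ℕ} {N : ℕ} [NeZero N] {S : Finset ℕ}
  {𝒪 : Type} [CommRing 𝒪] [IsDomain 𝒪] [IsDiscreteValuationRing 𝒪]
  [IsAdicComplete (IsLocalRing.maximalIdeal 𝒪) 𝒪]
  {θ : CuspForm.heckeAlgebra N 2 (↑S : Set ℕ) →+* IsLocalRing.ResidueField 𝒪}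
  {T : Type} [CommRing T] [IsLocalRing T] [IsNoetherianRing T]
  [IsAdicComplete (IsLocalRing.maximalIdeal T) T] [Algebra 𝒪 T] [IsLocalHom (algebraMap 𝒪 T)]
  [Module.Finite 𝒪 T] [Module.Free 𝒪 T]

/-- S32 from S19 and S37. -/
theorem isFlatAt_of_S19_S37 [Finite (IsLocalRing.ResidueField 𝒪)]
    (h37 : letI := heckeModuleBar N
      ∀ (_ : SMulCommClass (AlgebraicClosure ℚ ≃ₐ[ℚ] AlgebraicClosure ℚ) HeckeAlg (JZero N)),
        SpecializationExists (K := ℚ) (L := AlgebraicClosure ℚ) N p (JZero N))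
    (h19 : S19At N p)
    (hp : p.Prime) (hp𝒪 : (p : 𝒪) ∈ IsLocalRing.maximalIdeal 𝒪)
    (hpS : p ∈ S) (hNS : ∀ q : ℕ, q.Prime → q ∣ N → q ∈ S)
    (H : CuspForm.HeckeGaloisRepDatum N (↑S : Set ℕ) 𝒪 θ T) :
    H.ρ.IsFlatAt p := by
  letI := heckeModuleBar N
  haveI := Cofaith.smulCommClass_JZero N
  exact isFlatAt_of_S19 frobeniusDensity (Cofaith.smulCommClass_JZero N)
    (Cofaith.esInput_JZero N hp (↑S : Set ℕ) (fun ℓ h1 h2 => hNS ℓ h1 h2) (h37 inferInstance))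
    h19 hp hp𝒪 hpS hNS H

end Fermat.Agent.S32aux
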