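import Fermat.Agent.HeckeEigen.Forms
import Fermat.Agent.HeckeEigen.Joint
import Fermat.Agent.S22
import Fermat.Agent.S23

/-!
# Every character of the Hecke algebra is an eigensystem

If `χ : heckeAlgebra N 2 S →+* ℂ` is a ring homomorphism, there is a non-zero cusp form `v` with
`t v = χ(t) v` for all `t`.
-/

set_option autoImplicit false

noncomputable section

open Module Polynomial

namespace Fermat.Agent.S35aux

/-! ### Avoidance -/

/-- a finite family of non-zero additive maps to `ℂ` has a common non-vanishing point. -/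
lemma exists_forall_ne_zero {T : Type*} [AddCommGroup T] {α : Type*} (s : Finset α)
    (f : α → T →+ ℂ) (h : ∀ i ∈ s, ∃ t, f i t ≠ 0) : ∃ t, ∀ i ∈ s, f i t ≠ 0 := by
  classical
  induction s using Finset.induction_on with
  | empty => exact ⟨0, by simp⟩
  | insert j s hj ih =>
    obtain ⟨t, ht⟩ := ih fun i hi => h i (Finset.mem_insert_of_mem hi)
    obtain ⟨u, hu⟩ := h j (Finset.mem_insert_self _ _)
    by_cases htj : f j t = 0
    · -- consider `u + n t` with n large? use `t + n u`... choose `n` avoiding finitely many values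
      have hbad : ∀ i ∈ s, {n : ℕ | f i ((n + 1) • t + u) = 0}.Finite := by
        intro i hi
        refine Set.Subsingleton.finite fun a ha b hb => ?_
        simp only [Set.mem_ofPred_eq, map_add, map_nsmul] at ha hb
        have h1 : (a + 1) • f i t = (b + 1) • f i t := by
          rw [eq_neg_of_add_eq_zero_left ha, eq_neg_of_add_eq_zero_left hb]
        rw [nsmul_eq_mul, nsmul_eq_mul] at h1
        have h2 := mul_right_cancel₀ (ht i hi) h1
        have h3 : a + 1 = b + 1 := by exact_mod_cast h2
        omega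
      have hfin : (⋃ i ∈ s, {n : ℕ | f i ((n + 1) • t + u) = 0}).Finite :=
        Set.Finite.biUnion s.finite_toSet hbad
      obtain ⟨n, hn⟩ := hfin.exists_notMem
      refine ⟨(n + 1) • t + u, fun i hi => ?_⟩
      rcases Finset.mem_insert.mp hi with rfl | hi
      · rw [map_add, map_nsmul, htj, smul_zero, zero_add]; exact hu
      · intro h0
        exact hn (Set.mem_biUnion hi h0)
    · exact ⟨t, fun i hi => by
        rcases Finset.mem_insert.mp hi with rfl | hi
        · exact htj
        · exact ht i hi⟩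

/-! ### Integral structures -/

section IntStructure

variable {V : Type*} [AddCommGroup V] [Module ℂ V]

/-- `V` has an integral coefficient system: `c n : V →ₗ ℂ` jointly injective; `L` is the subgroup of
vectors with integral coefficients. A `ℤ`-linearly independent family in `L` is `ℂ`-linearly
independent. -/
lemma linearIndependent_complex_of_int {κ ι : Type*} (c : κ → V →ₗ[ℂ] ℂ)
    (hc : ∀ v : V, (∀ n, c n v = 0) → v = 0) (b : ι → V)
    (hb : ∀ i n, ∃ m : ℤ, c n (b i) = (m : ℂ)) (hind : LinearIndependent ℤ b) :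
    LinearIndependent ℂ b := by
  classical
  choose M hM using hb
  rw [linearIndependent_iff']
  intro s g hg i hi
  letI : Module ℚ V := Module.compHom V (algebraMap ℚ ℂ)
  have hsm : ∀ (r : ℚ) (v : V), r • v = (r : ℂ) • v := fun _ _ => rfl
  -- `b` is ℚ-linearly independent
  have hindQ : LinearIndependent ℚ b := (LinearIndependent.iff_fractionRing ℤ ℚ).mp hind
  by_contra hne
  obtain ⟨π, hπ⟩ := Fermat.Agent.IntStruct.exists_functional_eq_one hne
  have h0 : ∑ j ∈ s, π (g j) • b j = 0 := by
    apply hc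
    intro n
    have h1 := congrArg (c n) hg
    rw [map_sum, map_zero] at h1
    simp only [map_smul, smul_eq_mul, hM] at h1
    have h2 := congrArg π h1
    rw [map_sum, map_zero] at h2
    have h3 : ∀ j ∈ s, π (g j * (M j n : ℂ)) = π (g j) * (M j n : ℚ) := by
      intro j _
      have : g j * (M j n : ℂ) = (M j n : ℚ) • g j := by
        rw [Rat.smul_def]; push_cast; ring
      rw [this, map_smul, smul_eq_mul, mul_comm]
    rw [Finset.sum_congr rfl h3] at h2
    rw [map_sum]
    have h4 : ∀ j ∈ s, c n (π (g j) • b j) = ((π (g j) * (M j n : ℚ) : ℚ) : ℂ) := by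
      intro j _
      rw [hsm, map_smul, hM, smul_eq_mul]
      push_cast
      ring
    rw [Finset.sum_congr rfl h4, ← Rat.cast_sum, h2, Rat.cast_zero]
  have := (linearIndependent_iff'.mp hindQ) s (fun j => π (g j)) h0 i hi
  rw [hπ] at this
  exact one_ne_zero this

/-- the restriction of an endomorphism preserving a lattice. -/
def restrictLattice (L : Submodule ℤ V) (t : Module.End ℂ V) (h : ∀ x ∈ L, t x ∈ L) :
    Module.End ℤ L :=
  (t.restrictScalars ℤ).restrict h

/-- the characteristic polynomial of an endomorphism preserving a lattice is integral. -/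
lemma charpoly_restrictLattice [FiniteDimensional ℂ V] {κ : Type*} (c : κ → V →ₗ[ℂ] ℂ)
    (hc : ∀ v : V, (∀ n, c n v = 0) → v = 0) (L : Submodule ℤ V) (hLfg : L.FG)
    (hLc : ∀ v ∈ L, ∀ n, ∃ m : ℤ, c n v = (m : ℂ))
    (hspan : Submodule.span ℂ (L : Set V) = ⊤) (t : Module.End ℂ V) (h : ∀ x ∈ L, t x ∈ L) :
    haveI : Module.Finite ℤ L := Module.Finite.iff_fg.mpr hLfg
    ∃ (_ : Module.Free ℤ L),
      (restrictLattice L t h).charpoly.map (Int.castRingHom ℂ) = t.charpoly := by
  classical
  haveI : Module.Finite ℤ L := Module.Finite.iff_fg.mpr hLfg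
  haveI : IsAddTorsionFree V := by
    refine ⟨fun n hn a b hab => ?_⟩
    have h1 : (n : ℂ) • a = (n : ℂ) • b := by simpa only [Nat.cast_smul_eq_nsmul] using hab
    exact smul_right_injective _ (Nat.cast_ne_zero.mpr hn) h1
  haveI : IsAddTorsionFree L := by
    refine ⟨fun n hn a b hab => Subtype.ext ?_⟩
    have h1 : n • (a : V) = n • (b : V) := congrArg Subtype.val hab
    exact nsmul_right_injective hn h1
  haveI hfree : Module.Free ℤ L := inferInstance
  refine ⟨hfree, ?_⟩
  set b := Module.Free.chooseBasis ℤ L with hb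
  set e : Module.Free.ChooseBasisIndex ℤ L → V := fun i => (b i : V) with he
  have hindZ : LinearIndependent ℤ e := by
    have := b.linearIndependent
    exact this.map' L.subtype (LinearMap.ker_eq_bot.mpr Subtype.val_injective)
  have hind : LinearIndependent ℂ e :=
    linearIndependent_complex_of_int c hc e (fun i n => hLc _ (b i).2 n) hindZ
  have hsp : ⊤ ≤ Submodule.span ℂ (Set.range e) := by
    rw [← hspan, Submodule.span_le]
    intro x hx
    have h1 : x = ∑ i, b.repr ⟨x, hx⟩ i • e i := by
      have h2 := congrArg L.subtype (b.sum_repr ⟨x, hx⟩)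
      rw [map_sum] at h2
      exact h2.symm
    rw [h1]
    refine Submodule.sum_mem _ fun i _ => ?_
    rw [← Int.cast_smul_eq_zsmul ℂ]
    exact Submodule.smul_mem _ _ (Submodule.subset_span ⟨i, rfl⟩)
  set B : Module.Basis _ ℂ V := Module.Basis.mk hind hsp with hB
  have hmat : LinearMap.toMatrix B B t =
      (LinearMap.toMatrix b b (restrictLattice L t h)).map (Int.castRingHom ℂ) := by
    ext i j
    rw [Matrix.map_apply, LinearMap.toMatrix_apply, LinearMap.toMatrix_apply]
    have h1 : t (B j) = ∑ i, (b.repr (restrictLattice L t h (b j)) i : ℂ) • B i := by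
      have h2 := congrArg Subtype.val (b.sum_repr (restrictLattice L t h (b j)))
      have h3 : ((restrictLattice L t h (b j) : L) : V) = t (B j) := by
        rw [hB, Module.Basis.mk_apply]; rfl
      rw [← h3, ← h2]
      simp only [AddSubmonoidClass.coe_finset_sum, Submodule.coe_smul]
      refine Finset.sum_congr rfl fun i _ => ?_
      rw [hB, Module.Basis.mk_apply, Int.cast_smul_eq_zsmul]
    rw [h1, map_sum, Finsupp.finset_sum_apply]
    simp [Finsupp.single_apply]
  rw [← LinearMap.charpoly_toMatrix t B, hmat, Matrix.charpoly_map,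
    LinearMap.charpoly_toMatrix]

/-- **Every character of a commutative ring of operators preserving an integral structure is an
eigensystem.** -/
theorem exists_eigenvector_of_char [FiniteDimensional ℂ V] {κ : Type*} (c : κ → V →ₗ[ℂ] ℂ)
    (hc : ∀ v : V, (∀ n, c n v = 0) → v = 0) (L : Submodule ℤ V) (hLfg : L.FG)
    (hLc : ∀ v ∈ L, ∀ n, ∃ m : ℤ, c n v = (m : ℂ))
    (hspan : Submodule.span ℂ (L : Set V) = ⊤) (𝕋 : Subalgebra ℤ (Module.End ℂ V))
    (hTL : ∀ t ∈ 𝕋, ∀ x ∈ L, t x ∈ L) (hcomm : ∀ s ∈ 𝕋, ∀ t ∈ 𝕋, Commute s t)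
    (χ : 𝕋 →+* ℂ) : ∃ v : V, v ≠ 0 ∧ ∀ t : 𝕋, (t : Module.End ℂ V) v = χ t • v := by
  classical
  haveI : Module.Finite ℤ L := Module.Finite.iff_fg.mpr hLfg
  -- each `χ t` is an eigenvalue
  have heig : ∀ t : 𝕋, Module.End.HasEigenvalue (t : Module.End ℂ V) (χ t) := by
    intro t
    obtain ⟨hfree, hP⟩ := charpoly_restrictLattice c hc L hLfg hLc hspan
      (t : Module.End ℂ V) (hTL t t.2)
    set P := (restrictLattice L (t : Module.End ℂ V) (hTL t t.2)).charpoly with hPdef
    have h1 : aeval t P = 0 := by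
      apply Subtype.val_injective
      have h2 : ((aeval t P : 𝕋) : Module.End ℂ V) = aeval (t : Module.End ℂ V) P :=
        (Polynomial.aeval_algHom_apply 𝕋.val t P).symm
      rw [h2]
      have h3 : aeval (t : Module.End ℂ V) P =
          aeval (t : Module.End ℂ V) (P.map (Int.castRingHom ℂ)) := by
        exact (Polynomial.aeval_map_algebraMap ℂ (t : Module.End ℂ V) P).symm
      rw [h3, hP, LinearMap.aeval_self_charpoly]
      rfl
    have h4 : (P.map (Int.castRingHom ℂ)).eval (χ t) = 0 := by
      have h5 := congrArg χ h1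
      rw [map_zero] at h5
      rw [← h5, Polynomial.aeval_def, Polynomial.hom_eval₂, Polynomial.eval_map]
      congr 1
      exact RingHom.ext_int _ _
    rw [hP] at h4
    exact (Module.End.hasEigenvalue_iff_isRoot_charpoly _ _).mpr h4
  by_contra hcon
  push Not at hcon
  set T : 𝕋 → Module.End ℂ V := fun t => (t : Module.End ℂ V) with hT
  have hcomm' : ∀ s t : 𝕋, Commute (T s) (T t) := fun s t => hcomm _ s.2 _ t.2
  set W : (𝕋 → ℂ) → Submodule ℂ V := fun ψ => ⨅ i, (T i).maxGenEigenspace (ψ i) with hW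
  have hind : iSupIndep W :=
    Module.End.independent_iInf_maxGenEigenspace_of_forall_mapsTo T
      (fun i j φ => Module.End.mapsTo_maxGenEigenspace_of_comm (hcomm' j i) φ)
  have hfin : {ψ | W ψ ≠ ⊥}.Finite := WellFoundedGT.finite_ne_bot_of_iSupIndep hind
  -- additive maps
  have hadd : ∀ ψ : 𝕋 → ℂ, W ψ ≠ ⊥ → ∃ f : 𝕋 →+ ℂ, (∀ t, f t = ψ t - χ t) ∧ ∃ t, f t ≠ 0 := by
    intro ψ hψ
    obtain ⟨v, hv0, hv⟩ :=
      FermatAgent.HeckeEigen.exists_joint_eigenvector_of_iInf_ne_bot T hcomm' ψ hψ
    have hinj : ∀ a b : ℂ, a • v = b • v → a = b := fun a b hab => smul_left_injective ℂ hv0 hab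
    refine ⟨{ toFun := fun t => ψ t - χ t, map_zero' := ?_, map_add' := ?_ }, fun t => rfl, ?_⟩
    · have : ψ 0 = 0 := hinj _ _ (by rw [← hv, zero_smul, hT]; simp)
      rw [this, map_zero, sub_zero]
    · intro s t
      have : ψ (s + t) = ψ s + ψ t := hinj _ _ (by
        rw [← hv, add_smul, ← hv, ← hv, hT]; simp)
      rw [this, map_add]
      ring
    · obtain ⟨t, ht⟩ := hcon v hv0
      refine ⟨t, fun h0 => ht ?_⟩
      have h1 : ψ t - χ t = 0 := h0
      rw [← sub_eq_zero.mp h1]
      exact hv t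
  choose! f hf hf' using hadd
  obtain ⟨t, ht⟩ := exists_forall_ne_zero hfin.toFinset f fun ψ hψ =>
    hf' ψ (by simpa using hψ)
  -- the eigenspace of `t` for `χ t`
  set E : Submodule ℂ V := (T t).eigenspace (χ t) with hE
  have hEne : E ≠ ⊥ := heig t
  have hmap : ∀ j, ∀ x ∈ E, T j x ∈ E := by
    intro j x hx
    rw [hE, Module.End.mem_eigenspace_iff] at hx ⊢
    have h1 : T t (T j x) = T j (T t x) := by
      have := congrArg (fun (A : Module.End ℂ V) => A x) (hcomm' t j).eq
      simpa using this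
    rw [h1, hx, map_smul]
  have : Nontrivial E := (Submodule.nontrivial_iff_ne_bot).mpr hEne
  have hcomm'' : ∀ j k, Commute ((T j).restrict (hmap j)) ((T k).restrict (hmap k)) := by
    intro j k
    apply LinearMap.ext
    intro x
    apply Subtype.ext
    have := congrArg (fun (A : Module.End ℂ V) => A x) (hcomm' j k).eq
    simpa using this
  obtain ⟨ψ, v, hv, hψ⟩ := FermatAgent.HeckeEigen.exists_joint_eigenvector
    (fun j => (T j).restrict (hmap j)) hcomm''
  have hv0 : (v : V) ≠ 0 := fun h => hv (Subtype.ext h)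
  have hψ' : ∀ j, T j v = ψ j • (v : V) := by
    intro j
    have := congrArg Subtype.val (hψ j)
    simpa using this
  have hWψ : W ψ ≠ ⊥ := by
    refine (Submodule.ne_bot_iff _).mpr ⟨v, ?_, hv0⟩
    rw [hW]
    refine (Submodule.mem_iInf _).mpr fun j => ?_
    refine Module.End.mem_maxGenEigenspace _ _ _ |>.mpr ⟨1, ?_⟩
    rw [pow_one, LinearMap.sub_apply, hψ' j]
    simp
  refine ht ψ (by simpa using hWψ) ?_
  rw [hf ψ hWψ t, sub_eq_zero]
  have h1 : T t v = χ t • (v : V) := Module.End.mem_eigenspace_iff.mp v.2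
  exact smul_left_injective ℂ hv0 (by
    change ψ t • (v : V) = χ t • (v : V)
    rw [← hψ' t, h1])

end IntStructure

/-- **Every character of the Hecke algebra is an eigensystem.** -/
theorem exists_cuspForm_of_char (N : ℕ) [NeZero N] (S : Set ℕ)
    (χ : CuspForm.heckeAlgebra N 2 S →+* ℂ) :
    ∃ v : CuspForm (CongruenceSubgroup.Gamma0 N) 2, v ≠ 0 ∧
      ∀ t : CuspForm.heckeAlgebra N 2 S, (t : Module.End ℂ _) v = χ t • v := by
  refine exists_eigenvector_of_char (fun n => FermatAgent.HeckeEigen.qCoeffLin N 2 n)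
    (fun v hv => FermatAgent.HeckeEigen.eq_zero_of_qCoeff_eq_zero v hv)
    (CuspForm.intLattice N 2) (CuspForm.intLattice_fg N 2) ?_ (Fermat.Agent.S23.result N)
    (CuspForm.heckeAlgebra N 2 S)
    (fun t ht x hx => CuspForm.mem_intLattice_of_mem_heckeAlgebra (by norm_num) ht hx) ?_ χ
  · intro v hv n
    refine Submodule.span_induction (p := fun v _ => ∃ m : ℤ,
      FermatAgent.HeckeEigen.qCoeffLin N 2 n v = (m : ℂ)) ?_ ?_ ?_ ?_ hv
    · intro x hx
      exact hx n
    · exact ⟨0, by rw [map_zero, Int.cast_zero]⟩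
    · rintro x y _ _ ⟨a, ha⟩ ⟨b, hb⟩
      exact ⟨a + b, by rw [map_add, ha, hb]; push_cast; ring⟩
    · rintro a x _ ⟨m, hm⟩
      refine ⟨a * m, ?_⟩
      rw [map_zsmul, hm, zsmul_eq_mul]
      push_cast
      ring
  · intro s hs t ht
    have h := mul_comm (⟨s, hs⟩ : CuspForm.heckeAlgebra N 2 S) ⟨t, ht⟩
    exact congrArg Subtype.val h

end Fermat.Agent.S35aux

end
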