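import Fermat.Agent.S35_reduction
import Fermat.Agent.S35_CharEigen
import Fermat.Prelude.Def_CuspForm_Newforms

/-!
# Separating a newform from lower levels by Hecke operators outside a finite set of primes

For a newform `g` of level `M` and `M' ∣ M`, `M' ≠ M`, there is a Hecke polynomial `t` in the `T_ℓ`,
`ℓ ∉ S`, killing `S₂(Γ₀(M'))` with `χ_g(t) ≠ 0`.  The only input is `ESInput` for two primes `p`.
-/

set_option autoImplicit false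

noncomputable section

open CuspForm ModularCurve Polynomial Fermat.Agent.GalRep FermatAgent.HeckeEigen
open scoped UpperHalfPlane

namespace Fermat.Agent.S35aux

/-! ### Change of level -/

section Level

variable {M' M : ℕ}

lemma Gamma0_le_of_dvd (h : M' ∣ M) :
    CongruenceSubgroup.Gamma0 M ≤ CongruenceSubgroup.Gamma0 M' := by
  intro γ hγ
  rw [CongruenceSubgroup.Gamma0_mem] at hγ ⊢
  rw [ZMod.intCast_zmod_eq_zero_iff_dvd] at hγ ⊢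
  exact (Int.natCast_dvd_natCast.mpr h).trans hγ

/-- a cusp form of level `M'` as a cusp form of level `M`, `M' ∣ M`. -/
def resLevel (h : M' ∣ M) :
    CuspForm (CongruenceSubgroup.Gamma0 M') 2 →ₗ[ℂ] CuspForm (CongruenceSubgroup.Gamma0 M) 2 where
  toFun f :=
    { toFun := f
      slash_action_eq' := fun γ hγ => by
        obtain ⟨γ', hγ', rfl⟩ := Subgroup.mem_map.mp hγ
        exact SlashInvariantFormClass.slash_action_eq f _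
          (Subgroup.mem_map.mpr ⟨γ', Gamma0_le_of_dvd h hγ', rfl⟩)
      holo' := f.holo'
      zero_at_cusps' := fun {c} hc => by
        refine f.zero_at_cusps' (hc.mono ?_)
        exact Subgroup.map_mono (Gamma0_le_of_dvd h) }
  map_add' f g := by ext z; rfl
  map_smul' c f := by ext z; rfl

@[simp] lemma coe_resLevel (h : M' ∣ M) (f : CuspForm (CongruenceSubgroup.Gamma0 M') 2) :
    ⇑(resLevel h f) = ⇑f := rfl

lemma qCoeff_resLevel (h : M' ∣ M) (f : CuspForm (CongruenceSubgroup.Gamma0 M') 2) (n : ℕ) :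
    ModularFormClass.qCoeff ⇑(resLevel h f) n = ModularFormClass.qCoeff ⇑f n := rfl

lemma resLevel_injective (h : M' ∣ M) : Function.Injective (resLevel h) := by
  intro f g hfg
  ext z
  have := congrArg (fun F : CuspForm (CongruenceSubgroup.Gamma0 M) 2 => F z) hfg
  exact this

lemma heckeOp_resLevel [NeZero M'] [NeZero M] (h : M' ∣ M) (ℓ : Nat.Primes) (hℓ : ¬ (ℓ : ℕ) ∣ M)
    (f : CuspForm (CongruenceSubgroup.Gamma0 M') 2) :
    heckeOp M 2 ℓ (resLevel h f) = resLevel h (heckeOp M' 2 ℓ f) := by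
  have hℓ' : ¬ (ℓ : ℕ) ∣ M' := fun h' => hℓ (h'.trans h)
  apply eq_of_qCoeff_eq
  intro n
  rw [qCoeff_heckeOp_two, qCoeff_resLevel, qCoeff_resLevel, qCoeff_resLevel, qCoeff_heckeOp_two,
    if_neg hℓ, if_neg hℓ']

end Level

/-! ### Density: the Hecke algebra outside more primes -/

section Rational

variable {N p : ℕ} [NeZero N] {S₀ : Finset ℕ}
  {J : Type*} [AddCommGroup J] [Module HeckeAlg J] [DistribMulAction GQ J]
  [SMulCommClass GQ HeckeAlg J]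

/-- `T_ℓ` (`ℓ ∤ N p`) is congruent modulo `p` to a polynomial in the `T_{ℓ'}`, `ℓ' ∉ S'`. -/
lemma exists_congr_T (hJ : ESInput N p (↑S₀ : Set ℕ) J) (hp : p.Prime) (hpS : p ∈ S₀)
    (hNS : ∀ q : ℕ, q.Prime → q ∣ N → q ∈ S₀) (S' : Finset ℕ) {ℓ : ℕ} (hℓ : ℓ.Prime)
    (hℓS : ℓ ∉ S₀) :
    ∃ (ℓ' : ℕ) (hℓ' : ℓ'.Prime) (hℓ'S : ℓ' ∉ S₀) (_ : ℓ' ∉ S') (k : ℕ),
      heckeAlgebra.T (N := N) (k := 2) hℓ (fun h => hℓS (hNS ℓ hℓ h)) hℓS -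
        tk (heckeAlgebra.T (N := N) (k := 2) hℓ' (fun h => hℓ'S (hNS ℓ' hℓ' h)) hℓ'S)
          (ℓ' : heckeAlgebra N 2 (↑S₀ : Set ℕ)) k ∈
        Ideal.span {(p : heckeAlgebra N 2 (↑S₀ : Set ℕ))} := by
  classical
  have hnd : ∀ {ℓ : ℕ}, ℓ.Prime → ℓ ∉ S₀ → ¬ ℓ ∣ N * p := by
    intro ℓ hℓ hℓS hdvd
    rcases (Nat.Prime.dvd_mul hℓ).mp hdvd with h | h
    · exact hℓS (hNS ℓ hℓ h)
    · exact hℓS (((Nat.prime_dvd_prime_iff_eq hℓ hp).mp h) ▸ hpS)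
  have hne : ∀ {ℓ : ℕ}, ℓ ∉ S₀ → ℓ ≠ p := fun h h' => h (h' ▸ hpS)
  obtain ⟨m, hm⟩ := hJ.faithful 1
  have hpm0 : p ^ m ≠ 0 := pow_ne_zero _ hp.ne_zero
  haveI : NeZero (p ^ m) := ⟨hpm0⟩
  obtain ⟨ζ, hζ⟩ := HasEnoughRootsOfUnity.exists_primitiveRoot (AlgebraicClosure ℚ) (p ^ m)
  obtain ⟨L₂, hL₂fin, hL₂⟩ := hJ.finiteLevel m
  set L₃ : IntermediateField ℚ (AlgebraicClosure ℚ) := IntermediateField.adjoin ℚ {ζ} with hL₃
  haveI hL₃fin : FiniteDimensional ℚ L₃ :=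
    IntermediateField.adjoin.finiteDimensional ((Algebra.IsAlgebraic.isAlgebraic ζ).isIntegral)
  have hζL : ζ ∈ L₂ ⊔ L₃ :=
    (le_sup_right : L₃ ≤ L₂ ⊔ L₃) (IntermediateField.mem_adjoin_simple_self ℚ ζ)
  obtain ⟨B, hB, φ, hφ⟩ := Fermat.Agent.Frob.exists_frobenius ℓ hℓ
  obtain ⟨ℓ', hℓ', hℓ'S', A, hA, ψ, hψ, k, hk⟩ :=
    frobeniusDensity (L₂ ⊔ L₃) inferInstance φ (S₀ ∪ S')
  have hℓ'S : ℓ' ∉ S₀ := fun h => hℓ'S' (Finset.mem_union_left _ h)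
  have hℓ'S'' : ℓ' ∉ S' := fun h => hℓ'S' (Finset.mem_union_right _ h)
  refine ⟨ℓ', hℓ', hℓ'S, hℓ'S'', k, ?_⟩
  set E := Module.End HeckeAlg (torsSub J p m) with hE
  have hg : actTors J p m (ψ ^ k) = actTors J p m φ :=
    actTors_eq_of_agree hL₂ fun z hz => hk z ((le_sup_left : L₂ ≤ L₂ ⊔ L₃) hz)
  have e₁ := actTors_quadratic (N := N) (J := J) hJ.frobenius m hℓ' (hnd hℓ' hℓ'S) hA hψ k
  have e₂ := actTors_quadratic (N := N) (J := J) hJ.frobenius m hℓ (hnd hℓ hℓS) hB hφ 1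
  rw [hg] at e₁
  rw [pow_one, tk_one, pow_one] at e₂
  have hz : ζ ^ (ℓ' ^ k) = ζ ^ ℓ := by
    rw [← frobenius_pow_zeta p hp m hζ hℓ' (hne hℓ'S) hA hψ, hk ζ hζL]
    exact frobenius_rootOfUnity hB (((Nat.coprime_primes hℓ hp).mpr (hne hℓS)).pow_right m)
      hpm0 hφ hζ.pow_eq_one
  have hz' := algebraMap_eq_of_congr (J := J) (p := p) m (natCast_eq_of_pow_eq p hp m hζ hz)
  rw [Nat.cast_pow] at hz'
  rw [hz'] at e₁
  have hxy : actTors J p m φ * actTors J p m φ⁻¹ = 1 := by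
    rw [← map_mul, mul_inv_cancel, map_one]
  have f₁ := scalar_of_quadratic (P := HeckeAlg) (E := E) _ _ _ _ e₁ hxy
  have f₂ := scalar_of_quadratic (P := HeckeAlg) (E := E) _ _ _ _ e₂ hxy
  rw [f₁] at f₂
  -- transfer to the Hecke algebra
  have key := hm (MvPolynomial.X ⟨⟨ℓ, hℓ⟩, hℓS⟩ - tracePoly S₀ ℓ' hℓ' hℓ'S k) (fun z hz => by
    rw [map_sub, inclS_tracePoly, sub_smul, sub_eq_zero]
    have hX : inclS (↑S₀ : Set ℕ) (MvPolynomial.X ⟨⟨ℓ, hℓ⟩, hℓS⟩) = heckeGen ⟨ℓ, hℓ⟩ :=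
      MvPolynomial.rename_X _ _
    rw [hX]
    have h1 := congrArg (fun f : Module.End HeckeAlg (torsSub J p m) =>
      ((f (⟨z, hz⟩ : torsSub J p m) : torsSub J p m) : J)) f₂
    exact h1.symm)
  rw [map_sub, evS_tracePoly ℓ' hℓ' hℓ'S (fun h => hℓ'S (hNS ℓ' hℓ' h)), pow_one] at key
  have hX : evS N (↑S₀ : Set ℕ) (MvPolynomial.X ⟨⟨ℓ, hℓ⟩, hℓS⟩) =
      heckeAlgebra.T (N := N) (k := 2) hℓ (fun h => hℓS (hNS ℓ hℓ h)) hℓS :=
    evS_X_of_not_dvd N _ ⟨⟨ℓ, hℓ⟩, hℓS⟩ _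
  rwa [hX] at key

/-- a non-zero multiple of `T_ℓ` (`ℓ ∤ N p`) lies in the Hecke algebra outside `S'`. -/
theorem exists_smul_T_mem (hJ : ESInput N p (↑S₀ : Set ℕ) J) (hp : p.Prime) (hpS : p ∈ S₀)
    (hNS : ∀ q : ℕ, q.Prime → q ∣ N → q ∈ S₀) (S' : Finset ℕ) {ℓ : ℕ} (hℓ : ℓ.Prime)
    (hℓS : ℓ ∉ S₀) (hℓN : ¬ ℓ ∣ N) :
    ∃ c : ℤ, c ≠ 0 ∧ c • heckeTLin 2 hℓ hℓN ∈ heckeAlgebra N 2 (↑S' : Set ℕ) := by
  classical
  set 𝕋 := heckeAlgebra N 2 (↑S₀ : Set ℕ) with h𝕋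
  haveI : Module.Finite ℤ 𝕋 := Fermat.Agent.S22.result N 2 (↑S₀ : Set ℕ)
  set 𝕋' : Subalgebra ℤ 𝕋 := (heckeAlgebra N 2 (↑S' : Set ℕ)).comap 𝕋.val with h𝕋'
  set I : Ideal 𝕋 := Ideal.span {(p : 𝕋)} with hI
  -- every element of `𝕋` is congruent modulo `p` to an element of `𝕋'`
  have hsup : ∀ x : 𝕋, ∃ y ∈ 𝕋', x - y ∈ I := by
    have hmap : (⊤ : Subalgebra ℤ 𝕋).map (Ideal.Quotient.mkₐ ℤ I) ≤
        𝕋'.map (Ideal.Quotient.mkₐ ℤ I) := by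
      have htop : (⊤ : Subalgebra ℤ 𝕋) = Algebra.adjoin ℤ
          ((Subtype.val : 𝕋 → Module.End ℂ (CuspForm (CongruenceSubgroup.Gamma0 N) 2)) ⁻¹'
            (heckeGenerators N 2 (↑S₀ : Set ℕ))) :=
        (Algebra.adjoin_adjoin_coe_preimage (R := ℤ)).symm
      rw [htop, AlgHom.map_adjoin]
      refine Algebra.adjoin_le ?_
      rintro _ ⟨x, hx, rfl⟩
      rcases hx with ⟨r, hr, hrN, hrS, hx⟩ | ⟨r, hrN, hr, hrS, hx⟩
      · obtain ⟨r', hr', hr'S, hr'S', k, hk⟩ := exists_congr_T hJ hp hpS hNS S' hr hrS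
        set y := tk (heckeAlgebra.T (N := N) (k := 2) hr' (fun h => hr'S (hNS r' hr' h)) hr'S)
          (r' : heckeAlgebra N 2 (↑S₀ : Set ℕ)) k with hy
        have hyT : y ∈ 𝕋' := by
          have hT : heckeAlgebra.T (N := N) (k := 2) hr' (fun h => hr'S (hNS r' hr' h)) hr'S ∈
              𝕋' := by
            rw [h𝕋', Subalgebra.mem_comap]
            exact heckeTLin_mem_heckeAlgebra hr' (fun h => hr'S (hNS r' hr' h)) hr'S'
          have hc : ((r' : ℕ) : heckeAlgebra N 2 (↑S₀ : Set ℕ)) ∈ 𝕋' := natCast_mem 𝕋' r'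
          have h1 := map_tk (𝕋'.val : 𝕋' →+* 𝕋) ⟨_, hT⟩ ⟨_, hc⟩ k
          rw [hy]
          have h2 : tk (heckeAlgebra.T (N := N) (k := 2) hr' (fun h => hr'S (hNS r' hr' h)) hr'S)
              (r' : heckeAlgebra N 2 (↑S₀ : Set ℕ)) k =
              (𝕋'.val : 𝕋' →+* 𝕋) (tk ⟨_, hT⟩ ⟨_, hc⟩ k) := h1.symm
          rw [h2]
          exact (tk (⟨_, hT⟩ : 𝕋') ⟨_, hc⟩ k).2
        have hxT : x = heckeAlgebra.T (N := N) (k := 2) hr (fun h => hrS (hNS r hr h)) hrS :=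
          Subtype.ext hx
        refine ⟨y, hyT, ?_⟩
        have h3 : Ideal.Quotient.mk I x = Ideal.Quotient.mk I y := by
          rw [Ideal.Quotient.eq, hxT]
          exact hk
        exact h3.symm
      · exact absurd (hNS r hr hrN) hrS
    intro x
    obtain ⟨y, hy, hxy⟩ := hmap (⟨x, trivial, rfl⟩ : (Ideal.Quotient.mkₐ ℤ I) x ∈
      (⊤ : Subalgebra ℤ 𝕋).map (Ideal.Quotient.mkₐ ℤ I))
    refine ⟨y, hy, ?_⟩
    rw [← Ideal.Quotient.eq]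
    exact hxy.symm
  -- Nakayama
  have hle : (⊤ : Submodule ℤ 𝕋) ≤ Subalgebra.toSubmodule 𝕋' ⊔
      (Ideal.span {(p : ℤ)}) • (⊤ : Submodule ℤ 𝕋) := by
    intro x _
    obtain ⟨y, hy, hxy⟩ := hsup x
    obtain ⟨z, hz⟩ := Ideal.mem_span_singleton'.mp hxy
    have : x = y + (p : ℤ) • z := by
      rw [zsmul_eq_mul]
      push_cast
      rw [mul_comm, hz]
      ring
    rw [this]
    refine Submodule.add_mem_sup hy (Submodule.smul_mem_smul (Ideal.mem_span_singleton_self _)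
      trivial)
  obtain ⟨c, hc, hcle⟩ := Submodule.exists_sub_one_mem_and_smul_le_of_fg_of_le_sup
    (Module.Finite.fg_top : (⊤ : Submodule ℤ 𝕋).FG) le_rfl hle
  refine ⟨c, ?_, ?_⟩
  · rintro rfl
    rw [zero_sub, Ideal.neg_mem_iff, Ideal.mem_span_singleton] at hc
    have h1 := Int.natCast_dvd_natCast.mp (by simpa using hc : ((p : ℕ) : ℤ) ∣ ((1 : ℕ) : ℤ))
    exact hp.one_lt.ne' (Nat.dvd_one.mp h1)
  · have h1 : c • (heckeAlgebra.T (N := N) (k := 2) hℓ hℓN hℓS : 𝕋) ∈ Subalgebra.toSubmodule 𝕋' :=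
      hcle (Submodule.smul_mem_pointwise_smul _ c _ trivial)
    exact h1

end Rational

/-! ### Surjectivity of the evaluation map and eigenvectors -/

section Eval

variable {N : ℕ} [NeZero N] {S : Finset ℕ}

lemma evS_surjective (N : ℕ) [NeZero N] (S : Set ℕ) : Function.Surjective (evS N S) := by
  rintro ⟨t, ht⟩
  refine Algebra.adjoin_induction (p := fun t ht => ∃ x, evS N S x = ⟨t, ht⟩) ?_ ?_ ?_ ?_ ht
  · rintro T hT
    rcases hT with ⟨r, hr, hrN, hrS, rfl⟩ | ⟨r, hrN, hr, hrS, rfl⟩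
    · refine ⟨MvPolynomial.X ⟨⟨r, hr⟩, hrS⟩, ?_⟩
      rw [evS, MvPolynomial.aeval_X, genS, dif_neg hrN]
      rfl
    · refine ⟨MvPolynomial.X ⟨⟨r, hr⟩, hrS⟩, ?_⟩
      rw [evS, MvPolynomial.aeval_X, genS, dif_pos hrN]
      rfl
  · intro r
    refine ⟨algebraMap ℤ _ r, ?_⟩
    rw [AlgHom.commutes]
    rfl
  · rintro x y hx hy ⟨a, ha⟩ ⟨b, hb⟩
    exact ⟨a + b, by rw [map_add, ha, hb]; rfl⟩
  · rintro x y hx hy ⟨a, ha⟩ ⟨b, hb⟩
    exact ⟨a * b, by rw [map_mul, ha, hb]; rfl⟩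

lemma evS_apply_of_eigen (c : HeckeAlgS (↑S : Set ℕ) →+* ℂ)
    (u : CuspForm (CongruenceSubgroup.Gamma0 N) 2)
    (hu : ∀ ℓ : {ℓ : Nat.Primes // (ℓ : ℕ) ∉ (↑S : Set ℕ)},
      heckeOp N 2 ℓ.1 u = c (MvPolynomial.X ℓ) • u) (x : HeckeAlgS (↑S : Set ℕ)) :
    ((evS N (↑S : Set ℕ) x : heckeAlgebra N 2 (↑S : Set ℕ)) : Module.End ℂ _) u = c x • u := by
  induction x using MvPolynomial.induction_on with
  | C a =>
    have h1 : evS N (↑S : Set ℕ) (MvPolynomial.C a) = (a : heckeAlgebra N 2 (↑S : Set ℕ)) := by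
      rw [evS, MvPolynomial.aeval_C]; simp
    have h2 : c (MvPolynomial.C a) = (a : ℂ) := by
      have : (MvPolynomial.C a : HeckeAlgS (↑S : Set ℕ)) = (a : HeckeAlgS (↑S : Set ℕ)) := by simp
      rw [this, map_intCast]
    rw [h1, h2, Int.cast_smul_eq_zsmul]
    simp
  | add p q hp hq =>
    rw [map_add, map_add, add_smul, ← hp, ← hq]
    rfl
  | mul_X p ℓ hp =>
    have h1 : ((evS N (↑S : Set ℕ) (MvPolynomial.X ℓ) : heckeAlgebra N 2 (↑S : Set ℕ)) :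
        Module.End ℂ _) = heckeOp N 2 ℓ.1 := by
      rw [evS, MvPolynomial.aeval_X, genS]
      by_cases h : (ℓ.1 : ℕ) ∣ N
      · rw [dif_pos h, heckeOp_of_dvd h]; rfl
      · rw [dif_neg h, heckeOp_of_not_dvd h]; rfl
    rw [map_mul, map_mul]
    change ((evS N (↑S : Set ℕ) p : heckeAlgebra N 2 (↑S : Set ℕ)) : Module.End ℂ _)
      (((evS N (↑S : Set ℕ) (MvPolynomial.X ℓ) : heckeAlgebra N 2 (↑S : Set ℕ)) :
        Module.End ℂ _) u) = _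
    rw [h1, hu, map_smul, hp, smul_smul, mul_comm]

end Eval

/-! ### The separation theorem -/

section Separate

variable {M' M : ℕ} [NeZero M'] [NeZero M]

/-- **Separation of a newform from lower levels.** -/
theorem exists_separating (hM : M' ∣ M) (hne : M' ≠ M)
    {g : CuspForm (CongruenceSubgroup.Gamma0 M) 2} (hg : g.IsNewform) (S : Finset ℕ)
    (hMS : ∀ q : ℕ, q.Prime → q ∣ M → q ∈ S)
    (hrat : ∀ (ℓ : ℕ) (hℓ : ℓ.Prime) (hℓM : ¬ ℓ ∣ M), ∃ c : ℤ, c ≠ 0 ∧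
      c • heckeTLin 2 hℓ hℓM ∈ heckeAlgebra M 2 (↑S : Set ℕ))
    (chig : heckeAlgebra M 2 (↑S : Set ℕ) →+* ℂ)
    (hchig : ∀ (ℓ : ℕ) (hℓ : ℓ.Prime) (hℓM : ¬ ℓ ∣ M) (hℓS : ℓ ∉ (↑S : Set ℕ)),
      chig (heckeAlgebra.T hℓ hℓM hℓS) = ModularFormClass.qCoeff g ℓ) :
    ∃ t : HeckeAlgS (↑S : Set ℕ), evS M' (↑S : Set ℕ) t = 0 ∧
      chig (evS M (↑S : Set ℕ) t) ≠ 0 := by
  classical
  by_contra hcon
  push Not at hcon
  -- a character at level `M'`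
  set c : HeckeAlgS (↑S : Set ℕ) →+* ℂ := chig.comp (evS M (↑S : Set ℕ) : _ →+* _) with hc
  have hcX : ∀ ℓ : {ℓ : Nat.Primes // (ℓ : ℕ) ∉ (↑S : Set ℕ)},
      c (MvPolynomial.X ℓ) = ModularFormClass.qCoeff g ℓ.1 := by
    intro ℓ
    have hℓM : ¬ (ℓ.1 : ℕ) ∣ M := fun h => ℓ.2 (hMS _ ℓ.1.2 h)
    rw [hc, RingHom.comp_apply]
    change chig (evS M (↑S : Set ℕ) (MvPolynomial.X ℓ)) = _
    rw [evS_X_of_not_dvd M _ ℓ hℓM, hchig]
  set e' : HeckeAlgS (↑S : Set ℕ) →+* heckeAlgebra M' 2 (↑S : Set ℕ) :=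
    (evS M' (↑S : Set ℕ)).toRingHom with he'
  have hker : RingHom.ker e' ≤ RingHom.ker c := by
    intro t ht
    exact hcon t ht
  have hsurj : Function.Surjective e' := evS_surjective M' (↑S : Set ℕ)
  set χ' := RingHom.liftOfSurjective e' hsurj ⟨c, hker⟩ with hχ'
  have hχ'app : ∀ x, χ' (evS M' (↑S : Set ℕ) x) = c x := by
    intro x
    exact RingHom.liftOfRightInverse_comp_apply _ _ _ ⟨c, hker⟩ x
  obtain ⟨v, hv0, hv⟩ := exists_cuspForm_of_char M' (↑S : Set ℕ) χ'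
  -- `v` as a form of level `M`
  set w := resLevel hM v with hw
  have hw0 : w ≠ 0 := fun h => hv0 (resLevel_injective hM (by rw [← hw, h, map_zero]))
  have hwe : ∀ ℓ : {ℓ : Nat.Primes // (ℓ : ℕ) ∉ (↑S : Set ℕ)},
      heckeOp M 2 ℓ.1 w = c (MvPolynomial.X ℓ) • w := by
    intro ℓ
    have hℓM : ¬ (ℓ.1 : ℕ) ∣ M := fun h => ℓ.2 (hMS _ ℓ.1.2 h)
    have hℓM' : ¬ (ℓ.1 : ℕ) ∣ M' := fun h => hℓM (h.trans hM)
    rw [hw, heckeOp_resLevel hM ℓ.1 hℓM, heckeOp_of_not_dvd hℓM']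
    have h1 := hv (evS M' (↑S : Set ℕ) (MvPolynomial.X ℓ))
    rw [hχ'app, evS_X_of_not_dvd M' _ ℓ hℓM'] at h1
    have h2 : heckeTLin 2 ℓ.1.2 hℓM' v = c (MvPolynomial.X ℓ) • v := h1
    rw [h2, map_smul]
  have hge : ∀ ℓ : {ℓ : Nat.Primes // (ℓ : ℕ) ∉ (↑S : Set ℕ)},
      heckeOp M 2 ℓ.1 g = c (MvPolynomial.X ℓ) • g := by
    intro ℓ
    rw [heckeOp_eq_of_isNormalizedEigenform hg.1, hcX]
  have hwt : ∀ t : heckeAlgebra M 2 (↑S : Set ℕ), (t : Module.End ℂ _) w = chig t • w := by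
    intro t
    obtain ⟨x, rfl⟩ := evS_surjective M (↑S : Set ℕ) t
    exact evS_apply_of_eigen c w hwe x
  have hgt : ∀ t : heckeAlgebra M 2 (↑S : Set ℕ), (t : Module.End ℂ _) g = chig t • g := by
    intro t
    obtain ⟨x, rfl⟩ := evS_surjective M (↑S : Set ℕ) t
    exact evS_apply_of_eigen c g hge x
  have hg0 : g ≠ 0 := hg.ne_zero
  -- all `T_ℓ` with `ℓ ∤ M`
  have hvℓ : ∀ ℓ : Nat.Primes, ¬ (ℓ : ℕ) ∣ M →
      heckeOp M' 2 ℓ v = ModularFormClass.qCoeff g ℓ • v := by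
    intro ℓ hℓM
    obtain ⟨d, hd0, hd⟩ := hrat ℓ ℓ.2 hℓM
    have hgℓ := heckeOp_eq_of_isNormalizedEigenform hg.1 ℓ
    rw [heckeOp_of_not_dvd hℓM] at hgℓ
    have h1 := hgt ⟨_, hd⟩
    have h2 := hwt ⟨_, hd⟩
    simp only [LinearMap.smul_apply] at h1 h2
    rw [hgℓ, ← Int.cast_smul_eq_zsmul ℂ, smul_smul] at h1
    have h3 : (d : ℂ) * ModularFormClass.qCoeff g ℓ = chig ⟨_, hd⟩ :=
      smul_left_injective ℂ hg0 h1
    rw [← h3, ← Int.cast_smul_eq_zsmul ℂ, mul_smul] at h2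
    have h4 : heckeTLin 2 ℓ.2 hℓM w = ModularFormClass.qCoeff g ℓ • w :=
      smul_right_injective _ (Int.cast_ne_zero.mpr hd0 : (d : ℂ) ≠ 0) h2
    rw [← heckeOp_of_not_dvd (p := ℓ) hℓM, hw, heckeOp_resLevel hM ℓ hℓM, ← map_smul] at h4
    exact resLevel_injective hM h4
  -- the simultaneous eigenspace at level `M'`
  set W : Submodule ℂ (CuspForm (CongruenceSubgroup.Gamma0 M') 2) :=
    ⨅ ℓ : {ℓ : Nat.Primes // ¬ (ℓ : ℕ) ∣ M},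
      (heckeOp M' 2 ℓ.1).eigenspace (ModularFormClass.qCoeff g ℓ.1) with hW
  have hmemW : ∀ x, x ∈ W ↔ ∀ ℓ : Nat.Primes, ¬ (ℓ : ℕ) ∣ M →
      heckeOp M' 2 ℓ x = ModularFormClass.qCoeff g ℓ • x := by
    intro x
    rw [hW, Submodule.mem_iInf]
    constructor
    · intro h ℓ hℓ
      exact Module.End.mem_eigenspace_iff.mp (h ⟨ℓ, hℓ⟩)
    · intro h ℓ
      exact Module.End.mem_eigenspace_iff.mpr (h ℓ.1 ℓ.2)
  have hmap : ∀ p : Nat.Primes, ∀ x ∈ W, heckeOp M' 2 p x ∈ W := by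
    intro p x hx
    rw [hmemW] at hx ⊢
    intro ℓ hℓ
    have h1 : heckeOp M' 2 ℓ (heckeOp M' 2 p x) = heckeOp M' 2 p (heckeOp M' 2 ℓ x) :=
      congrArg (fun (A : Module.End ℂ _) => A x) (heckeOp_comm ℓ p).eq
    rw [h1, hx ℓ hℓ, map_smul]
  have hWne : Nontrivial W := by
    refine (Submodule.nontrivial_iff_ne_bot).mpr ((Submodule.ne_bot_iff _).mpr ⟨v, ?_, hv0⟩)
    exact (hmemW v).mpr hvℓ
  obtain ⟨ψ, u, hu0, hu⟩ := exists_joint_eigenvector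
    (fun p : Nat.Primes => (heckeOp M' 2 p).restrict (hmap p)) (by
      intro j k
      apply LinearMap.ext
      intro x
      apply Subtype.ext
      exact congrArg (fun (A : Module.End ℂ (CuspForm (CongruenceSubgroup.Gamma0 M') 2)) =>
        A x.1) (heckeOp_comm j k).eq)
  have hu0' : (u : CuspForm (CongruenceSubgroup.Gamma0 M') 2) ≠ 0 := fun h => hu0 (Subtype.ext h)
  have hu' : ∀ p, heckeOp M' 2 p (u : CuspForm (CongruenceSubgroup.Gamma0 M') 2) =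
      ψ p • (u : CuspForm (CongruenceSubgroup.Gamma0 M') 2) := by
    intro p
    exact congrArg Subtype.val (hu p)
  obtain ⟨f, hf, hfe, hfψ⟩ := exists_isNormalizedEigenform_of_eigen hu' hu0'
  refine hg.2 M' hM hne ⟨f, hf, fun ℓ hℓ hℓM => ?_⟩
  have h1 := (hmemW _).mp u.2 ⟨ℓ, hℓ⟩ hℓM
  rw [hu' ⟨ℓ, hℓ⟩] at h1
  have h2 : ψ ⟨ℓ, hℓ⟩ = ModularFormClass.qCoeff g ℓ := smul_left_injective ℂ hu0' h1
  have h3 := hfψ ⟨ℓ, hℓ⟩
  rw [h2] at h3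
  exact h3

/-- The rationality hypothesis of `exists_separating` from Eichler--Shimura modules. -/
theorem exists_smul_heckeTLin_mem (S : Finset ℕ)
    (hES : ∀ ℓ : ℕ, ℓ.Prime → ¬ ℓ ∣ M → ∃ (p : ℕ) (S₀ : Finset ℕ) (J : Type)
      (_ : AddCommGroup J) (_ : Module HeckeAlg J) (_ : DistribMulAction GQ J)
      (_ : SMulCommClass GQ HeckeAlg J), ESInput M p (↑S₀ : Set ℕ) J ∧ p.Prime ∧ p ∈ S₀ ∧
        (∀ q : ℕ, q.Prime → q ∣ M → q ∈ S₀) ∧ ℓ ∉ S₀) :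
    ∀ (ℓ : ℕ) (hℓ : ℓ.Prime) (hℓM : ¬ ℓ ∣ M), ∃ c : ℤ, c ≠ 0 ∧
      c • heckeTLin 2 hℓ hℓM ∈ heckeAlgebra M 2 (↑S : Set ℕ) := by
  intro ℓ hℓ hℓM
  obtain ⟨p, S₀, J, _, _, _, _, hJ, hp, hpS, hMS₀, hℓS⟩ := hES ℓ hℓ hℓM
  exact exists_smul_T_mem hJ hp hpS hMS₀ S hℓ hℓS hℓM

end Separate

end Fermat.Agent.S35aux

end
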