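import Fermat.Statements.S53
import Fermat.Agent.S53_Tangent

set_option autoImplicit false

/-!
# S53, part C: assembly of the universal deformation ring from pro-representability
-/

namespace Fermat.Agent.S53norm

open IsLocalRing Matrix GaloisRep
open scoped TensorProduct

/-- The conclusion of the pro-representability theorem. -/
def ProRepConclusion (𝒪 : Type) [CommRing 𝒪] [IsLocalRing 𝒪] (X : Type)
    (F : ∀ ⦃A : Type⦄ [CommRing A] [IsLocalRing A] [Algebra 𝒪 A], (X → A) → Prop) : Prop :=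
  ∃ (R : Type) (_ : CommRing R) (_ : IsLocalRing R) (_ : IsNoetherianRing R)
    (_ : IsAdicComplete (maximalIdeal R) R) (_ : Algebra 𝒪 R) (_ : IsLocalHom (algebraMap 𝒪 R)),
    Function.Surjective (residue R ∘ algebraMap 𝒪 R) ∧ ∃ xR : X → R,
    (∀ (B : Type) [CommRing B] [IsLocalRing B] [Algebra 𝒪 B], IsArtinianTestAlgebra 𝒪 B →
      ∀ q : R →ₐ[𝒪] B, IsLocalHom (q : R →+* B) → Function.Surjective q → F (q ∘ xR)) ∧
    (∀ (A : Type) [CommRing A] [IsLocalRing A] [IsNoetherianRing A]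
      [IsAdicComplete (maximalIdeal A) A] [Algebra 𝒪 A] [IsLocalHom (algebraMap 𝒪 A)],
      Function.Surjective (residue A ∘ algebraMap 𝒪 A) → ∀ y : X → A,
      (∀ (B : Type) [CommRing B] [IsLocalRing B] [Algebra 𝒪 B], IsArtinianTestAlgebra 𝒪 B →
        ∀ q : A →ₐ[𝒪] B, IsLocalHom (q : A →+* B) → Function.Surjective q → F (q ∘ y)) →
      ∃! φ : R →ₐ[𝒪] A, IsLocalHom (φ : R →+* A) ∧ ∀ i, φ (xR i) = y i)

section Quot

variable {𝒪 : Type} [CommRing 𝒪] [IsLocalRing 𝒪]
variable {A : Type} [CommRing A] [IsLocalRing A] [Algebra 𝒪 A]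

lemma isLocalRing_quot (n : ℕ) : IsLocalRing (A ⧸ maximalIdeal A ^ (n + 1)) := by
  haveI : Nontrivial (A ⧸ maximalIdeal A ^ (n + 1)) :=
    Ideal.Quotient.nontrivial_iff.mpr (fun h => by
      have h1 : (maximalIdeal A ^ (n + 1)) ≤ maximalIdeal A :=
        Ideal.pow_le_self (Nat.succ_ne_zero n)
      rw [h, top_le_iff] at h1
      exact Ideal.IsMaximal.ne_top inferInstance h1)
  exact IsLocalRing.of_surjective' (Ideal.Quotient.mk _) Ideal.Quotient.mk_surjective

lemma isLocalHom_quot (n : ℕ) :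
    haveI := isLocalRing_quot (A := A) n
    IsLocalHom ((Ideal.Quotient.mkₐ 𝒪 (maximalIdeal A ^ (n + 1)) :
      A →ₐ[𝒪] A ⧸ maximalIdeal A ^ (n + 1)) : A →+* A ⧸ maximalIdeal A ^ (n + 1)) := by
  haveI := isLocalRing_quot (A := A) n
  exact IsLocalHom.of_surjective _ Ideal.Quotient.mk_surjective

/-- The Artinian quotients of a complete Noetherian test algebra. -/
lemma isArtinianTestAlgebra_quot [IsNoetherianRing A] [IsLocalHom (algebraMap 𝒪 A)]
    (hs : Function.Surjective (residue A ∘ algebraMap 𝒪 A)) (n : ℕ) :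
    haveI := isLocalRing_quot (A := A) n
    IsArtinianTestAlgebra 𝒪 (A ⧸ maximalIdeal A ^ (n + 1)) := by
  haveI := isLocalRing_quot (A := A) n
  have hloc := isLocalHom_quot (𝒪 := 𝒪) (A := A) n
  refine ⟨?_, ?_, ?_⟩
  · have h1 : algebraMap 𝒪 (A ⧸ maximalIdeal A ^ (n + 1)) =
        ((Ideal.Quotient.mkₐ 𝒪 (maximalIdeal A ^ (n + 1)) :
          A →ₐ[𝒪] A ⧸ maximalIdeal A ^ (n + 1)) : A →+* _).comp (algebraMap 𝒪 A) := rfl
    rw [h1]
    exact RingHom.isLocalHom_comp _ _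
  · intro y
    obtain ⟨y, rfl⟩ := residue_surjective y
    obtain ⟨y, rfl⟩ := Ideal.Quotient.mk_surjective y
    obtain ⟨z, hz⟩ := hs (residue A y)
    refine ⟨z, ?_⟩
    rw [Function.comp_apply, ← sub_eq_zero, ← map_sub, residue_eq_zero_iff] at hz ⊢
    have h1 : algebraMap 𝒪 (A ⧸ maximalIdeal A ^ (n + 1)) z -
        Ideal.Quotient.mk (maximalIdeal A ^ (n + 1)) y =
        Ideal.Quotient.mk (maximalIdeal A ^ (n + 1)) (algebraMap 𝒪 A z - y) := by
      rw [map_sub]; rfl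
    rw [h1]
    intro hu
    exact hz (hloc.map_nonunit _ hu)
  · refine (isArtinianRing_iff_isNilpotent_maximalIdeal _).mpr ⟨n + 1, ?_⟩
    have h1 : maximalIdeal (A ⧸ maximalIdeal A ^ (n + 1)) ≤
        (maximalIdeal A).map (Ideal.Quotient.mk (maximalIdeal A ^ (n + 1))) := by
      intro y hy
      obtain ⟨y, rfl⟩ := Ideal.Quotient.mk_surjective y
      refine Ideal.mem_map_of_mem _ ?_
      intro hu
      exact hy (hu.map _)
    refine le_bot_iff.mp ((Ideal.pow_right_mono h1 _).trans ?_)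
    rw [← Ideal.map_pow, Ideal.map_quotient_self]

/-- Separation of a complete ring by its Artinian quotients. -/
lemma eq_of_forall_quot [IsAdicComplete (maximalIdeal A) A] {a b : A}
    (h : ∀ n : ℕ, Ideal.Quotient.mk (maximalIdeal A ^ (n + 1)) a =
      Ideal.Quotient.mk (maximalIdeal A ^ (n + 1)) b) : a = b := by
  rw [← sub_eq_zero]
  refine IsHausdorff.haus (I := maximalIdeal A) inferInstance _ fun n => ?_
  rw [SModEq.sub_mem, sub_zero, smul_eq_mul, Ideal.mul_top]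
  exact Ideal.pow_le_pow_right (Nat.le_succ n) (Ideal.Quotient.eq.mp (h n))

end Quot

variable {𝒪 : Type} [CommRing 𝒪] [IsLocalRing 𝒪]
variable {ρbar : ResidualGaloisRep (ResidueField 𝒪)} (D : NFData ρbar)
    {𝒟 : ∀ ⦃A : Type⦄ [CommRing A] [IsLocalRing A] [Algebra 𝒪 A], GaloisRepAdic A → Prop}

/-- Points over a complete Noetherian test algebra are determined by Artinian quotients. -/
lemma pt_iff_forall (h𝒟 : IsDeformationCondition 𝒪 𝒟) {A : Type} [CommRing A] [IsLocalRing A]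
    [IsNoetherianRing A] [IsAdicComplete (maximalIdeal A) A] [Algebra 𝒪 A]
    [IsLocalHom (algebraMap 𝒪 A)] (hs : Function.Surjective (residue A ∘ algebraMap 𝒪 A))
    (y : Idx → A) :
    Pt D 𝒟 y ↔ (∀ (B : Type) [CommRing B] [IsLocalRing B] [Algebra 𝒪 B],
      IsArtinianTestAlgebra 𝒪 B →
        ∀ q : A →ₐ[𝒪] B, IsLocalHom (q : A →+* B) → Function.Surjective q →
          Pt D 𝒟 (q ∘ y)) := by
  constructor
  · rintro ⟨ρ, h1, h2, h3, h4⟩ B _ _ _ hB q hq hqs
    refine ⟨ρ.baseChangeAlong (q : A →+* B) hq, h1.baseChangeAlong (q : A →+* B) hq,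
      (isLift_map D q hq).mpr h2, ?_,
      (h𝒟.iff_forall_surjective inferInstance hs ρ).mp h4 hB q hq hqs⟩
    intro t
    rw [mat_apply, Function.comp_apply, ← q.commutes, ← h3 t, mat_apply]
  · intro h
    have hn : ∀ n : ℕ,
        haveI := isLocalRing_quot (A := A) n
        Pt D 𝒟 (Ideal.Quotient.mkₐ 𝒪 (maximalIdeal A ^ (n + 1)) ∘ y) := by
      intro n
      haveI := isLocalRing_quot (A := A) n
      exact h _ (isArtinianTestAlgebra_quot hs n) _ (isLocalHom_quot n)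
        Ideal.Quotient.mk_surjective
    have hm1 : mat y 1 = 1 := by
      ext a b
      refine eq_of_forall_quot fun n => ?_
      haveI := isLocalRing_quot (A := A) n
      obtain ⟨ρ, h1, h2, h3, h4⟩ := hn n
      have h5 := congrFun (congrFun h1.map_one a) b
      rw [mat_apply] at h5
      refine Eq.trans h5 ?_
      rw [Matrix.one_apply, Matrix.one_apply]
      split_ifs <;> simp
    have hmm : ∀ σ τ, mat y (σ * τ) = mat y σ * mat y τ := by
      intro σ τ
      ext a b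
      refine eq_of_forall_quot fun n => ?_
      haveI := isLocalRing_quot (A := A) n
      obtain ⟨ρ, h1, h2, h3, h4⟩ := hn n
      have h5 := congrFun (congrFun (h1.map_mul σ τ) a) b
      rw [mat_apply] at h5
      refine Eq.trans h5 ?_
      rw [mat_comp, mat_comp, ← Matrix.map_mul]
      rfl
    have hcont : IsCont (mat y) := by
      intro n
      haveI := isLocalRing_quot (A := A) n
      have hart := (isArtinianTestAlgebra_quot (𝒪 := 𝒪) hs n).isArtinian
      obtain ⟨ρ, h1, h2, h3, h4⟩ := hn n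
      obtain ⟨L, hL, h5⟩ := h1.exists_fixing
      refine ⟨L, hL, fun σ hσ a b => ?_⟩
      have h6 := congrFun (congrFun (h5 σ hσ) a) b
      rw [Matrix.sub_apply]
      refine Ideal.pow_le_pow_right (Nat.le_succ n) (Ideal.Quotient.eq.mp ?_)
      refine Eq.trans h6 ?_
      rw [Matrix.one_apply, Matrix.one_apply]
      split_ifs <;> simp
    obtain ⟨ρ, h7⟩ := exists_adic y hm1 hmm hcont
    refine ⟨ρ, h7, ?_, ?_, ?_⟩
    · haveI := isLocalRing_quot (A := A) 0
      obtain ⟨ρ', h1, h2, h3, h4⟩ := hn 0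
      exact (isLift_map D _ (isLocalHom_quot 0)).mp h2
    · intro t
      refine eq_of_forall_quot fun n => ?_
      haveI := isLocalRing_quot (A := A) n
      obtain ⟨ρ', h1, h2, h3, h4⟩ := hn n
      exact h3 t
    · refine (h𝒟.iff_forall_surjective inferInstance hs ρ).mpr ?_
      intro B _ _ _ hB q hq hqs
      obtain ⟨ρ', h1, h2, h3, h4⟩ := h B hB q hq hqs
      exact h𝒟.of_isEquiv hB (isEquiv_of_hasMat h1 (h7.baseChangeAlong (q : A →+* B) hq)) h4

end Fermat.Agent.S53norm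

namespace Fermat.Agent.S53norm

open IsLocalRing Matrix GaloisRep

/-- Assembly. -/
theorem nonempty_of_proRep
    (𝒪 : Type) [CommRing 𝒪] [IsDomain 𝒪] [IsDiscreteValuationRing 𝒪]
    [IsAdicComplete (IsLocalRing.maximalIdeal 𝒪) 𝒪]
    (ρbar : ResidualGaloisRep (IsLocalRing.ResidueField 𝒪))
    (𝒟 : ∀ ⦃A : Type⦄ [CommRing A] [IsLocalRing A] [Algebra 𝒪 A], GaloisRepAdic A → Prop)
    (habs : ρbar.IsAbsolutelyIrreducible)
    (h𝒟 : GaloisRep.IsDeformationCondition 𝒪 𝒟)
    (D : NFData ρbar)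
    (hrep : ProRepConclusion 𝒪 Idx (Pt D 𝒟)) :
    Nonempty (GaloisRep.DeformationRingData 𝒪 ρbar 𝒟) := by
  obtain ⟨R, _, _, _, _, _, _, hsR, xR, hR1, hR2⟩ := hrep
  obtain ⟨ρR, h1, h2, h3, h4⟩ := (pt_iff_forall D h𝒟 hsR xR).mpr hR1
  refine ⟨{
    R := R
    residue_surjective := hsR
    absIrr := habs
    ρ := ρR
    isOfType := h4
    residual_isEquiv := D.residual_isEquiv h1 h2
    universal := ?_ }⟩
  intro A _ _ _ _ _ _ hsA ρA hA hres
  obtain ⟨r, hr1, hr2, hr3⟩ := D.exists_normalForm hres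
  let y : Idx → A := fun x => r x.1 x.2.1 x.2.2
  have hy : mat y = r := rfl
  have hPt : Pt D 𝒟 y := ⟨ρA, hr1, hr2, hr3, hA⟩
  obtain ⟨φ, ⟨hφ, hφx⟩, huniq⟩ := hR2 A hsA y ((pt_iff_forall D h𝒟 hsA y).mp hPt)
  have hφy : φ ∘ xR = y := funext hφx
  refine ⟨φ, ⟨hφ, ?_⟩, ?_⟩
  · refine isEquiv_of_hasMat (h1.baseChangeAlong (φ : R →+* A) hφ) (hr1.of_eq fun σ => ?_)
    rw [← hy, ← hφy]
    rfl
  · rintro φ' ⟨hφ', he⟩
    refine huniq φ' ⟨hφ', fun i => ?_⟩
    have h5 : φ' ∘ xR = y := by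
      refine eq_of_isEquiv D hsA (h1.baseChangeAlong (φ' : R →+* A) hφ') hr1 he
        ((isLift_map D φ' hφ').mpr h2) hr2 ?_ hr3
      intro t
      rw [mat_apply, Function.comp_apply, ← φ'.commutes, ← h3 t, mat_apply]
    exact congrFun h5 i

end Fermat.Agent.S53norm
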