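import Mathlib
import Fermat.Prelude.Def_GaloisRep_DeformationCondition
import Fermat.Agent.S53_ProRep

set_option autoImplicit false

/-!
Pro-representability, "points" form.
-/

namespace Fermat.Agent.S53rep

open IsLocalRing GaloisRep

section Basic

variable {𝒪 : Type} [CommRing 𝒪] [IsLocalRing 𝒪]

/-- A ring homomorphism from an Artinian local ring to a nontrivial ring is local. -/
lemma isLocalHom_of_artinian {A B : Type} [CommRing A] [IsLocalRing A] [IsArtinianRing A]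
    [CommRing B] [Nontrivial B] (f : A →+* B) : IsLocalHom f := by
  constructor
  intro a ha
  by_contra hcon
  have h1 : a ∈ maximalIdeal A := hcon
  obtain ⟨n, hn⟩ := (isArtinianRing_iff_isNilpotent_maximalIdeal A).mp ‹_›
  have h2 : a ^ n = 0 := by
    have := Ideal.pow_mem_pow h1 n
    rwa [hn] at this
  have h3 : f a ^ n = 0 := by rw [← map_pow, h2, map_zero]
  have h4 := ha.pow n
  rw [h3] at h4
  exact not_isUnit_zero h4

lemma finite_residueField_of_surjective [Finite (ResidueField 𝒪)] {A : Type} [CommRing A]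
    [IsLocalRing A] [Algebra 𝒪 A] (h1 : IsLocalHom (algebraMap 𝒪 A))
    (h2 : Function.Surjective (IsLocalRing.residue A ∘ algebraMap 𝒪 A)) :
    Finite (ResidueField A) := by
  have h3 : Function.Surjective (ResidueField.map (algebraMap 𝒪 A)) := by
    intro y
    obtain ⟨c, hc⟩ := h2 y
    exact ⟨residue 𝒪 c, hc⟩
  exact Finite.of_surjective _ h3

lemma finite_of_test [Finite (ResidueField 𝒪)] {A : Type} [CommRing A]
    [IsLocalRing A] [Algebra 𝒪 A] (hA : IsArtinianTestAlgebra 𝒪 A) : Finite A := by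
  have := finite_residueField_of_surjective hA.isLocalHom hA.residue_surjective
  have := hA.isArtinian
  obtain ⟨n, hn⟩ := (isArtinianRing_iff_isNilpotent_maximalIdeal A).mp ‹_›
  have h1 : Finite (A ⧸ (⊥ : Ideal A)) :=
    IsLocalRing.finite_quotient_iff.mpr ⟨n, by rw [hn]; exact le_rfl⟩
  exact Finite.of_equiv _ (RingEquiv.quotientBot A).toEquiv

variable {P : Type} [CommRing P] [Algebra 𝒪 P] (π : P →ₐ[𝒪] ResidueField 𝒪)

lemma pi_surjective : Function.Surjective π := by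
  intro y
  obtain ⟨c, hc⟩ := residue_surjective y
  exact ⟨algebraMap 𝒪 P c, by rw [residue_eq_pi_algebraMap, hc]⟩

lemma isMaximal_ker_pi : (RingHom.ker π).IsMaximal :=
  RingHom.ker_isMaximal_of_surjective (π : P →+* ResidueField 𝒪) (pi_surjective π)

lemma isLocalRing_quot {I : Ideal P} (hI : I ≤ RingHom.ker π) {n : ℕ}
    (hn : RingHom.ker π ^ n ≤ I) : ∃ _ : IsLocalRing (P ⧸ I),
      maximalIdeal (P ⧸ I) = (RingHom.ker π).map (Ideal.Quotient.mk I) := by
  set K := RingHom.ker π with hK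
  have hKmax : K.IsMaximal := isMaximal_ker_pi π
  have hnt : Nontrivial (P ⧸ I) :=
    Ideal.Quotient.nontrivial_iff.mpr (fun h => hKmax.ne_top (top_le_iff.mp (h ▸ hI)))
  have hcomap : (K.map (Ideal.Quotient.mk I)).comap (Ideal.Quotient.mk I) = K := by
    rw [Ideal.comap_map_of_surjective _ Ideal.Quotient.mk_surjective,
      ← RingHom.ker_eq_comap_bot, Ideal.mk_ker, sup_eq_left.mpr hI]
  have hmax : (K.map (Ideal.Quotient.mk I)).IsMaximal := by
    refine (Ideal.map_eq_top_or_isMaximal_of_surjective _ Ideal.Quotient.mk_surjective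
      hKmax).resolve_left ?_
    intro h
    rw [h, Ideal.comap_top] at hcomap
    exact hKmax.ne_top hcomap.symm
  have hloc : IsLocalRing (P ⧸ I) := by
    refine IsLocalRing.of_unique_max_ideal ⟨_, hmax, fun Q hQ => ?_⟩
    refine (hmax.eq_of_le hQ.ne_top ?_).symm
    have h1 : (K.map (Ideal.Quotient.mk I)) ^ n ≤ Q := by
      rw [← Ideal.map_pow]
      refine le_trans ?_ bot_le
      rw [le_bot_iff, Ideal.map_eq_bot_iff_le_ker, Ideal.mk_ker]
      exact hn
    by_cases hn0 : n = 0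
    · subst hn0
      rw [pow_zero, Ideal.one_eq_top, top_le_iff] at h1
      exact absurd h1 hQ.ne_top
    · exact (hQ.isPrime.pow_le_iff hn0).mp h1
  exact ⟨hloc, (IsLocalRing.eq_maximalIdeal hmax).symm⟩

lemma test_quot {I : Ideal P} (hI : I ≤ RingHom.ker π) {n : ℕ}
    (hn : RingHom.ker π ^ n ≤ I) [Finite (P ⧸ I)] : ∃ _ : IsLocalRing (P ⧸ I),
      IsArtinianTestAlgebra 𝒪 (P ⧸ I) := by
  obtain ⟨hloc, hmax⟩ := isLocalRing_quot π hI hn
  refine ⟨hloc, ?_, ?_, inferInstance⟩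
  · constructor
    intro c hc
    by_contra hcon
    have h1 : c ∈ maximalIdeal 𝒪 := hcon
    have h2 : algebraMap 𝒪 P c ∈ RingHom.ker π :=
      map_maximalIdeal_le_ker π (Ideal.mem_map_of_mem _ h1)
    have h3 := Ideal.mem_map_of_mem (Ideal.Quotient.mk I) h2
    rw [← hmax] at h3
    exact h3 hc
  · intro y
    obtain ⟨a, rfl⟩ := residue_surjective y
    obtain ⟨p, rfl⟩ := Ideal.Quotient.mk_surjective a
    obtain ⟨c, hc⟩ := exists_sub_mem_ker π p
    refine ⟨c, ?_⟩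
    have h3 := Ideal.mem_map_of_mem (Ideal.Quotient.mk I) hc
    rw [← hmax] at h3
    have h4 := (residue_eq_zero_iff _).mpr h3
    rw [map_sub, map_sub, sub_eq_zero] at h4
    exact h4.symm

end Basic

section Points

variable {𝒪 : Type} [CommRing 𝒪] [IsLocalRing 𝒪] {X : Type}
  (x0 : X → ResidueField 𝒪)

/-- the augmentation -/
noncomputable def aug : MvPolynomial X 𝒪 →ₐ[𝒪] ResidueField 𝒪 := MvPolynomial.aeval x0

lemma residue_aeval {A : Type} [CommRing A] [IsLocalRing A] [Algebra 𝒪 A]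
    (hA : IsLocalHom (algebraMap 𝒪 A)) (x : X → A)
    (hx : ∀ i (c : 𝒪), residue 𝒪 c = x0 i → x i - algebraMap 𝒪 A c ∈ maximalIdeal A)
    (p : MvPolynomial X 𝒪) :
    residue A (MvPolynomial.aeval x p) = ResidueField.map (algebraMap 𝒪 A) (aug x0 p) := by
  have h : (residue A).comp (MvPolynomial.aeval x : MvPolynomial X 𝒪 →ₐ[𝒪] A).toRingHom =
      (ResidueField.map (algebraMap 𝒪 A)).comp (aug x0).toRingHom := by
    apply MvPolynomial.ringHom_ext
    · intro c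
      have h1 : (MvPolynomial.aeval x : MvPolynomial X 𝒪 →ₐ[𝒪] A) (MvPolynomial.C c) =
        algebraMap 𝒪 A c := MvPolynomial.aeval_C _ _
      have h2 : aug x0 (MvPolynomial.C c) = residue 𝒪 c := by
        rw [aug, MvPolynomial.aeval_C]; rfl
      show residue A ((MvPolynomial.aeval x : MvPolynomial X 𝒪 →ₐ[𝒪] A) (MvPolynomial.C c)) =
        ResidueField.map (algebraMap 𝒪 A) (aug x0 (MvPolynomial.C c))
      rw [h1, h2]
      rfl
    · intro i
      have h1 : (MvPolynomial.aeval x : MvPolynomial X 𝒪 →ₐ[𝒪] A) (MvPolynomial.X i) = x i :=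
        MvPolynomial.aeval_X _ _
      have h2 : aug x0 (MvPolynomial.X i) = x0 i := MvPolynomial.aeval_X _ _
      show residue A ((MvPolynomial.aeval x : MvPolynomial X 𝒪 →ₐ[𝒪] A) (MvPolynomial.X i)) =
        ResidueField.map (algebraMap 𝒪 A) (aug x0 (MvPolynomial.X i))
      rw [h1, h2]
      obtain ⟨c, hc⟩ := residue_surjective (x0 i)
      have h3 := (residue_eq_zero_iff _).mpr (hx i c hc)
      rw [map_sub, sub_eq_zero] at h3
      rw [h3, ← hc]
      rfl
  exact congrArg (fun g : MvPolynomial X 𝒪 →+* ResidueField A => g p) h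

lemma aeval_mem_maximalIdeal_iff {A : Type} [CommRing A] [IsLocalRing A] [Algebra 𝒪 A]
    (hA : IsLocalHom (algebraMap 𝒪 A)) (x : X → A)
    (hx : ∀ i (c : 𝒪), residue 𝒪 c = x0 i → x i - algebraMap 𝒪 A c ∈ maximalIdeal A)
    (p : MvPolynomial X 𝒪) :
    MvPolynomial.aeval x p ∈ maximalIdeal A ↔ p ∈ RingHom.ker (aug x0) := by
  rw [← residue_eq_zero_iff, residue_aeval x0 hA x hx, RingHom.mem_ker, map_eq_zero]

lemma ker_aeval_le {A : Type} [CommRing A] [IsLocalRing A] [Algebra 𝒪 A]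
    (hA : IsLocalHom (algebraMap 𝒪 A)) (x : X → A)
    (hx : ∀ i (c : 𝒪), residue 𝒪 c = x0 i → x i - algebraMap 𝒪 A c ∈ maximalIdeal A) :
    RingHom.ker (MvPolynomial.aeval x : MvPolynomial X 𝒪 →ₐ[𝒪] A) ≤ RingHom.ker (aug x0) := by
  intro p hp
  rw [← aeval_mem_maximalIdeal_iff x0 hA x hx, show MvPolynomial.aeval x p = (0 : A) from hp]
  exact Ideal.zero_mem _

lemma ker_pow_le_comap {A : Type} [CommRing A] [IsLocalRing A] [Algebra 𝒪 A]
    (hA : IsLocalHom (algebraMap 𝒪 A)) (x : X → A)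
    (hx : ∀ i (c : 𝒪), residue 𝒪 c = x0 i → x i - algebraMap 𝒪 A c ∈ maximalIdeal A) (n : ℕ) :
    RingHom.ker (aug x0) ^ n ≤
      (maximalIdeal A ^ n).comap (MvPolynomial.aeval x : MvPolynomial X 𝒪 →ₐ[𝒪] A) := by
  refine le_trans ?_ (Ideal.le_comap_pow _ n)
  refine Ideal.pow_right_mono ?_ n
  intro p hp
  rw [Ideal.mem_comap]
  exact (aeval_mem_maximalIdeal_iff x0 hA x hx p).mpr hp

variable (F : ∀ ⦃A : Type⦄ [CommRing A] [IsLocalRing A] [Algebra 𝒪 A], (X → A) → Prop)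

/-- The set of kernels of the points. -/
def pointIdeals : Set (Ideal (MvPolynomial X 𝒪)) :=
  {I | ∃ _ : IsLocalRing (MvPolynomial X 𝒪 ⧸ I),
    IsArtinianTestAlgebra 𝒪 (MvPolynomial X 𝒪 ⧸ I) ∧
      F (fun i => Ideal.Quotient.mk I (MvPolynomial.X i))}

variable
  (huniq : ∀ ⦃A : Type⦄ [CommRing A] [IsLocalRing A] [Algebra 𝒪 A],
    IsArtinianTestAlgebra 𝒪 A → ∀ x : X → A, F x →
      ∀ i (c : 𝒪), residue 𝒪 c = x0 i → x i - algebraMap 𝒪 A c ∈ maximalIdeal A)
  (hmap : ∀ ⦃A B : Type⦄ [CommRing A] [IsLocalRing A] [Algebra 𝒪 A]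
    [CommRing B] [IsLocalRing B] [Algebra 𝒪 B],
    IsArtinianTestAlgebra 𝒪 A → IsArtinianTestAlgebra 𝒪 B →
    ∀ (f : A →ₐ[𝒪] B), IsLocalHom (f : A →+* B) → ∀ x : X → A, F x → F (f ∘ x))
  (hinj : ∀ ⦃A B : Type⦄ [CommRing A] [IsLocalRing A] [Algebra 𝒪 A]
    [CommRing B] [IsLocalRing B] [Algebra 𝒪 B],
    IsArtinianTestAlgebra 𝒪 A → IsArtinianTestAlgebra 𝒪 B →
    ∀ (f : A →ₐ[𝒪] B), IsLocalHom (f : A →+* B) → Function.Injective f →
      ∀ x : X → A, F (f ∘ x) → F x)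

include huniq hinj in
lemma ker_mem_pointIdeals [Finite (ResidueField 𝒪)] {A : Type} [CommRing A] [IsLocalRing A]
    [Algebra 𝒪 A] (hA : IsArtinianTestAlgebra 𝒪 A) (x : X → A) (hx : F x) :
    RingHom.ker (MvPolynomial.aeval x : MvPolynomial X 𝒪 →ₐ[𝒪] A) ∈ pointIdeals F := by
  set f : MvPolynomial X 𝒪 →ₐ[𝒪] A := MvPolynomial.aeval x with hf
  have hfin : Finite A := finite_of_test hA
  have hx' := huniq hA x hx
  have h1 : RingHom.ker f ≤ RingHom.ker (aug x0) := ker_aeval_le x0 hA.isLocalHom x hx'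
  have := hA.isArtinian
  obtain ⟨n, hn⟩ := (isArtinianRing_iff_isNilpotent_maximalIdeal A).mp ‹_›
  have h2 : RingHom.ker (aug x0) ^ n ≤ RingHom.ker f := by
    refine (ker_pow_le_comap x0 hA.isLocalHom x hx' n).trans ?_
    rw [hn]
    exact le_rfl
  let g : MvPolynomial X 𝒪 ⧸ RingHom.ker f →ₐ[𝒪] A := Ideal.kerLiftAlg f
  have hg : Function.Injective g := Ideal.kerLiftAlg_injective f
  have hfin2 : Finite (MvPolynomial X 𝒪 ⧸ RingHom.ker f) := Finite.of_injective g hg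
  obtain ⟨hloc, htest⟩ := test_quot (aug x0) h1 h2
  refine ⟨hloc, htest, ?_⟩
  refine hinj htest hA g ?_ hg _ ?_
  · have := htest.isArtinian
    exact isLocalHom_of_artinian _
  · convert hx using 1
    funext i
    show g (Ideal.Quotient.mk _ (MvPolynomial.X i)) = x i
    rw [show g (Ideal.Quotient.mk _ (MvPolynomial.X i)) = f (MvPolynomial.X i) from
      Ideal.kerLiftAlg_mk f _]
    exact MvPolynomial.aeval_X _ _

omit [IsLocalRing 𝒪] in
lemma aeval_mk (I : Ideal (MvPolynomial X 𝒪)) (p : MvPolynomial X 𝒪) :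
    MvPolynomial.aeval (fun i => Ideal.Quotient.mk I (MvPolynomial.X i)) p =
      Ideal.Quotient.mk I p := by
  have h : (MvPolynomial.aeval (fun i => Ideal.Quotient.mk I (MvPolynomial.X i)) :
      MvPolynomial X 𝒪 →ₐ[𝒪] _) = Ideal.Quotient.mkₐ 𝒪 I := by
    apply MvPolynomial.algHom_ext
    intro i
    rw [MvPolynomial.aeval_X]
    rfl
  rw [h]
  rfl

include huniq in
lemma le_ker_of_mem {I : Ideal (MvPolynomial X 𝒪)} (hI : I ∈ pointIdeals F) :
    I ≤ RingHom.ker (aug x0) := by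
  obtain ⟨hloc, htest, hF⟩ := hI
  have h1 := ker_aeval_le x0 htest.isLocalHom _ (huniq htest _ hF)
  intro p hp
  refine h1 ?_
  rw [RingHom.mem_ker, aeval_mk]
  exact Ideal.Quotient.eq_zero_iff_mem.mpr hp

include huniq in
lemma exists_pow_le_of_mem {I : Ideal (MvPolynomial X 𝒪)} (hI : I ∈ pointIdeals F) :
    ∃ n : ℕ, RingHom.ker (aug x0) ^ n ≤ I := by
  obtain ⟨hloc, htest, hF⟩ := hI
  have := htest.isArtinian
  obtain ⟨n, hn⟩ := (isArtinianRing_iff_isNilpotent_maximalIdeal _).mp ‹_›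
  refine ⟨n, ?_⟩
  have h2 := ker_pow_le_comap x0 htest.isLocalHom _ (huniq htest _ hF) n
  rw [hn] at h2
  intro p hp
  have h3 := h2 hp
  rw [Ideal.mem_comap, aeval_mk] at h3
  exact Ideal.Quotient.eq_zero_iff_mem.mp h3

variable (hF0 : F x0)
  (hfib : ∀ ⦃A B C P : Type⦄ [CommRing A] [IsLocalRing A] [Algebra 𝒪 A]
    [CommRing B] [IsLocalRing B] [Algebra 𝒪 B] [CommRing C] [IsLocalRing C] [Algebra 𝒪 C]
    [CommRing P] [IsLocalRing P] [Algebra 𝒪 P],
    IsArtinianTestAlgebra 𝒪 A → IsArtinianTestAlgebra 𝒪 B → IsArtinianTestAlgebra 𝒪 C →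
    IsArtinianTestAlgebra 𝒪 P →
    ∀ (f : A →ₐ[𝒪] C) (g : B →ₐ[𝒪] C) (pA : P →ₐ[𝒪] A) (pB : P →ₐ[𝒪] B),
      IsLocalHom (pA : P →+* A) → IsLocalHom (pB : P →+* B) →
      f.comp pA = g.comp pB →
      Function.Injective (fun x => (pA x, pB x)) →
      (∀ a b, f a = g b → ∃ x, pA x = a ∧ pB x = b) →
      ∀ x : X → P, F (pA ∘ x) → F (pB ∘ x) → F x)

lemma test_residueField : IsArtinianTestAlgebra 𝒪 (ResidueField 𝒪) := by
  refine ⟨?_, ?_, inferInstance⟩
  · exact (inferInstance : IsLocalHom (residue 𝒪))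
  · intro y
    obtain ⟨a, rfl⟩ := residue_surjective y
    obtain ⟨c, rfl⟩ := residue_surjective a
    exact ⟨c, rfl⟩

include huniq hinj hF0 in
lemma ker_aug_mem [Finite (ResidueField 𝒪)] : RingHom.ker (aug x0) ∈ pointIdeals F :=
  ker_mem_pointIdeals x0 F huniq hinj test_residueField x0 hF0

include huniq hmap in
lemma up_mem [Finite (ResidueField 𝒪)] {J J' : Ideal (MvPolynomial X 𝒪)}
    (hJ : J ∈ pointIdeals F) (hJJ' : J ≤ J') (hJ' : J' ≤ RingHom.ker (aug x0)) :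
    J' ∈ pointIdeals F := by
  obtain ⟨n, hn⟩ := exists_pow_le_of_mem x0 F huniq hJ
  obtain ⟨hloc, htest, hF⟩ := hJ
  have hfin := finite_of_test htest
  have hfin' : Finite (MvPolynomial X 𝒪 ⧸ J') :=
    Finite.of_surjective _ (Ideal.Quotient.factor_surjective hJJ')
  obtain ⟨hloc', htest'⟩ := test_quot (aug x0) hJ' (hn.trans hJJ')
  refine ⟨hloc', htest', ?_⟩
  have := htest.isArtinian
  exact hmap htest htest' (Ideal.Quotient.factorₐ 𝒪 hJJ') (isLocalHom_of_artinian _) _ hF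

include huniq hfib in
lemma inf_mem [Finite (ResidueField 𝒪)] {I₁ I₂ : Ideal (MvPolynomial X 𝒪)}
    (h₁ : I₁ ∈ pointIdeals F) (h₂ : I₂ ∈ pointIdeals F) :
    I₁ ⊓ I₂ ∈ pointIdeals F := by
  have hK₁ := le_ker_of_mem x0 F huniq h₁
  have hK₂ := le_ker_of_mem x0 F huniq h₂
  obtain ⟨n₁, hn₁⟩ := exists_pow_le_of_mem x0 F huniq h₁
  obtain ⟨n₂, hn₂⟩ := exists_pow_le_of_mem x0 F huniq h₂
  obtain ⟨hloc₁, htest₁, hF₁⟩ := h₁
  obtain ⟨hloc₂, htest₂, hF₂⟩ := h₂
  have hfin₁ := finite_of_test htest₁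
  have hfin₂ := finite_of_test htest₂
  have hn : RingHom.ker (aug x0) ^ (n₁ + n₂) ≤ I₁ ⊓ I₂ :=
    le_inf ((Ideal.pow_le_pow_right (by omega)).trans hn₁)
      ((Ideal.pow_le_pow_right (by omega)).trans hn₂)
  have hinj' : Function.Injective (fun x : MvPolynomial X 𝒪 ⧸ (I₁ ⊓ I₂) =>
      (Ideal.Quotient.factorₐ 𝒪 (inf_le_left : I₁ ⊓ I₂ ≤ I₁) x,
        Ideal.Quotient.factorₐ 𝒪 (inf_le_right : I₁ ⊓ I₂ ≤ I₂) x)) := by
    intro a b hab
    obtain ⟨a, rfl⟩ := Ideal.Quotient.mk_surjective a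
    obtain ⟨b, rfl⟩ := Ideal.Quotient.mk_surjective b
    have h1 : Ideal.Quotient.mk I₁ a = Ideal.Quotient.mk I₁ b := congrArg Prod.fst hab
    have h2 : Ideal.Quotient.mk I₂ a = Ideal.Quotient.mk I₂ b := congrArg Prod.snd hab
    rw [Ideal.Quotient.mk_eq_mk_iff_sub_mem] at h1 h2 ⊢
    exact ⟨h1, h2⟩
  have hfin : Finite (MvPolynomial X 𝒪 ⧸ (I₁ ⊓ I₂)) := Finite.of_injective _ hinj'
  have hfin' : Finite (MvPolynomial X 𝒪 ⧸ (I₁ ⊔ I₂)) :=
    Finite.of_surjective _ (Ideal.Quotient.factor_surjective (le_sup_left : I₁ ≤ I₁ ⊔ I₂))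
  obtain ⟨hloc, htest⟩ := test_quot (aug x0) (inf_le_left.trans hK₁) hn
  obtain ⟨hloc', htest'⟩ := test_quot (aug x0) (sup_le hK₁ hK₂) (hn₁.trans le_sup_left)
  refine ⟨hloc, htest, ?_⟩
  have := htest.isArtinian
  refine hfib htest₁ htest₂ htest' htest (Ideal.Quotient.factorₐ 𝒪 (le_sup_left : I₁ ≤ I₁ ⊔ I₂))
    (Ideal.Quotient.factorₐ 𝒪 (le_sup_right : I₂ ≤ I₁ ⊔ I₂))
    (Ideal.Quotient.factorₐ 𝒪 (inf_le_left : I₁ ⊓ I₂ ≤ I₁))
    (Ideal.Quotient.factorₐ 𝒪 (inf_le_right : I₁ ⊓ I₂ ≤ I₂))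
    (isLocalHom_of_artinian _) (isLocalHom_of_artinian _) ?_ hinj' ?_ _ hF₁ hF₂
  · apply AlgHom.ext
    intro i
    obtain ⟨i, rfl⟩ := Ideal.Quotient.mk_surjective i
    rfl
  · intro a b hab
    obtain ⟨a, rfl⟩ := Ideal.Quotient.mk_surjective a
    obtain ⟨b, rfl⟩ := Ideal.Quotient.mk_surjective b
    have h1 : Ideal.Quotient.mk (I₁ ⊔ I₂) a = Ideal.Quotient.mk (I₁ ⊔ I₂) b := hab
    rw [Ideal.Quotient.mk_eq_mk_iff_sub_mem] at h1
    obtain ⟨u, hu, v, hv, huv⟩ := Submodule.mem_sup.mp h1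
    refine ⟨Ideal.Quotient.mk _ (a - u), ?_, ?_⟩
    · show Ideal.Quotient.mk I₁ (a - u) = Ideal.Quotient.mk I₁ a
      rw [Ideal.Quotient.mk_eq_mk_iff_sub_mem]
      have : a - u - a = -u := by ring
      rw [this]
      exact (Ideal.neg_mem_iff _).mpr hu
    · show Ideal.Quotient.mk I₂ (a - u) = Ideal.Quotient.mk I₂ b
      rw [Ideal.Quotient.mk_eq_mk_iff_sub_mem]
      have : a - u - b = v := by linear_combination -huv
      rw [this]
      exact hv

/-- The `𝒪`-algebra structure on the dual numbers used in `TangentFinite`. -/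
@[reducible] noncomputable def dualAlgebra (𝒪 : Type) [CommRing 𝒪] [IsLocalRing 𝒪] :
    Algebra 𝒪 (DualNumber (ResidueField 𝒪)) :=
  ((algebraMap (ResidueField 𝒪) (DualNumber (ResidueField 𝒪))).comp
      (algebraMap 𝒪 (ResidueField 𝒪))).toAlgebra

lemma finite_dualNumber [Finite (ResidueField 𝒪)] : Finite (DualNumber (ResidueField 𝒪)) :=
  inferInstanceAs (Finite (ResidueField 𝒪 × ResidueField 𝒪))

lemma test_dualNumber [Finite (ResidueField 𝒪)] :
    @IsArtinianTestAlgebra 𝒪 _ (DualNumber (ResidueField 𝒪)) _ _ (dualAlgebra 𝒪) := by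
  let _ := dualAlgebra 𝒪
  have := finite_dualNumber (𝒪 := 𝒪)
  have hk : ∀ a : 𝒪, algebraMap 𝒪 (DualNumber (ResidueField 𝒪)) a =
        TrivSqZeroExt.inl (residue 𝒪 a) := fun a => rfl
  refine ⟨?_, ?_, inferInstance⟩
  · constructor
    intro c hc
    by_contra hcon
    have h1 : c ∈ maximalIdeal 𝒪 := hcon
    rw [hk, (residue_eq_zero_iff _).mpr h1] at hc
    rw [TrivSqZeroExt.inl_zero] at hc
    exact not_isUnit_zero hc
  · intro y
    obtain ⟨a, rfl⟩ := residue_surjective y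
    obtain ⟨c, hc⟩ := residue_surjective a.fst
    refine ⟨c, ?_⟩
    rw [Function.comp_apply, ← sub_eq_zero, ← map_sub, residue_eq_zero_iff, hk, hc,
      mem_maximalIdeal, mem_nonunits_iff]
    intro h
    rw [TrivSqZeroExt.isUnit_iff_isUnit_fst] at h
    simp at h

variable (htan : Set.Finite {x : X → DualNumber (ResidueField 𝒪) |
  @F (DualNumber (ResidueField 𝒪)) _ _ (dualAlgebra 𝒪) x})

include hmap htan in
lemma tangent_finite [Finite (ResidueField 𝒪)] :
    Set.Finite {f : MvPolynomial X 𝒪 →+* DualNumber (ResidueField 𝒪) |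
      f.comp (algebraMap 𝒪 (MvPolynomial X 𝒪)) =
        (algebraMap (ResidueField 𝒪) (DualNumber (ResidueField 𝒪))).comp (residue 𝒪) ∧
      RingHom.ker f ∈ pointIdeals F} := by
  refine Set.Finite.of_finite_image (f := fun f i => f (MvPolynomial.X i))
    (htan.subset ?_) ?_
  · rintro _ ⟨f, ⟨hf1, hf2⟩, rfl⟩
    obtain ⟨hloc, htest, hF⟩ := hf2
    have hart := htest.isArtinian
    let _ := dualAlgebra 𝒪
    let g : MvPolynomial X 𝒪 ⧸ RingHom.ker f →ₐ[𝒪] DualNumber (ResidueField 𝒪) :=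
      { RingHom.kerLift f with
        commutes' := by
          intro c
          exact RingHom.congr_fun hf1 c }
    exact hmap htest test_dualNumber g (isLocalHom_of_artinian _) _ hF
  · rintro f ⟨hf1, _⟩ f' ⟨hf1', _⟩ hff'
    apply MvPolynomial.ringHom_ext
    · intro c
      exact (RingHom.congr_fun hf1 c).trans (RingHom.congr_fun hf1' c).symm
    · intro i
      exact congrFun hff' i

include huniq hmap hinj hF0 hfib htan in
lemma proRepDatum_pointIdeals [Finite (ResidueField 𝒪)] :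
    ProRepDatum (aug x0) (pointIdeals F) where
  le_ker J hJ := le_ker_of_mem x0 F huniq hJ
  pow_le J hJ := exists_pow_le_of_mem x0 F huniq hJ
  finite_quot J hJ := by
    obtain ⟨_, htest, _⟩ := hJ
    exact finite_of_test htest
  ker_mem := ker_aug_mem x0 F huniq hinj hF0
  inf_mem J₁ h₁ J₂ h₂ := inf_mem x0 F huniq hfib h₁ h₂
  up_mem J hJ J' h1 h2 := up_mem x0 F huniq hmap hJ h1 h2
  tangent := tangent_finite F hmap htan

end Points

lemma test_quot_pow {𝒪 : Type} [CommRing 𝒪] [IsLocalRing 𝒪] [Finite (ResidueField 𝒪)]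
    {A : Type} [CommRing A] [IsLocalRing A] [IsNoetherianRing A] [Algebra 𝒪 A]
    (h1 : IsLocalHom (algebraMap 𝒪 A))
    (h2 : Function.Surjective (residue A ∘ algebraMap 𝒪 A)) (n : ℕ) :
    ∃ _ : IsLocalRing (A ⧸ maximalIdeal A ^ (n + 1)),
      IsArtinianTestAlgebra 𝒪 (A ⧸ maximalIdeal A ^ (n + 1)) := by
  have hres := finite_residueField_of_surjective h1 h2
  have hne : maximalIdeal A ^ (n + 1) ≠ ⊤ := fun h =>
    (maximalIdeal.isMaximal A).ne_top (top_le_iff.mp (h ▸ Ideal.pow_le_self (by omega)))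
  have hnt : Nontrivial (A ⧸ maximalIdeal A ^ (n + 1)) := Ideal.Quotient.nontrivial_iff.mpr hne
  have hloc : IsLocalRing (A ⧸ maximalIdeal A ^ (n + 1)) :=
    IsLocalRing.of_surjective' (Ideal.Quotient.mk _) Ideal.Quotient.mk_surjective
  have hfin : Finite (A ⧸ maximalIdeal A ^ (n + 1)) :=
    IsLocalRing.finite_quotient_iff.mpr ⟨n + 1, le_rfl⟩
  have hmk : IsLocalHom (Ideal.Quotient.mk (maximalIdeal A ^ (n + 1))) :=
    IsLocalHom.of_surjective _ Ideal.Quotient.mk_surjective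
  refine ⟨hloc, ?_, ?_, inferInstance⟩
  · exact RingHom.isLocalHom_comp (Ideal.Quotient.mk (maximalIdeal A ^ (n + 1)))
      (algebraMap 𝒪 A)
  · intro y
    obtain ⟨a, rfl⟩ := residue_surjective y
    obtain ⟨a, rfl⟩ := Ideal.Quotient.mk_surjective a
    obtain ⟨c, hc⟩ := h2 (residue A a)
    refine ⟨c, ?_⟩
    rw [Function.comp_apply, ← sub_eq_zero, ← map_sub, residue_eq_zero_iff] at hc ⊢
    exact map_nonunit (Ideal.Quotient.mk (maximalIdeal A ^ (n + 1))) _ hc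

/-- Pro-representability in terms of points: a "continuous" subfunctor `F` of `A ↦ (X → A)` on
Artinian test algebras with finite tangent space is pro-represented by a complete Noetherian
local `𝒪`-algebra. -/
theorem exists_proRep (𝒪 : Type) [CommRing 𝒪] [IsLocalRing 𝒪] [IsNoetherianRing 𝒪]
    [IsAdicComplete (maximalIdeal 𝒪) 𝒪] [Finite (ResidueField 𝒪)] (X : Type)
    (F : ∀ ⦃A : Type⦄ [CommRing A] [IsLocalRing A] [Algebra 𝒪 A], (X → A) → Prop)
    (x0 : X → ResidueField 𝒪) (hF0 : F x0)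
    (huniq : ∀ ⦃A : Type⦄ [CommRing A] [IsLocalRing A] [Algebra 𝒪 A],
      IsArtinianTestAlgebra 𝒪 A → ∀ x : X → A, F x →
        ∀ i (c : 𝒪), residue 𝒪 c = x0 i → x i - algebraMap 𝒪 A c ∈ maximalIdeal A)
    (hmap : ∀ ⦃A B : Type⦄ [CommRing A] [IsLocalRing A] [Algebra 𝒪 A]
      [CommRing B] [IsLocalRing B] [Algebra 𝒪 B],
      IsArtinianTestAlgebra 𝒪 A → IsArtinianTestAlgebra 𝒪 B →
      ∀ (f : A →ₐ[𝒪] B), IsLocalHom (f : A →+* B) → ∀ x : X → A, F x → F (f ∘ x))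
    (hinj : ∀ ⦃A B : Type⦄ [CommRing A] [IsLocalRing A] [Algebra 𝒪 A]
      [CommRing B] [IsLocalRing B] [Algebra 𝒪 B],
      IsArtinianTestAlgebra 𝒪 A → IsArtinianTestAlgebra 𝒪 B →
      ∀ (f : A →ₐ[𝒪] B), IsLocalHom (f : A →+* B) → Function.Injective f →
        ∀ x : X → A, F (f ∘ x) → F x)
    (hfib : ∀ ⦃A B C P : Type⦄ [CommRing A] [IsLocalRing A] [Algebra 𝒪 A]
      [CommRing B] [IsLocalRing B] [Algebra 𝒪 B] [CommRing C] [IsLocalRing C] [Algebra 𝒪 C]
      [CommRing P] [IsLocalRing P] [Algebra 𝒪 P],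
      IsArtinianTestAlgebra 𝒪 A → IsArtinianTestAlgebra 𝒪 B → IsArtinianTestAlgebra 𝒪 C →
      IsArtinianTestAlgebra 𝒪 P →
      ∀ (f : A →ₐ[𝒪] C) (g : B →ₐ[𝒪] C) (pA : P →ₐ[𝒪] A) (pB : P →ₐ[𝒪] B),
        IsLocalHom (pA : P →+* A) → IsLocalHom (pB : P →+* B) →
        f.comp pA = g.comp pB →
        Function.Injective (fun x => (pA x, pB x)) →
        (∀ a b, f a = g b → ∃ x, pA x = a ∧ pB x = b) →
        ∀ x : X → P, F (pA ∘ x) → F (pB ∘ x) → F x)
    (htan : Set.Finite {x : X → DualNumber (ResidueField 𝒪) |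
      @F (DualNumber (ResidueField 𝒪)) _ _ (dualAlgebra 𝒪) x}) :
    ∃ (R : Type) (_ : CommRing R) (_ : IsLocalRing R) (_ : IsNoetherianRing R)
      (_ : IsAdicComplete (maximalIdeal R) R) (_ : Algebra 𝒪 R)
      (_ : IsLocalHom (algebraMap 𝒪 R)),
      Function.Surjective (residue R ∘ algebraMap 𝒪 R) ∧ ∃ xR : X → R,
      (∀ ⦃B : Type⦄ [CommRing B] [IsLocalRing B] [Algebra 𝒪 B], IsArtinianTestAlgebra 𝒪 B →
        ∀ q : R →ₐ[𝒪] B, IsLocalHom (q : R →+* B) → Function.Surjective q → F (q ∘ xR)) ∧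
      (∀ (A : Type) [CommRing A] [IsLocalRing A] [IsNoetherianRing A]
        [IsAdicComplete (maximalIdeal A) A] [Algebra 𝒪 A] [IsLocalHom (algebraMap 𝒪 A)],
        Function.Surjective (residue A ∘ algebraMap 𝒪 A) → ∀ y : X → A,
        (∀ ⦃B : Type⦄ [CommRing B] [IsLocalRing B] [Algebra 𝒪 B], IsArtinianTestAlgebra 𝒪 B →
          ∀ q : A →ₐ[𝒪] B, IsLocalHom (q : A →+* B) → Function.Surjective q → F (q ∘ y)) →
        ∃! φ : R →ₐ[𝒪] A, IsLocalHom (φ : R →+* A) ∧ ∀ i, φ (xR i) = y i) := by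
  classical
  have D := proRepDatum_pointIdeals x0 F huniq hmap hinj hF0 hfib htan
  obtain ⟨𝓡⟩ := D.nonempty_proRepRing
  refine ⟨𝓡.R, inferInstance, inferInstance, inferInstance, inferInstance, inferInstance,
    inferInstance, 𝓡.residue_surjective, fun i => 𝓡.toR (MvPolynomial.X i), ?_, ?_⟩
  · intro B _ _ _ hB q hq hqs
    have := hB.isArtinian
    obtain ⟨n, hn⟩ := (isArtinianRing_iff_isNilpotent_maximalIdeal B).mp ‹_›
    obtain ⟨hloc, htest, hF⟩ := 𝓡.mem n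
    have hle : ∀ p ∈ (maximalIdeal 𝓡.R ^ (n + 1)).comap 𝓡.toR, q.comp 𝓡.toR p = 0 := by
      intro p hp
      have h1 := Ideal.mem_map_of_mem (q : 𝓡.R →+* B) (Ideal.mem_comap.mp hp)
      rw [Ideal.map_pow] at h1
      have h2 := Ideal.pow_right_mono (map_maximalIdeal_le (q : 𝓡.R →+* B)) (n + 1) h1
      rw [pow_succ, hn, zero_mul] at h2
      exact h2
    have := htest.isArtinian
    exact hmap htest hB (Ideal.Quotient.liftₐ _ (q.comp 𝓡.toR) hle)
      (isLocalHom_of_artinian _) _ hF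
  · intro A _ _ _ _ _ hAloc hA y hy
    set f : MvPolynomial X 𝒪 →ₐ[𝒪] A := MvPolynomial.aeval y with hf
    -- the kernels of `P → A / m ^ (n + 1)` are in the set
    have hmem : ∀ n : ℕ, (maximalIdeal A ^ (n + 1)).comap f ∈ pointIdeals F ∧
        RingHom.ker (aug x0) ^ (n + 1) ≤ (maximalIdeal A ^ (n + 1)).comap f := by
      intro n
      obtain ⟨hloc, htest⟩ := test_quot_pow hAloc hA n
      let q : A →ₐ[𝒪] A ⧸ maximalIdeal A ^ (n + 1) := Ideal.Quotient.mkₐ 𝒪 _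
      have hq : Function.Surjective q := Ideal.Quotient.mk_surjective
      have hqloc : IsLocalHom (q : A →+* A ⧸ maximalIdeal A ^ (n + 1)) :=
        IsLocalHom.of_surjective _ hq
      have hFq : F (q ∘ y) := hy htest q hqloc hq
      have hae : (MvPolynomial.aeval (q ∘ y) : MvPolynomial X 𝒪 →ₐ[𝒪] _) = q.comp f := by
        apply MvPolynomial.algHom_ext
        intro i
        rw [MvPolynomial.aeval_X]
        show q (y i) = q (f (MvPolynomial.X i))
        rw [hf, MvPolynomial.aeval_X]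
      have hker : RingHom.ker (MvPolynomial.aeval (q ∘ y) : MvPolynomial X 𝒪 →ₐ[𝒪] _) =
          (maximalIdeal A ^ (n + 1)).comap f := by
        rw [hae]
        ext p
        rw [RingHom.mem_ker, Ideal.mem_comap]
        exact Ideal.Quotient.eq_zero_iff_mem
      have h1 := ker_mem_pointIdeals x0 F huniq hinj htest (q ∘ y) hFq
      rw [hker] at h1
      refine ⟨h1, ?_⟩
      have h2 := huniq htest (q ∘ y) hFq
      have h3 := ker_pow_le_comap x0 htest.isLocalHom (q ∘ y) h2 (n + 1)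
      refine h3.trans ?_
      rw [hae]
      intro p hp
      rw [Ideal.mem_comap] at hp ⊢
      have h4 : maximalIdeal (A ⧸ maximalIdeal A ^ (n + 1)) ^ (n + 1) = ⊥ := by
        rw [← map_maximalIdeal_of_surjective (Ideal.Quotient.mk (maximalIdeal A ^ (n + 1)))
          Ideal.Quotient.mk_surjective, ← Ideal.map_pow, Ideal.map_quotient_self]
      rw [h4] at hp
      exact Ideal.Quotient.eq_zero_iff_mem.mp hp
    have hcof : ∀ n : ℕ, (maximalIdeal 𝓡.R ^ (n + 1)).comap 𝓡.toR ≤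
        (maximalIdeal A ^ (n + 1)).comap f := fun n =>
      𝓡.cofinal n _ (hmem n).1 (hmem n).2
    -- the maps `R → A / m ^ (n + 1)`
    let e : ∀ n : ℕ, (MvPolynomial X 𝒪 ⧸ (maximalIdeal 𝓡.R ^ (n + 1)).comap 𝓡.toR) ≃+*
        (𝓡.R ⧸ maximalIdeal 𝓡.R ^ (n + 1)) := fun n =>
      RingEquiv.ofBijective (Ideal.quotientMap _ (𝓡.toR : MvPolynomial X 𝒪 →+* 𝓡.R) le_rfl)
        ⟨Ideal.quotientMap_injective, by
          intro z
          obtain ⟨z, rfl⟩ := Ideal.Quotient.mk_surjective z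
          obtain ⟨p, hp⟩ := 𝓡.dense n z
          refine ⟨Ideal.Quotient.mk _ p, ?_⟩
          show Ideal.Quotient.mk _ (𝓡.toR p) = Ideal.Quotient.mk _ z
          rw [eq_comm, Ideal.Quotient.mk_eq_mk_iff_sub_mem]
          exact hp⟩
    have he : ∀ n p, e n (Ideal.Quotient.mk _ p) = Ideal.Quotient.mk _ (𝓡.toR p) :=
      fun n p => rfl
    let φ' : ∀ n : ℕ, 𝓡.R →+* A ⧸ maximalIdeal A ^ (n + 1) := fun n =>
      (Ideal.quotientMap (maximalIdeal A ^ (n + 1)) (f : MvPolynomial X 𝒪 →+* A)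
        (hcof n)).comp ((e n).symm.toRingHom.comp (Ideal.Quotient.mk _))
    have hφ' : ∀ (n : ℕ) (z : 𝓡.R) (p : MvPolynomial X 𝒪),
        z - 𝓡.toR p ∈ maximalIdeal 𝓡.R ^ (n + 1) → φ' n z = Ideal.Quotient.mk _ (f p) := by
      intro n z p hp
      have h1 : (e n).symm (Ideal.Quotient.mk _ z) = Ideal.Quotient.mk _ p := by
        rw [RingEquiv.symm_apply_eq, he, Ideal.Quotient.mk_eq_mk_iff_sub_mem]
        exact hp
      show Ideal.quotientMap (maximalIdeal A ^ (n + 1)) (f : MvPolynomial X 𝒪 →+* A)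
        (hcof n) ((e n).symm (Ideal.Quotient.mk _ z)) = _
      rw [h1, Ideal.quotientMap_mk]
      rfl
    have hmono : StrictMono (fun n : ℕ => n + 1) := fun a b h => by simpa using h
    have hcompat : ∀ {m : ℕ}, (Ideal.Quotient.factorPow (maximalIdeal A)
        (hmono.monotone m.le_succ)).comp (φ' (m + 1)) = φ' m := by
      intro m
      ext z
      obtain ⟨p, hp⟩ := 𝓡.dense (m + 1) z
      rw [RingHom.comp_apply, hφ' (m + 1) z p hp,
        hφ' m z p (Ideal.pow_le_pow_right (by omega) hp)]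
      rfl
    let φ : 𝓡.R →+* A := IsAdicComplete.StrictMono.liftRingHom (maximalIdeal A) hmono φ' hcompat
    have hφ : ∀ (n : ℕ) (z : 𝓡.R), Ideal.Quotient.mk (maximalIdeal A ^ (n + 1)) (φ z) = φ' n z :=
      fun n z => IsAdicComplete.StrictMono.mk_liftRingHom (maximalIdeal A) hmono φ' hcompat z
    have hhaus : ∀ z : A, (∀ n : ℕ, z ∈ maximalIdeal A ^ (n + 1)) → z = 0 := by
      intro z hz
      refine IsHausdorff.haus (I := maximalIdeal A) (M := A) inferInstance z fun n => ?_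
      rw [SModEq.zero]
      have := Ideal.pow_le_pow_right (show n ≤ n + 1 by omega) (hz n)
      simpa using this
    have hφtoR : ∀ p, φ (𝓡.toR p) = f p := by
      intro p
      rw [← sub_eq_zero]
      refine hhaus _ fun n => ?_
      rw [← Ideal.Quotient.eq_zero_iff_mem, map_sub, hφ n,
        hφ' n (𝓡.toR p) p (by rw [sub_self]; exact Ideal.zero_mem _), sub_self]
    let φₐ : 𝓡.R →ₐ[𝒪] A :=
      { φ with
        commutes' := by
          intro c
          show φ (algebraMap 𝒪 𝓡.R c) = _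
          rw [← AlgHom.commutes 𝓡.toR, hφtoR, AlgHom.commutes] }
    have hφₐ : ∀ z, φₐ z = φ z := fun z => rfl
    have hφloc : IsLocalHom (φₐ : 𝓡.R →+* A) := by
      have h1 : ∀ z ∈ maximalIdeal 𝓡.R, φ z ∈ maximalIdeal A := by
        intro z hz
        obtain ⟨p, hp⟩ := 𝓡.dense 0 z
        have h2 : p ∈ (maximalIdeal 𝓡.R ^ (0 + 1)).comap 𝓡.toR := by
          rw [Ideal.mem_comap]
          have h3 : 𝓡.toR p = z - (z - 𝓡.toR p) := by ring
          rw [h3]
          exact Ideal.sub_mem _ (by simpa using hz) hp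
        have h4 : f p ∈ maximalIdeal A ^ (0 + 1) := hcof 0 h2
        have h5 := hφ 0 z
        rw [hφ' 0 z p hp, Ideal.Quotient.eq_zero_iff_mem.mpr h4,
          Ideal.Quotient.eq_zero_iff_mem] at h5
        simpa using h5
      constructor
      intro z hz
      by_contra hcon
      exact h1 z hcon hz
    refine ⟨φₐ, ⟨hφloc, ?_⟩, ?_⟩
    · intro i
      show φ (𝓡.toR (MvPolynomial.X i)) = y i
      rw [hφtoR, hf, MvPolynomial.aeval_X]
    · rintro ψ ⟨hψloc, hψ⟩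
      have h1 : ψ.comp 𝓡.toR = f := by
        apply MvPolynomial.algHom_ext
        intro i
        rw [hf, MvPolynomial.aeval_X]
        exact hψ i
      apply AlgHom.ext
      intro z
      rw [← sub_eq_zero]
      refine hhaus _ fun n => ?_
      obtain ⟨p, hp⟩ := 𝓡.dense n z
      have h2 : ψ z - φₐ z = ψ (z - 𝓡.toR p) - φₐ (z - 𝓡.toR p) := by
        rw [map_sub, map_sub, hφₐ (𝓡.toR p), hφtoR, ← h1]
        show ψ z - φₐ z = (ψ z - ψ (𝓡.toR p)) - (φₐ z - ψ (𝓡.toR p))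
        ring
      rw [h2]
      have h3 : ∀ χ : 𝓡.R →ₐ[𝒪] A, IsLocalHom (χ : 𝓡.R →+* A) →
          ∀ w ∈ maximalIdeal 𝓡.R ^ (n + 1), χ w ∈ maximalIdeal A ^ (n + 1) := by
        intro χ hχ w hw
        have h4 := Ideal.mem_map_of_mem (χ : 𝓡.R →+* A) hw
        rw [Ideal.map_pow] at h4
        exact Ideal.pow_right_mono (map_maximalIdeal_le (χ : 𝓡.R →+* A)) (n + 1) h4
      exact Ideal.sub_mem _ (h3 ψ hψloc _ hp) (h3 φₐ hφloc _ hp)

end Fermat.Agent.S53rep
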