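import Fermat.Statements.S53
import Fermat.Agent.S53_Glue
import Fermat.Agent.S53_ProRepPoints

set_option autoImplicit false
set_option autoImplicit false
open GaloisRep

namespace Fermat.Agent.S53

theorem result
    (𝒪 : Type) [CommRing 𝒪] [IsDomain 𝒪] [IsDiscreteValuationRing 𝒪]
    [IsAdicComplete (IsLocalRing.maximalIdeal 𝒪) 𝒪] [Finite (IsLocalRing.ResidueField 𝒪)]
    (ρbar : ResidualGaloisRep (IsLocalRing.ResidueField 𝒪))
    (𝒟 : ∀ ⦃A : Type⦄ [CommRing A] [IsLocalRing A] [Algebra 𝒪 A], GaloisRepAdic A → Prop)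
    (habs : ρbar.IsAbsolutelyIrreducible)
    (h𝒟 : GaloisRep.IsDeformationCondition 𝒪 𝒟)
    (hbar : 𝒟 (GaloisRepAdic.ofResidualGaloisRep ρbar))
    (hfin : GaloisRep.TangentFinite 𝒪 ρbar 𝒟) :
    Nonempty (GaloisRep.DeformationRingData 𝒪 ρbar 𝒟) := by
  obtain ⟨D⟩ := S53norm.exists_nfData habs
  refine S53norm.nonempty_of_proRep 𝒪 ρbar 𝒟 habs h𝒟 D ?_
  exact S53rep.exists_proRep 𝒪 S53norm.Idx (S53norm.Pt D 𝒟) (S53norm.x0 D)
    (S53norm.pt_x0 D hbar)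
    (fun A _ _ _ _ x hx i c hc => S53norm.Pt.sub_mem D hx i c hc)
    (fun A B _ _ _ _ _ _ hA hB f hf x hx => S53norm.Pt.map D h𝒟 hA hB f hf hx)
    (fun A B _ _ _ _ _ _ hA hB f hf hinj x hx =>
      S53norm.Pt.of_injective D h𝒟 hA hB f hf hinj hx)
    (fun A B C P _ _ _ _ _ _ _ _ _ _ _ _ hA hB hC hP f g pA pB hpA hpB h1 h2 h3 x hx hx' =>
      S53norm.Pt.of_fibreProduct D h𝒟 hA hB hC hP f g pA pB hpA hpB h1 h2 h3 hx hx')
    (S53norm.tangent_finite D hfin)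

end Fermat.Agent.S53
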