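import Fermat.Statements.S59
import Fermat.Agent.S59.Inputs
import Fermat.Agent.S59.LowPAll
import Fermat.Agent.S59.Flat
import Fermat.Agent.S59.Strict
import Fermat.Agent.Ribet.LowerUnrMain
import Fermat.Agent.TriLow.Main

set_option autoImplicit false
set_option autoImplicit false
open scoped WeierstrassCurve.Affine
open WeierstrassCurve

namespace Fermat.Agent.S59

theorem result (p : ℕ) (hp : p = 3 ∨ p = 5)
    (W : WeierstrassCurve ℤ) (hΔ : W.Δ ≠ 0) (hW : W.IsSemistableModel) (hirr : W.ModRepIsIrreducible p)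
    (M₀ : ℕ) [NeZero M₀] (hres₀ : W.IsResiduallyModularOfLevel p M₀)
    (hM₀ : ¬ p ^ 2 ∣ M₀)
    (hM₀3 : ∀ q : ℕ, q.Prime → q ≠ p → ¬ q ^ 3 ∣ M₀) :
    Mlc1IsModularModelOfExactConductorLevel W :=
  S59aux.stmt59_of_open TriLow.lowerSq Ribet.lowerUnr LowP.lowerAtP S59aux.climbFlat
    S59aux.climbStrict p hp W hΔ hW hirr M₀ hres₀ hM₀ hM₀3

end Fermat.Agent.S59
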