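import Fermat.Agent.S14_Minkowski
import Fermat.Agent.Kummer.UnitLemma

/-!
# Eigenspaces of units modulo `p`-th powers in the `p`-th cyclotomic field
-/

set_option autoImplicit false
set_option maxSynthPendingDepth 3
set_option linter.unusedSectionVars false

open Polynomial Module NumberField Fermat.Agent.Kummer

namespace Fermat.Agent.S14units

section mom

variable {R : Type*} [CommRing R]

lemma mom_comp_X_pow (k a : ℕ) (h : R[X]) : mom k (h.comp (X ^ a)) = (a : R) ^ k * mom k h := by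
  induction h using Polynomial.induction_on' with
  | add p q hp hq => rw [add_comp, map_add, map_add, hp, hq, mul_add]
  | monomial n c =>
    have h1 : (monomial n c : R[X]).comp (X ^ a) = c • X ^ (a * n) := by
      rw [monomial_comp, smul_eq_C_mul, ← pow_mul]
    have h2 : (monomial n c : R[X]) = c • X ^ n := by rw [smul_X_eq_monomial]
    rw [h1, h2, map_smul, map_smul, mom_X_pow, mom_X_pow, smul_eq_mul, smul_eq_mul]
    push_cast
    ring

lemma eul_comp_X_pow (a : ℕ) (f : R[X]) :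
    eul (f.comp (X ^ a)) = (a : R) • (eul f).comp (X ^ a) := by
  rw [eul_apply, eul_apply, derivative_comp, derivative_X_pow, mul_comp, X_comp, smul_eq_C_mul,
    map_natCast]
  rcases a with _ | a
  · simp
  · rw [Nat.add_sub_cancel]
    push_cast
    ring

end mom

variable {p : ℕ} [hp : Fact p.Prime] {K : Type*} [Field K] [NumberField K]
  [hK : IsCyclotomicExtension {p} ℚ K] {ζ : K} (hζ : IsPrimitiveRoot ζ p)

/-- Galois equivariance of the logarithmic derivatives. -/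
lemma logd_act {k : ℕ} (hk : k + 3 ≤ p) (σ : K ≃ₐ[ℚ] K) (a : ℕ) (ha : σ ζ = ζ ^ a)
    (u : (𝓞 K)ˣ) : logd hζ k (act σ u) = (a : ZMod p) ^ (k + 1) * logd hζ k u := by
  have key : ∀ (v : (𝓞 K)ˣ) (f : ℤ[X]), aeval hζ.toInteger f = (v : 𝓞 K) →
      aeval hζ.toInteger (f.comp (X ^ a)) = ((act σ v : (𝓞 K)ˣ) : 𝓞 K) := by
    intro v f hf
    apply RingOfIntegers.ext
    rw [coe_act, ← hf, aeval_comp, map_pow, aeval_X]
    have e1 : ∀ x : 𝓞 K, ∀ f : ℤ[X], ((aeval x f : 𝓞 K) : K) = aeval (x : K) f := fun x f =>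
      (aeval_algebraMap_apply K x f).symm
    rw [e1, e1]
    have e2 : σ (aeval ((hζ.toInteger : 𝓞 K) : K) f) = aeval (σ ((hζ.toInteger : 𝓞 K) : K)) f := by
      rw [← AlgEquiv.coe_toAlgHom, ← AlgHom.restrictScalars_apply ℤ, ← aeval_algHom_apply]
      rfl
    have e3 : ((hζ.toInteger ^ a : 𝓞 K) : K) = σ ((hζ.toInteger : 𝓞 K) : K) := by
      change ((hζ.toInteger ^ a : 𝓞 K) : K) = σ ζ
      rw [ha]
      rfl
    rw [e2, e3]
  have hinv : act σ u⁻¹ = (act σ u)⁻¹ := map_inv _ _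
  set f := rep hζ (u : 𝓞 K)
  set g := rep hζ ((u⁻¹ : (𝓞 K)ˣ) : 𝓞 K)
  have hf : aeval hζ.toInteger f = (u : 𝓞 K) := aeval_rep hζ _
  have hg : aeval hζ.toInteger g = ((u⁻¹ : (𝓞 K)ˣ) : 𝓞 K) := aeval_rep hζ _
  rw [logd_eq hζ hk (key u f hf) (by rw [key u⁻¹ g hg, hinv]), logd_eq hζ hk hf hg,
    eul_comp_X_pow, smul_mul_assoc, ← mul_comp]
  have h1 : redp p ((a : ℤ) • (eul f * g).comp (X ^ a)) =
      (a : ZMod p) • (redp p (eul f * g)).comp (X ^ a) := by
    simp only [smul_eq_C_mul, map_mul, coe_mapRingHom, map_comp, Polynomial.map_pow, map_X]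
    simp
  rw [h1, map_smul, mom_comp_X_pow, smul_eq_mul, pow_succ]
  ring

/-- The unit `ζ`. -/
noncomputable def zetaU : (𝓞 K)ˣ :=
  ⟨hζ.toInteger, hζ.toInteger ^ (p - 1),
    by rw [← pow_succ', Nat.sub_add_cancel hp.out.one_le, hζ.toInteger_isPrimitiveRoot.pow_eq_one],
    by rw [← pow_succ, Nat.sub_add_cancel hp.out.one_le, hζ.toInteger_isPrimitiveRoot.pow_eq_one]⟩

lemma logd_zetaU {k : ℕ} (hk : k + 3 ≤ p) : logd hζ k (zetaU hζ) = 0 ^ k := by
  rw [logd_eq hζ hk (u := zetaU hζ) (f := X) (g := X ^ (p - 1)) (by simp [zetaU])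
    (by rw [map_pow, aeval_X]; rfl)]
  have : redp p (eul (X : ℤ[X]) * X ^ (p - 1)) = X ^ p := by
    rw [eul_apply, derivative_X, mul_one, ← pow_succ', Nat.sub_add_cancel hp.out.one_le]
    simp
  rw [this, mom_X_pow, CharP.cast_eq_zero]

lemma logd_one {k : ℕ} (hk : k + 3 ≤ p) : logd hζ k 1 = 0 := by
  have h := logd_mul hζ hk 1 1
  rwa [mul_one, left_eq_add] at h

lemma logd_pow {k : ℕ} (hk : k + 3 ≤ p) (u : (𝓞 K)ˣ) (n : ℕ) :
    logd hζ k (u ^ n) = n * logd hζ k u := by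
  induction n with
  | zero => rw [pow_zero, logd_one hζ hk]; simp
  | succ n ih => rw [pow_succ, logd_mul hζ hk, ih]; push_cast; ring

lemma logd_neg_one {k : ℕ} (hk : k + 3 ≤ p) : logd hζ k (-1) = 0 := by
  have h := logd_mul hζ hk (-1) (-1)
  rw [neg_one_mul, neg_neg, logd_one hζ hk] at h
  have h2 : (2 : ZMod p) ≠ 0 := by
    have : ((2 : ℕ) : ZMod p) ≠ 0 := by
      rw [Ne, ZMod.natCast_eq_zero_iff]
      intro h
      have := Nat.le_of_dvd (by norm_num) h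
      omega
    exact_mod_cast this
  have h3 : (2 : ZMod p) * logd hζ k (-1) = 0 := by rw [two_mul, ← h]
  exact (mul_eq_zero.mp h3).resolve_left h2

/-- Torsion units. -/
lemma torsion_cases (h3 : 3 ≤ p) {τ : (𝓞 K)ˣ} (hτ : τ ∈ Units.torsion K) :
    ∃ r : ℕ, r < p ∧ (τ = zetaU hζ ^ r ∨ τ = -1 * zetaU hζ ^ r) := by
  have hodd : Odd p := hp.out.odd_of_ne_two (by omega)
  have hfin : IsOfFinOrder ((τ : 𝓞 K) : K) := by
    have h1 : IsOfFinOrder τ := hτ
    exact ((algebraMap (𝓞 K) K : 𝓞 K →* K).comp (Units.coeHom _)).isOfFinOrder h1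
  obtain ⟨r, hr, h | h⟩ := hζ.exists_pow_or_neg_mul_pow_of_isOfFinOrder hodd hfin
  · refine ⟨r, hr, Or.inl ?_⟩
    ext
    rw [h]; rfl
  · refine ⟨r, hr, Or.inr ?_⟩
    ext
    rw [h, neg_one_mul]; rfl

lemma logd_torsion (h3 : 3 ≤ p) {k : ℕ} (hk : k + 3 ≤ p) (hk1 : 1 ≤ k) {τ : (𝓞 K)ˣ}
    (hτ : τ ∈ Units.torsion K) : logd hζ k τ = 0 := by
  have hz : logd hζ k (zetaU hζ) = 0 := by
    rw [logd_zetaU hζ hk, zero_pow (by omega)]
  obtain ⟨r, -, rfl | rfl⟩ := torsion_cases hζ h3 hτ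
  · rw [logd_pow hζ hk, hz, mul_zero]
  · rw [logd_mul hζ hk, logd_neg_one hζ hk, logd_pow hζ hk, hz, mul_zero, add_zero]

/-- The functional on the unit lattice. -/
noncomputable def logdLat (h3 : 3 ≤ p) (k : ℕ) (hk : k + 3 ≤ p) (hk1 : 1 ≤ k) :
    UnitLat K →ₗ[ℤ] ZMod p :=
  (MonoidHom.toAdditiveLeft (QuotientGroup.lift (Units.torsion K) (logdHom hζ k hk)
    (fun u hu => by
      change Multiplicative.ofAdd (logd hζ k u) = 1
      rw [logd_torsion hζ h3 hk hk1 hu]; rfl))).toIntLinearMap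

lemma logdLat_cls (h3 : 3 ≤ p) (k : ℕ) (hk : k + 3 ≤ p) (hk1 : 1 ≤ k) (u : (𝓞 K)ˣ) :
    logdLat hζ h3 k hk hk1 (cls u) = logd hζ k u := rfl

/-- Vanishing modulo `p` in a free lattice. -/
lemma exists_eq_smul_of_tmul_eq_zero {Λ : Type*} [AddCommGroup Λ] [Module.Free ℤ Λ]
    [Module.Finite ℤ Λ] (x : Λ) (h : (1 : ZMod p) ⊗ₜ[ℤ] x = 0) : ∃ y : Λ, x = (p : ℤ) • y := by
  classical
  let b := Module.Free.chooseBasis ℤ Λ
  have h1 : ∀ i, ∃ c : ℤ, b.repr x i = p * c := by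
    intro i
    have h2 := congrArg (fun z => (Algebra.TensorProduct.basis (ZMod p) b).repr z i) h
    simp only [Algebra.TensorProduct.basis_repr_tmul, one_smul, Finsupp.mapRange_apply, map_zero,
      Finsupp.coe_zero, Pi.zero_apply, algebraMap_int_eq, eq_intCast] at h2
    obtain ⟨c, hc⟩ := (ZMod.intCast_zmod_eq_zero_iff_dvd _ p).mp h2
    exact ⟨c, hc⟩
  choose c hc using h1
  refine ⟨∑ i, c i • b i, ?_⟩
  conv_lhs => rw [← b.sum_repr x]
  rw [Finset.smul_sum]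
  refine Finset.sum_congr rfl (fun i _ => ?_)
  rw [hc i, mul_smul]

lemma natCard_gal (p : ℕ) [hp : Fact p.Prime] (K : Type*) [Field K] [NumberField K]
    [hK : IsCyclotomicExtension {p} ℚ K] : Nat.card (K ≃ₐ[ℚ] K) = p - 1 := by
  have : IsGalois ℚ K := IsCyclotomicExtension.isGalois {p} ℚ K
  rw [IsGalois.card_aut_eq_finrank, IsCyclotomicExtension.finrank K
    (cyclotomic.irreducible_rat hp.out.pos), Nat.totient_prime hp.out]

lemma card_places (p : ℕ) [hp : Fact p.Prime] (h3 : 3 ≤ p) (K : Type*) [Field K] [NumberField K]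
    [hK : IsCyclotomicExtension {p} ℚ K] : Fintype.card (InfinitePlace K) = (p - 1) / 2 := by
  rw [InfinitePlace.card_eq_nrRealPlaces_add_nrComplexPlaces,
      IsCyclotomicExtension.Rat.nrRealPlaces_eq_zero (n := p) K (by omega),
      IsCyclotomicExtension.Rat.nrComplexPlaces_eq_totient_div_two (n := p) K,
      Nat.totient_prime hp.out, zero_add]

lemma actLat_pow_card (p : ℕ) [hp : Fact p.Prime] [hK : IsCyclotomicExtension {p} ℚ K]
    (σ : K ≃ₐ[ℚ] K) : (actLat σ) ^ (p - 1) = 1 := by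
  refine LinearMap.ext (fun x => ?_)
  obtain ⟨u, rfl⟩ := cls_surjective x
  rw [actLat_pow_cls, Module.End.one_apply]
  congr 1
  ext
  rw [coe_act_pow, ← natCard_gal p K, pow_card_eq_one', AlgEquiv.one_apply]

include hζ in
/-- **Main eigenspace statement**: let `σ` generate the Galois group, `σ ζ = ζ ^ a`, and let `k`
be such that the `k`-th logarithmic derivative is nonzero on units. A unit `η` with
`σ η = η ^ (a^(k+1))` up to `p`-th powers, and killed by the `0`-th and `k`-th logarithmic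
derivatives, is a `p`-th power. -/
theorem eigen_unit_eq_pow' (hp5 : 5 ≤ p) (σ : K ≃ₐ[ℚ] K)
    (hσ : ∀ τ : K ≃ₐ[ℚ] K, τ ∈ Subgroup.zpowers σ) (a : ℕ) (ha : σ ζ = ζ ^ a)
    (k : ℕ) (hk : k + 3 ≤ p) (hk1 : 1 ≤ k) (u₀ : (𝓞 K)ˣ) (hu₀ : logd hζ k u₀ ≠ 0)
    (η γ : (𝓞 K)ˣ) (heig : act σ η = η ^ (a ^ (k + 1)) * γ ^ p)
    (h0 : logd hζ 0 η = 0) (h1 : logd hζ k η = 0) : ∃ δ : (𝓞 K)ˣ, η = δ ^ p := by
  have : IsGalois ℚ K := IsCyclotomicExtension.isGalois {p} ℚ K
  have : IsTotallyComplex K := IsCyclotomicExtension.Rat.isTotallyComplex K (n := p) (by omega)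
  have hodd : Odd p := hp.out.odd_of_ne_two (by omega)
  have h3 : 3 ≤ p := by omega
  -- `a` is prime to `p`
  have ha0 : (a : ZMod p) ≠ 0 := by
    intro h
    rw [ZMod.natCast_eq_zero_iff] at h
    obtain ⟨c, rfl⟩ := h
    rw [pow_mul, hζ.pow_eq_one, one_pow] at ha
    have : ζ = 1 := σ.injective (by rw [ha, map_one])
    exact hζ.ne_one hp.out.one_lt this
  obtain ⟨n, hn⟩ : ∃ n, p = 2 * n + 3 := by
    obtain ⟨m, hm⟩ := hodd
    exact ⟨m - 1, by omega⟩
  have hcard : Fintype.card (InfinitePlace K) = n + 1 := by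
    rw [card_places p h3 K]; omega
  have hrank : finrank ℤ (UnitLat K) = n := by
    rw [Units.finrank_modTorsion, Units.rank, hcard]; rfl
  obtain ⟨um, hum⟩ := exists_minkowski σ hσ n hcard
  set V := TensorProduct ℤ (ZMod p) (UnitLat K)
  set φ : V →ₗ[ZMod p] V := (actLat σ).baseChange (ZMod p) with hφ
  have hdim : finrank (ZMod p) (Module.End.eigenspace φ ((a : ZMod p) ^ (k + 1))) ≤ 1 := by
    refine finrank_eigenspace_le_one (actLat σ) n (by omega) hrank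
      (sum_actLat_pow σ hσ (n + 1) hcard) um hum (ZMod p) ?_ _
    rw [Ne, ZMod.natCast_eq_zero_iff]
    intro h
    have := Nat.le_of_dvd (by omega) h
    omega
  set ℓ : V →ₗ[ZMod p] ZMod p := LinearMap.liftBaseChange (ZMod p) (logdLat hζ h3 k hk hk1) with hℓ
  have hℓt : ∀ (c : ZMod p) (x : UnitLat K), ℓ (c ⊗ₜ x) = c * logdLat hζ h3 k hk hk1 x := by
    intro c x
    rw [hℓ, LinearMap.liftBaseChange_tmul, smul_eq_mul]
  have hx0 : (1 : ZMod p) ⊗ₜ[ℤ] (cls η) = 0 := by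
    refine eq_zero_of_mem_eigenspace φ (p - 1) ?_ ?_ ((a : ZMod p) ^ (k + 1)) ?_ (pow_ne_zero _ ha0)
      hdim ℓ ?_ ((1 : ZMod p) ⊗ₜ[ℤ] (cls u₀)) ?_ _ ?_ ?_
    · rw [Ne, ZMod.natCast_eq_zero_iff]
      intro h
      have := Nat.le_of_dvd (by omega) h
      omega
    · rw [hφ, ← LinearMap.baseChange_pow, actLat_pow_card p σ]
      exact LinearMap.baseChange_one ..
    · rw [← pow_mul, mul_comm, pow_mul, ZMod.pow_card_sub_one_eq_one ha0, one_pow]
    · intro v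
      induction v using TensorProduct.induction_on with
      | zero => simp
      | add x y hx hy => rw [map_add, map_add, map_add, hx, hy, mul_add]
      | tmul c x =>
        obtain ⟨u, rfl⟩ := cls_surjective x
        rw [hφ, LinearMap.baseChange_tmul, hℓt, hℓt, actLat_cls, logdLat_cls, logdLat_cls,
          logd_act hζ hk σ a ha]
        ring
    · rw [hℓt, logdLat_cls, one_mul]; exact hu₀
    · rw [hφ, LinearMap.baseChange_tmul, actLat_cls, heig, cls_mul, cls_pow, cls_pow,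
        TensorProduct.tmul_add, TensorProduct.tmul_smul, TensorProduct.tmul_smul]
      have hp0 : (p : ℕ) • ((1 : ZMod p) ⊗ₜ[ℤ] (cls γ)) = 0 := by
        rw [← Nat.cast_smul_eq_nsmul (ZMod p), CharP.cast_eq_zero, zero_smul]
      rw [hp0, add_zero, ← Nat.cast_smul_eq_nsmul (ZMod p)]
      push_cast
      rfl
    · rw [hℓt, logdLat_cls, one_mul]; exact h1
  obtain ⟨y, hy⟩ := exists_eq_smul_of_tmul_eq_zero (cls η) hx0
  obtain ⟨δ, rfl⟩ := cls_surjective y
  have hτ : η * (δ ^ p)⁻¹ ∈ Units.torsion K := by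
    rw [← cls_eq_zero_iff, cls_mul, hy]
    have : cls (δ ^ p)⁻¹ = -((p : ℤ) • cls δ) := by
      rw [← cls_zpow, zpow_natCast]; rfl
    rw [this, add_neg_cancel]
  obtain ⟨r, hr, hτ'⟩ := torsion_cases hζ h3 hτ
  have hk0 : 0 + 3 ≤ p := by omega
  have hz0 : logd hζ 0 (zetaU hζ) = 1 := by rw [logd_zetaU hζ hk0, pow_zero]
  have hr0 : r = 0 := by
    have hlog : logd hζ 0 (η * (δ ^ p)⁻¹) = 0 := by
      have e1 : logd hζ 0 ((η * (δ ^ p)⁻¹) * δ ^ p) = logd hζ 0 η := by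
        rw [inv_mul_cancel_right]
      rw [logd_mul hζ hk0, logd_pow hζ hk0 δ p, CharP.cast_eq_zero, zero_mul, add_zero, h0] at e1
      exact e1
    have : (r : ZMod p) = 0 := by
      rcases hτ' with h | h
      · rw [h, logd_pow hζ hk0, hz0, mul_one] at hlog; exact hlog
      · rw [h, logd_mul hζ hk0, logd_neg_one hζ hk0, logd_pow hζ hk0, hz0, mul_one,
          zero_add] at hlog; exact hlog
    rw [ZMod.natCast_eq_zero_iff] at this
    exact Nat.eq_zero_of_dvd_of_lt this hr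
  rw [hr0, pow_zero, mul_one] at hτ'
  rcases hτ' with h | h
  · exact ⟨δ, by rw [mul_inv_eq_one] at h; exact h⟩
  · refine ⟨-1 * δ, ?_⟩
    rw [mul_inv_eq_iff_eq_mul] at h
    rw [h, mul_pow, hodd.neg_one_pow]

section sums

lemma two_mul_sum_range {R : Type*} [CommRing R] (n : ℕ) :
    2 * ∑ j ∈ Finset.range n, (j : R) = n * (n - 1) := by
  induction n with
  | zero => simp
  | succ n ih => rw [Finset.sum_range_succ, mul_add, ih]; push_cast; ring

lemma six_mul_sum_sq_range {R : Type*} [CommRing R] (n : ℕ) :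
    6 * ∑ j ∈ Finset.range n, (j : R) ^ 2 = (n - 1) * n * (2 * n - 1) := by
  induction n with
  | zero => simp
  | succ n ih => rw [Finset.sum_range_succ, mul_add, ih]; push_cast; ring

end sums

/-- The first (second order) logarithmic derivative of the cyclotomic units. -/
lemma twelve_mul_logd_one_cycUnit (h4 : 4 ≤ p) (b b' : ℕ) (hb : b * b' ≡ 1 [MOD p]) :
    12 * logd hζ 1 (cycUnit hζ b b' hb) = (b : ZMod p) ^ 2 - 1 := by
  have hbb : (b : ZMod p) * b' = 1 := by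
    have := (ZMod.natCast_eq_natCast_iff _ _ _).mpr hb
    push_cast at this; exact this
  rw [logd_cycUnit hζ (by omega : 1 + 3 ≤ p)]
  have e1 : ∑ j ∈ Finset.range b, ∑ l ∈ Finset.range b',
      (j : ZMod p) * ((j + b * l : ℕ) : ZMod p) ^ 1 =
      b' * ∑ j ∈ Finset.range b, (j : ZMod p) ^ 2 +
      b * (∑ j ∈ Finset.range b, (j : ZMod p)) * ∑ l ∈ Finset.range b', (l : ZMod p) := by
    rw [Finset.mul_sum, mul_assoc, Finset.sum_mul_sum, Finset.mul_sum, ← Finset.sum_add_distrib]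
    refine Finset.sum_congr rfl (fun j _ => ?_)
    rw [Finset.mul_sum]
    have : ∀ l ∈ Finset.range b', (j : ZMod p) * ((j + b * l : ℕ) : ZMod p) ^ 1 =
        (j : ZMod p) ^ 2 + b * ((j : ZMod p) * l) := by
      intro l _
      push_cast; ring
    rw [Finset.sum_congr rfl this, Finset.sum_add_distrib, Finset.sum_const, Finset.card_range,
      nsmul_eq_mul]
  rw [e1]
  have h6 := six_mul_sum_sq_range (R := ZMod p) b
  have h2 := two_mul_sum_range (R := ZMod p) b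
  have h2' := two_mul_sum_range (R := ZMod p) b'
  linear_combination (2 * (b' : ZMod p)) * h6 +
    (3 * (b : ZMod p) * (2 * ∑ l ∈ Finset.range b', (l : ZMod p))) * h2 +
    (3 * (b : ZMod p) * (b * (b - 1))) * h2' +
    (2 * ((b : ZMod p) - 1) * (2 * b - 1) + 3 * (b * (b - 1)) * (b' - 1) + 3 * (b - 1)) * hbb

lemma coe_act' (σ : K ≃ₐ[ℚ] K) (u : (𝓞 K)ˣ) : ((act σ u : (𝓞 K)ˣ) : K) = σ (u : K) := rfl

lemma coe_inv_unit (u : (𝓞 K)ˣ) : ((u⁻¹ : (𝓞 K)ˣ) : K) = (u : K)⁻¹ := by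
  rw [eq_comm]
  refine inv_eq_of_mul_eq_one_right ?_
  rw [← Units.coe_mul, mul_inv_cancel, Units.coe_one]

include hζ in
/-- **T3**: a unit in the `ω²`-eigenspace modulo `p`-th powers which is congruent to a rational
integer modulo `p` is a `p`-th power. -/
theorem eigen_unit_eq_pow (hp5 : 5 ≤ p) (σ : K ≃ₐ[ℚ] K)
    (hσ : ∀ τ : K ≃ₐ[ℚ] K, τ ∈ Subgroup.zpowers σ) (a : ℕ) (ha : σ ζ = ζ ^ a)
    (η : (𝓞 K)ˣ) (γ : K) (heig : σ (η : K) = (η : K) ^ (a ^ 2) * γ ^ p)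
    (hint : ∃ n : ℤ, (p : 𝓞 K) ∣ (η : 𝓞 K) - n) : ∃ δ : (𝓞 K)ˣ, η = δ ^ p := by
  obtain ⟨n, hn⟩ := hint
  -- `γ` is a unit
  have hγ : γ ^ p = ((act σ η * (η ^ (a ^ 2))⁻¹ : (𝓞 K)ˣ) : K) := by
    have hne : (η : K) ≠ 0 := Units.coe_ne_zero η
    rw [Units.coe_mul, coe_act', heig, coe_inv_unit, Units.coe_pow]
    field_simp
  have hγint : IsIntegral ℤ γ := by
    refine IsIntegral.of_pow hp.out.pos ?_
    rw [hγ]
    exact RingOfIntegers.isIntegral_coe _
  have hγint' : IsIntegral ℤ γ⁻¹ := by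
    refine IsIntegral.of_pow hp.out.pos ?_
    rw [inv_pow, hγ]
    rw [← coe_inv_unit]
    exact RingOfIntegers.isIntegral_coe _
  have hγ0 : γ ≠ 0 := by
    rintro rfl
    rw [zero_pow hp.out.ne_zero] at hγ
    exact Units.coe_ne_zero _ hγ.symm
  obtain ⟨g, hg⟩ : ∃ g : (𝓞 K)ˣ, (g : K) = γ := by
    refine ⟨⟨⟨γ, hγint⟩, ⟨γ⁻¹, hγint'⟩, ?_, ?_⟩, rfl⟩
    · ext; exact mul_inv_cancel₀ hγ0
    · ext; exact inv_mul_cancel₀ hγ0
  -- the auxiliary unit
  obtain ⟨m, hm⟩ : ∃ m, p = 2 * m + 1 := hp.out.odd_of_ne_two (by omega)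
  have hb : 2 * (m + 1) ≡ 1 [MOD p] := by
    have : 2 * (m + 1) = p + 1 := by omega
    rw [this]
    exact (Nat.modEq_iff_dvd' (by omega)).mpr (by simp) |>.symm
  have hu₀ : logd hζ 1 (cycUnit hζ 2 (m + 1) hb) ≠ 0 := by
    intro h
    have h12 := twelve_mul_logd_one_cycUnit hζ (by omega) 2 (m + 1) hb
    rw [h, mul_zero] at h12
    have : ((3 : ℕ) : ZMod p) = 0 := by push_cast at h12 ⊢; linear_combination -h12
    rw [ZMod.natCast_eq_zero_iff] at this
    have := Nat.le_of_dvd (by norm_num) this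
    omega
  refine eigen_unit_eq_pow' hζ hp5 σ hσ a ha 1 (by omega) le_rfl _ hu₀ η g ?_
    (logd_eq_zero_of_dvd hζ (by omega) hn) (logd_eq_zero_of_dvd hζ (by omega) hn)
  apply Units.coe_injective K
  beta_reduce
  rw [coe_act', heig, Units.coe_mul, Units.coe_pow, Units.coe_pow, hg]

include hζ in
/-- Existence of a generator of the Galois group. -/
lemma exists_gal_generator : ∃ (σ : K ≃ₐ[ℚ] K) (a : ℕ),
    (∀ τ : K ≃ₐ[ℚ] K, τ ∈ Subgroup.zpowers σ) ∧ σ ζ = ζ ^ a := by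
  have e := IsCyclotomicExtension.Rat.galEquivZMod p K
  have : IsCyclic (K ≃ₐ[ℚ] K) := isCyclic_of_injective e.toMonoidHom e.injective
  obtain ⟨σ, hσ⟩ := IsCyclic.exists_generator (α := (K ≃ₐ[ℚ] K))
  have h1 : (σ ζ) ^ p = 1 := by rw [← map_pow, hζ.pow_eq_one, map_one]
  obtain ⟨a, -, ha⟩ := hζ.eq_pow_of_pow_eq_one h1
  exact ⟨σ, a, hσ, ha.symm⟩

end Fermat.Agent.S14units
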