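import Fermat.Agent.S14_CoreThree
import Fermat.Prelude.Def_ClassGroup_GaloisAction

/-!
# S14, part T6: assembly.

`core_of_chi_eq_one` : the core statement for `p ≥ 5` follows from the vanishing of all
`ω²`-eigencharacters `χ : Cl(K) → ℤ/p`.
-/

set_option autoImplicit false

namespace Fermat.Agent.S14kummer

open NumberField nonZeroDivisors

/-! ### Linear algebra -/

section LinAlg

/-- A nontrivial finite commutative `p`-group has a nontrivial character to `ℤ/p`. -/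
theorem exists_hom_ne_one {p : ℕ} [Fact p.Prime] {E : Type*} [CommGroup E] [Finite E]
    (hE : IsPGroup p E) (hnt : Nontrivial E) :
    ∃ f : E →* Multiplicative (ZMod p), f ≠ 1 := by
  obtain ⟨n, hn⟩ := hE.exists_card_eq
  have hn0 : n ≠ 0 := by
    rintro rfl
    rw [pow_zero] at hn
    have := Nat.card_eq_one_iff_unique.mp hn
    exact not_subsingleton E this.1
  obtain ⟨k, rfl⟩ := Nat.exists_eq_succ_of_ne_zero hn0
  obtain ⟨H, hH⟩ := Sylow.exists_subgroup_card_pow_prime (G := E) p (n := k)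
    (by rw [hn]; exact pow_dvd_pow p (Nat.le_succ k))
  have hcard : Nat.card (E ⧸ H) = p := by
    have h1 := H.card_eq_card_quotient_mul_card_subgroup
    rw [hn, hH, pow_succ, mul_comm] at h1
    have hpos : 0 < p ^ k := pow_pos (Nat.Prime.pos Fact.out) k
    exact (Nat.eq_of_mul_eq_mul_right hpos h1).symm
  have hcard2 : Nat.card (Multiplicative (ZMod p)) = p := by
    rw [Nat.card_congr Multiplicative.toAdd, Nat.card_zmod]
  have e : (E ⧸ H) ≃* Multiplicative (ZMod p) := by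
    haveI : IsCyclic (E ⧸ H) := isCyclic_of_prime_card hcard
    exact mulEquivOfCyclicCardEq (hcard.trans hcard2.symm)
  refine ⟨e.toMonoidHom.comp (QuotientGroup.mk' H), ?_⟩
  intro h
  have h1 : ∀ x : E ⧸ H, x = 1 := by
    intro x
    obtain ⟨y, rfl⟩ := QuotientGroup.mk'_surjective H x
    apply e.injective
    have := DFunLike.congr_fun h y
    rw [map_one]
    simpa using this
  have h2 : Nat.card (E ⧸ H) = 1 := by
    rw [Nat.card_eq_one_iff_unique]
    exact ⟨⟨fun a b => by rw [h1 a, h1 b]⟩, ⟨1⟩⟩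
  rw [hcard] at h2
  exact (Nat.Prime.one_lt (Fact.out : p.Prime)).ne' h2

variable {A G : Type*} [CommGroup A] [Finite A] [Group G] [Fintype G] {p : ℕ} [hp : Fact p.Prime]

theorem exists_char (hcomm : ∀ σ τ : G, σ * τ = τ * σ) (act : G →* Monoid.End A)
    (a : G →* (ZMod p)ˣ) (hG : ¬ p ∣ Fintype.card G) (c : A) (hc1 : c ≠ 1) (hcp : c ^ p = 1)
    (hc : ∀ σ, act σ c = c ^ ((a σ : ZMod p).val ^ 2)) :
    ∃ χ : A →* Multiplicative (ZMod p), χ ≠ 1 ∧
      ∀ σ x, (χ (act σ x)).toAdd = (a σ : ZMod p) ^ 2 * (χ x).toAdd := by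
  classical
  have hpp : p.Prime := hp.out
  obtain ⟨k, m, hm, hcard⟩ := Nat.exists_eq_pow_mul_and_not_dvd (n := Nat.card A)
    Nat.card_pos.ne' p hpp.ne_one
  set t : G → ℕ := fun σ => ((a σ : ZMod p).val) ^ (2 * p ^ k) with ht
  -- multiplicativity modulo `p ^ k`
  have htmul : ∀ σ τ, t (σ * τ) ≡ t σ * t τ [MOD p ^ k] := by
    intro σ τ
    have h1 : ((p : ℤ)) ∣ (((a (σ * τ) : ZMod p).val ^ 2 : ℕ) : ℤ) -
        ((((a σ : ZMod p).val ^ 2) * ((a τ : ZMod p).val ^ 2) : ℕ) : ℤ) := by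
      rw [← ZMod.intCast_zmod_eq_zero_iff_dvd]
      push_cast
      simp only [ZMod.natCast_zmod_val, map_mul, Units.val_mul]
      ring
    have h2 := dvd_sub_pow_of_dvd_sub h1 k
    have h3 : ((p : ℤ) ^ k) ∣ (t (σ * τ) : ℤ) - ((t σ * t τ : ℕ) : ℤ) := by
      refine dvd_trans (pow_dvd_pow _ (Nat.le_succ k)) ?_
      convert h2 using 2
      · rw [ht]
        push_cast
        rw [pow_mul]
      · rw [ht]
        push_cast
        rw [pow_mul, pow_mul, mul_pow]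
    rw [Nat.modEq_iff_dvd]
    push_cast at h3 ⊢
    rwa [← neg_sub, dvd_neg]
  have ht1 : t 1 = 1 := by
    simp only [ht, map_one, Units.val_one, ZMod.val_one, one_pow]
  have htp : ∀ σ, ((t σ : ℕ) : ZMod p) = (a σ : ZMod p) ^ 2 := by
    intro σ
    simp only [ht]
    push_cast
    rw [ZMod.natCast_zmod_val, mul_comm, pow_mul, ZMod.pow_card_pow]
  have hpow : ∀ x : A, x ^ p ^ k = 1 → ∀ i j : ℕ, i ≡ j [MOD p ^ k] → x ^ i = x ^ j := by
    intro x hx i j hij
    rw [pow_eq_pow_iff_modEq]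
    exact hij.of_dvd (orderOf_dvd_of_pow_eq_one hx)
  have hxm : ∀ x : A, (x ^ m) ^ p ^ k = 1 := by
    intro x
    rw [← pow_mul, mul_comm, ← hcard]
    exact pow_card_eq_one'
  -- the eigen-subgroup
  let E : Subgroup A :=
    { carrier := {x | x ^ p ^ k = 1 ∧ ∀ τ, act τ x = x ^ t τ}
      mul_mem' := by
        rintro x y ⟨hx, hx'⟩ ⟨hy, hy'⟩
        refine ⟨by rw [mul_pow, hx, hy, one_mul], fun τ => ?_⟩
        rw [map_mul, hx', hy', mul_pow]
      one_mem' := ⟨one_pow _, fun τ => by rw [map_one, one_pow]⟩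
      inv_mem' := by
        rintro x ⟨hx, hx'⟩
        refine ⟨by rw [inv_pow, hx, inv_one], fun τ => ?_⟩
        rw [map_inv, hx', inv_pow] }
  have hEdef : ∀ x, x ∈ E ↔ (x ^ p ^ k = 1 ∧ ∀ τ, act τ x = x ^ t τ) := fun x => Iff.rfl
  -- the projector
  let θ : A →* A :=
    { toFun := fun x => ∏ σ : G, (act σ (x ^ m)) ^ (t σ⁻¹)
      map_one' := by simp
      map_mul' := by
        intro x y
        rw [← Finset.prod_mul_distrib]
        refine Finset.prod_congr rfl fun σ _ => ?_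
        rw [mul_pow, map_mul, mul_pow] }
  have hθ : ∀ x, θ x = ∏ σ : G, (act σ (x ^ m)) ^ (t σ⁻¹) := fun x => rfl
  have hactpk : ∀ σ x, (act σ (x ^ m)) ^ p ^ k = 1 := by
    intro σ x
    rw [← map_pow, hxm, map_one]
  have hθcomm : ∀ τ x, θ (act τ x) = act τ (θ x) := by
    intro τ x
    rw [hθ, hθ, map_prod]
    refine Finset.prod_congr rfl fun σ _ => ?_
    have : act (σ * τ) = act (τ * σ) := by rw [hcomm]
    rw [map_mul, map_mul] at this
    have h1 : act σ (act τ (x ^ m)) = act τ (act σ (x ^ m)) := DFunLike.congr_fun this (x ^ m)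
    rw [map_pow (act τ) x m] at h1
    rw [h1, map_pow (act τ)]
  have hθact : ∀ τ x, act τ (θ x) = (θ x) ^ t τ := by
    intro τ x
    rw [hθ, map_prod, ← Finset.prod_pow]
    rw [← Equiv.prod_comp (Equiv.mulLeft τ) (fun ρ : G => ((act ρ (x ^ m)) ^ (t ρ⁻¹)) ^ t τ)]
    refine Finset.prod_congr rfl fun σ _ => ?_
    rw [map_pow, Equiv.coe_mulLeft, ← pow_mul]
    have h1 : act τ (act σ (x ^ m)) = act (τ * σ) (x ^ m) := by
      rw [map_mul]; rfl
    rw [h1]
    apply hpow _ (hactpk _ _)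
    have h2 := htmul (τ * σ)⁻¹ τ
    rw [mul_inv_rev, inv_mul_cancel_right] at h2
    rwa [mul_inv_rev]
  have hθE : ∀ x, θ x ∈ E := by
    intro x
    refine ⟨?_, fun τ => hθact τ x⟩
    rw [hθ, ← Finset.prod_pow]
    refine Finset.prod_eq_one fun σ _ => ?_
    rw [← pow_mul, mul_comm, pow_mul, hactpk, one_pow]
  have hθon : ∀ x ∈ E, θ x = x ^ (m * Fintype.card G) := by
    rintro x ⟨hx, hx'⟩
    rw [hθ, pow_mul, ← Finset.card_univ, ← Finset.prod_const]
    refine Finset.prod_congr rfl fun σ _ => ?_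
    rw [map_pow, hx', ← pow_mul, ← pow_mul]
    apply hpow x hx
    have h2 := htmul σ σ⁻¹
    rw [mul_inv_cancel, ht1] at h2
    calc t σ * (m * t σ⁻¹) = m * (t σ * t σ⁻¹) := by ring
      _ ≡ m * 1 [MOD p ^ k] := (h2.symm.mul_left m)
      _ = m := mul_one m
  -- `c ∈ E`
  have hk : k ≠ 0 := by
    rintro rfl
    have h1 : orderOf c = p := orderOf_eq_prime hcp hc1
    have h2 : p ∣ Nat.card A := by rw [← h1]; exact orderOf_dvd_natCard c
    rw [hcard, pow_zero, one_mul] at h2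
    exact hm h2
  have hcE : c ∈ E := by
    refine ⟨?_, fun τ => ?_⟩
    · obtain ⟨j, rfl⟩ := Nat.exists_eq_succ_of_ne_zero hk
      rw [pow_succ, mul_comm, pow_mul, hcp, one_pow]
    · rw [hc, pow_eq_pow_iff_modEq]
      refine Nat.ModEq.of_dvd (orderOf_dvd_of_pow_eq_one hcp) ?_
      rw [← ZMod.natCast_eq_natCast_iff, htp]
      push_cast
      rw [ZMod.natCast_zmod_val]
  have hEnt : Nontrivial E := ⟨⟨⟨c, hcE⟩, 1, fun h => hc1 (congrArg Subtype.val h)⟩⟩
  have hEp : IsPGroup p E := by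
    intro x
    refine ⟨k, ?_⟩
    apply Subtype.ext
    exact x.2.1
  obtain ⟨f, hf⟩ := exists_hom_ne_one hEp hEnt
  let θ' : A →* E := θ.codRestrict E hθE
  refine ⟨f.comp θ', ?_, ?_⟩
  · intro h
    apply hf
    ext x
    have h1 := DFunLike.congr_fun h (x : A)
    rw [MonoidHom.comp_apply, MonoidHom.one_apply] at h1
    have h2 : θ' (x : A) = x ^ (m * Fintype.card G) := Subtype.ext (hθon x x.2)
    rw [h2, map_pow] at h1
    have h3 : (f x) ^ p = 1 := by
      apply Multiplicative.toAdd.injective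
      rw [toAdd_pow, toAdd_one, nsmul_eq_mul]
      simp
    have hco : Nat.Coprime p (m * Fintype.card G) :=
      (Nat.Prime.coprime_iff_not_dvd hpp).mpr (fun h => (hpp.dvd_mul.mp h).elim hm hG)
    have h4 : orderOf (f x) ∣ 1 := by
      rw [← hco.gcd_eq_one]
      exact Nat.dvd_gcd (orderOf_dvd_of_pow_eq_one h3) (orderOf_dvd_of_pow_eq_one h1)
    rw [Nat.dvd_one, orderOf_eq_one_iff] at h4
    rw [h4, MonoidHom.one_apply]
  · intro σ x
    rw [MonoidHom.comp_apply, MonoidHom.comp_apply]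
    have h1 : θ' (act σ x) = (θ' x) ^ t σ := by
      apply Subtype.ext
      change θ (act σ x) = (θ x) ^ t σ
      rw [hθcomm, hθact]
    rw [h1, map_pow, toAdd_pow, nsmul_eq_mul, htp]

end LinAlg

/-! ### The action on the class group -/

section Act

open scoped Pointwise

variable (K : Type) [Field K] [NumberField K]

/-- the automorphism of the ring of integers -/
noncomputable def rEquiv (σ : K ≃ₐ[ℚ] K) : 𝓞 K ≃+* 𝓞 K :=
  MulSemiringAction.toRingEquiv (K ≃ₐ[ℚ] K) (𝓞 K) σ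

lemma rEquiv_apply (σ : K ≃ₐ[ℚ] K) (x : 𝓞 K) : rEquiv K σ x = σ • x := rfl

lemma rEquiv_one : rEquiv K 1 = RingEquiv.refl (𝓞 K) :=
  RingEquiv.ext fun x => by rw [rEquiv_apply, one_smul]; rfl

lemma rEquiv_mul (σ τ : K ≃ₐ[ℚ] K) :
    rEquiv K (σ * τ) = (rEquiv K τ).trans (rEquiv K σ) :=
  RingEquiv.ext fun x => by
    rw [rEquiv_apply, mul_smul, RingEquiv.trans_apply, rEquiv_apply, rEquiv_apply]

/-- the action of the Galois group on the class group -/
noncomputable def actCl : (K ≃ₐ[ℚ] K) →* Monoid.End (ClassGroup (𝓞 K)) where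
  toFun σ := (ClassGroup.mulEquiv (rEquiv K σ) : ClassGroup (𝓞 K) →* ClassGroup (𝓞 K))
  map_one' := by
    refine MonoidHom.ext fun C => ?_
    rw [MonoidHom.coe_coe, rEquiv_one, ClassGroup.mulEquiv_refl_apply]
    rfl
  map_mul' σ τ := by
    refine MonoidHom.ext fun C => ?_
    rw [MonoidHom.coe_coe, rEquiv_mul, ClassGroup.mulEquiv_trans_apply]
    rfl

variable {K}

lemma actCl_apply (σ : K ≃ₐ[ℚ] K) (C : ClassGroup (𝓞 K)) :
    actCl K σ C = ClassGroup.mulEquiv (rEquiv K σ) C := rfl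

lemma actCl_mk0 (σ : K ≃ₐ[ℚ] K) {I J : (Ideal (𝓞 K))⁰}
    (h : (J : Ideal (𝓞 K)) = σ • (I : Ideal (𝓞 K))) :
    actCl K σ (ClassGroup.mk0 I) = ClassGroup.mk0 J := by
  rw [actCl_apply, ClassGroup.mulEquiv_mk0]
  congr 1
  apply Subtype.ext
  rw [Ideal.coe_mapNonZero, h, Ideal.pointwise_smul_def]
  rfl

lemma smul_ne_zero_ideal (σ : K ≃ₐ[ℚ] K) (I : (Ideal (𝓞 K))⁰) :
    σ • (I : Ideal (𝓞 K)) ∈ (Ideal (𝓞 K))⁰ := by
  rw [mem_nonZeroDivisors_iff_ne_zero]
  intro h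
  have h1 : (I : Ideal (𝓞 K)) = σ⁻¹ • (0 : Ideal (𝓞 K)) := by rw [← h, inv_smul_smul]
  have h2 : σ⁻¹ • (0 : Ideal (𝓞 K)) = 0 := by
    rw [Ideal.zero_eq_bot, Ideal.smul_bot]
  rw [h2] at h1
  exact nonZeroDivisors.coe_ne_zero I h1

/-- ideals are determined by their `n`-th powers -/
lemma ideal_pow_inj {I J : Ideal (𝓞 K)} {n : ℕ} (hn : n ≠ 0) (h : I ^ n = J ^ n) : I = J := by
  apply dvd_antisymm
  · rw [← UniqueFactorizationMonoid.pow_dvd_pow_iff_dvd hn, h]
  · rw [← UniqueFactorizationMonoid.pow_dvd_pow_iff_dvd hn, h]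

end Act

/-- All `ω²`-eigencharacters of the class group vanish. -/
def ChiEqOne (p : ℕ) [Fact p.Prime] : Prop :=
  ∀ (K : Type) [Field K] [NumberField K] [IsCyclotomicExtension {p} ℚ K]
    (χ : ClassGroup (𝓞 K) →* Multiplicative (ZMod p)),
    (∀ σ : Gal(K/ℚ), ∀ I J : nonZeroDivisors (Ideal (𝓞 K)),
      (J : Ideal (𝓞 K)) = (open scoped Pointwise in σ • (I : Ideal (𝓞 K))) →
      (χ (ClassGroup.mk0 J)).toAdd =
        ((IsCyclotomicExtension.Rat.galEquivZMod p K σ : (ZMod p)ˣ) : ZMod p) ^ 2 *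
          (χ (ClassGroup.mk0 I)).toAdd) → χ = 1

section Final

open scoped Pointwise

variable {p : ℕ} [hp : Fact p.Prime] {K : Type} [Field K] [NumberField K]
  [IsCyclotomicExtension {p} ℚ K]

theorem principal_of_eigen (H : ChiEqOne p) (I : (Ideal (𝓞 K))⁰)
    (hIp : (ClassGroup.mk0 I) ^ p = 1)
    (hI : ∀ σ : K ≃ₐ[ℚ] K, actCl K σ (ClassGroup.mk0 I) =
      (ClassGroup.mk0 I) ^ ((IsCyclotomicExtension.Rat.galEquivZMod p K σ : ZMod p).val ^ 2)) :
    ClassGroup.mk0 I = 1 := by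
  classical
  by_contra hc1
  have hpp : p.Prime := hp.out
  have hcomm : ∀ σ τ : K ≃ₐ[ℚ] K, σ * τ = τ * σ := by
    intro σ τ
    apply (IsCyclotomicExtension.Rat.galEquivZMod p K).injective
    rw [map_mul, map_mul, mul_comm]
  have hG : ¬ p ∣ Fintype.card (K ≃ₐ[ℚ] K) := by
    have h1 : Fintype.card (K ≃ₐ[ℚ] K) = p - 1 := by
      rw [Fintype.card_congr (IsCyclotomicExtension.Rat.galEquivZMod p K).toEquiv,
        ZMod.card_units]
    rw [h1]
    intro h
    have h2 := Nat.le_of_dvd (by have := hpp.two_le; omega) h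
    have := hpp.two_le
    omega
  obtain ⟨χ, hχ1, hχ⟩ := exists_char hcomm (actCl K)
    (IsCyclotomicExtension.Rat.galEquivZMod p K).toMonoidHom hG (ClassGroup.mk0 I) hc1 hIp hI
  apply hχ1
  refine H K χ fun σ I J hJ => ?_
  rw [← actCl_mk0 σ hJ]
  exact hχ σ (ClassGroup.mk0 I)

/-- **T6**: the core statement for `p ≥ 5`. -/
theorem core_of_chi_eq_one (hp5 : 5 ≤ p) (H : ChiEqOne p) : Core p := by
  intro K _ _ _ ζ hζ α hα0 hI hn hα heig
  have hpp : p.Prime := hp.out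
  obtain ⟨I, hI⟩ := hI
  have hI0 : I ≠ 0 := by
    rintro rfl
    rw [Ideal.zero_eq_bot, Ideal.bot_pow hpp.ne_zero, Ideal.span_singleton_eq_bot] at hI
    exact hα0 hI
  set I' : (Ideal (𝓞 K))⁰ := ⟨I, mem_nonZeroDivisors_iff_ne_zero.mpr hI0⟩ with hI'
  have hIp : (ClassGroup.mk0 I') ^ p = 1 := by
    rw [← map_pow]
    have : I' ^ p = ⟨I ^ p, mem_nonZeroDivisors_iff_ne_zero.mpr (pow_ne_zero _ hI0)⟩ :=
      Subtype.ext rfl
    rw [this, ClassGroup.mk0_eq_one_iff, ← hI]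
    exact ⟨α, rfl⟩
  have hIeig : ∀ σ : K ≃ₐ[ℚ] K, actCl K σ (ClassGroup.mk0 I') =
      (ClassGroup.mk0 I') ^
        ((IsCyclotomicExtension.Rat.galEquivZMod p K σ : ZMod p).val ^ 2) := by
    intro σ
    set n := (IsCyclotomicExtension.Rat.galEquivZMod p K σ : ZMod p).val ^ 2 with hndef
    obtain ⟨γ, hγ0, hγ⟩ := heig σ
    rw [actCl_mk0 σ (I := I') (J := ⟨σ • (I' : Ideal (𝓞 K)), smul_ne_zero_ideal σ I'⟩) rfl,
      ← map_pow, ClassGroup.mk0_eq_mk0_iff]
    obtain ⟨x, ⟨y, hy⟩, hxy⟩ := IsLocalization.exists_mk'_eq (𝓞 K)⁰ γ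
    have hy0 : y ≠ 0 := mem_nonZeroDivisors_iff_ne_zero.mp hy
    rw [IsFractionRing.mk'_eq_div] at hxy
    have hx0 : x ≠ 0 := by
      rintro rfl
      rw [map_zero, zero_div] at hxy
      exact hγ0 hxy.symm
    refine ⟨y, x, hy0, hx0, ?_⟩
    apply ideal_pow_inj hpp.ne_zero
    have key : y ^ p * (σ • α) = x ^ p * α ^ n := by
      apply NumberField.RingOfIntegers.coe_injective
      rw [map_mul, map_mul, map_pow, map_pow, map_pow]
      have h1 : ((σ • α : 𝓞 K) : K) = σ (α : K) := rfl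
      change (y : K) ^ p * ((σ • α : 𝓞 K) : K) = (x : K) ^ p * (α : K) ^ n
      rw [h1, hγ, ← hxy, div_pow, ← hndef]
      have hyK : (algebraMap (𝓞 K) K y) ≠ 0 := by
        rwa [Ne, NumberField.RingOfIntegers.coe_eq_zero_iff]
      field_simp
    have h2 : (σ • (I : Ideal (𝓞 K))) ^ p = Ideal.span {σ • α} := by
      rw [← smul_pow', ← hI, Ideal.pointwise_smul_def, Ideal.map_span, Set.image_singleton]
      rfl
    have h3 : ((I' ^ n : (Ideal (𝓞 K))⁰) : Ideal (𝓞 K)) = I ^ n := rfl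
    rw [mul_pow, mul_pow, h3, ← pow_mul, mul_comm n p, pow_mul, ← hI]
    change Ideal.span {y} ^ p * (σ • (I : Ideal (𝓞 K))) ^ p = _
    rw [h2, Ideal.span_singleton_pow, Ideal.span_singleton_pow, Ideal.span_singleton_pow,
      Ideal.span_singleton_mul_span_singleton, Ideal.span_singleton_mul_span_singleton, key]
  have hc1 := principal_of_eigen H I' hIp hIeig
  rw [hI', ClassGroup.mk0_eq_one_iff] at hc1
  obtain ⟨b, hb⟩ := hc1
  have hb' : I = Ideal.span {b} := hb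
  rw [hb', Ideal.span_singleton_pow, Ideal.span_singleton_eq_span_singleton] at hI
  obtain ⟨u, hu⟩ := hI
  have hη : α = ((u⁻¹ : (𝓞 K)ˣ) : 𝓞 K) * b ^ p := by
    rw [← hu]
    rw [mul_comm α, ← mul_assoc, Units.inv_mul, one_mul]
  have hb0 : b ≠ 0 := by
    rintro rfl
    apply hI0
    rw [hb', Ideal.zero_eq_bot, Ideal.span_singleton_eq_bot]
  obtain ⟨n, hn⟩ := hn
  have hpn : ¬ (p : ℤ) ∣ n := by
    intro h
    apply hα
    rw [Ideal.mem_span_singleton]
    have h1 : (hζ.toInteger - 1) ∣ (p : 𝓞 K) := by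
      have := IsCyclotomicExtension.Rat.associated_zeta_sub_one_pow_prime p hζ
      exact (dvd_pow_self _ (by have := hpp.two_le; omega)).trans this.dvd
    have h2 : (hζ.toInteger - 1) ∣ ((n : ℤ) : 𝓞 K) := by
      rw [IsCyclotomicExtension.Rat.zeta_sub_one_dvd_intCast_iff' p hζ]
      exact h
    have h3 := dvd_add (h1.trans hn) h2
    rwa [sub_add_cancel] at h3
  obtain ⟨n', hn'⟩ := S14units.exists_int_dvd_unit_sub (p := p) hn hpn u⁻¹ b hη
  have hbK : (b : K) ≠ 0 := by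
    rwa [Ne, NumberField.RingOfIntegers.coe_eq_zero_iff]
  have hηK : (α : K) = (((u⁻¹ : (𝓞 K)ˣ) : 𝓞 K) : K) * (b : K) ^ p := by
    rw [hη]
    exact (map_mul (algebraMap (𝓞 K) K) _ _).trans (by rw [map_pow])
  obtain ⟨δ, hδ⟩ := S14units.unit_eq_pow_of_eigen hp5 u⁻¹ (fun σ => by
    obtain ⟨γ, hγ0, hγ⟩ := heig σ
    set n := (IsCyclotomicExtension.Rat.galEquivZMod p K σ : ZMod p).val ^ 2 with hndef
    refine ⟨(b : K) ^ n * γ / σ (b : K), ?_⟩
    have hσb : σ (b : K) ≠ 0 := by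
      intro h
      exact hbK (σ.injective (h.trans (map_zero σ).symm))
    have h1 : σ (α : K) = σ (((u⁻¹ : (𝓞 K)ˣ) : 𝓞 K) : K) * (σ (b : K)) ^ p := by
      rw [hηK, map_mul, map_pow]
    rw [hγ] at h1
    rw [div_pow, mul_pow]
    field_simp
    rw [← h1, hηK]
    ring) ⟨n', hn'⟩
  refine ⟨(δ : K) * (b : K), ?_⟩
  rw [hηK, hδ, mul_pow]
  push_cast
  rfl

end Final

end Fermat.Agent.S14kummer
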