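import Fermat.Agent.S14_Units

/-!
# Wrappers for the unit part of the Ext vanishing theorem
-/

set_option autoImplicit false
set_option maxSynthPendingDepth 3
set_option linter.unusedSectionVars false

open Polynomial Module NumberField Fermat.Agent.Kummer

namespace Fermat.Agent.S14units

variable {p : ℕ} [hp : Fact p.Prime] {K : Type*} [Field K] [NumberField K]
  [hK : IsCyclotomicExtension {p} ℚ K]

/-- The action of the Galois group on `ζ` through `galEquivZMod`. -/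
lemma gal_apply_zeta {ζ : K} (hζ : IsPrimitiveRoot ζ p) (σ : K ≃ₐ[ℚ] K) :
    σ ζ = ζ ^ ((IsCyclotomicExtension.Rat.galEquivZMod p K σ : (ZMod p)ˣ) : ZMod p).val :=
  IsCyclotomicExtension.Rat.galEquivZMod_apply_of_pow_eq p K σ hζ.pow_eq_one

/-- **T3**, with all automorphisms and `γ` in `K`. -/
theorem unit_eq_pow_of_eigen (hp5 : 5 ≤ p) (η : (𝓞 K)ˣ)
    (heig : ∀ σ : K ≃ₐ[ℚ] K, ∃ γ : K, σ (η : K) = (η : K) ^
      (((IsCyclotomicExtension.Rat.galEquivZMod p K σ : (ZMod p)ˣ) : ZMod p).val ^ 2) * γ ^ p)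
    (hint : ∃ n : ℤ, (p : 𝓞 K) ∣ (η : 𝓞 K) - n) : ∃ δ : (𝓞 K)ˣ, η = δ ^ p := by
  have hζ := IsCyclotomicExtension.zeta_spec p ℚ K
  have e := IsCyclotomicExtension.Rat.galEquivZMod p K
  have : IsCyclic (K ≃ₐ[ℚ] K) := isCyclic_of_injective e.toMonoidHom e.injective
  obtain ⟨σ, hσ⟩ := IsCyclic.exists_generator (α := (K ≃ₐ[ℚ] K))
  obtain ⟨γ, hγ⟩ := heig σ
  exact eigen_unit_eq_pow hζ hp5 σ hσ _ (gal_apply_zeta hζ σ) η γ hγ hint

/-- **T3**, with the action on the ring of integers. -/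
theorem unit_eq_pow_of_eigen' (hp5 : 5 ≤ p) (η : (𝓞 K)ˣ)
    (heig : ∀ σ : K ≃ₐ[ℚ] K, ∃ γ : (𝓞 K)ˣ, σ • (η : 𝓞 K) = (η : 𝓞 K) ^
      (((IsCyclotomicExtension.Rat.galEquivZMod p K σ : (ZMod p)ˣ) : ZMod p).val ^ 2) * (γ : 𝓞 K) ^ p)
    (hint : ∃ n : ℤ, (p : 𝓞 K) ∣ (η : 𝓞 K) - n) : ∃ δ : (𝓞 K)ˣ, η = δ ^ p := by
  refine unit_eq_pow_of_eigen hp5 η (fun σ => ?_) hint
  obtain ⟨γ, hγ⟩ := heig σ
  refine ⟨(γ : K), ?_⟩
  have := congrArg (algebraMap (𝓞 K) K) hγ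
  rw [map_mul, map_pow, map_pow] at this
  exact this

/-- `p`-th powers are congruent to rational integers modulo `p`. -/
lemma exists_int_dvd_pow_sub (β : 𝓞 K) : ∃ m : ℤ, (p : 𝓞 K) ∣ β ^ p - m := by
  have hζ := IsCyclotomicExtension.zeta_spec p ℚ K
  obtain ⟨f, rfl⟩ := aeval_surjective hζ β
  have h1 : (f ^ p - expand ℤ p f).map (Int.castRingHom (ZMod p)) = 0 := by
    rw [Polynomial.map_sub, Polynomial.map_pow, Polynomial.map_expand, ← ZMod.expand_card,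
      sub_self]
  have h2 : C (p : ℤ) ∣ f ^ p - expand ℤ p f := by
    rw [C_dvd_iff_dvd_coeff]
    intro i
    rw [← ZMod.intCast_zmod_eq_zero_iff_dvd, ← eq_intCast (Int.castRingHom (ZMod p)), ← coeff_map,
      h1, coeff_zero]
  obtain ⟨h, hh⟩ := h2
  refine ⟨f.eval 1, aeval hζ.toInteger h, ?_⟩
  have h3 := congrArg (aeval hζ.toInteger) hh
  rw [map_sub, map_pow, map_mul, expand_aeval, hζ.toInteger_isPrimitiveRoot.pow_eq_one,
    aeval_C] at h3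
  have h4 : aeval (1 : 𝓞 K) f = ((f.eval 1 : ℤ) : 𝓞 K) := by
    rw [← eq_intCast (algebraMap ℤ (𝓞 K)), ← map_one (algebraMap ℤ (𝓞 K)),
      aeval_algebraMap_apply_eq_algebraMap_eval]
  rw [h4] at h3
  rw [h3]
  simp

/-- **T2c** -/
lemma exists_int_dvd_unit_sub {α : 𝓞 K} {n : ℤ} (hn : (p : 𝓞 K) ∣ α - n) (hpn : ¬ (p : ℤ) ∣ n)
    (η : (𝓞 K)ˣ) (β : 𝓞 K) (h : α = η * β ^ p) : ∃ n' : ℤ, (p : 𝓞 K) ∣ (η : 𝓞 K) - n' := by
  obtain ⟨m, hm⟩ := exists_int_dvd_pow_sub (p := p) β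
  have hdvd_int : ∀ k : ℤ, (p : 𝓞 K) ∣ (k : 𝓞 K) → (p : ℤ) ∣ k := by
    intro k hk
    have hζ := IsCyclotomicExtension.zeta_spec p ℚ K
    have h1 : hζ.toInteger - 1 ∣ (k : 𝓞 K) := by
      refine dvd_trans ?_ hk
      have h2 := IsCyclotomicExtension.Rat.associated_zeta_sub_one_pow_prime p hζ
      exact (dvd_pow_self _ (by have := hp.out.two_le; omega)).trans h2.dvd
    exact (IsCyclotomicExtension.Rat.zeta_sub_one_dvd_intCast_iff' p hζ).mp h1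
  have hpm : ¬ (p : ℤ) ∣ m := by
    rintro ⟨c, rfl⟩
    apply hpn
    apply hdvd_int
    have h1 : (p : 𝓞 K) ∣ β ^ p := by
      have := dvd_add hm (Dvd.intro (c : 𝓞 K) rfl : (p : 𝓞 K) ∣ (p : 𝓞 K) * c)
      simpa using this
    have h2 : (p : 𝓞 K) ∣ α := by rw [h]; exact h1.mul_left _
    have := dvd_sub h2 hn
    simpa using this
  have hcop : IsCoprime m (p : ℤ) :=
    ((Nat.prime_iff_prime_int.mp hp.out).coprime_iff_not_dvd.mpr hpm).symm
  obtain ⟨a, b, hab⟩ := hcop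
  refine ⟨n * a, ?_⟩
  obtain ⟨s, hs⟩ := hn
  obtain ⟨t, ht⟩ := hm
  have hab' : (a : 𝓞 K) * m + b * p = 1 := by exact_mod_cast congrArg (Int.cast : ℤ → 𝓞 K) hab
  refine ⟨(η : 𝓞 K) * b - (η : 𝓞 K) * t * a + s * a, ?_⟩
  push_cast
  have e1 : β ^ p = m + p * t := by linear_combination ht
  have e2 : (η : 𝓞 K) * (m + p * t) = n + p * s := by
    rw [← e1, ← h]; linear_combination hs
  linear_combination (-(η : 𝓞 K)) * hab' + (a : 𝓞 K) * e2

section eps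

variable {ζ : K} (hζ : IsPrimitiveRoot ζ p)

/-- The `ω²`-cyclotomic unit. -/
noncomputable def epsElt : 𝓞 K :=
  ∏ b ∈ Finset.Ico 1 p, (∑ i ∈ Finset.range b, hζ.toInteger ^ i) ^ (((b : ZMod p) ^ 2)⁻¹).val

lemma modEq_inv {b : ℕ} (hb : b ∈ Finset.Ico 1 p) : b * b ^ (p - 2) ≡ 1 [MOD p] := by
  rw [Finset.mem_Ico] at hb
  rw [← ZMod.natCast_eq_natCast_iff]
  have hb0 : (b : ZMod p) ≠ 0 := by
    rw [Ne, ZMod.natCast_eq_zero_iff]
    intro h
    have := Nat.le_of_dvd (by omega) h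
    omega
  have h2 := hp.out.two_le
  push_cast
  rw [← pow_succ', show p - 2 + 1 = p - 1 by omega, ZMod.pow_card_sub_one_eq_one hb0]

/-- The cyclotomic units, totalised. -/
noncomputable def cycU (b : ℕ) : (𝓞 K)ˣ :=
  if h : b * b ^ (p - 2) ≡ 1 [MOD p] then cycUnit hζ b (b ^ (p - 2)) h else 1

lemma coe_cycU {b : ℕ} (hb : b ∈ Finset.Ico 1 p) :
    (cycU hζ b : 𝓞 K) = ∑ i ∈ Finset.range b, hζ.toInteger ^ i := by
  rw [cycU, dif_pos (modEq_inv hb)]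
  change aeval hζ.toInteger (∑ j ∈ Finset.range b, (X : ℤ[X]) ^ j) = _
  simp

/-- The `ω²`-cyclotomic unit as a unit. -/
noncomputable def epsU : (𝓞 K)ˣ :=
  ∏ b ∈ Finset.Ico 1 p, (cycU hζ b) ^ (((b : ZMod p) ^ 2)⁻¹).val

lemma coe_epsU : ((epsU hζ : (𝓞 K)ˣ) : 𝓞 K) = epsElt hζ := by
  rw [epsU, epsElt, Units.coe_prod]
  refine Finset.prod_congr rfl (fun b hb => ?_)
  rw [Units.val_pow_eq_pow_val, coe_cycU hζ hb]

lemma logd_prod {k : ℕ} (hk : k + 3 ≤ p) {ι : Type*} (s : Finset ι) (u : ι → (𝓞 K)ˣ) :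
    logd hζ k (∏ i ∈ s, u i) = ∑ i ∈ s, logd hζ k (u i) := by
  classical
  induction s using Finset.induction_on with
  | empty => rw [Finset.prod_empty, Finset.sum_empty, logd_one hζ hk]
  | insert a s ha ih => rw [Finset.prod_insert ha, Finset.sum_insert ha, logd_mul hζ hk, ih]

lemma sum_inv_sq (hp5 : 5 ≤ p) : ∑ b ∈ Finset.Ico 1 p, (((b : ZMod p)) ^ 2)⁻¹ = 0 := by
  have h1 : ∀ x : ZMod p, (x ^ 2)⁻¹ = x ^ (p - 3) := by
    intro x
    by_cases hx : x = 0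
    · rw [hx, zero_pow (by norm_num), inv_zero, zero_pow (by omega)]
    · rw [inv_eq_iff_eq_inv, eq_comm]
      refine inv_eq_of_mul_eq_one_left ?_
      rw [← pow_add, show 2 + (p - 3) = p - 1 by omega, ZMod.pow_card_sub_one_eq_one hx]
  have h2 : ∑ x : ZMod p, x ^ (p - 3) = 0 := by
    refine FiniteField.sum_pow_lt_card_sub_one (ZMod p) (p - 3) ?_
    rw [ZMod.card]; omega
  have h3 : ∑ b ∈ Finset.Ico 1 p, (((b : ZMod p)) ^ 2)⁻¹ = ∑ x : ZMod p, x ^ (p - 3) := by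
    have h4 : ∑ b ∈ Finset.range p, (((b : ZMod p)) ^ 2)⁻¹ = ∑ x : ZMod p, x ^ (p - 3) := by
      refine Finset.sum_bij (fun b _ => (b : ZMod p)) (fun _ _ => Finset.mem_univ _) ?_ ?_ ?_
      · intro a ha b hb hab
        rw [Finset.mem_range] at ha hb
        rw [ZMod.natCast_eq_natCast_iff'] at hab
        rwa [Nat.mod_eq_of_lt ha, Nat.mod_eq_of_lt hb] at hab
      · intro x _
        exact ⟨x.val, Finset.mem_range.mpr (ZMod.val_lt x), ZMod.natCast_zmod_val x⟩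
      · intro b _
        exact h1 _
    rw [← h4, Finset.range_eq_Ico, ← Finset.sum_Ioo_add_eq_sum_Ico hp.out.pos]
    simp
    rfl
  rw [h3, h2]

lemma logd_epsU (hp5 : 5 ≤ p) : 12 * logd hζ 1 (epsU hζ) = -1 := by
  rw [epsU, logd_prod hζ (by omega), Finset.mul_sum]
  have h1 : ∀ b ∈ Finset.Ico 1 p, 12 * logd hζ 1 (cycU hζ b ^ (((b : ZMod p) ^ 2)⁻¹).val) =
      1 - ((b : ZMod p) ^ 2)⁻¹ := by
    intro b hb
    have hb0 : (b : ZMod p) ≠ 0 := by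
      rw [Finset.mem_Ico] at hb
      rw [Ne, ZMod.natCast_eq_zero_iff]
      intro h
      have := Nat.le_of_dvd (by omega) h
      omega
    rw [logd_pow hζ (by omega), ZMod.natCast_zmod_val, cycU, dif_pos (modEq_inv hb)]
    have := twelve_mul_logd_one_cycUnit hζ (by omega) b (b ^ (p - 2)) (modEq_inv hb)
    have h2 : ((b : ZMod p) ^ 2)⁻¹ * (b : ZMod p) ^ 2 = 1 := inv_mul_cancel₀ (pow_ne_zero _ hb0)
    linear_combination ((b : ZMod p) ^ 2)⁻¹ * this + h2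
  rw [Finset.sum_congr rfl h1, Finset.sum_sub_distrib, sum_inv_sq hp5, Finset.sum_const,
    Nat.card_Ico, nsmul_eq_mul, mul_one, sub_zero, Nat.cast_sub hp.out.one_le, CharP.cast_eq_zero]
  simp

lemma logd_epsU_ne_zero (hp5 : 5 ≤ p) : logd hζ 1 (epsU hζ) ≠ 0 := by
  intro h
  have h1 := logd_epsU hζ hp5
  rw [h, mul_zero] at h1
  exact one_ne_zero (neg_eq_zero.mp h1.symm)

/-- The `ω²`-cyclotomic unit is not a `p`-th power in `K`. -/
theorem epsElt_ne_pow (hp5 : 5 ≤ p) (y : K) : (epsElt hζ : K) ≠ y ^ p := by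
  intro h
  have hy0 : y ≠ 0 := by
    rintro rfl
    rw [zero_pow hp.out.ne_zero, ← coe_epsU] at h
    exact Units.coe_ne_zero (epsU hζ) h
  have hint : IsIntegral ℤ y := by
    refine IsIntegral.of_pow hp.out.pos ?_
    rw [← h]
    exact RingOfIntegers.isIntegral_coe _
  have hint' : IsIntegral ℤ y⁻¹ := by
    refine IsIntegral.of_pow hp.out.pos ?_
    rw [inv_pow, ← h, ← coe_epsU, ← coe_inv_unit (epsU hζ)]
    exact RingOfIntegers.isIntegral_coe _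
  obtain ⟨g, hg⟩ : ∃ g : (𝓞 K)ˣ, (g : K) = y := by
    refine ⟨⟨⟨y, hint⟩, ⟨y⁻¹, hint'⟩, ?_, ?_⟩, rfl⟩
    · ext; exact mul_inv_cancel₀ hy0
    · ext; exact inv_mul_cancel₀ hy0
  have h2 : epsU hζ = g ^ p := by
    apply Units.coe_injective K
    beta_reduce
    have h' : algebraMap (𝓞 K) K (epsElt hζ) = y ^ p := h
    rw [coe_epsU, h', ← hg, ← Units.coe_pow]
  apply logd_epsU_ne_zero hζ hp5
  rw [h2, logd_pow hζ (by omega), CharP.cast_eq_zero, zero_mul]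

end eps

end Fermat.Agent.S14units
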