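import Fermat.Agent.S14_Thaine
import Fermat.Agent.S14_UnitsWrap

/-!
T4 of S14 (Thaine relation), stated with `Fermat.Agent.S14units.epsElt`.
-/

set_option autoImplicit false

namespace Fermat.Agent.S14thaine

open NumberField Ideal Polynomial nonZeroDivisors Pointwise

variable {p : ℕ} [hp : Fact p.Prime] {K : Type} [Field K] [NumberField K]
  [IsCyclotomicExtension {p} ℚ K]

theorem epsElt_eq_epsZ {ζ : K} (hζ : IsPrimitiveRoot ζ p) :
    S14units.epsElt hζ = epsZ p hζ.toInteger := rfl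

/-- **T4**: the Thaine relation for the `ω²`-cyclotomic unit. -/
theorem thaine_epsElt (hp5 : 5 ≤ p) {ζ : K} (hζ : IsPrimitiveRoot ζ p)
    (χ : ClassGroup (𝓞 K) →* Multiplicative (ZMod p))
    (hχ : ∀ σ : Gal(K/ℚ), ∀ I J : nonZeroDivisors (Ideal (𝓞 K)),
      (J : Ideal (𝓞 K)) = σ • (I : Ideal (𝓞 K)) →
      (χ (ClassGroup.mk0 J)).toAdd =
        ((IsCyclotomicExtension.Rat.galEquivZMod p K σ : (ZMod p)ˣ) : ZMod p) ^ 2 *
          (χ (ClassGroup.mk0 I)).toAdd)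
    (Q : nonZeroDivisors (Ideal (𝓞 K))) (hQ : (Q : Ideal (𝓞 K)).IsPrime)
    (hqpr : (absNorm (Q : Ideal (𝓞 K))).Prime) (hqp : absNorm (Q : Ideal (𝓞 K)) ≠ p)
    (hχQ : χ (ClassGroup.mk0 Q) ≠ 1) :
    ∃ y : 𝓞 K, S14units.epsElt hζ - y ^ p ∈ (Q : Ideal (𝓞 K)) :=
  thaine hp5 hζ.toInteger_isPrimitiveRoot χ hχ Q hQ hqpr hqp hχQ

end Fermat.Agent.S14thaine
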