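import Fermat.Agent.S14_KummerSplit
import Fermat.Agent.S14_ThaineWrap

/-!
# The `ω²`-part of the dual of the class group modulo `p` is trivial
-/

set_option autoImplicit false
set_option linter.unusedSectionVars false

open NumberField Ideal Module nonZeroDivisors Polynomial

open scoped Pointwise

namespace Fermat.Agent.S14final

open Fermat.Agent.ClassL Fermat.Agent.FrobDensity

section

variable {K : Type*} [Field K] [NumberField K] {p : ℕ} [hp : Fact p.Prime]

/-- the class number argument with the Kummer extension. -/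
theorem false_of_kummer (hp3 : 3 ≤ p) {ζ : 𝓞 K} (hζ : IsPrimitiveRoot ζ p)
    {χ : ClassGroup (𝓞 K) →* Multiplicative (ZMod p)} (hχ : χ ≠ 1)
    {e : 𝓞 K} (he : IsUnit e) (hne : ∀ y : K, (e : K) ≠ y ^ p)
    (hall : ∀ Q : (Ideal (𝓞 K))⁰, (Q : Ideal (𝓞 K)).IsPrime →
      (absNorm (Q : Ideal (𝓞 K))).Prime → absNorm (Q : Ideal (𝓞 K)) ≠ p →
      χ (ClassGroup.mk0 Q) ≠ 1 → ∃ y : 𝓞 K, e - y ^ p ∈ (Q : Ideal (𝓞 K))) : False := by
  have H : Irreducible ((X : K[X]) ^ p - C (e : K)) :=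
    X_pow_sub_C_irreducible_of_prime hp.out (fun b hb => hne b hb.symm)
  have hζK : IsPrimitiveRoot (ζ : K) p :=
    hζ.map_of_injective (RingOfIntegers.coe_injective)
  have hprim : (primitiveRoots p K).Nonempty :=
    ⟨_, (mem_primitiveRoots hp.out.pos).mpr hζK⟩
  let M := ((X : K[X]) ^ p - C (e : K)).SplittingField
  have hM : IsSplittingField K M ((X : K[X]) ^ p - C (e : K)) := inferInstance
  have hfd : FiniteDimensional K M :=
    Polynomial.IsSplittingField.finiteDimensional M ((X : K[X]) ^ p - C (e : K))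
  have hNF : NumberField M := NumberField.of_module_finite K M
  have hgalois : IsGalois K M := isGalois_of_isSplittingField_X_pow_sub_C hprim H M
  have hcard : Nat.card Gal(M/K) = p := by
    rw [IsGalois.card_aut_eq_finrank]
    exact finrank_of_isSplittingField_X_pow_sub_C hprim H M
  have hnz : NeZero p := ⟨hp.out.ne_zero⟩
  let θ₀ : M := rootOfSplitsXPowSubC (NeZero.pos p) (e : K) M
  have hθ₀ : θ₀ ^ p = algebraMap K M (e : K) := rootOfSplitsXPowSubC_pow (e : K) M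
  have hint : IsIntegral ℤ θ₀ := by
    apply IsIntegral.of_pow hp.out.pos
    rw [hθ₀]
    exact map_isIntegral_int (algebraMap K M) (RingOfIntegers.isIntegral_coe e)
  let θ : 𝓞 M := ⟨θ₀, hint⟩
  have hθ : θ ^ p = algebraMap (𝓞 K) (𝓞 M) e := by
    apply RingOfIntegers.coe_injective
    exact hθ₀
  have hgal : ∀ σ : Gal(M/K), σ ≠ 1 → ∃ m : ℕ, ¬ p ∣ m ∧
      σ • θ = algebraMap (𝓞 K) (𝓞 M) (ζ ^ m) * θ := by
    intro σ hσ
    obtain ⟨z, rfl⟩ := (autEquivZmod H M hζK).symm.surjective σ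
    obtain ⟨m, hm⟩ := ZMod.natCast_zmod_surjective (n := p) (Multiplicative.toAdd z)
    have hz : z = Multiplicative.ofAdd (m : ZMod p) := by rw [hm]; rfl
    refine ⟨m, ?_, ?_⟩
    · intro hpm
      apply hσ
      rw [hz, (ZMod.natCast_eq_zero_iff m p).mpr hpm]
      simp
    · apply RingOfIntegers.coe_injective
      rw [hz]
      have h1 := autEquivZmod_symm_apply_natCast H M hθ₀ hζK m
      rw [Algebra.smul_def] at h1
      have h2 : algebraMap K M ((ζ : K) ^ m) =
        ((algebraMap (𝓞 K) (𝓞 M) (ζ ^ m) : 𝓞 M) : M) := by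
        rw [← map_pow]
        rfl
      rw [h2] at h1
      exact h1
  refine false_of_split hp3 hχ M {p} ?_
  intro q hq hqS
  rw [Finset.mem_singleton] at hqS
  apply mul_nonkerCount_le χ hq
  intro Q hQn hχQ
  have hQp : (Q : Ideal (𝓞 K)).IsPrime := Ideal.isPrime_of_irreducible_absNorm (by
    rw [hQn]; exact hq)
  have hpQ : (p : 𝓞 K) ∉ (Q : Ideal (𝓞 K)) := by
    intro h
    have hqQ : (q : 𝓞 K) ∈ (Q : Ideal (𝓞 K)) := by
      have := Ideal.absNorm_mem (Q : Ideal (𝓞 K))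
      rwa [hQn] at this
    apply hQp.ne_top
    rw [Ideal.eq_top_iff_one]
    have hcop : Nat.Coprime p q := (Nat.coprime_primes hp.out hq).mpr (Ne.symm hqS)
    obtain ⟨a, b, hab⟩ := (Nat.isCoprime_iff_coprime.mpr hcop)
    have h1 : ((a * p + b * q : ℤ) : 𝓞 K) = 1 := by rw [hab]; simp
    rw [← h1]
    push_cast
    exact Ideal.add_mem _ (Ideal.mul_mem_left _ _ h) (Ideal.mul_mem_left _ _ hqQ)
  have heQ : e ∉ (Q : Ideal (𝓞 K)) := fun h => hQp.ne_top (Ideal.eq_top_of_isUnit_mem _ h he)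
  obtain ⟨y, hy⟩ := hall Q hQp (by rw [hQn]; exact hq) (by rw [hQn]; exact hqS) hχQ
  obtain ⟨h1, h2⟩ := kummer_split (M := M) hζ hθ hgal (Q : Ideal (𝓞 K)) hpQ heQ hy
  rw [hcard] at h1
  exact ⟨h1, fun P hP => by rw [h2 P hP, hQn]⟩

end

/-- **The `ω²`-part of the dual of the class group mod `p` of `ℚ(ζ_p)` vanishes.** -/
theorem chi_eq_one {p : ℕ} [hp : Fact p.Prime] (hp5 : 5 ≤ p) {K : Type} [Field K] [NumberField K]
    [IsCyclotomicExtension {p} ℚ K] {ζ : K} (hζ : IsPrimitiveRoot ζ p)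
    (χ : ClassGroup (𝓞 K) →* Multiplicative (ZMod p))
    (hχ : ∀ σ : Gal(K/ℚ), ∀ I J : nonZeroDivisors (Ideal (𝓞 K)),
      (J : Ideal (𝓞 K)) = σ • (I : Ideal (𝓞 K)) →
      (χ (ClassGroup.mk0 J)).toAdd =
        ((IsCyclotomicExtension.Rat.galEquivZMod p K σ : (ZMod p)ˣ) : ZMod p) ^ 2 *
          (χ (ClassGroup.mk0 I)).toAdd) :
    χ = 1 := by
  by_contra hne
  refine false_of_kummer (by omega) hζ.toInteger_isPrimitiveRoot hne
    (e := S14units.epsElt hζ) ?_ (fun y => S14units.epsElt_ne_pow hζ hp5 y) ?_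
  · rw [← S14units.coe_epsU]
    exact Units.isUnit _
  · intro Q hQ hqpr hqp hχQ
    exact S14thaine.thaine_epsElt hp5 hζ χ hχ Q hQ hqpr hqp hχQ

end Fermat.Agent.S14final
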