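import Fermat.Agent.S14_Kummer
import Mathlib.NumberTheory.NumberField.Cyclotomic.Three
import Mathlib.NumberTheory.NumberField.Cyclotomic.PID
import Fermat.Agent.S14_UnitsWrap

/-!
# S14: the core statement for `p = 3`
-/

set_option autoImplicit false

namespace Fermat.Agent.S14kummer

open NumberField

theorem core_three [h3F : Fact (Nat.Prime 3)] : Core 3 := by
  intro K _ _ _ ζ hζ α hα0 hI hn hα _
  have hPID : IsPrincipalIdealRing (𝓞 K) := IsCyclotomicExtension.Rat.three_pid K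
  obtain ⟨I, hI⟩ := hI
  obtain ⟨b, hb⟩ := hPID.principal I
  have hb' : I = Ideal.span {b} := hb
  rw [hb', Ideal.span_singleton_pow, Ideal.span_singleton_eq_span_singleton] at hI
  obtain ⟨u, hu⟩ := hI
  -- `α * u = b ^ 3`
  have hη : α = ((u⁻¹ : (𝓞 K)ˣ) : 𝓞 K) * b ^ 3 := by
    rw [← hu]
    rw [mul_comm α, ← mul_assoc, Units.inv_mul, one_mul]
  obtain ⟨n, hn⟩ := hn
  have hpn : ¬ ((3 : ℕ) : ℤ) ∣ n := by
    intro h
    apply hα
    rw [Ideal.mem_span_singleton]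
    have h1 : (hζ.toInteger - 1) ∣ ((3 : ℕ) : 𝓞 K) := by
      have := IsCyclotomicExtension.Rat.associated_zeta_sub_one_pow_prime 3 hζ
      exact (dvd_pow_self _ (by norm_num)).trans this.dvd
    have h2 : (hζ.toInteger - 1) ∣ ((n : ℤ) : 𝓞 K) := by
      rw [IsCyclotomicExtension.Rat.zeta_sub_one_dvd_intCast_iff' 3 hζ]
      exact h
    have h3 := dvd_add (h1.trans hn) h2
    rwa [sub_add_cancel] at h3
  obtain ⟨n', hn'⟩ := S14units.exists_int_dvd_unit_sub (p := 3) hn hpn u⁻¹ b hη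
  have hcong : ∃ m : ℤ, (hζ.toInteger - 1) ^ 2 ∣ (((u⁻¹ : (𝓞 K)ˣ) : 𝓞 K) - m : 𝓞 K) := by
    refine ⟨n', ?_⟩
    have := IsCyclotomicExtension.Rat.associated_zeta_sub_one_pow_prime 3 hζ
    exact this.dvd.trans hn'
  rcases IsCyclotomicExtension.Rat.Three.eq_one_or_neg_one_of_unit_of_congruent hζ u⁻¹ hcong with
    h | h
  · refine ⟨(b : K), ?_⟩
    rw [h, Units.val_one, one_mul] at hη
    rw [hη]
    exact map_pow (algebraMap (𝓞 K) K) b 3
  · refine ⟨((-b : 𝓞 K) : K), ?_⟩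
    have h1 : α = (-b) ^ 3 := by
      rw [hη, h]
      push_cast
      ring
    rw [h1]
    exact map_pow (algebraMap (𝓞 K) K) (-b) 3

end Fermat.Agent.S14kummer
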