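import Fermat.Agent.S14_KummerD

/-!
# S14, part T1: reduction of S14 to a statement on the `p`-th cyclotomic field

`splits_of_core` : an admissible extension splits as soon as the "core" statement
(singular primary numbers in the `ω²`-eigenspace are `p`-th powers) holds.
-/

set_option autoImplicit false

namespace Fermat.Agent.S14kummer

open Fermat.Agent.Frob Fermat.Agent.Minkowski ExtCitation NumberField IsDedekindDomain

/-- The core statement for the prime `p`. -/
def Core (p : ℕ) [Fact p.Prime] : Prop :=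
  ∀ (K : Type) [Field K] [NumberField K] [IsCyclotomicExtension {p} ℚ K] (ζ : K)
    (hζ : IsPrimitiveRoot ζ p) (α : 𝓞 K), α ≠ 0 → (∃ I : Ideal (𝓞 K), Ideal.span {α} = I ^ p) →
    (∃ n : ℤ, (p : 𝓞 K) ∣ α - n) → α ∉ Ideal.span {hζ.toInteger - 1} →
    (∀ σ : K ≃ₐ[ℚ] K, ∃ γ : K, γ ≠ 0 ∧ σ (α : K) =
      (α : K) ^ ((IsCyclotomicExtension.Rat.galEquivZMod p K σ : ZMod p).val ^ 2) * γ ^ p) →
    ∃ β : K, (α : K) = β ^ p

variable {p : ℕ} [Fact p.Prime]

section fixed

variable (L : IntermediateField ℚ (AlgebraicClosure ℚ)) [FiniteDimensional ℚ L] [IsGalois ℚ L]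

/-- an element of `L` fixed by all Galois elements fixing `ζ` lies in `ℚ(ζ)` -/
lemma mem_adjoin_of_fixed {ζL : L} {x : L}
    (h : ∀ σ : GQ, σ (ζL : AlgebraicClosure ℚ) = ζL → σ (x : AlgebraicClosure ℚ) = x) :
    x ∈ IntermediateField.adjoin ℚ {ζL} := by
  rw [← IsGalois.fixedField_fixingSubgroup (IntermediateField.adjoin ℚ {ζL}),
    IntermediateField.mem_fixedField_iff]
  intro τ hτ
  obtain ⟨σ, hσ⟩ := AlgEquiv.restrictNormalHom_surjective (F := ℚ) (K₁ := L)
    (AlgebraicClosure ℚ) τ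
  have hσ' : ∀ x : L, σ (x : AlgebraicClosure ℚ) = τ x := by
    intro x
    have := AlgEquiv.restrictNormal_commutes σ L x
    rw [← hσ]
    exact this.symm
  apply Subtype.ext
  rw [← hσ' x]
  apply h
  rw [hσ' ζL]
  congr 1
  exact (IntermediateField.mem_fixingSubgroup_iff _ _).mp hτ ζL
    (IntermediateField.mem_adjoin_simple_self ℚ ζL)

end fixed

variable {V : Type} [AddCommGroup V] [Module (ZMod p) V]
  [DistribMulAction GQ V] [SMulCommClass GQ (ZMod p) V] {C : Submodule (ZMod p) V}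

theorem splits_of_core (h3 : 3 ≤ p) (hcore : Core p) (hadm : IsAdmissibleExtensionCts p V C) :
    SplitsGlobally C := by
  have hp : p.Prime := Fact.out
  have : NeZero p := ⟨hp.ne_zero⟩
  obtain ⟨D⟩ := exists_datum hadm.toIsAdmissibleExtension
  by_contra hns
  have hc : ¬ ∀ σ : GQ, chi p σ = 1 → D.c σ = 0 := fun hall => hns (D.splits h3 hall)
  obtain ⟨g, hg, hcg⟩ := D.exists_c_eq_one hc
  obtain ⟨ζ, hζ⟩ := exists_primitiveRoot p
  have hopen := hadm.open_kernel
  have hfd : FiniteDimensional ℚ (splitField V) := finiteDimensional_splitField hopen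
  have hgal : IsGalois ℚ (splitField V) := isGalois_splitField hopen
  have hNL : NumberField (splitField V) := ⟨⟩
  have hloc : Loc p V := loc_of_admissible hadm.toIsAdmissibleExtension
  obtain ⟨θ, hθ0, hθint, hθL, hθ⟩ := D.exists_kummer hopen hg hcg hζ
  have hζmem : ζ ∈ splitField V := by
    rw [IntermediateField.mem_fixedField_iff]
    intro σ hσ
    exact (apply_eq_iff hζ σ).mpr ((D.mem_kerV_iff σ).mp hσ).1
  -- the fields
  let ζL : splitField V := ⟨ζ, hζmem⟩
  have hζL : IsPrimitiveRoot ζL p :=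
    (IsPrimitiveRoot.map_iff_of_injective (f := (splitField V).val)
      (splitField V).val.injective).mp hζ
  let K : IntermediateField ℚ (splitField V) := IntermediateField.adjoin ℚ {ζL}
  have hζK : ζL ∈ K := IntermediateField.mem_adjoin_simple_self ℚ ζL
  have hcyc : IsCyclotomicExtension {p} ℚ K :=
    hζL.intermediateField_adjoin_isCyclotomicExtension ℚ
  let ζ' : K := ⟨ζL, hζK⟩
  have hζ' : IsPrimitiveRoot ζ' p :=
    (IsPrimitiveRoot.map_iff_of_injective (f := K.val) K.val.injective).mp hζL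
  have hζfix : ∀ σ : GQ, σ (ζL : AlgebraicClosure ℚ) = ζL ↔ chi p σ = 1 :=
    fun σ => apply_eq_iff hζ σ
  -- `θ` as an algebraic integer of `L`
  let θL : 𝓞 (splitField V) := ⟨⟨θ, hθL⟩, by
    have : IsIntegral ℤ (⟨θ, hθL⟩ : splitField V) := by
      rw [← isIntegral_algebraMap_iff (A := splitField V) (B := AlgebraicClosure ℚ)
        (FaithfulSMul.algebraMap_injective _ _)]
      exact hθint
    exact this⟩
  have hθLcoe : ((θL : splitField V) : AlgebraicClosure ℚ) = θ := rfl
  have hmem : (θL : splitField V) ^ p ∈ K := by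
    apply mem_adjoin_of_fixed
    intro σ hσ
    have h1 : σ θ = ζ ^ (D.c σ).val * θ := hθ σ ((hζfix σ).mp hσ)
    have h2 : (((θL : splitField V) ^ p : splitField V) : AlgebraicClosure ℚ) = θ ^ p := rfl
    rw [h2, map_pow, h1, mul_pow, ← pow_mul, mul_comm _ p, pow_mul, hζ.pow_eq_one, one_pow,
      one_mul]
  let α : 𝓞 K := ⟨⟨(θL : splitField V) ^ p, hmem⟩, by
    have : IsIntegral ℤ (⟨(θL : splitField V) ^ p, hmem⟩ : K) := by
      rw [← isIntegral_algebraMap_iff (A := K) (B := splitField V)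
        (FaithfulSMul.algebraMap_injective _ _)]
      exact (θL.2 : IsIntegral ℤ (θL : splitField V)).pow p
    exact this⟩
  have hαθ : algebraMap (𝓞 K) (𝓞 (splitField V)) α = θL ^ p := rfl
  have hθL0 : θL ≠ 0 := by
    intro h0
    apply hθ0
    rw [← hθLcoe, h0]
    rfl
  have hα0 : α ≠ 0 := by
    intro h0
    rw [h0, map_zero] at hαθ
    exact hθL0 (pow_eq_zero_iff hp.ne_zero |>.mp hαθ.symm)
  obtain ⟨k, α₂, θ₂, hθ₂, hαθ₂, hα₂0, hI, hn, hα₂⟩ := exists_normalized (K := K)
    (L := splitField V) hζ' (fun v w _ => ramificationIdx'_eq_one hloc hζ K rfl hζK v w)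
    (fun w hw x => exists_int_sub_mem hloc hζ K rfl hζK w hw x) hα0 hαθ
  have hθ₂0 : θ₂ ≠ 0 := by
    rintro rfl
    rw [mul_zero] at hθ₂
    exact hθL0 hθ₂
  -- the element of `ℚ̄`
  set t : AlgebraicClosure ℚ := ((θ₂ : splitField V) : AlgebraicClosure ℚ) with ht
  have ht0 : t ≠ 0 := by
    intro h0
    apply hθ₂0
    apply RingOfIntegers.ext
    exact Subtype.ext h0
  have hθt : θ = (ζ - 1) ^ k * t := by
    have h1 := congrArg (fun z : 𝓞 (splitField V) => ((z : splitField V) : AlgebraicClosure ℚ)) hθ₂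
    exact h1
  have hζ1 : ζ - 1 ≠ 0 := sub_ne_zero.mpr (hζ.ne_one hp.one_lt)
  have htσ : ∀ σ : GQ, chi p σ = 1 → σ t = ζ ^ (D.c σ).val * t := by
    intro σ hσ
    have h1 := hθ σ hσ
    have h2 : σ ζ = ζ := (apply_eq_iff hζ σ).mpr hσ
    rw [hθt, map_mul, map_pow, map_sub, h2, map_one] at h1
    have h4 : (ζ - 1) ^ k * σ t = (ζ - 1) ^ k * (ζ ^ (D.c σ).val * t) := by
      rw [h1]; ring
    exact mul_left_cancel₀ (pow_ne_zero _ hζ1) h4
  have hαt : (((α₂ : K) : splitField V) : AlgebraicClosure ℚ) = t ^ p := by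
    have h1 := congrArg (fun z : 𝓞 (splitField V) => ((z : splitField V) : AlgebraicClosure ℚ))
      hαθ₂
    exact h1
  -- equivariance
  have heq : ∀ σ : K ≃ₐ[ℚ] K, ∃ γ : K, γ ≠ 0 ∧ σ (α₂ : K) =
      (α₂ : K) ^ ((IsCyclotomicExtension.Rat.galEquivZMod p K σ : ZMod p).val ^ 2) * γ ^ p := by
    intro σ
    set a : ZMod p := (IsCyclotomicExtension.Rat.galEquivZMod p K σ : ZMod p) with ha
    have hnorm : Normal ℚ K := by
      have := IsCyclotomicExtension.isGalois {p} ℚ K
      infer_instance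
    obtain ⟨τ, hτ⟩ := AlgEquiv.restrictNormalHom_surjective (F := ℚ) (K₁ := K)
      (splitField V) σ
    have hτ' : ∀ x : K, τ (x : splitField V) = (σ x : K) := by
      intro x
      have := AlgEquiv.restrictNormal_commutes τ K x
      rw [← hτ]
      exact this.symm
    obtain ⟨ρ, hρ⟩ := AlgEquiv.restrictNormalHom_surjective (F := ℚ) (K₁ := splitField V)
      (AlgebraicClosure ℚ) τ
    have hρ' : ∀ x : splitField V, ρ (x : AlgebraicClosure ℚ) = τ x := by
      intro x
      have := AlgEquiv.restrictNormal_commutes ρ (splitField V) x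
      rw [← hρ]
      exact this.symm
    have hρK : ∀ x : K, ρ ((x : splitField V) : AlgebraicClosure ℚ) =
        ((σ x : K) : splitField V) := by
      intro x
      rw [hρ', hτ']
    have hρζ : ρ ζ = ζ ^ a.val := by
      have h1 := hρK ζ'
      have h2 := IsCyclotomicExtension.Rat.galEquivZMod_apply_of_pow_eq p K σ hζ'.pow_eq_one
      rw [h2] at h1
      exact h1
    have hchi : chi p ρ = a := by
      have h1 := cyclo_spec hζ.pow_eq_one ρ
      rw [hρζ, pow_eq_pow_iff hζ] at h1
      rw [chi, ← h1, ZMod.natCast_val, ZMod.cast_id', id]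
    -- conjugation
    have hconj : ∀ s : GQ, chi p s = 1 → chi p (ρ⁻¹ * s * ρ) = 1 ∧
        D.c (ρ⁻¹ * s * ρ) = a * D.c s := by
      intro s hs
      have h0 : ρ * (ρ⁻¹ * s * ρ) = s * ρ := by
        rw [mul_assoc, mul_inv_cancel_left]
      have h1 : chi p (ρ⁻¹ * s * ρ) = 1 := by
        have h2 := chi_mul (p := p) ρ (ρ⁻¹ * s * ρ)
        rw [h0, chi_mul, hs, one_mul] at h2
        exact (mul_right_eq_self₀.mp h2.symm).resolve_right (chi_ne_zero ρ)
      refine ⟨h1, ?_⟩
      have h2 := D.c_mul ρ (ρ⁻¹ * s * ρ)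
      rw [h0, D.c_mul, h1, one_mul, hchi, add_comm] at h2
      exact (add_left_cancel h2).symm
    set N : ℕ := a.val ^ 2 with hN
    set γ : AlgebraicClosure ℚ := ρ t / t ^ N with hγ
    have hρt0 : ρ t ≠ 0 := by
      rwa [Ne, map_eq_zero_iff _ ρ.injective]
    have hγ0 : γ ≠ 0 := div_ne_zero hρt0 (pow_ne_zero _ ht0)
    have hγfix : ∀ s : GQ, chi p s = 1 → s γ = γ := by
      intro s hs
      obtain ⟨h1, h2⟩ := hconj s hs
      have h4 : s (ρ t) = ζ ^ (N * (D.c s).val) * ρ t := by
        have h5 : s (ρ t) = ρ ((ρ⁻¹ * s * ρ) t) := by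
          change (s * ρ) t = (ρ * (ρ⁻¹ * s * ρ)) t
          rw [mul_assoc ρ⁻¹, mul_inv_cancel_left]
        rw [h5, htσ _ h1, map_mul, map_pow, hρζ, ← pow_mul]
        congr 1
        rw [pow_eq_pow_iff hζ, h2, hN]
        push_cast
        simp only [ZMod.natCast_val, ZMod.cast_id', id]
        ring
      rw [hγ, map_div₀, map_pow, h4, htσ s hs, mul_pow, ← pow_mul, mul_comm (D.c s).val N]
      rw [mul_div_mul_left _ _ (pow_ne_zero _ (hζ.ne_zero hp.ne_zero))]
    have hγL : γ ∈ splitField V := by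
      have h1 : ρ t = ((τ (θ₂ : splitField V) : splitField V) : AlgebraicClosure ℚ) := hρ' _
      rw [hγ, h1, ht]
      exact div_mem (SetLike.coe_mem _) (pow_mem (SetLike.coe_mem _) _)
    have hγK : (⟨γ, hγL⟩ : splitField V) ∈ K := by
      apply mem_adjoin_of_fixed
      intro s hs
      exact hγfix s ((hζfix s).mp hs)
    refine ⟨⟨⟨γ, hγL⟩, hγK⟩, ?_, ?_⟩
    · intro h0
      exact hγ0 (congrArg (fun z : K => ((z : splitField V) : AlgebraicClosure ℚ)) h0)
    · apply Subtype.ext
      apply Subtype.ext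
      rw [← hρK]
      have h1 : (((((α₂ : K) ^ N * (⟨⟨γ, hγL⟩, hγK⟩ : K) ^ p : K) : splitField V)) :
          AlgebraicClosure ℚ) = (((α₂ : K) : splitField V) : AlgebraicClosure ℚ) ^ N * γ ^ p := rfl
      rw [h1, hαt, map_pow, hγ, div_pow, ← pow_mul, ← pow_mul, mul_comm p N]
      exact (mul_div_cancel₀ _ (pow_ne_zero _ ht0)).symm
  obtain ⟨β, hβ⟩ := hcore K ζ' hζ' α₂ hα₂0 hI hn hα₂ heq
  -- contradiction
  set b : AlgebraicClosure ℚ := ((β : splitField V) : AlgebraicClosure ℚ) with hb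
  have hbt : b ^ p = t ^ p := by
    rw [← hαt, hβ]
    rfl
  have hb0 : b ≠ 0 := by
    intro h0
    rw [h0, zero_pow hp.ne_zero] at hbt
    exact ht0 (pow_eq_zero_iff hp.ne_zero |>.mp hbt.symm)
  have hone : (t / b) ^ p = 1 := by
    rw [div_pow, hbt, div_self (pow_ne_zero _ ht0)]
  have hgζ : g ζ = ζ := (apply_eq_iff hζ g).mpr hg
  have hgfix : ∀ x : K, g ((x : splitField V) : AlgebraicClosure ℚ) = (x : splitField V) := by
    intro x
    obtain ⟨τ, hτ⟩ : ∃ τ : splitField V ≃ₐ[ℚ] splitField V, ∀ y : splitField V,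
        g (y : AlgebraicClosure ℚ) = τ y := by
      refine ⟨AlgEquiv.restrictNormal g (splitField V), fun y => ?_⟩
      exact (AlgEquiv.restrictNormal_commutes g (splitField V) y).symm
    rw [hτ]
    congr 1
    have hτK : τ ∈ K.fixingSubgroup := by
      have h1 : K ≤ IntermediateField.fixedField (Subgroup.zpowers τ) := by
        rw [IntermediateField.adjoin_le_iff]
        intro y hy
        rw [Set.mem_singleton_iff] at hy
        subst hy
        rw [SetLike.mem_coe, IntermediateField.mem_fixedField_iff]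
        have hz : τ ζL = ζL := by
          apply Subtype.ext
          rw [← hτ]
          exact hgζ
        intro f hf
        obtain ⟨n, rfl⟩ := Subgroup.mem_zpowers_iff.mp hf
        have : τ ∈ MulAction.stabilizer (splitField V ≃ₐ[ℚ] splitField V) ζL := hz
        exact (MulAction.stabilizer (splitField V ≃ₐ[ℚ] splitField V) ζL).zpow_mem this n
      rw [IntermediateField.mem_fixingSubgroup_iff]
      intro y hy
      exact (IntermediateField.mem_fixedField_iff _ _).mp (h1 hy) τ (Subgroup.mem_zpowers τ)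
    exact (IntermediateField.mem_fixingSubgroup_iff _ _).mp hτK x x.2
  have hgb : g b = b := hgfix β
  have hgtb : g (t / b) = t / b := by
    obtain ⟨i, -, hi⟩ := hζ.eq_pow_of_pow_eq_one hone
    rw [← hi, map_pow, hgζ]
  have hgt : g t = t := by
    rw [map_div₀, hgb] at hgtb
    exact (div_left_inj' hb0).mp hgtb
  have h1 := htσ g hg
  rw [hgt, hcg, ZMod.val_one'' (by omega : p ≠ 1), pow_one] at h1
  have h2 : (ζ - 1) * t = 0 := by
    rw [sub_mul, one_mul, ← h1, sub_self]
  rcases mul_eq_zero.mp h2 with h2 | h2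
  · exact hζ1 h2
  · exact ht0 h2

/-- Reduction of S14 to the core statement. -/
theorem extVanishingCts_of_core (h3 : 3 ≤ p) (hcore : Core p) : ExtVanishingCts p :=
  fun _ _ _ _ _ _ hadm => splits_of_core h3 hcore hadm

end Fermat.Agent.S14kummer
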