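import Fermat.Statements.S14
import Fermat.Agent.S14_Kummer
import Fermat.Agent.S14_CoreThree
import Fermat.Agent.S14_Assembly
import Fermat.Agent.S14_ChiTrivial

set_option autoImplicit false
open ExtCitation

namespace Fermat.Agent.S14

theorem result {p : ℕ} [Fact p.Prime] (h3 : 3 ≤ p) :
    ExtCitation.ExtVanishingCts p := by
  rcases Nat.lt_or_ge p 5 with h | h5
  · have hp : p.Prime := Fact.out
    have h4 : p ≠ 4 := by
      rintro rfl
      exact absurd hp (by norm_num)
    obtain rfl : p = 3 := by omega
    exact Fermat.Agent.S14kummer.extVanishingCts_of_core h3 Fermat.Agent.S14kummer.core_three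
  · refine Fermat.Agent.S14kummer.extVanishingCts_of_core h3
      (Fermat.Agent.S14kummer.core_of_chi_eq_one h5 ?_)
    intro K _ _ _ χ hχ
    exact Fermat.Agent.S14final.chi_eq_one h5 (IsCyclotomicExtension.zeta_spec p ℚ K) χ hχ

end Fermat.Agent.S14
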