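import Fermat.Statements.S39
import Fermat.Agent.Ext.Wide.All
import Fermat.Agent.Ext.LocM.WT

set_option autoImplicit false
open WeierstrassCurve

namespace Fermat.Agent.S39

theorem result
    (W : WeierstrassCurve ℤ) (hΔ : W.Δ ≠ 0)
    {p : ℕ} (hp : p.Prime) (hp2 : p ≠ 2)
    (hsemi : (p : ℤ) ∣ W.Δ → ¬ (p : ℤ) ∣ W.c₄)
    (hirr : W.ModRepIsIrreducible p)
    (hfin : (W.map (Int.castRingHom ℚ)).IsPeuRamifieeAt p p)
    {M : ℕ} (hM : 0 < M) (hpM : p ∣ M) (hp2M : ¬ p ^ 2 ∣ M)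
    (hmod : W.IsResiduallyModularOfLevel p M) :
    W.IsResiduallyModularOfLevel p (M / p) := by
  obtain ⟨m, hm0, hm, rfl, hdiv⟩ := Ext.Wide.exists_eq_mul hM hpM hp2M
  haveI : NeZero m := ⟨hm0⟩
  rw [hdiv]
  by_cases hd : (p : ℤ) ∣ W.Δ
  · exact Ext.Wide.lower_of_star hp hp2 hΔ hirr hm (Ext.Wide.starAll hp hp2 hm)
      (fun _ hA _ H3 => haveI : Fact p.Prime := ⟨hp⟩
        Ext.LocM.wt_of_mult hp hp2 hm hA H3 hΔ hd (hsemi hd) hfin) hmod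
  · exact Ext.Wide.lower_good hp hp2 hirr hd hm (Ext.Wide.starAll hp hp2 hm) hmod

end Fermat.Agent.S39
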