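import Fermat.Statements.S20
import Fermat.Agent.Genus.Final
import Fermat.Agent.Genus.Rank
import Fermat.Agent.P1Count.Count
import Fermat.Agent.P1Count.Cusps

set_option autoImplicit false
open CuspForm

namespace Fermat.Agent.S20

open MatrixGroups CongruenceSubgroup in
theorem neg_one_smul_coset (N : ℕ) (x : SL(2, ℤ) ⧸ Gamma0 N) : (-1 : SL(2, ℤ)) • x = x := by
  induction x using QuotientGroup.induction_on with
  | H g =>
    change (QuotientGroup.mk (-1 * g) : SL(2, ℤ) ⧸ Gamma0 N) = QuotientGroup.mk g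
    rw [eq_comm, QuotientGroup.eq, Gamma0_mem]
    have : g⁻¹ * (-1 * g) = -1 := by
      rw [neg_one_mul, mul_neg, inv_mul_cancel]
    rw [this]
    simp

theorem result (N : ℕ) [NeZero N] :
    (Module.finrank ℂ (CuspForm (CongruenceSubgroup.Gamma0 N) 2) : ℚ) = ModularCurve.genusFormula N := by
  classical
  have hfin : (CongruenceSubgroup.Gamma0 N).FiniteIndex := inferInstance
  have hfq : Finite (Matrix.SpecialLinearGroup (Fin 2) ℤ ⧸ CongruenceSubgroup.Gamma0 N) :=
    inferInstance
  let X := Matrix.SpecialLinearGroup (Fin 2) ℤ ⧸ CongruenceSubgroup.Gamma0 N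
  have : Fintype X := Fintype.ofFinite X
  have hrank : Fermat.Agent.Genus.FullRank X := Fermat.Agent.Genus.exists_full_rank N
  have h := Fermat.Agent.Genus.finrank_CF_two (X := X) (neg_one_smul_coset N) hrank
  rw [(Fermat.Agent.Genus.CFequiv (CongruenceSubgroup.Gamma0 N) 2).finrank_eq]
  have e1 : Fintype.card X = ModularCurve.dedekindPsi N := by
    rw [← Nat.card_eq_fintype_card]
    exact Fermat.Agent.P1Count.card_coset N
  have e2 := Fermat.Agent.P1Count.card_fixed_S N
  have e3 := Fermat.Agent.P1Count.card_fixed_ST N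
  have e4 := Fermat.Agent.P1Count.card_orbits_T N
  rw [ModularCurve.genusFormula, ← e1, ← e2, ← e3, ← e4]
  exact h

end Fermat.Agent.S20
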