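import Fermat.Agent.S14_KummerB

/-!
# S14, part T1(C): lifting decomposition groups, ramification of `L/K`

-/

set_option autoImplicit false

namespace Fermat.Agent.S14kummer

open Fermat.Agent.Frob Fermat.Agent.Minkowski ExtCitation NumberField
open scoped Pointwise

/-- Every nonzero prime of a number field inside `ℚ̄` is the centre of a place of `ℚ̄`. -/
lemma exists_place_above (F : IntermediateField ℚ (AlgebraicClosure ℚ)) [FiniteDimensional ℚ F]
    (P : Ideal (𝓞 F)) [hP : P.IsPrime] {ℓ : ℕ} (hℓ : ℓ.Prime) (hPℓ : (ℓ : 𝓞 F) ∈ P) :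
    ∃ A : ValuationSubring (AlgebraicClosure ℚ), A.LiesOverPrime ℓ ∧
      ∀ x : 𝓞 F, x ∈ P ↔ incl F x ∈ centre A := by
  have : NumberField F := ⟨⟩
  let f : 𝓞 F →+* AlgebraicClosure ℚ := (Zbar.val : Zbar →+* AlgebraicClosure ℚ).comp (incl F)
  have hf : ∀ x : 𝓞 F, f x = ((x : F) : AlgebraicClosure ℚ) := fun x => rfl
  have hfinj : Function.Injective f := by
    intro x y hxy
    rw [hf, hf] at hxy
    exact RingOfIntegers.ext (Subtype.ext hxy)
  let e : 𝓞 F ≃+* f.range := RingEquiv.ofBijective f.rangeRestrict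
    ⟨fun x y hxy => hfinj (congrArg (fun z : f.range => (z : AlgebraicClosure ℚ)) hxy),
      f.rangeRestrict_surjective⟩
  have he : ∀ x, ((e x : f.range) : AlgebraicClosure ℚ) = ((x : F) : AlgebraicClosure ℚ) :=
    fun x => rfl
  have hI : P.map (e : 𝓞 F →+* f.range) ≠ ⊤ := by
    intro h
    apply hP.ne_top
    have h1 := congrArg (Ideal.comap (e : 𝓞 F →+* f.range)) h
    have h2 := Ideal.comap_map_of_bijective (e : 𝓞 F →+* f.range) e.bijective (I := P)
    rwa [h2, Ideal.comap_top] at h1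
  obtain ⟨B, hB1, hB2⟩ := Ideal.image_subset_nonunits_valuationSubring
    (P.map (e : 𝓞 F →+* f.range)) hI
  have h1 : ∀ x : 𝓞 F, x ∈ P → incl F x ∈ centre B := by
    intro x hx
    rw [mem_centre_iff]
    apply hB2
    exact ⟨e x, Ideal.mem_map_of_mem (e : 𝓞 F →+* f.range) hx, he x⟩
  have hPmax : P.IsMaximal := by
    refine hP.isMaximal ?_
    rintro rfl
    rw [Ideal.mem_bot] at hPℓ
    exact hℓ.ne_zero (by exact_mod_cast hPℓ)
  have h2 : P = (centre B).comap (incl F) :=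
    hPmax.eq_of_le (Ideal.IsPrime.ne_top (Ideal.comap_isPrime _ _)) h1
  refine ⟨B, ?_, fun x => ?_⟩
  · have := h1 _ hPℓ
    rw [map_natCast, mem_centre_iff] at this
    simpa [ValuationSubring.LiesOverPrime] using this
  · constructor
    · exact h1 x
    · intro hx
      rw [h2]
      exact hx

/-- discrete topology on the algebraic integers (local use only) -/
local instance topZbar'' : TopologicalSpace Zbar := ⊥
local instance discZbar'' : DiscreteTopology Zbar := ⟨rfl⟩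

local instance contSMulZbar'' : ContinuousSMul GQ Zbar := by
  rw [continuousSMul_iff_stabilizer_isOpen]
  intro x
  have h := stabilizer_isOpen_of_isIntegral (K := ℚ) (L := AlgebraicClosure ℚ)
    (x : AlgebraicClosure ℚ)
  convert h using 1
  ext g
  constructor
  · intro hg
    exact congrArg (fun x : Zbar => (x : AlgebraicClosure ℚ)) hg
  · intro hg
    exact Subtype.ext hg

/-- Lifting elements of the decomposition group from a finite layer to `ℚ̄`. -/
theorem exists_lift_decomp (F : IntermediateField ℚ (AlgebraicClosure ℚ)) [FiniteDimensional ℚ F]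
    [IsGalois ℚ F] {ℓ : ℕ} (hℓ : ℓ.Prime) {A : ValuationSubring (AlgebraicClosure ℚ)}
    (hA : A.LiesOverPrime ℓ) (τ : F ≃ₐ[ℚ] F)
    (hτ : ∀ x : 𝓞 F, incl F (τ⁻¹ • x) ∈ centre A ↔ incl F x ∈ centre A) :
    ∃ σ ∈ A.decompositionSubgroup ℚ, ∀ x : F, σ (x : AlgebraicClosure ℚ) = τ x := by
  have hNF : NumberField F := ⟨⟩
  obtain ⟨σ₀, hσ₀⟩ := AlgEquiv.restrictNormalHom_surjective (F := ℚ) (K₁ := F)
    (AlgebraicClosure ℚ) τ
  have hσ₀' : ∀ x : F, σ₀ (x : AlgebraicClosure ℚ) = τ x := by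
    intro x
    have := AlgEquiv.restrictNormal_commutes σ₀ F x
    rw [← hσ₀]
    exact this.symm
  have hσ₀'' : ∀ x : F, σ₀⁻¹ (x : AlgebraicClosure ℚ) = ((τ⁻¹ x : F) : AlgebraicClosure ℚ) := by
    intro x
    have := hσ₀' (τ⁻¹ x)
    have h5 : τ (τ⁻¹ x) = x := τ.apply_symm_apply _
    rw [h5] at this
    rw [← this]
    exact σ₀.symm_apply_apply _
  let H : Subgroup GQ := F.fixingSubgroup
  have hHo : IsOpen (H : Set GQ) := IntermediateField.fixingSubgroup_isOpen F
  have hHc : IsClosed (H : Set GQ) := H.isClosed_of_isOpen hHo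
  have : CompactSpace H := isCompact_iff_compactSpace.mp hHc.isCompact
  let algR : Algebra (𝓞 F) Zbar := (incl F).toAlgebra
  have hcomm : SMulCommClass H (𝓞 F) Zbar := by
    constructor
    rintro ⟨h, hh⟩ r x
    apply Subtype.ext
    change h (((r : F) : AlgebraicClosure ℚ) * (x : AlgebraicClosure ℚ)) =
      ((r : F) : AlgebraicClosure ℚ) * h (x : AlgebraicClosure ℚ)
    have h1 : h ((r : F) : AlgebraicClosure ℚ) = ((r : F) : AlgebraicClosure ℚ) := hh (r : F)
    rw [map_mul, h1]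
  have hcont : ContinuousSMul H Zbar := inferInstance
  have hinv : Algebra.IsInvariant (𝓞 F) Zbar H := by
    constructor
    intro b hb
    have h1 : (b : AlgebraicClosure ℚ) ∈ F := by
      rw [← InfiniteGalois.fixedField_fixingSubgroup F, IntermediateField.mem_fixedField_iff]
      intro g hg
      exact congrArg (fun x : Zbar => (x : AlgebraicClosure ℚ)) (hb ⟨g, hg⟩)
    have h2 : IsIntegral ℤ (⟨(b : AlgebraicClosure ℚ), h1⟩ : F) := by
      have : IsIntegral ℤ (b : AlgebraicClosure ℚ) := b.2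
      rw [← isIntegral_algebraMap_iff (A := F) (B := AlgebraicClosure ℚ)
        (FaithfulSMul.algebraMap_injective _ _)]
      exact this
    exact ⟨⟨⟨(b : AlgebraicClosure ℚ), h1⟩, h2⟩, rfl⟩
  have hPQ : (σ₀ • centre A).under (𝓞 F) = (centre A).under (𝓞 F) := by
    ext x
    change incl F x ∈ σ₀ • centre A ↔ incl F x ∈ centre A
    rw [Ideal.mem_pointwise_smul_iff_inv_smul_mem, ← hτ x]
    have : σ₀⁻¹ • incl F x = incl F (τ⁻¹ • x) := by
      apply Subtype.ext
      exact hσ₀'' (x : F)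
    rw [this]
  have hprime : (σ₀ • centre A).IsPrime := inferInstance
  obtain ⟨h, hh⟩ := Algebra.IsInvariant.exists_smul_of_under_eq_of_profinite (A := 𝓞 F)
    (B := Zbar) (G := H) (σ₀ • centre A) (centre A) hPQ
  let σ₁ : GQ := (h : GQ) * σ₀
  have hσ₁ : centre A = σ₁ • centre A := by
    conv_lhs => rw [hh]
    rw [mul_smul]
    rfl
  refine ⟨σ₁, smul_eq_of_smul_centre_eq hℓ hA hA hσ₁, ?_⟩
  intro x
  change (h : GQ) (σ₀ (x : AlgebraicClosure ℚ)) = _
  rw [hσ₀' x]
  exact h.2 (τ x)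

/-! ### Local hypotheses -/

section relative

variable {p : ℕ} [Fact p.Prime]

/-- local triviality of the action -/
structure Loc (p : ℕ) [Fact p.Prime] (V : Type) [AddCommGroup V] [DistribMulAction GQ V] :
    Prop where
  away : ∀ ℓ : ℕ, ℓ.Prime → ℓ ≠ p → ∀ A : ValuationSubring (AlgebraicClosure ℚ),
    A.LiesOverPrime ℓ → ∀ σ ∈ A.inertiaSubgroupIn ℚ, σ ∈ kerV V
  atp : ∀ A : ValuationSubring (AlgebraicClosure ℚ), A.LiesOverPrime p →
    ∀ σ ∈ A.decompositionSubgroup ℚ, chi p σ = 1 → σ ∈ kerV V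

theorem loc_of_admissible {V : Type} [AddCommGroup V] [Module (ZMod p) V]
    [DistribMulAction GQ V] [SMulCommClass GQ (ZMod p) V] {C : Submodule (ZMod p) V}
    (h : IsAdmissibleExtension p V C) : Loc p V where
  away ℓ hℓ hℓp A hA σ hσ := h.unramified_outside ℓ hℓ hℓp A hA σ hσ
  atp A hA σ hσ hchi := by
    intro v
    obtain ⟨C', hstab, hcompl⟩ := h.locally_split A hA
    have hv : v ∈ C ⊔ C' := by rw [hcompl.sup_eq_top]; trivial
    obtain ⟨x, hx, y, hy, rfl⟩ := Submodule.mem_sup.mp hv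
    rw [smul_add, h.fixed_sub σ x hx]
    congr 1
    have h1 : σ • y - y ∈ C := by
      have := h.cyclo_quot σ y
      have h2 : (cycloExp p σ : ZMod p) = 1 := hchi
      rwa [h2, one_smul] at this
    have h2 : σ • y - y ∈ C' := C'.sub_mem (hstab σ hσ y hy) hy
    have h3 : σ • y - y ∈ C ⊓ C' := ⟨h1, h2⟩
    rw [hcompl.inf_eq_bot, Submodule.mem_bot, sub_eq_zero] at h3
    exact h3

lemma exists_prime_mem {F : Type*} [Field F] [NumberField F] (P : Ideal (𝓞 F)) [hP : P.IsPrime]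
    (hP0 : P ≠ ⊥) : ∃ ℓ : ℕ, ℓ.Prime ∧ (ℓ : 𝓞 F) ∈ P := by
  have hmax : P.IsMaximal := hP.isMaximal hP0
  have hfin : Finite (𝓞 F ⧸ P) := Ideal.finiteQuotientOfFreeOfNeBot P hP0
  obtain ⟨ℓ, hℓ⟩ := CharP.exists (𝓞 F ⧸ P)
  have hℓ' : ℓ.Prime := (CharP.char_is_prime_or_zero (𝓞 F ⧸ P) ℓ).resolve_right (by
    rintro rfl
    have := CharP.charP_to_charZero (𝓞 F ⧸ P)
    exact not_finite (𝓞 F ⧸ P))
  refine ⟨ℓ, hℓ', ?_⟩
  rw [← Ideal.Quotient.eq_zero_iff_mem, map_natCast]
  exact CharP.cast_eq_zero _ _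

variable {V : Type} [AddCommGroup V] [DistribMulAction GQ V]
  [FiniteDimensional ℚ (splitField V)] [IsGalois ℚ (splitField V)]

omit [FiniteDimensional ℚ ↥(splitField V)] [IsGalois ℚ ↥(splitField V)] in
lemma eq_one_of_lift (K : IntermediateField ℚ (splitField V))
    {τ : splitField V ≃ₐ[K] splitField V} {σ : GQ} (hσ : σ ∈ kerV V)
    (hστ : ∀ x : splitField V, σ (x : AlgebraicClosure ℚ) = τ x) : τ = 1 := by
  ext x
  rw [← hστ]
  have := x.2
  rw [IntermediateField.mem_fixedField_iff] at this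
  exact this σ hσ

/-- elements of the decomposition group of `L/K` at primes above `p` are trivial -/
lemma stabilizer_trivial (hloc : Loc p V) {ζ : AlgebraicClosure ℚ} (hζ : IsPrimitiveRoot ζ p)
    (K : IntermediateField ℚ (splitField V)) {ζL : splitField V} (hζL : (ζL : AlgebraicClosure ℚ) = ζ)
    (hζK : ζL ∈ K) (P : Ideal (𝓞 (splitField V))) [hP : P.IsPrime]
    (hPp : (p : 𝓞 (splitField V)) ∈ P) (τ : splitField V ≃ₐ[K] splitField V)
    (hτ : τ • P = P) : τ = 1 := by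
  obtain ⟨A, hA, hAP⟩ := exists_place_above (splitField V) P (Fact.out : p.Prime) hPp
  have hτ' : ∀ x : 𝓞 (splitField V), ((τ.restrictScalars ℚ)⁻¹ : splitField V ≃ₐ[ℚ] splitField V) • x
      = τ⁻¹ • x := by
    intro x
    rfl
  obtain ⟨σ, hσA, hσ⟩ := exists_lift_decomp (splitField V) (Fact.out : p.Prime) hA
    (τ.restrictScalars ℚ) (by
      intro x
      rw [← hAP, ← hAP, hτ', ← Ideal.mem_pointwise_smul_iff_inv_smul_mem, hτ])
  apply eq_one_of_lift K (σ := σ) _ hσ
  apply hloc.atp A hA σ hσA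
  rw [← apply_eq_iff hζ, ← hζL, hσ]
  have : τ ζL = ζL := τ.commutes ⟨ζL, hζK⟩
  exact congrArg Subtype.val this

lemma inertia_trivial (hloc : Loc p V) {ζ : AlgebraicClosure ℚ} (hζ : IsPrimitiveRoot ζ p)
    (K : IntermediateField ℚ (splitField V)) {ζL : splitField V} (hζL : (ζL : AlgebraicClosure ℚ) = ζ)
    (hζK : ζL ∈ K) (P : Ideal (𝓞 (splitField V))) [hP : P.IsPrime] (hP0 : P ≠ ⊥)
    (τ : splitField V ≃ₐ[K] splitField V)
    (hτ : τ ∈ P.inertia (splitField V ≃ₐ[K] splitField V)) : τ = 1 := by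
  have : NumberField (splitField V) := ⟨⟩
  obtain ⟨ℓ, hℓ, hPℓ⟩ := exists_prime_mem P hP0
  by_cases hℓp : ℓ = p
  · subst hℓp
    exact stabilizer_trivial hloc hζ K hζL hζK P hPℓ τ (Ideal.inertia_le_stabilizer P hτ)
  · obtain ⟨A, hA, hAP⟩ := exists_place_above (splitField V) P hℓ hPℓ
    obtain ⟨σ, hσA, hσ⟩ := exists_lift_inertia (splitField V) hℓ hA (τ.restrictScalars ℚ) (by
      intro x
      refine ⟨τ • x - x, rfl, ?_⟩
      rw [← hAP]
      exact hτ x)
    exact eq_one_of_lift K (hloc.away ℓ hℓ hℓp A hA σ hσA) hσ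

open IsDedekindDomain

lemma ramificationIdx'_eq_one (hloc : Loc p V) {ζ : AlgebraicClosure ℚ} (hζ : IsPrimitiveRoot ζ p)
    (K : IntermediateField ℚ (splitField V)) {ζL : splitField V} (hζL : (ζL : AlgebraicClosure ℚ) = ζ)
    (hζK : ζL ∈ K) [NumberField K] [NumberField (splitField V)]
    (v : HeightOneSpectrum (𝓞 K)) (w : HeightOneSpectrum (𝓞 (splitField V)))
    [w.asIdeal.LiesOver v.asIdeal] :
    v.asIdeal.ramificationIdx' w.asIdeal = 1 := by
  have : IsGaloisGroup (splitField V ≃ₐ[K] splitField V) K (splitField V) :=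
    IsGaloisGroup.of_isGalois K (splitField V)
  have hfin : Finite (𝓞 K ⧸ v.asIdeal) := Ideal.finiteQuotientOfFreeOfNeBot v.asIdeal v.ne_bot
  have hfin2 : Finite v.asIdeal.ResidueField := inferInstance
  rw [Ideal.ramificationIdx'_eq_ramificationIdx v.asIdeal w.asIdeal v.ne_bot,
    ← Ideal.ramificationIdxIn_eq_ramificationIdx v.asIdeal w.asIdeal
      (splitField V ≃ₐ[K] splitField V), ← Ideal.card_inertia_eq_ramificationIdxIn
        (G := splitField V ≃ₐ[K] splitField V) v.asIdeal w.asIdeal, Nat.card_eq_one_iff_unique]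
  refine ⟨⟨fun a b => ?_⟩, ⟨1⟩⟩
  apply Subtype.ext
  rw [inertia_trivial hloc hζ K hζL hζK w.asIdeal w.ne_bot a a.2,
    inertia_trivial hloc hζ K hζL hζK w.asIdeal w.ne_bot b b.2]

lemma exists_int_sub_mem (hloc : Loc p V) {ζ : AlgebraicClosure ℚ} (hζ : IsPrimitiveRoot ζ p)
    (K : IntermediateField ℚ (splitField V)) {ζL : splitField V} (hζL : (ζL : AlgebraicClosure ℚ) = ζ)
    (hζK : ζL ∈ K) [NumberField K] [NumberField (splitField V)] [IsCyclotomicExtension {p} ℚ K]
    (w : HeightOneSpectrum (𝓞 (splitField V))) (hw : (p : 𝓞 (splitField V)) ∈ w.asIdeal)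
    (x : 𝓞 (splitField V)) : ∃ n : ℤ, x - n ∈ w.asIdeal := by
  have hp : p.Prime := Fact.out
  have : IsGaloisGroup (splitField V ≃ₐ[K] splitField V) K (splitField V) :=
    IsGaloisGroup.of_isGalois K (splitField V)
  set P : Ideal (𝓞 (splitField V)) := w.asIdeal with hPdef
  have hPp : P.IsPrime := w.isPrime
  set q : Ideal (𝓞 K) := P.under (𝓞 K) with hq
  have hqp : (p : 𝓞 K) ∈ q := by
    rw [hq, Ideal.under_def, Ideal.mem_comap, map_natCast]
    exact hw
  have hq0 : q ≠ ⊥ := by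
    intro h
    rw [h, Ideal.mem_bot] at hqp
    exact hp.ne_zero (by exact_mod_cast hqp)
  have hover : P.LiesOver q := ⟨rfl⟩
  have hqover : q.LiesOver (Ideal.span {(p : ℤ)}) := by
    rw [Ideal.liesOver_iff]
    refine Ideal.IsMaximal.eq_of_le (Int.ideal_span_isMaximal_of_prime p)
      Ideal.IsPrime.ne_top' ?_
    rw [Ideal.span_singleton_le_iff_mem, Ideal.mem_comap, algebraMap_int_eq, map_natCast]
    exact hqp
  have hPover : P.LiesOver (Ideal.span {(p : ℤ)}) := Ideal.LiesOver.trans P q _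
  have hfin : Finite (𝓞 K ⧸ q) := Ideal.finiteQuotientOfFreeOfNeBot q hq0
  have hfin2 : Finite q.ResidueField := inferInstance
  have h1 : Nat.card (MulAction.stabilizer (splitField V ≃ₐ[K] splitField V) P) = 1 := by
    rw [Nat.card_eq_one_iff_unique]
    refine ⟨⟨fun a b => ?_⟩, ⟨1⟩⟩
    apply Subtype.ext
    rw [stabilizer_trivial hloc hζ K hζL hζK P hw a a.2,
      stabilizer_trivial hloc hζ K hζL hζK P hw b b.2]
  rw [Ideal.card_stabilizer_eq q P, Ideal.inertiaDegIn_eq_inertiaDeg q P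
    (splitField V ≃ₐ[K] splitField V)] at h1
  have h2 : P.inertiaDeg (𝓞 K) = 1 := Nat.eq_one_of_mul_eq_one_left h1
  have h3 : q.inertiaDeg ℤ = 1 := IsCyclotomicExtension.Rat.inertiaDeg_eq_of_prime p K q
  have h4 : P.inertiaDeg ℤ = 1 := by
    rw [Ideal.inertiaDeg_tower q P, h2, h3]
  have h5 : Ideal.absNorm P = p := by
    rw [← Ideal.pow_inertiaDeg p P, h4, pow_one]
  have h6 : Nat.card (𝓞 (splitField V) ⧸ P) = p := by
    rw [← h5]
    rfl
  have h7 : (1 : 𝓞 (splitField V) ⧸ P) ≠ 0 := one_ne_zero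
  have h8 := mem_zmultiples_of_prime_card (G := 𝓞 (splitField V) ⧸ P) h6 h7
    (g' := Ideal.Quotient.mk P x)
  obtain ⟨n, hn⟩ := AddSubgroup.mem_zmultiples_iff.mp h8
  refine ⟨n, ?_⟩
  rw [← Ideal.Quotient.eq_zero_iff_mem, map_sub, ← hn, map_intCast]
  simp

end relative

end Fermat.Agent.S14kummer
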