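import Fermat.Statements.S03
import Fermat.Agent.S45
import Fermat.Agent.S09
import Fermat.Agent.S04
import Fermat.Agent.S07

set_option autoImplicit false
open FreyPackage

namespace Fermat.Agent.S03

theorem result (P : FreyPackage) : False := by
  obtain ⟨f, hf⟩ := Fermat.Agent.S45.result P (Fermat.Agent.S04.result P) (Fermat.Agent.S09.result P)
  exact hf (Fermat.Agent.S07.result f)

end Fermat.Agent.S03
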