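import Mathlib

/-!
# Linear algebra for eigenspaces of units modulo `p`
-/

set_option autoImplicit false

open Polynomial Module

namespace Fermat.Agent.S14units

section charpoly

variable {Λ : Type*} [AddCommGroup Λ] [Module.Free ℤ Λ] [Module.Finite ℤ Λ]

/-- The characteristic polynomial of an endomorphism killed by `1 + T + ⋯ + T^n` and
having a vector generating a sublattice of full rank `n`. -/
lemma charpoly_eq_geom (φ : Λ →ₗ[ℤ] Λ) (n : ℕ) (hn0 : 0 < n) (hn : finrank ℤ Λ = n)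
    (h0 : ∑ i ∈ Finset.range (n + 1), φ ^ i = 0) (u : Λ)
    (hu : LinearIndependent ℤ (fun i : Fin n => (φ ^ (i : ℕ)) u)) :
    φ.charpoly = ∑ i ∈ Finset.range (n + 1), (X : ℤ[X]) ^ i := by
  -- the difference is a polynomial of degree `< n` killing `u`
  set D : ℤ[X] := φ.charpoly - ∑ i ∈ Finset.range (n + 1), (X : ℤ[X]) ^ i with hD
  have hdeg : D.degree < (n : WithBot ℕ) := by
    have h1 : φ.charpoly.natDegree = n := by rw [LinearMap.charpoly_natDegree, hn]
    have h2 : (∑ i ∈ Finset.range (n + 1), (X : ℤ[X]) ^ i) = X ^ n +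
        ∑ i ∈ Finset.range n, (X : ℤ[X]) ^ i := by
      rw [Finset.sum_range_succ, add_comm]
    have h3 : (∑ i ∈ Finset.range n, (X : ℤ[X]) ^ i).degree < (n : WithBot ℕ) := by
      refine lt_of_le_of_lt (degree_sum_le _ _) ?_
      rw [Finset.sup_lt_iff (by exact WithBot.bot_lt_coe n)]
      intro i hi
      rw [degree_X_pow]
      exact_mod_cast Finset.mem_range.mp hi
    have h4 : (φ.charpoly - X ^ n).degree < (n : WithBot ℕ) := by
      have hm : φ.charpoly.Monic := φ.charpoly_monic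
      have hne : φ.charpoly ≠ 0 := hm.ne_zero
      have hdc : φ.charpoly.degree = (n : WithBot ℕ) := by rw [degree_eq_natDegree hne, h1]
      have h6 := degree_sub_lt_left (p := φ.charpoly) (q := (X : ℤ[X]) ^ n)
        (by rw [hdc, degree_X_pow]) hne (by rw [hm.leadingCoeff, leadingCoeff_X_pow])
      rwa [hdc] at h6
    have h5 : D = (φ.charpoly - X ^ n) - ∑ i ∈ Finset.range n, (X : ℤ[X]) ^ i := by
      rw [hD, h2]; ring
    rw [h5]
    exact lt_of_le_of_lt (degree_sub_le _ _) (max_lt h4 h3)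
  have hkill : (aeval φ D) u = 0 := by
    rw [hD, map_sub, LinearMap.aeval_self_charpoly, map_sum]
    simp only [map_pow, aeval_X]
    rw [h0]; simp
  have hcoef : ∀ i : Fin n, D.coeff i = 0 := by
    rw [aeval_eq_sum_range' (n := n)
      (by
        by_cases hD0 : D = 0
        · rw [hD0]; simpa using hn0
        · exact (natDegree_lt_iff_degree_lt hD0).mpr hdeg)] at hkill
    rw [LinearMap.sum_apply, Finset.sum_range] at hkill
    exact Fintype.linearIndependent_iff.mp hu (fun i => D.coeff i) (by simpa using hkill)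
  have hD0 : D = 0 := by
    ext i
    rw [coeff_zero]
    by_cases hi : i < n
    · exact hcoef ⟨i, hi⟩
    · refine coeff_eq_zero_of_degree_lt (lt_of_lt_of_le hdeg ?_)
      exact_mod_cast not_lt.mp hi
  rw [← sub_eq_zero, ← hD, hD0]

/-- Root multiplicities of `1 + T + ⋯ + T^n` over a field where `n + 1` is invertible. -/
lemma rootMultiplicity_geom_le_one {F : Type*} [Field F] (n : ℕ) (hn : ((n + 1 : ℕ) : F) ≠ 0)
    (μ : F) : (∑ i ∈ Finset.range (n + 1), (X : F[X]) ^ i).rootMultiplicity μ ≤ 1 := by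
  have hsep : (X ^ (n + 1) - 1 : F[X]).Separable := by
    exact Polynomial.X_pow_sub_one_separable_iff.mpr hn
  have hdvd : (∑ i ∈ Finset.range (n + 1), (X : F[X]) ^ i) ∣ X ^ (n + 1) - 1 :=
    ⟨X - 1, (geom_sum_mul _ _).symm⟩
  exact rootMultiplicity_le_one_of_separable (hsep.of_dvd hdvd) μ

/-- The eigenspaces modulo `p` have dimension at most one. -/
lemma finrank_eigenspace_le_one (φ : Λ →ₗ[ℤ] Λ) (n : ℕ) (hn0 : 0 < n) (hn : finrank ℤ Λ = n)
    (h0 : ∑ i ∈ Finset.range (n + 1), φ ^ i = 0) (u : Λ)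
    (hu : LinearIndependent ℤ (fun i : Fin n => (φ ^ (i : ℕ)) u))
    (F : Type*) [Field F] (hF : ((n + 1 : ℕ) : F) ≠ 0) (μ : F) :
    finrank F (Module.End.eigenspace (φ.baseChange F) μ) ≤ 1 := by
  refine (LinearMap.finrank_eigenspace_le _ _).trans ?_
  rw [LinearMap.charpoly_baseChange, charpoly_eq_geom φ n hn0 hn h0 u hu]
  have : (∑ i ∈ Finset.range (n + 1), (X : ℤ[X]) ^ i).map (algebraMap ℤ F) =
      ∑ i ∈ Finset.range (n + 1), (X : F[X]) ^ i := by
    simp [Polynomial.map_sum]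
  rw [this]
  exact rootMultiplicity_geom_le_one n hF μ

end charpoly

section functional

/-- If a nonzero functional `ℓ` satisfies `ℓ ∘ φ = μ ℓ`, `φ ^ N = 1` with `N` invertible and the
`μ`-eigenspace is at most one-dimensional, then `ℓ` is injective on the eigenspace. -/
lemma eq_zero_of_mem_eigenspace {F V : Type*} [Field F] [AddCommGroup V] [Module F V]
    [FiniteDimensional F V] (φ : V →ₗ[F] V) (N : ℕ) (hN : (N : F) ≠ 0) (hφ : φ ^ N = 1)
    (μ : F) (hμ : μ ^ N = 1) (hμ0 : μ ≠ 0)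
    (hdim : finrank F (Module.End.eigenspace φ μ) ≤ 1) (ℓ : V →ₗ[F] F)
    (hℓ : ∀ v, ℓ (φ v) = μ * ℓ v) (v₀ : V) (hv₀ : ℓ v₀ ≠ 0) (x : V)
    (hx : φ x = μ • x) (hx0 : ℓ x = 0) : x = 0 := by
  -- projector
  set ψ : V →ₗ[F] V := μ⁻¹ • φ with hψ
  have hψN : ψ ^ N = 1 := by
    rw [hψ, _root_.smul_pow, hφ, inv_pow, hμ, inv_one, one_smul]
  set e : V := (∑ i ∈ Finset.range N, ψ ^ i) v₀ with he
  have hψe : ψ e = e := by
    have h1 : (ψ - 1) * ∑ i ∈ Finset.range N, ψ ^ i = 0 := by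
      rw [mul_geom_sum, hψN, sub_self]
    have h2 := LinearMap.congr_fun h1 v₀
    rw [Module.End.mul_apply, LinearMap.sub_apply, Module.End.one_apply, LinearMap.zero_apply,
      sub_eq_zero] at h2
    exact h2
  have hφe : φ e = μ • e := by
    have : φ e = μ • ψ e := by
      rw [hψ, LinearMap.smul_apply, smul_smul, mul_inv_cancel₀ hμ0, one_smul]
    rw [this, hψe]
  have hℓψ : ∀ v, ℓ (ψ v) = ℓ v := by
    intro v
    rw [hψ, LinearMap.smul_apply, map_smul, hℓ, smul_eq_mul, ← mul_assoc, inv_mul_cancel₀ hμ0,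
      one_mul]
  have hℓψi : ∀ (i : ℕ) v, ℓ ((ψ ^ i) v) = ℓ v := by
    intro i
    induction i with
    | zero => intro v; simp
    | succ i ih => intro v; rw [pow_succ', Module.End.mul_apply, hℓψ, ih]
  have hℓe : ℓ e = N * ℓ v₀ := by
    rw [he, LinearMap.sum_apply, map_sum]
    simp [hℓψi]
  have hℓe0 : ℓ e ≠ 0 := by rw [hℓe]; exact mul_ne_zero hN hv₀
  have he0 : e ≠ 0 := by rintro h; rw [h, map_zero] at hℓe0; exact hℓe0 rfl
  have hemem : e ∈ Module.End.eigenspace φ μ := Module.End.mem_eigenspace_iff.mpr hφe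
  have hxmem : x ∈ Module.End.eigenspace φ μ := Module.End.mem_eigenspace_iff.mpr hx
  obtain ⟨c, hc⟩ : ∃ c : F, c • e = x := by
    obtain ⟨w, hw⟩ := finrank_le_one_iff.mp hdim
    obtain ⟨a, ha⟩ := hw ⟨e, hemem⟩
    obtain ⟨b, hb⟩ := hw ⟨x, hxmem⟩
    have ha' : a • (w : V) = e := congrArg Subtype.val ha
    have hb' : b • (w : V) = x := congrArg Subtype.val hb
    have ha0 : a ≠ 0 := by rintro rfl; rw [zero_smul] at ha'; exact he0 ha'.symm
    refine ⟨b * a⁻¹, ?_⟩
    rw [← ha', smul_smul, mul_assoc, inv_mul_cancel₀ ha0, mul_one, hb']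
  rw [← hc, map_smul, smul_eq_mul] at hx0
  rcases mul_eq_zero.mp hx0 with h | h
  · rw [← hc, h, zero_smul]
  · exact absurd h hℓe0

end functional

end Fermat.Agent.S14units
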