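import Mathlib.NumberTheory.NumberField.Cyclotomic.Galois
import Fermat.Prelude.Def_ExtCitation_AdmissibleExtension_v2
import Fermat.Agent.Minkowski.Trivial

/-!
# S14, part T1(A): the cocycle attached to an admissible extension, Kummer generator

-/

set_option autoImplicit false

namespace Fermat.Agent.S14kummer

open Fermat.Agent.Frob ExtCitation

variable {p : ℕ} [Fact p.Prime]

lemma cyclo_spec {ζ : AlgebraicClosure ℚ} (hζ : ζ ^ p = 1) (σ : GQ) :
    σ ζ = ζ ^ (cycloExp p σ) := by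
  have : NeZero p := ⟨(Fact.out : p.Prime).ne_zero⟩
  have hu : IsUnit ζ := IsUnit.of_pow_eq_one hζ (NeZero.ne p)
  have ht : hu.unit ∈ rootsOfUnity p (AlgebraicClosure ℚ) := by
    rw [mem_rootsOfUnity]
    ext
    simpa using hζ
  have := modularCyclotomicCharacter.spec (AlgebraicClosure ℚ) (card_rootsOfUnity_eq_self p)
    (σ : AlgebraicClosure ℚ ≃+* AlgebraicClosure ℚ) ht
  simpa [cycloExp] using this

/-- the mod `p` cyclotomic character as a function to `ZMod p` -/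
noncomputable def chi (p : ℕ) [Fact p.Prime] (σ : GQ) : ZMod p := (cycloExp p σ : ZMod p)

lemma exists_primitiveRoot (p : ℕ) [Fact p.Prime] :
    ∃ ζ : AlgebraicClosure ℚ, IsPrimitiveRoot ζ p := by
  have : NeZero (p : AlgebraicClosure ℚ) := ⟨by exact_mod_cast (Fact.out : p.Prime).ne_zero⟩
  exact HasEnoughRootsOfUnity.exists_primitiveRoot _ p

lemma pow_eq_pow_of_cast_eq {M : Type*} [Monoid M] {ζ : M} (hζ : ζ ^ p = 1) {a b : ℕ}
    (h : (a : ZMod p) = b) : ζ ^ a = ζ ^ b := by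
  rw [ZMod.natCast_eq_natCast_iff] at h
  rw [pow_eq_pow_mod a hζ, pow_eq_pow_mod b hζ, h]

lemma pow_eq_pow_iff {M : Type*} [CommMonoid M] {ζ : M} (hζ : IsPrimitiveRoot ζ p) {a b : ℕ} :
    ζ ^ a = ζ ^ b ↔ (a : ZMod p) = b := by
  refine ⟨fun h => ?_, pow_eq_pow_of_cast_eq hζ.pow_eq_one⟩
  rw [ZMod.natCast_eq_natCast_iff]
  have hu : IsUnit ζ := hζ.isUnit (Fact.out : p.Prime).ne_zero
  obtain ⟨u, rfl⟩ := hu
  rw [IsPrimitiveRoot.coe_units_iff] at hζ
  have h1 := hζ.eq_orderOf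
  have h2 : a ≡ b [MOD orderOf u] := by
    rw [← pow_eq_pow_iff_modEq]
    ext
    simpa using h
  rwa [← h1] at h2

lemma chi_mul (σ τ : GQ) : chi p (σ * τ) = chi p σ * chi p τ := by
  obtain ⟨ζ, hζ⟩ := exists_primitiveRoot p
  rw [chi, chi, chi, ← Nat.cast_mul, ← pow_eq_pow_iff hζ, ← cyclo_spec hζ.pow_eq_one]
  rw [AlgEquiv.mul_apply, cyclo_spec hζ.pow_eq_one τ, map_pow, cyclo_spec hζ.pow_eq_one σ,
    ← pow_mul]

lemma chi_one : chi p 1 = 1 := by
  obtain ⟨ζ, hζ⟩ := exists_primitiveRoot p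
  rw [chi, ← Nat.cast_one, ← pow_eq_pow_iff hζ, ← cyclo_spec hζ.pow_eq_one]
  simp

lemma chi_ne_zero (σ : GQ) : chi p σ ≠ 0 := by
  intro h
  have h1 : chi p (σ * σ⁻¹) = 1 := by rw [mul_inv_cancel, chi_one]
  rw [chi_mul, h, zero_mul] at h1
  exact zero_ne_one h1

lemma apply_eq_iff {ζ : AlgebraicClosure ℚ} (hζ : IsPrimitiveRoot ζ p) (σ : GQ) :
    σ ζ = ζ ↔ chi p σ = 1 := by
  rw [cyclo_spec hζ.pow_eq_one, chi]
  nth_rewrite 2 [← pow_one ζ]
  rw [pow_eq_pow_iff hζ, Nat.cast_one]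

section cocycle

variable {V : Type} [AddCommGroup V] [Module (ZMod p) V]
  [DistribMulAction GQ V] [SMulCommClass GQ (ZMod p) V] {C : Submodule (ZMod p) V}

/-- The data extracted from an admissible extension. -/
structure Datum (p : ℕ) [Fact p.Prime] (V : Type) [AddCommGroup V] [Module (ZMod p) V]
    [DistribMulAction GQ V] [SMulCommClass GQ (ZMod p) V] (C : Submodule (ZMod p) V) where
  v₀ : V
  c₀ : V
  c : GQ → ZMod p
  hc₀ : c₀ ∈ C
  hc₀0 : c₀ ≠ 0
  hv₀ : v₀ ∉ C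
  spanC : ∀ x ∈ C, ∃ a : ZMod p, x = a • c₀
  spanV : ∀ x : V, ∃ a b : ZMod p, x = a • v₀ + b • c₀
  smul_c₀ : ∀ σ : GQ, σ • c₀ = c₀
  smul_v₀ : ∀ σ : GQ, σ • v₀ = chi p σ • v₀ + c σ • c₀

theorem exists_datum (h : IsAdmissibleExtension p V C) : Nonempty (Datum p V C) := by
  have hp : p.Prime := Fact.out
  have hfinV : Finite V := Nat.finite_of_card_ne_zero (by rw [h.card_total]; exact pow_ne_zero _ hp.ne_zero)
  have hfinC : Finite C := Nat.finite_of_card_ne_zero (by rw [h.card_sub]; exact hp.ne_zero)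
  have hmf : Module.Finite (ZMod p) V := Module.Finite.of_finite
  have h1 : Module.finrank (ZMod p) C = 1 := by
    have h2 := Module.natCard_eq_pow_finrank (K := ZMod p) (V := C)
    rw [h.card_sub, Nat.card_zmod] at h2
    have h3 : p ^ 1 = p ^ Module.finrank (ZMod p) C := by rw [pow_one]; exact h2
    exact (Nat.pow_right_injective hp.two_le h3).symm
  have h2 : Module.finrank (ZMod p) V = 2 := by
    have h2 := Module.natCard_eq_pow_finrank (K := ZMod p) (V := V)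
    rw [h.card_total, Nat.card_zmod] at h2
    exact (Nat.pow_right_injective hp.two_le h2).symm
  have h3 : Module.finrank (ZMod p) (V ⧸ C) = 1 := by
    have := Submodule.finrank_quotient_add_finrank C
    omega
  obtain ⟨⟨c₀, hc₀⟩, hc₀0, hspan⟩ := finrank_eq_one_iff'.mp h1
  obtain ⟨q, hq0, hq⟩ := finrank_eq_one_iff'.mp h3
  obtain ⟨v₀, rfl⟩ := Submodule.mkQ_surjective C q
  have hspanC : ∀ x ∈ C, ∃ a : ZMod p, x = a • c₀ := by
    intro x hx
    obtain ⟨a, ha⟩ := hspan ⟨x, hx⟩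
    exact ⟨a, (congrArg Subtype.val ha).symm⟩
  have hmem : ∀ σ : GQ, ∃ a : ZMod p, σ • v₀ - (cycloExp p σ : ZMod p) • v₀ = a • c₀ :=
    fun σ => hspanC _ (h.cyclo_quot σ v₀)
  choose c hc using hmem
  refine ⟨⟨v₀, c₀, c, hc₀, ?_, ?_, hspanC, ?_, ?_, ?_⟩⟩
  · intro h0
    exact hc₀0 (Subtype.ext h0)
  · intro h0
    exact hq0 (by rw [Submodule.mkQ_apply, Submodule.Quotient.mk_eq_zero]; exact h0)
  · intro x
    obtain ⟨a, ha⟩ := hq (C.mkQ x)
    have : x - a • v₀ ∈ C := by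
      rw [← Submodule.Quotient.mk_eq_zero, Submodule.Quotient.mk_sub, Submodule.Quotient.mk_smul,
        sub_eq_zero]
      exact ha.symm
    obtain ⟨b, hb⟩ := hspanC _ this
    exact ⟨a, b, by rw [← hb]; abel⟩
  · intro σ
    exact h.fixed_sub σ _ hc₀
  · intro σ
    rw [chi, ← hc σ]
    abel

variable (D : Datum p V C)

namespace Datum

include D

lemma eq_zero_of_smul_c₀ {a : ZMod p} (h : a • D.c₀ = 0) : a = 0 := by
  rcases smul_eq_zero.mp h with h | h
  · exact h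
  · exact absurd h D.hc₀0

lemma eq_of_eq {a b a' b' : ZMod p} (h : a • D.v₀ + b • D.c₀ = a' • D.v₀ + b' • D.c₀) :
    a = a' ∧ b = b' := by
  have h1 : (a - a') • D.v₀ = (b' - b) • D.c₀ := by
    rw [sub_smul, sub_smul, sub_eq_sub_iff_add_eq_add, h]
    abel
  have h2 : a - a' = 0 := by
    by_contra hne
    apply D.hv₀
    have h3 : D.v₀ = ((a - a')⁻¹ * (b' - b)) • D.c₀ := by
      rw [mul_smul, ← h1, smul_smul, inv_mul_cancel₀ hne, one_smul]
    rw [h3]
    exact C.smul_mem _ D.hc₀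
  rw [h2, zero_smul] at h1
  exact ⟨sub_eq_zero.mp h2, (sub_eq_zero.mp (D.eq_zero_of_smul_c₀ h1.symm)).symm⟩

lemma c_mul (σ τ : GQ) : D.c (σ * τ) = chi p τ * D.c σ + D.c τ := by
  have h1 := D.smul_v₀ (σ * τ)
  rw [mul_smul, D.smul_v₀ τ, smul_add, smul_comm σ, smul_comm σ, D.smul_v₀ σ, D.smul_c₀,
    smul_add, smul_smul, smul_smul, add_assoc, ← add_smul] at h1
  exact (D.eq_of_eq h1).2.symm

lemma c_one : D.c 1 = 0 := by
  have := D.c_mul 1 1
  rw [mul_one, chi_one, one_mul] at this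
  exact left_eq_add.mp this

lemma forall_smul_iff (σ : GQ) : (∀ v : V, σ • v = v) ↔ chi p σ = 1 ∧ D.c σ = 0 := by
  constructor
  · intro h
    have h1 := D.smul_v₀ σ
    rw [h D.v₀] at h1
    have h2 : (1 : ZMod p) • D.v₀ + (0 : ZMod p) • D.c₀ = chi p σ • D.v₀ + D.c σ • D.c₀ := by
      rw [one_smul, zero_smul, add_zero]
      exact h1
    obtain ⟨h3, h4⟩ := D.eq_of_eq h2
    exact ⟨h3.symm, h4.symm⟩
  · rintro ⟨h1, h2⟩ v
    obtain ⟨a, b, rfl⟩ := D.spanV v
    rw [smul_add, smul_comm σ, smul_comm σ, D.smul_v₀, D.smul_c₀, h1, h2, one_smul, zero_smul,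
      add_zero]

/-- if the cocycle vanishes on the kernel of the cyclotomic character then `V` splits. -/
theorem splits (h3 : 3 ≤ p) (h : ∀ σ : GQ, chi p σ = 1 → D.c σ = 0) : SplitsGlobally C := by
  -- a generator of the cyclotomic quotient
  have hp : p.Prime := Fact.out
  obtain ⟨ζ, hζ⟩ := exists_primitiveRoot p
  -- there is `δ` with `chi δ = 2`
  have hδ : ∃ δ : GQ, chi p δ ≠ 1 := by
    by_contra hall
    push Not at hall
    have h1 : ζ ∈ (⊥ : IntermediateField ℚ (AlgebraicClosure ℚ)) := by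
      rw [InfiniteGalois.mem_bot_iff_fixed]
      intro σ
      exact (apply_eq_iff hζ σ).mpr (hall σ)
    obtain ⟨q, hq⟩ := IntermediateField.mem_bot.mp h1
    have h2 : IsPrimitiveRoot q p := by
      rw [← hq] at hζ
      exact (IsPrimitiveRoot.map_iff_of_injective
        (FaithfulSMul.algebraMap_injective ℚ (AlgebraicClosure ℚ))).mp hζ
    have h3' : q ^ p = 1 := h2.pow_eq_one
    have hodd : Odd p := hp.odd_of_ne_two (by omega)
    have h4 : q = 1 := (Odd.strictMono_pow hodd).injective (by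
      change q ^ p = 1 ^ p
      rw [h3', one_pow])
    rw [h4] at h2
    have h5 := h2.eq_orderOf
    rw [orderOf_one] at h5
    omega
  obtain ⟨δ, hδ⟩ := hδ
  -- commutation: `c` satisfies `c(στ)=c(τσ)` as `στ` and `τσ` differ by an element of the kernel
  have hcomm : ∀ σ τ : GQ, D.c (σ * τ) = D.c (τ * σ) := by
    intro σ τ
    have h1 : D.c ((σ * τ) * (τ * σ)⁻¹) = 0 := by
      apply h
      have : chi p ((σ * τ) * (τ * σ)⁻¹ * (τ * σ)) = chi p ((σ * τ) * (τ * σ)⁻¹) * chi p (τ * σ) :=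
        chi_mul _ _
      rw [inv_mul_cancel_right, chi_mul, chi_mul τ σ] at this
      have h5 : chi p τ * chi p σ ≠ 0 := mul_ne_zero (chi_ne_zero _) (chi_ne_zero _)
      rw [mul_comm (chi p σ) (chi p τ)] at this
      exact (mul_left_eq_self₀.mp this.symm).resolve_right h5
    have h2 := D.c_mul ((σ * τ) * (τ * σ)⁻¹) (τ * σ)
    rw [inv_mul_cancel_right, h1, mul_zero, zero_add] at h2
    exact h2
  set t : ZMod p := D.c δ / (chi p δ - 1) with ht
  have ht' : D.c δ = t * (chi p δ - 1) := by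
    rw [ht, div_mul_cancel₀ _ (sub_ne_zero.mpr hδ)]
  have hct : ∀ σ : GQ, D.c σ = t * (chi p σ - 1) := by
    intro σ
    have h1 := hcomm σ δ
    rw [D.c_mul, D.c_mul] at h1
    have h2 : (chi p δ - 1) * D.c σ = (chi p δ - 1) * (t * (chi p σ - 1)) := by
      rw [ht'] at h1
      linear_combination h1
    exact mul_left_cancel₀ (sub_ne_zero.mpr hδ) h2
  -- eigenvector `v₁ = v₀ + t c₀`
  let v₁ : V := D.v₀ + t • D.c₀
  have hv₁ : ∀ σ : GQ, σ • v₁ = chi p σ • v₁ := by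
    intro σ
    change σ • (D.v₀ + t • D.c₀) = chi p σ • (D.v₀ + t • D.c₀)
    rw [smul_add, smul_comm σ, D.smul_v₀, D.smul_c₀, hct, smul_add, smul_smul, add_assoc,
      ← add_smul]
    congr 2
    ring
  refine ⟨Submodule.span (ZMod p) {v₁}, ?_, ?_⟩
  · intro σ x hx
    obtain ⟨a, rfl⟩ := Submodule.mem_span_singleton.mp hx
    rw [smul_comm σ, hv₁, smul_smul]
    exact Submodule.smul_mem _ _ (Submodule.mem_span_singleton_self _)
  · rw [isCompl_iff]
    constructor
    · rw [Submodule.disjoint_def]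
      intro x hx hx2
      obtain ⟨a, rfl⟩ := Submodule.mem_span_singleton.mp hx2
      obtain ⟨b, hb⟩ := D.spanC _ hx
      have h1 : a • D.v₀ + (a * t) • D.c₀ = (0 : ZMod p) • D.v₀ + b • D.c₀ := by
        rw [zero_smul, zero_add, ← hb, smul_add, smul_smul]
      have h2 := (D.eq_of_eq h1).1
      rw [h2, zero_smul]
    · rw [codisjoint_iff, eq_top_iff]
      intro x _
      obtain ⟨a, b, rfl⟩ := D.spanV x
      have : a • D.v₀ + b • D.c₀ = (b - a * t) • D.c₀ + a • v₁ := by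
        change _ = (b - a * t) • D.c₀ + a • (D.v₀ + t • D.c₀)
        rw [smul_add, sub_smul, smul_smul]
        abel
      rw [this]
      exact Submodule.add_mem_sup (C.smul_mem _ D.hc₀)
        (Submodule.smul_mem _ _ (Submodule.mem_span_singleton_self _))

end Datum

end cocycle

end Fermat.Agent.S14kummer
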