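import Fermat.Agent.S14_KummerA

/-!
# S14, part T1(B): kernel of the action, splitting field, Kummer generator

-/

set_option autoImplicit false

namespace Fermat.Agent.S14kummer

open Fermat.Agent.Frob ExtCitation

variable {p : ℕ} [Fact p.Prime]

/-- kernel of the action on `V` -/
def kerV (V : Type) [AddCommGroup V] [DistribMulAction GQ V] : Subgroup GQ where
  carrier := {σ | ∀ v : V, σ • v = v}
  one_mem' := fun v => one_smul _ v
  mul_mem' := fun {a b} ha hb v => by rw [mul_smul, hb v, ha v]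
  inv_mem' := fun {a} ha v => by
    rw [inv_smul_eq_iff]
    exact (ha v).symm

lemma mem_kerV {V : Type} [AddCommGroup V] [DistribMulAction GQ V] {σ : GQ} :
    σ ∈ kerV V ↔ ∀ v : V, σ • v = v := Iff.rfl

instance {V : Type} [AddCommGroup V] [DistribMulAction GQ V] : (kerV V).Normal := by
  constructor
  intro n hn g v
  rw [mul_smul, mul_smul, hn, smul_inv_smul]

/-- the splitting field of `V` -/
noncomputable abbrev splitField (V : Type) [AddCommGroup V] [DistribMulAction GQ V] :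
    IntermediateField ℚ (AlgebraicClosure ℚ) := IntermediateField.fixedField (kerV V)

section
variable {V : Type} [AddCommGroup V] [DistribMulAction GQ V]
  (hopen : IsOpen {σ : AlgebraicClosure ℚ ≃ₐ[ℚ] AlgebraicClosure ℚ | ∀ v : V, σ • v = v})

include hopen

lemma fixingSubgroup_splitField : (splitField V).fixingSubgroup = kerV V :=
  InfiniteGalois.fixingSubgroup_fixedField ⟨kerV V, (kerV V).isClosed_of_isOpen hopen⟩

lemma mem_kerV_iff {σ : GQ} : σ ∈ kerV V ↔ ∀ x ∈ splitField V, σ x = x := by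
  rw [← fixingSubgroup_splitField hopen]
  exact IntermediateField.mem_fixingSubgroup_iff (splitField V) σ

lemma finiteDimensional_splitField : FiniteDimensional ℚ (splitField V) := by
  rw [← InfiniteGalois.isOpen_iff_finite, fixingSubgroup_splitField hopen]
  exact hopen

lemma isGalois_splitField : IsGalois ℚ (splitField V) := by
  have h1 := (InfiniteGalois.normal_iff_isGalois (splitField V)).mp
    (by rw [fixingSubgroup_splitField hopen]; infer_instance)
  convert h1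
  exact Subsingleton.elim _ _

end

namespace Datum

variable {V : Type} [AddCommGroup V] [Module (ZMod p) V]
  [DistribMulAction GQ V] [SMulCommClass GQ (ZMod p) V] {C : Submodule (ZMod p) V}
  (D : Datum p V C)

include D

lemma mem_kerV_iff (σ : GQ) : σ ∈ kerV V ↔ chi p σ = 1 ∧ D.c σ = 0 := D.forall_smul_iff σ

omit [AddCommGroup V] [Module (ZMod p) V] [DistribMulAction GQ V]
  [SMulCommClass GQ (ZMod p) V] D in
lemma chi_pow (σ : GQ) (n : ℕ) : chi p (σ ^ n) = chi p σ ^ n := by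
  induction n with
  | zero => rw [pow_zero, pow_zero, chi_one]
  | succ n ih => rw [pow_succ, chi_mul, ih, pow_succ]

lemma c_pow {σ : GQ} (hσ : chi p σ = 1) (n : ℕ) : D.c (σ ^ n) = n * D.c σ := by
  induction n with
  | zero => rw [pow_zero, D.c_one, Nat.cast_zero, zero_mul]
  | succ n ih => rw [pow_succ, D.c_mul, ih, hσ]; push_cast; ring

/-- a Galois element with trivial cyclotomic character and `c = 1` -/
lemma exists_c_eq_one (h : ¬ ∀ σ : GQ, chi p σ = 1 → D.c σ = 0) :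
    ∃ g : GQ, chi p g = 1 ∧ D.c g = 1 := by
  push Not at h
  obtain ⟨σ, hσ, hc⟩ := h
  refine ⟨σ ^ ((D.c σ)⁻¹).val, ?_, ?_⟩
  · rw [chi_pow, hσ, one_pow]
  · rw [D.c_pow hσ, ZMod.natCast_val, ZMod.cast_id', id, inv_mul_cancel₀ hc]

/-- Kummer generator -/
theorem exists_kummer (hopen : IsOpen {σ : AlgebraicClosure ℚ ≃ₐ[ℚ] AlgebraicClosure ℚ |
    ∀ v : V, σ • v = v}) {g : GQ} (hg : chi p g = 1) (hcg : D.c g = 1)
    {ζ : AlgebraicClosure ℚ} (hζ : IsPrimitiveRoot ζ p) :
    ∃ θ : AlgebraicClosure ℚ, θ ≠ 0 ∧ IsIntegral ℤ θ ∧ θ ∈ splitField V ∧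
      ∀ σ : GQ, chi p σ = 1 → σ θ = ζ ^ (D.c σ).val * θ := by
  have hp : p.Prime := Fact.out
  have hζ0 : ζ ≠ 0 := hζ.ne_zero hp.ne_zero
  have hgζ : g ζ = ζ := (apply_eq_iff hζ g).mpr hg
  have hcgn : ∀ n : ℕ, D.c (g ^ n) = n := fun n => by rw [D.c_pow hg, hcg, mul_one]
  have hchin : ∀ n : ℕ, chi p (g ^ n) = 1 := fun n => by rw [chi_pow, hg, one_pow]
  -- the embeddings `g^i` of the splitting field
  let f : Fin p → (splitField V →* AlgebraicClosure ℚ) := fun i =>
    ((g ^ (i : ℕ) : GQ) : AlgebraicClosure ℚ →* AlgebraicClosure ℚ).comp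
      ((splitField V).val : splitField V →* AlgebraicClosure ℚ)
  have hf : ∀ i (y : splitField V), f i y = (g ^ (i : ℕ)) (y : AlgebraicClosure ℚ) :=
    fun i y => rfl
  have hfinj : Function.Injective f := by
    intro i j hij
    have h1 : (g ^ (j : ℕ))⁻¹ * g ^ (i : ℕ) ∈ kerV V := by
      rw [S14kummer.mem_kerV_iff hopen]
      intro x hx
      have h2 := DFunLike.congr_fun hij ⟨x, hx⟩
      rw [hf, hf] at h2
      change (g ^ (j : ℕ))⁻¹ ((g ^ (i : ℕ)) x) = x
      change (g ^ (i : ℕ)) x = (g ^ (j : ℕ)) x at h2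
      rw [h2]
      exact (g ^ (j : ℕ)).symm_apply_apply x
    obtain ⟨h2, h3⟩ := (D.mem_kerV_iff _).mp h1
    have h4 := D.c_mul (g ^ (j : ℕ)) ((g ^ (j : ℕ))⁻¹ * g ^ (i : ℕ))
    rw [mul_inv_cancel_left, h2, h3, hcgn, hcgn, one_mul, add_zero] at h4
    have h5 := (ZMod.natCast_eq_natCast_iff _ _ _).mp h4
    have h6 : (i : ℕ) % p = (j : ℕ) % p := h5
    rw [Nat.mod_eq_of_lt i.2, Nat.mod_eq_of_lt j.2] at h6
    exact Fin.ext h6
  have hlin := (linearIndependent_monoidHom (splitField V) (AlgebraicClosure ℚ)).comp f hfinj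
  have hex : ∃ y : splitField V, ∑ i : Fin p, (ζ⁻¹) ^ (i : ℕ) * f i y ≠ 0 := by
    by_contra hall
    push Not at hall
    rw [Fintype.linearIndependent_iff] at hlin
    have h1 := hlin (fun i => (ζ⁻¹) ^ (i : ℕ)) (by
      ext y
      simpa using hall y) ⟨0, hp.pos⟩
    simp at h1
  obtain ⟨y, hy⟩ := hex
  set θ : AlgebraicClosure ℚ := ∑ i ∈ Finset.range p,
    (ζ⁻¹) ^ i * (g ^ i) (y : AlgebraicClosure ℚ) with hθ
  have hθ0 : θ ≠ 0 := by
    rw [hθ, Finset.sum_range]
    exact hy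
  have hgp : (g ^ p) (y : AlgebraicClosure ℚ) = y := by
    have h1 : g ^ p ∈ kerV V := by
      rw [D.mem_kerV_iff]
      exact ⟨hchin p, by rw [hcgn]; exact CharP.cast_eq_zero _ _⟩
    exact (S14kummer.mem_kerV_iff hopen).mp h1 _ y.2
  have hgθ : g θ = ζ * θ := by
    have h1 : g θ = ζ * ∑ i ∈ Finset.range p,
        (ζ⁻¹) ^ (i + 1) * (g ^ (i + 1)) (y : AlgebraicClosure ℚ) := by
      rw [hθ, map_sum, Finset.mul_sum]
      refine Finset.sum_congr rfl fun i _ => ?_
      rw [map_mul, map_pow, map_inv₀, hgζ, pow_succ' g i, pow_succ' (ζ⁻¹) i, AlgEquiv.mul_apply,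
        ← mul_assoc, ← mul_assoc, mul_inv_cancel₀ hζ0, one_mul]
    have h2 := Finset.sum_range_succ (fun i =>
      (ζ⁻¹) ^ i * (g ^ i) (y : AlgebraicClosure ℚ)) p
    have h3 := Finset.sum_range_succ' (fun i =>
      (ζ⁻¹) ^ i * (g ^ i) (y : AlgebraicClosure ℚ)) p
    rw [h2] at h3
    have h4 : (ζ⁻¹) ^ p * (g ^ p) (y : AlgebraicClosure ℚ) =
        (ζ⁻¹) ^ 0 * (g ^ 0) (y : AlgebraicClosure ℚ) := by
      rw [hgp, inv_pow, hζ.pow_eq_one]
      simp
    rw [h4] at h3
    have h5 := add_right_cancel h3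
    rw [h1, ← h5]
  have hθL : θ ∈ splitField V := by
    rw [IntermediateField.mem_fixedField_iff]
    intro h hh
    have hh1 := ((D.mem_kerV_iff h).mp hh).1
    have hhζ : h ζ = ζ := (apply_eq_iff hζ h).mpr hh1
    rw [hθ, map_sum]
    refine Finset.sum_congr rfl fun i _ => ?_
    rw [map_mul, map_pow, map_inv₀, hhζ]
    congr 1
    have h2 : (g ^ i)⁻¹ * h * (g ^ i) ∈ kerV V := by
      have := (inferInstance : (kerV V).Normal).conj_mem h hh (g ^ i)⁻¹
      rwa [inv_inv] at this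
    have h3 := (S14kummer.mem_kerV_iff hopen).mp h2 _ y.2
    calc h ((g ^ i) (y : AlgebraicClosure ℚ)) =
        (g ^ i * ((g ^ i)⁻¹ * h * (g ^ i))) (y : AlgebraicClosure ℚ) := by
          rw [← mul_assoc, ← mul_assoc, mul_inv_cancel, one_mul]
          rfl
      _ = (g ^ i) (y : AlgebraicClosure ℚ) := by
          rw [AlgEquiv.mul_apply, h3]
  have hgnθ : ∀ n : ℕ, (g ^ n) θ = ζ ^ n * θ := by
    intro n
    induction n with
    | zero => simp
    | succ n ih =>
      rw [pow_succ, AlgEquiv.mul_apply, hgθ, map_mul, ih, pow_succ]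
      have : (g ^ n) ζ = ζ := (apply_eq_iff hζ _).mpr (hchin n)
      rw [this]
      ring
  have hσθ : ∀ σ : GQ, chi p σ = 1 → σ θ = ζ ^ (D.c σ).val * θ := by
    intro σ hσ
    set n := (D.c σ).val with hn
    have hker : (g ^ n)⁻¹ * σ ∈ kerV V := by
      have h1 := chi_mul (p := p) (g ^ n) ((g ^ n)⁻¹ * σ)
      rw [mul_inv_cancel_left, hσ, hchin, one_mul] at h1
      have h2 := D.c_mul (g ^ n) ((g ^ n)⁻¹ * σ)
      rw [mul_inv_cancel_left, ← h1, hcgn, one_mul, hn, ZMod.natCast_val, ZMod.cast_id', id] at h2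
      rw [D.mem_kerV_iff]
      exact ⟨h1.symm, left_eq_add.mp h2⟩
    have h3 := (S14kummer.mem_kerV_iff hopen).mp hker _ hθL
    calc σ θ = (g ^ n * ((g ^ n)⁻¹ * σ)) θ := by rw [mul_inv_cancel_left]
      _ = ζ ^ n * θ := by rw [AlgEquiv.mul_apply, h3, hgnθ]
  -- make it integral
  obtain ⟨m, hm0, hm⟩ := ((IsFractionRing.isAlgebraic_iff ℤ ℚ (AlgebraicClosure ℚ)).mpr
    (Algebra.IsAlgebraic.isAlgebraic (R := ℚ) θ)).exists_integral_multiple
  refine ⟨m • θ, ?_, hm, ?_, ?_⟩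
  · exact smul_ne_zero hm0 hθ0
  · exact zsmul_mem hθL m
  · intro σ hσ
    rw [map_zsmul, hσθ σ hσ, mul_smul_comm]

end Datum

end Fermat.Agent.S14kummer
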