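import Fermat.Agent.S14_KummerC

/-!
# S14, part T1(D): the Kummer element of an admissible extension

-/

set_option autoImplicit false

namespace Fermat.Agent.S14kummer

open Fermat.Agent.Frob Fermat.Agent.Minkowski ExtCitation NumberField IsDedekindDomain

section general

variable {R : Type*} [CommRing R] [IsDedekindDomain R]

/-- the exponent of `v` in the principal ideal `(x)`. -/
noncomputable abbrev ordI (v : HeightOneSpectrum R) (x : R) : ℕ :=
  (Associates.mk v.asIdeal).count (Associates.mk (Ideal.span {x})).factors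

lemma intValuation_eq (v : HeightOneSpectrum R) {x : R} (hx : x ≠ 0) :
    v.intValuation x = WithZero.exp (-(ordI v x : ℤ)) :=
  v.intValuation_if_neg hx

lemma ordI_eq_iff (v : HeightOneSpectrum R) {x : R} (hx : x ≠ 0) {n : ℕ} :
    ordI v x = n ↔ v.intValuation x = WithZero.exp (-(n : ℤ)) := by
  rw [intValuation_eq v hx, WithZero.exp_inj, neg_inj, Nat.cast_inj]

lemma ordI_mul (v : HeightOneSpectrum R) {x y : R} (hx : x ≠ 0) (hy : y ≠ 0) :
    ordI v (x * y) = ordI v x + ordI v y := by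
  rw [ordI_eq_iff v (mul_ne_zero hx hy), map_mul, intValuation_eq v hx, intValuation_eq v hy,
    ← WithZero.exp_add]
  congr 1
  push_cast
  ring

lemma ordI_pow (v : HeightOneSpectrum R) {x : R} (hx : x ≠ 0) (n : ℕ) :
    ordI v (x ^ n) = n * ordI v x := by
  rw [ordI_eq_iff v (pow_ne_zero n hx), map_pow, intValuation_eq v hx, ← WithZero.exp_nsmul]
  congr 1
  push_cast
  simp

lemma ordI_eq_zero_iff (v : HeightOneSpectrum R) {x : R} (hx : x ≠ 0) :
    ordI v x = 0 ↔ x ∉ v.asIdeal := by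
  rw [← v.intValuation_eq_one_iff, intValuation_eq v hx, ← WithZero.exp_zero, WithZero.exp_inj]
  simp

lemma le_ordI_iff (v : HeightOneSpectrum R) {x : R} (hx : x ≠ 0) (n : ℕ) :
    n ≤ ordI v x ↔ x ∈ v.asIdeal ^ n := by
  rw [← v.intValuation_le_pow_iff_mem, intValuation_eq v hx, WithZero.exp_le_exp]
  simp

/-- if all exponents of `(x)` are divisible by `p` then `(x)` is a `p`-th power. -/
lemma exists_eq_pow {p : ℕ} {x : R} (hx : x ≠ 0) (h : ∀ v : HeightOneSpectrum R, p ∣ ordI v x) :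
    ∃ I : Ideal R, Ideal.span {x} = I ^ p := by
  classical
  by_cases hp : p = 0
  · subst hp
    refine ⟨⊤, ?_⟩
    rw [pow_zero, Ideal.one_eq_top]
    rw [Ideal.span_singleton_eq_top]
    by_contra hu
    obtain ⟨M, hM, hxM⟩ := Ideal.exists_le_maximal (Ideal.span {x}) (by
      rwa [Ne, Ideal.span_singleton_eq_top])
    have hxM' : x ∈ M := hxM (Ideal.mem_span_singleton_self x)
    have hM0 : M ≠ ⊥ := by
      rintro rfl
      exact hx hxM'
    let v : HeightOneSpectrum R := ⟨M, hM.isPrime, hM0⟩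
    have h1 := h v
    rw [zero_dvd_iff, ordI_eq_zero_iff v hx] at h1
    exact h1 hxM'
  have hI : Ideal.span {x} ≠ 0 := by
    rw [Ne, Ideal.zero_eq_bot, Ideal.span_singleton_eq_bot]
    exact hx
  refine ⟨∏ᶠ v : HeightOneSpectrum R, v.asIdeal ^ (ordI v x / p), ?_⟩
  have hfin : (Function.mulSupport fun v : HeightOneSpectrum R =>
      v.asIdeal ^ (ordI v x / p)).Finite := by
    refine (Ideal.hasFiniteMulSupport hI).subset ?_
    intro v hv hv2
    apply hv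
    have h1 : ordI v x = 0 := by
      by_contra hne
      have h3 : v.asIdeal ^ ordI v x = 1 := hv2
      have h4 : v.asIdeal ∣ 1 := by
        rw [← h3]
        exact dvd_pow_self _ hne
      exact v.irreducible.not_isUnit (isUnit_of_dvd_one h4)
    change v.asIdeal ^ (ordI v x / p) = 1
    rw [h1, Nat.zero_div, pow_zero]
  rw [finprod_pow hfin]
  conv_lhs => rw [← Ideal.finprod_heightOneSpectrum_factorization hI]
  refine finprod_congr fun v => ?_
  rw [← pow_mul, Nat.div_mul_cancel (h v)]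
  rfl

end general

section relative

variable {A B : Type*} [CommRing A] [IsDedekindDomain A] [CommRing B] [IsDedekindDomain B]
  [Algebra A B] [Module.IsTorsionFree A B]

lemma ordI_algebraMap (v : HeightOneSpectrum A) (w : HeightOneSpectrum B)
    [w.asIdeal.LiesOver v.asIdeal] (he : v.asIdeal.ramificationIdx' w.asIdeal = 1) {x : A}
    (hx : x ≠ 0) (hx' : algebraMap A B x ≠ 0) : ordI w (algebraMap A B x) = ordI v x := by
  rw [ordI_eq_iff w hx', ← intValuation_eq v hx, ← v.intValuation_liesOver w, he, pow_one]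

end relative

section normalize

variable {p : ℕ} [hpF : Fact p.Prime] {K L : Type*} [Field K] [NumberField K] [Field L]
  [NumberField L] [Algebra K L] [IsCyclotomicExtension {p} ℚ K]

/-- Normalisation of a Kummer generator. -/
theorem exists_normalized {ζ : K} (hζ : IsPrimitiveRoot ζ p)
    (he : ∀ (v : HeightOneSpectrum (𝓞 K)) (w : HeightOneSpectrum (𝓞 L))
      [w.asIdeal.LiesOver v.asIdeal], v.asIdeal.ramificationIdx' w.asIdeal = 1)
    (hres : ∀ (w : HeightOneSpectrum (𝓞 L)), (p : 𝓞 L) ∈ w.asIdeal → ∀ x : 𝓞 L,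
      ∃ n : ℤ, x - n ∈ w.asIdeal)
    {θ : 𝓞 L} {α : 𝓞 K} (hα : α ≠ 0) (hθ : algebraMap (𝓞 K) (𝓞 L) α = θ ^ p) :
    ∃ (k : ℕ) (α₂ : 𝓞 K) (θ₂ : 𝓞 L),
      θ = (algebraMap (𝓞 K) (𝓞 L) (hζ.toInteger - 1)) ^ k * θ₂ ∧
      algebraMap (𝓞 K) (𝓞 L) α₂ = θ₂ ^ p ∧ α₂ ≠ 0 ∧ (∃ I : Ideal (𝓞 K), Ideal.span {α₂} = I ^ p) ∧
      (∃ n : ℤ, (p : 𝓞 K) ∣ α₂ - n) ∧ α₂ ∉ Ideal.span {hζ.toInteger - 1} := by
  have hp : p.Prime := hpF.out
  have hinj : Function.Injective (algebraMap (𝓞 K) (𝓞 L)) := FaithfulSMul.algebraMap_injective _ _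
  have hpr : Prime (hζ.toInteger - 1) := hζ.zeta_sub_one_prime'
  have hπ0 : hζ.toInteger - 1 ≠ 0 := hpr.ne_zero
  -- the prime above `p`
  have hPp : (Ideal.span {hζ.toInteger - 1}).IsPrime := (Ideal.span_singleton_prime hπ0).mpr hpr
  let v₀ : HeightOneSpectrum (𝓞 K) := ⟨Ideal.span {hζ.toInteger - 1}, hPp, by
    rw [Ne, Ideal.span_singleton_eq_bot]; exact hπ0⟩
  -- existence of a prime above any prime
  have hexw : ∀ v : HeightOneSpectrum (𝓞 K), ∃ w : HeightOneSpectrum (𝓞 L),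
      w.asIdeal.LiesOver v.asIdeal := by
    intro v
    obtain ⟨⟨Q, hQ1, hQ2⟩⟩ := (inferInstance : Nonempty (Ideal.primesOver v.asIdeal (𝓞 L)))
    refine ⟨⟨Q, hQ1, ?_⟩, hQ2⟩
    exact Ideal.ne_bot_of_liesOver_of_ne_bot v.ne_bot Q
  -- divisibility of exponents
  have hdvd : ∀ (x : 𝓞 K) (y : 𝓞 L), x ≠ 0 → algebraMap (𝓞 K) (𝓞 L) x = y ^ p →
      ∀ v : HeightOneSpectrum (𝓞 K), p ∣ ordI v x := by
    intro x y hx hxy v
    obtain ⟨w, hw⟩ := hexw v
    have hx' : algebraMap (𝓞 K) (𝓞 L) x ≠ 0 := by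
      rwa [Ne, map_eq_zero_iff _ hinj]
    have hy0 : y ≠ 0 := by
      rintro rfl
      rw [zero_pow hp.ne_zero] at hxy
      exact hx' hxy
    rw [← ordI_algebraMap v w (he v w) hx hx', hxy, ordI_pow w hy0]
    exact dvd_mul_right _ _
  -- pull out the powers of `ζ - 1`
  have hfm : FiniteMultiplicity (hζ.toInteger - 1) α :=
    FiniteMultiplicity.of_prime_left hpr hα
  obtain ⟨α₂, hα₂, hndvd⟩ := hfm.exists_eq_pow_mul_and_not_dvd
  set m := multiplicity (hζ.toInteger - 1) α with hm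
  have hα₂0 : α₂ ≠ 0 := by
    rintro rfl
    exact hndvd (dvd_zero _)
  have hmem : ∀ x : 𝓞 K, x ∈ v₀.asIdeal ↔ (hζ.toInteger - 1) ∣ x := fun x =>
    Ideal.mem_span_singleton
  have hordπ : ordI v₀ (hζ.toInteger - 1) = 1 := by
    have h1 : 1 ≤ ordI v₀ (hζ.toInteger - 1) := by
      rw [le_ordI_iff v₀ hπ0, pow_one, hmem]
    have h2 : ¬ 2 ≤ ordI v₀ (hζ.toInteger - 1) := by
      rw [le_ordI_iff v₀ hπ0]
      intro h3
      have h4 : (hζ.toInteger - 1) ^ 2 ∣ (hζ.toInteger - 1) := by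
        change (hζ.toInteger - 1) ∈ (Ideal.span {hζ.toInteger - 1}) ^ 2 at h3
        rwa [Ideal.span_singleton_pow, Ideal.mem_span_singleton] at h3
      obtain ⟨c, hc⟩ := h4
      apply hpr.not_isUnit
      have h5 : (hζ.toInteger - 1) * ((hζ.toInteger - 1) * c) = (hζ.toInteger - 1) * 1 := by
        rw [mul_one]
        conv_rhs => rw [hc]
        ring
      exact IsUnit.of_mul_eq_one _ (mul_left_cancel₀ hπ0 h5)
    omega
  have hordα₂ : ordI v₀ α₂ = 0 := by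
    rw [ordI_eq_zero_iff v₀ hα₂0, hmem]
    exact hndvd
  have hordα : ordI v₀ α = m := by
    rw [hα₂, ordI_mul v₀ (pow_ne_zero _ hπ0) hα₂0, ordI_pow v₀ hπ0, hordπ, hordα₂, mul_one,
      add_zero]
  obtain ⟨k, hk⟩ : p ∣ m := by
    rw [← hordα]
    exact hdvd α θ hα hθ v₀
  set π : 𝓞 L := algebraMap (𝓞 K) (𝓞 L) (hζ.toInteger - 1) with hπ
  have hπL0 : π ≠ 0 := by rwa [hπ, Ne, map_eq_zero_iff _ hinj]
  -- `θ₂ = θ / π ^ k`
  have hθ₂ : ∃ θ₂ : 𝓞 L, θ = π ^ k * θ₂ := by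
    have h1 : IsIntegral (𝓞 L) ((θ : L) / ((π : L) ^ k)) := by
      refine ⟨Polynomial.X ^ p - Polynomial.C (algebraMap (𝓞 K) (𝓞 L) α₂),
        Polynomial.monic_X_pow_sub_C _ hp.ne_zero, ?_⟩
      rw [Polynomial.eval₂_sub, Polynomial.eval₂_pow, Polynomial.eval₂_X, Polynomial.eval₂_C]
      have h2 : (θ : L) ^ p = (π : L) ^ (k * p) * (algebraMap (𝓞 L) L)
          (algebraMap (𝓞 K) (𝓞 L) α₂) := by
        have h3 : θ ^ p = π ^ (k * p) * algebraMap (𝓞 K) (𝓞 L) α₂ := by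
          rw [← hθ, hα₂, hk, map_mul, map_pow, ← hπ, mul_comm p k]
        have h4 := congrArg (algebraMap (𝓞 L) L) h3
        rwa [map_pow, map_mul, map_pow] at h4
      have hπ' : (π : L) ≠ 0 := by
        intro h
        exact hπL0 (RingOfIntegers.ext h)
      rw [div_pow, h2, ← pow_mul, mul_div_cancel_left₀ _ (pow_ne_zero _ hπ'), sub_self]
    obtain ⟨t, ht⟩ := IsIntegrallyClosed.algebraMap_eq_of_integral h1
    refine ⟨t, ?_⟩
    apply RingOfIntegers.ext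
    have hπ' : (π : L) ≠ 0 := by
      intro h
      exact hπL0 (RingOfIntegers.ext h)
    have h6 : algebraMap (𝓞 L) L (π ^ k * t) = algebraMap (𝓞 L) L θ := by
      rw [map_mul, map_pow, ht]
      exact mul_div_cancel₀ _ (pow_ne_zero _ hπ')
    exact h6.symm
  obtain ⟨θ₂, hθ₂⟩ := hθ₂
  have hαθ₂ : algebraMap (𝓞 K) (𝓞 L) α₂ = θ₂ ^ p := by
    have h1 : π ^ (k * p) * algebraMap (𝓞 K) (𝓞 L) α₂ = π ^ (k * p) * θ₂ ^ p := by
      have h3 : θ ^ p = π ^ (k * p) * algebraMap (𝓞 K) (𝓞 L) α₂ := by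
        rw [← hθ, hα₂, hk, map_mul, map_pow, ← hπ, mul_comm p k]
      rw [← h3, hθ₂, mul_pow, ← pow_mul]
    exact mul_left_cancel₀ (pow_ne_zero _ hπL0) h1
  refine ⟨k, α₂, θ₂, hθ₂, hαθ₂, hα₂0, ?_, ?_, ?_⟩
  · exact exists_eq_pow hα₂0 (hdvd α₂ θ₂ hα₂0 hαθ₂)
  · obtain ⟨w₀, hw₀⟩ := hexw v₀
    have hπw : π ∈ w₀.asIdeal := by
      have h1 : (hζ.toInteger - 1) ∈ w₀.asIdeal.under (𝓞 K) := by
        rw [← hw₀.over, hmem]
      exact h1
    have hassoc := IsCyclotomicExtension.Rat.associated_zeta_sub_one_pow_prime p hζ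
    have hpw : (p : 𝓞 L) ∈ w₀.asIdeal ^ (p - 1) := by
      obtain ⟨u, hu⟩ := hassoc
      have h1 : (p : 𝓞 L) = π ^ (p - 1) * algebraMap (𝓞 K) (𝓞 L) u := by
        rw [hπ, ← map_pow, ← map_mul, hu, map_natCast]
      rw [h1]
      exact Ideal.mul_mem_right _ _ (Ideal.pow_mem_pow hπw _)
    have hpw1 : (p : 𝓞 L) ∈ w₀.asIdeal := Ideal.pow_le_self (by have := hp.two_le; omega) hpw
    obtain ⟨n, hn⟩ := hres w₀ hpw1 θ₂
    refine ⟨n ^ p, ?_⟩
    by_cases h0 : α₂ - (n ^ p : ℤ) = 0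
    · rw [h0]
      exact dvd_zero _
    have h1 : algebraMap (𝓞 K) (𝓞 L) (α₂ - (n ^ p : ℤ)) ∈ w₀.asIdeal ^ (p - 1) := by
      obtain ⟨r, hr⟩ := exists_add_pow_prime_eq hp (θ₂ - n) (n : 𝓞 L)
      rw [sub_add_cancel] at hr
      rw [map_sub, hαθ₂, map_intCast, hr]
      have h2 : (θ₂ - n) ^ p + (n : 𝓞 L) ^ p + p * (θ₂ - n) * n * r - ((n ^ p : ℤ) : 𝓞 L) =
          (θ₂ - n) ^ p + p * ((θ₂ - n) * n * r) := by
        push_cast
        ring
      rw [h2]
      refine Ideal.add_mem _ ?_ (Ideal.mul_mem_right _ _ hpw)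
      exact Ideal.pow_le_pow_right (Nat.sub_le p 1) (Ideal.pow_mem_pow hn p)
    have h0' : algebraMap (𝓞 K) (𝓞 L) (α₂ - (n ^ p : ℤ)) ≠ 0 := by
      rwa [Ne, map_eq_zero_iff _ hinj]
    rw [← le_ordI_iff w₀ h0', ordI_algebraMap v₀ w₀ (he v₀ w₀) h0 h0', le_ordI_iff v₀ h0] at h1
    change _ ∈ (Ideal.span {hζ.toInteger - 1}) ^ (p - 1) at h1
    rw [Ideal.span_singleton_pow, Ideal.mem_span_singleton] at h1
    exact hassoc.symm.dvd.trans h1
  · rw [Ideal.mem_span_singleton]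
    exact hndvd

end normalize

end Fermat.Agent.S14kummer
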