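import Mathlib
import Fermat.Agent.ClassL.Compare

/-!
# Splitting of primes in Kummer extensions
-/

set_option autoImplicit false
set_option linter.unusedSectionVars false

open NumberField Ideal Module nonZeroDivisors Polynomial

open scoped Pointwise

namespace Fermat.Agent.S14final

section general

variable {K M : Type*} [Field K] [NumberField K] [Field M] [NumberField M] [Algebra K M]
  [IsGalois K M]

lemma gal_smul_coe (σ : Gal(M/K)) (x : 𝓞 M) : ((σ • x : 𝓞 M) : M) = σ (x : M) := rfl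

/-- If the decomposition group is trivial then the prime splits completely. -/
lemma split_of_stabilizer (Q : Ideal (𝓞 K)) [Q.IsPrime] (P : Ideal (𝓞 M)) [P.IsPrime]
    [P.LiesOver Q] (h : MulAction.stabilizer Gal(M/K) P = ⊥) :
    (Q.primesOver (𝓞 M)).ncard = Nat.card Gal(M/K) ∧ P.inertiaDeg (𝓞 K) = 1 := by
  constructor
  · rw [← Algebra.IsInvariant.orbit_eq_primesOver (𝓞 K) (𝓞 M) Gal(M/K) Q P]
    have h1 := Nat.card_congr (MulAction.orbitProdStabilizerEquivGroup Gal(M/K) P)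
    rw [Nat.card_prod, h, Subgroup.card_bot, mul_one] at h1
    exact h1
  · have h1 := card_stabilizer_eq_card_inertia_mul_finrank (G := Gal(M/K)) Q P
    rw [h, Subgroup.card_bot] at h1
    exact Nat.eq_one_of_mul_eq_one_left h1.symm

variable {p : ℕ} [hp : Fact p.Prime]

/-- Splitting in a Kummer extension. -/
theorem kummer_split {ζ : 𝓞 K} (hζ : IsPrimitiveRoot ζ p) {θ : 𝓞 M} {e : 𝓞 K}
    (hθ : θ ^ p = algebraMap (𝓞 K) (𝓞 M) e)
    (hgal : ∀ σ : Gal(M/K), σ ≠ 1 → ∃ m : ℕ, ¬ p ∣ m ∧ σ • θ = algebraMap (𝓞 K) (𝓞 M) (ζ ^ m) * θ)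
    (Q : Ideal (𝓞 K)) [Q.IsPrime] (hpQ : (p : 𝓞 K) ∉ Q) (heQ : e ∉ Q)
    {y : 𝓞 K} (hy : e - y ^ p ∈ Q) :
    (Q.primesOver (𝓞 M)).ncard = Nat.card Gal(M/K) ∧
      ∀ P ∈ Q.primesOver (𝓞 M), absNorm P = absNorm Q := by
  -- a prime above Q
  have key : ∀ P ∈ Q.primesOver (𝓞 M), MulAction.stabilizer Gal(M/K) P = ⊥ := by
    intro P hP
    have hPp : P.IsPrime := hP.1
    have hPQ : P.LiesOver Q := hP.2
    have hmem : ∀ x : 𝓞 K, algebraMap (𝓞 K) (𝓞 M) x ∈ P ↔ x ∈ Q := by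
      intro x
      rw [hPQ.over, Ideal.mem_comap]
    -- find a root
    have h1 : θ ^ p - (algebraMap (𝓞 K) (𝓞 M) y) ^ p ∈ P := by
      rw [hθ, ← map_pow, ← map_sub, hmem]
      exact hy
    have hζM : IsPrimitiveRoot (algebraMap (𝓞 K) (𝓞 M) ζ) p :=
      hζ.map_of_injective (FaithfulSMul.algebraMap_injective (𝓞 K) (𝓞 M))
    rw [hζM.pow_sub_pow_eq_prod_sub_mul _ _ hp.out.pos, hPp.prod_mem_iff] at h1
    obtain ⟨η, hη, h2⟩ := h1
    rw [Polynomial.mem_nthRootsFinset hp.out.pos] at hη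
    obtain ⟨j, -, rfl⟩ := hζM.eq_pow_of_pow_eq_one hη
    have hθP : θ ∉ P := by
      intro h
      apply heQ
      rw [← hmem, ← hθ]
      exact Ideal.pow_mem_of_mem _ h _ hp.out.pos
    rw [Subgroup.eq_bot_iff_forall]
    intro σ hσ
    by_contra hne
    obtain ⟨m, hm, hσθ⟩ := hgal σ hne
    rw [MulAction.mem_stabilizer_iff] at hσ
    have h3 : σ • (θ - (algebraMap (𝓞 K) (𝓞 M) ζ) ^ j * algebraMap (𝓞 K) (𝓞 M) y) ∈ P := by
      rw [← hσ]
      exact Ideal.smul_mem_pointwise_smul _ _ _ h2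
    have h4 : σ • (θ - (algebraMap (𝓞 K) (𝓞 M) ζ) ^ j * algebraMap (𝓞 K) (𝓞 M) y)
        = algebraMap (𝓞 K) (𝓞 M) (ζ ^ m) * θ
          - (algebraMap (𝓞 K) (𝓞 M) ζ) ^ j * algebraMap (𝓞 K) (𝓞 M) y := by
      rw [smul_sub, hσθ, ← map_pow, ← map_mul, smul_algebraMap]
    rw [h4] at h3
    have h5 : algebraMap (𝓞 K) (𝓞 M) (ζ ^ m - 1) * θ ∈ P := by
      have := P.sub_mem h3 h2
      have e1 : algebraMap (𝓞 K) (𝓞 M) (ζ ^ m) * θ
          - (algebraMap (𝓞 K) (𝓞 M) ζ) ^ j * algebraMap (𝓞 K) (𝓞 M) y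
          - (θ - (algebraMap (𝓞 K) (𝓞 M) ζ) ^ j * algebraMap (𝓞 K) (𝓞 M) y)
          = algebraMap (𝓞 K) (𝓞 M) (ζ ^ m - 1) * θ := by
        rw [map_sub, map_one]; ring
      rwa [e1] at this
    rcases hPp.mem_or_mem h5 with h6 | h6
    · rw [hmem] at h6
      apply hpQ
      -- `ζ ^ m - 1` divides `p`
      have hζm : IsPrimitiveRoot (ζ ^ m) p := hζ.pow_of_coprime m
        ((Nat.Prime.coprime_iff_not_dvd hp.out).mpr hm).symm
      have h7 : (p : 𝓞 K) = ∏ μ ∈ (primitiveRoots p (𝓞 K)), (1 - μ) := by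
        have := Polynomial.eval_one_cyclotomic_prime (R := 𝓞 K) (p := p)
        rw [← this, cyclotomic_eq_prod_X_sub_primitiveRoots hζ, eval_prod]
        simp
      rw [h7]
      have h8 : (1 - ζ ^ m) ∈ Q := by
        have := Q.neg_mem h6
        rwa [neg_sub] at this
      exact Q.mem_of_dvd (Finset.dvd_prod_of_mem (fun μ => 1 - μ)
        ((mem_primitiveRoots hp.out.pos).mpr hζm)) h8
    · exact hθP h6
  have hne : (Q.primesOver (𝓞 M)).Nonempty := by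
    obtain ⟨P, hP⟩ := (inferInstance : Nonempty (Q.primesOver (𝓞 M)))
    exact ⟨P, hP⟩
  constructor
  · obtain ⟨P, hP⟩ := hne
    have hPp : P.IsPrime := hP.1
    have hPQ : P.LiesOver Q := hP.2
    exact (split_of_stabilizer Q P (key P hP)).1
  · intro P hP
    have hPp : P.IsPrime := hP.1
    have hPQ : P.LiesOver Q := hP.2
    have h1 := (split_of_stabilizer Q P (key P hP)).2
    rw [← absNorm_pow_inertiaDeg Q P, h1, pow_one]

end general

section count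

open Fermat.Agent.ClassL Fermat.Agent.FrobDensity

variable {K M : Type*} [Field K] [NumberField K] [Field M] [NumberField M] [Algebra K M]
  [IsGalois K M] {p : ℕ} [hp : Fact p.Prime]

lemma finite_absNorm_eq (n : ℕ) : Finite {I : Ideal (𝓞 M) // absNorm I = n} :=
  (Ideal.finite_setOfPred_absNorm_eq (S := 𝓞 M) n).to_subtype

/-- counting primes -/
lemma mul_nonkerCount_le (χ : ClassGroup (𝓞 K) →* Multiplicative (ZMod p)) {q : ℕ} (hq : q.Prime)
    (h : ∀ Q : (Ideal (𝓞 K))⁰, absNorm (Q : Ideal (𝓞 K)) = q → χ (ClassGroup.mk0 Q) ≠ 1 →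
      ((Q : Ideal (𝓞 K)).primesOver (𝓞 M)).ncard = p ∧
      ∀ P ∈ (Q : Ideal (𝓞 K)).primesOver (𝓞 M), absNorm P = q) :
    p * nonkerCount χ q ≤ idealCount M q := by
  classical
  have hfin1 := finite_norm_eq (K := K) q
  have hfin : Finite {I : (Ideal (𝓞 K))⁰ //
      absNorm (I : Ideal (𝓞 K)) = q ∧ χ (ClassGroup.mk0 I) ≠ 1} :=
    Finite.of_injective (fun I => (⟨I.1, I.2.1⟩ :
      {I : (Ideal (𝓞 K))⁰ // absNorm (I : Ideal (𝓞 K)) = q})) fun I J h => by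
        have h1 := congrArg (fun x => x.1) h
        exact Subtype.ext h1
  have hfin2 := finite_absNorm_eq (M := M) q
  have : Fintype {I : (Ideal (𝓞 K))⁰ //
      absNorm (I : Ideal (𝓞 K)) = q ∧ χ (ClassGroup.mk0 I) ≠ 1} := Fintype.ofFinite _
  let A := Σ Q : {I : (Ideal (𝓞 K))⁰ //
      absNorm (I : Ideal (𝓞 K)) = q ∧ χ (ClassGroup.mk0 I) ≠ 1},
      ((Q.1 : Ideal (𝓞 K)).primesOver (𝓞 M))
  have hfin3 : ∀ Q : {I : (Ideal (𝓞 K))⁰ //
      absNorm (I : Ideal (𝓞 K)) = q ∧ χ (ClassGroup.mk0 I) ≠ 1},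
      Finite ((Q.1 : Ideal (𝓞 K)).primesOver (𝓞 M)) := fun Q =>
    (Set.finite_of_ncard_ne_zero (by rw [(h Q.1 Q.2.1 Q.2.2).1]; exact hp.out.ne_zero)).to_subtype
  have hcardA : Nat.card A = p * nonkerCount χ q := by
    rw [Nat.card_sigma]
    have : ∀ Q : {I : (Ideal (𝓞 K))⁰ //
      absNorm (I : Ideal (𝓞 K)) = q ∧ χ (ClassGroup.mk0 I) ≠ 1},
      Nat.card ((Q.1 : Ideal (𝓞 K)).primesOver (𝓞 M)) = p := by
      intro Q
      rw [Nat.card_coe_set_eq]
      exact (h Q.1 Q.2.1 Q.2.2).1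
    simp_rw [this]
    rw [Finset.sum_const, Finset.card_univ, smul_eq_mul, nonkerCount, Nat.card_eq_fintype_card,
      mul_comm]
  rw [← hcardA, idealCount]
  refine Nat.card_le_card_of_injective (fun a : A => (⟨a.2.1, (h a.1.1 a.1.2.1 a.1.2.2).2 _ a.2.2⟩ :
    {I : Ideal (𝓞 M) // absNorm I = q})) ?_
  rintro ⟨Q, P⟩ ⟨Q', P'⟩ hPP
  have h1 : P.1 = P'.1 := congrArg (fun x => x.1) hPP
  have hQ : Q = Q' := by
    apply Subtype.ext
    apply Subtype.ext
    have e1 := P.2.2.over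
    have e2 := P'.2.2.over
    rw [e1, e2, h1]
  subst hQ
  rw [Subtype.ext h1]

end count

end Fermat.Agent.S14final
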