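import Fermat.Agent.S14_Eigen

/-!
# The Galois module structure of units modulo torsion in a cyclotomic field

For a generator `σ` of the Galois group of the `p`-th cyclotomic field, the characteristic
polynomial of `σ` on units modulo torsion is `1 + T + ⋯ + T^(m-1)`, `m = (p-1)/2`.
-/

set_option autoImplicit false
set_option maxSynthPendingDepth 3

open Polynomial Module NumberField

namespace Fermat.Agent.S14units

set_option linter.unusedSectionVars false

variable {K : Type*} [Field K] [NumberField K]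

/-- The action of a field automorphism on units of the ring of integers. -/
noncomputable def act (σ : K ≃ₐ[ℚ] K) : (𝓞 K)ˣ →* (𝓞 K)ˣ :=
  Units.map (RingOfIntegers.mapRingEquiv σ.toRingEquiv : 𝓞 K →* 𝓞 K)

lemma coe_act (σ : K ≃ₐ[ℚ] K) (u : (𝓞 K)ˣ) :
    (((act σ u : (𝓞 K)ˣ) : 𝓞 K) : K) = σ ((u : 𝓞 K) : K) := rfl

lemma coe_act_pow (σ : K ≃ₐ[ℚ] K) (i : ℕ) (u : (𝓞 K)ˣ) :
    ((((act σ)^[i] u : (𝓞 K)ˣ) : 𝓞 K) : K) = (σ ^ i) ((u : 𝓞 K) : K) := by
  induction i with
  | zero => rfl
  | succ i ih =>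
    rw [Function.iterate_succ_apply', coe_act, ih, pow_succ', AlgEquiv.mul_apply]

lemma act_mem_torsion (σ : K ≃ₐ[ℚ] K) : Units.torsion K ≤ (Units.torsion K).comap (act σ) := by
  intro u hu
  exact (act σ).isOfFinOrder hu

/-- The free lattice of units modulo torsion -/
abbrev UnitLat (K : Type*) [Field K] [NumberField K] : Type _ :=
  Additive ((𝓞 K)ˣ ⧸ (Units.torsion K))

lemma finrank_unitLat : finrank ℤ (UnitLat K) = Units.rank K :=
  Units.finrank_modTorsion K

/-- The induced action on the unit lattice. -/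
noncomputable def actLat (σ : K ≃ₐ[ℚ] K) : UnitLat K →ₗ[ℤ] UnitLat K :=
  (MonoidHom.toAdditive (QuotientGroup.map _ _ (act σ) (act_mem_torsion σ))).toIntLinearMap

/-- The class of a unit -/
def cls (u : (𝓞 K)ˣ) : UnitLat K := Additive.ofMul (QuotientGroup.mk u)

lemma cls_mul (u v : (𝓞 K)ˣ) : cls (u * v) = cls u + cls v := rfl

lemma cls_pow (u : (𝓞 K)ˣ) (n : ℕ) : cls (u ^ n) = n • cls u := rfl

lemma cls_zpow (u : (𝓞 K)ˣ) (n : ℤ) : cls (u ^ n) = n • cls u := rfl

lemma cls_one : cls (1 : (𝓞 K)ˣ) = 0 := rfl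

lemma cls_surjective : Function.Surjective (cls : (𝓞 K)ˣ → UnitLat K) := by
  intro x
  obtain ⟨u, hu⟩ := QuotientGroup.mk_surjective (Additive.toMul x)
  exact ⟨u, congrArg Additive.ofMul hu⟩

lemma cls_eq_zero_iff (u : (𝓞 K)ˣ) : cls u = 0 ↔ u ∈ Units.torsion K := by
  rw [← QuotientGroup.eq_one_iff]
  exact Iff.rfl

lemma actLat_cls (σ : K ≃ₐ[ℚ] K) (u : (𝓞 K)ˣ) : actLat σ (cls u) = cls (act σ u) := rfl

lemma actLat_pow_cls (σ : K ≃ₐ[ℚ] K) (i : ℕ) (u : (𝓞 K)ˣ) :
    ((actLat σ) ^ i) (cls u) = cls ((act σ)^[i] u) := by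
  induction i with
  | zero => rfl
  | succ i ih => rw [pow_succ', Module.End.mul_apply, ih, actLat_cls, Function.iterate_succ_apply']

/-- The logarithm at an infinite place, on the unit lattice. -/
noncomputable def logAt (w : InfinitePlace K) : UnitLat K →+ ℝ :=
  MonoidHom.toAdditiveLeft (QuotientGroup.lift (Units.torsion K)
    (AddMonoidHom.toMultiplicativeRight
      { toFun := fun u => Real.log (w ((u.toMul : (𝓞 K)ˣ) : K))
        map_zero' := by simp
        map_add' := fun u v => by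
          rw [toMul_add, Units.coe_mul, map_mul, Real.log_mul]
          · exact (Units.pos_at_place _ w).ne'
          · exact (Units.pos_at_place _ w).ne' } : (𝓞 K)ˣ →* Multiplicative ℝ)
    (fun u hu => by
      have := (Units.mem_torsion K).mp hu w
      change Multiplicative.ofAdd (Real.log (w (u : K))) = 1
      rw [this, Real.log_one]; rfl))

lemma logAt_cls (w : InfinitePlace K) (u : (𝓞 K)ˣ) : logAt w (cls u) = Real.log (w (u : K)) := rfl

lemma eq_zero_of_logAt {x : UnitLat K} (h : ∀ w, logAt w x = 0) : x = 0 := by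
  obtain ⟨u, rfl⟩ := cls_surjective x
  rw [cls_eq_zero_iff, Units.mem_torsion]
  intro w
  have h1 := h w
  rw [logAt_cls] at h1
  exact Real.eq_one_of_pos_of_log_eq_zero (Units.pos_at_place u w) h1

lemma logAt_actLat_pow (σ : K ≃ₐ[ℚ] K) (i : ℕ) (w : InfinitePlace K) (u : (𝓞 K)ˣ) :
    logAt w (((actLat σ) ^ i) (cls u)) = logAt ((σ ^ i)⁻¹ • w) (cls u) := by
  rw [actLat_pow_cls, logAt_cls, logAt_cls]
  congr 1
  change w ((((act σ)^[i] u : (𝓞 K)ˣ) : 𝓞 K) : K) = _
  rw [coe_act_pow, InfinitePlace.smul_apply]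
  rfl

section cyclic

lemma bijective_pow_smul {G X : Type*} [Group G] [MulAction G X] [Fintype X] (s : G)
    (hs : ∀ g : G, g ∈ Subgroup.zpowers s) (htrans : ∀ x y : X, ∃ g : G, g • x = y) (x : X) :
    Function.Bijective (fun i : Fin (Fintype.card X) => s ^ (i : ℕ) • x) := by
  classical
  rw [Fintype.bijective_iff_surjective_and_card]
  refine ⟨?_, by simp⟩
  intro y
  obtain ⟨g, rfl⟩ := htrans x y
  obtain ⟨k, rfl⟩ := Subgroup.mem_zpowers_iff.mp (hs g)
  have horb : MulAction.orbit (Subgroup.zpowers s) x = Set.univ := by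
    ext z
    simp only [Set.mem_univ, iff_true]
    obtain ⟨h, rfl⟩ := htrans x z
    exact ⟨⟨h, hs h⟩, rfl⟩
  have hP : Function.minimalPeriod (s • ·) x = Fintype.card X := by
    have : Fintype (MulAction.orbit (Subgroup.zpowers s) x) := Fintype.ofFinite _
    rw [MulAction.minimalPeriod_eq_card]
    rw [← Nat.card_eq_fintype_card, ← Nat.card_eq_fintype_card, horb, Nat.card_univ]
  have hpos : 0 < Fintype.card X := Fintype.card_pos_iff.mpr ⟨x⟩
  have hk := MulAction.zpow_smul_mod_minimalPeriod s x k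
  rw [hP] at hk
  have hnn : 0 ≤ k % (Fintype.card X : ℤ) := Int.emod_nonneg _ (by exact_mod_cast hpos.ne')
  have hlt : k % (Fintype.card X : ℤ) < Fintype.card X :=
    Int.emod_lt_of_pos _ (by exact_mod_cast hpos)
  refine ⟨⟨(k % (Fintype.card X : ℤ)).toNat, by omega⟩, ?_⟩
  change s ^ ((k % (Fintype.card X : ℤ)).toNat) • x = _
  rw [← zpow_natCast, Int.toNat_of_nonneg hnn]
  exact hk

end cyclic

section places

variable [IsGalois ℚ K] (σ : K ≃ₐ[ℚ] K) (hσ : ∀ τ : K ≃ₐ[ℚ] K, τ ∈ Subgroup.zpowers σ)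

include hσ in
lemma bijective_places (N : ℕ) (hN : Fintype.card (InfinitePlace K) = N) (w : InfinitePlace K) :
    Function.Bijective (fun i : Fin N => σ ^ (i : ℕ) • w) := by
  subst hN
  exact bijective_pow_smul σ hσ
    (fun _ _ => InfinitePlace.exists_smul_eq_of_comap_eq (k := ℚ) (Subsingleton.elim _ _)) w

include hσ in
lemma bijective_places_inv (N : ℕ) (hN : Fintype.card (InfinitePlace K) = N)
    (w : InfinitePlace K) :
    Function.Bijective (fun i : Fin N => (σ ^ (i : ℕ))⁻¹ • w) := by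
  have h : ∀ τ : K ≃ₐ[ℚ] K, τ ∈ Subgroup.zpowers σ⁻¹ := by
    intro τ; rw [Subgroup.zpowers_inv]; exact hσ τ
  have := bijective_places σ⁻¹ h N hN w
  simpa only [inv_pow] using this

variable [IsTotallyComplex K]

/-- Sum over all places vanishes. -/
lemma sum_logAt (x : UnitLat K) : ∑ w : InfinitePlace K, logAt w x = 0 := by
  obtain ⟨u, rfl⟩ := cls_surjective x
  have h := Units.sum_mult_mul_log u
  simp only [IsTotallyComplex.mult_eq, Nat.cast_ofNat] at h
  rw [← Finset.mul_sum] at h
  have h2 := (mul_eq_zero.mp h).resolve_left two_ne_zero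
  exact h2

include hσ in
lemma sum_actLat_pow (N : ℕ) (hN : Fintype.card (InfinitePlace K) = N) :
    ∑ i ∈ Finset.range N, (actLat σ) ^ i = 0 := by
  refine LinearMap.ext (fun x => ?_)
  rw [LinearMap.sum_apply, LinearMap.zero_apply]
  refine eq_zero_of_logAt (fun w => ?_)
  obtain ⟨u, rfl⟩ := cls_surjective x
  rw [map_sum]
  rw [Finset.sum_congr rfl (fun i _ => logAt_actLat_pow σ i w u)]
  rw [Finset.sum_range]
  have := (bijective_places_inv σ hσ N hN w).sum_comp (fun w' => logAt w' (cls u))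
  rw [this]
  exact sum_logAt _

include hσ in
/-- A Minkowski unit. -/
lemma exists_minkowski (n : ℕ) (hn : Fintype.card (InfinitePlace K) = n + 1) :
    ∃ u : UnitLat K, LinearIndependent ℤ (fun i : Fin n => ((actLat σ) ^ (i : ℕ)) u) := by
  classical
  set w₁ : InfinitePlace K := Classical.arbitrary _
  obtain ⟨u, hu⟩ := Units.dirichletUnitTheorem.exists_unit K w₁
  refine ⟨cls u, ?_⟩
  -- the places `w_j`
  let W : Fin (n + 1) → InfinitePlace K := fun j => σ ^ (j : ℕ) • w₁
  have hW : Function.Bijective W := bijective_places σ hσ (n + 1) hn w₁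
  -- values
  let f : Fin (n + 1) → InfinitePlace K → ℝ := fun k w => logAt w (((actLat σ) ^ (k : ℕ)) (cls u))
  have hneg : ∀ k w, w ≠ W k → f k w < 0 := by
    intro k w hw
    simp only [f]
    rw [logAt_actLat_pow, logAt_cls]
    apply hu
    intro h
    apply hw
    change w = σ ^ (k : ℕ) • w₁
    rw [← h, smul_inv_smul]
  have hsum : ∀ k, ∑ w, f k w = 0 := fun k => sum_logAt _
  have hsum' : ∀ k, ∑ j, f k (W j) = 0 := fun k => by
    rw [hW.sum_comp (fun w => f k w)]; exact hsum k
  let A : Matrix (Fin n) (Fin n) ℝ := Matrix.of fun k j => f k.castSucc (W j.castSucc)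
  have hdet : A.det ≠ 0 := by
    apply det_ne_zero_of_sum_row_lt_diag
    intro k
    have hne : ∀ j : Fin n, j ≠ k → f k.castSucc (W j.castSucc) < 0 := by
      intro j hj
      apply hneg
      intro h
      exact hj (Fin.castSucc_injective _ (hW.1 h))
    have hlast : f k.castSucc (W (Fin.last n)) < 0 := by
      apply hneg
      intro h
      exact (Fin.castSucc_lt_last k).ne' (hW.1 h)
    have h1 := hsum' k.castSucc
    rw [Fin.sum_univ_castSucc, ← Finset.add_sum_erase Finset.univ _ (Finset.mem_univ k)] at h1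
    have h2 : ∑ j ∈ Finset.univ.erase k, ‖A k j‖ =
        - ∑ j ∈ Finset.univ.erase k, f k.castSucc (W j.castSucc) := by
      rw [← Finset.sum_neg_distrib]
      refine Finset.sum_congr rfl (fun j hj => ?_)
      rw [Real.norm_eq_abs]
      exact abs_of_neg (hne j (Finset.ne_of_mem_erase hj))
    rw [h2]
    refine lt_of_lt_of_le ?_ (le_abs_self _)
    change _ < f k.castSucc (W k.castSucc)
    linarith
  rw [Fintype.linearIndependent_iff]
  intro c hc
  have hv : Matrix.vecMul (fun i => (c i : ℝ)) A = 0 := by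
    funext j
    have h3 := congrArg (logAt (W j.castSucc)) hc
    rw [map_sum, map_zero] at h3
    simp only [map_zsmul, zsmul_eq_mul] at h3
    simpa [Matrix.vecMul, dotProduct, A, f] using h3
  have := Matrix.eq_zero_of_vecMul_eq_zero hdet hv
  intro i
  have h4 : (c i : ℝ) = 0 := congrFun this i
  exact_mod_cast h4

end places

end Fermat.Agent.S14units
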