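/-
The cyclotomic extension `F = K(ζ_q)` of `K = ℚ(ζ_p)`, where `q ≡ 1 mod p` is a prime: degree,
Galois group, ramification. Used for the Thaine relation.
-/
import Mathlib

set_option autoImplicit false
set_option linter.unusedSectionVars false

namespace Fermat.Agent.S14thaine

open NumberField Polynomial Ideal

variable {p q : ℕ} [hp : Fact p.Prime] [hq : Fact q.Prime]
  {K : Type*} [Field K] [NumberField K] [hK : IsCyclotomicExtension {p} ℚ K]
  {F : Type*} [Field F] [NumberField F] [Algebra K F] [hF : IsCyclotomicExtension {q} K F]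

variable (K) in
include hK hF in
/-- `F = ℚ(ζ_{pq})`. -/
theorem isCyclotomicExtension_mul (hpq : p ≠ q) : IsCyclotomicExtension {p * q} ℚ F := by
  have h1 : IsCyclotomicExtension ({p} ∪ {q}) ℚ F :=
    IsCyclotomicExtension.trans {p} {q} ℚ K F (algebraMap K F).injective
  rw [IsCyclotomicExtension.iff_adjoin_eq_top] at h1 ⊢
  obtain ⟨h2, h3⟩ := h1
  constructor
  · rintro n hn hn0
    rw [Set.mem_singleton_iff] at hn
    subst hn
    obtain ⟨a, ha⟩ := h2 p (by simp) hp.out.ne_zero
    obtain ⟨b, hb⟩ := h2 q (by simp) hq.out.ne_zero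
    refine ⟨a * b, ?_⟩
    have hc : Nat.Coprime (orderOf a) (orderOf b) := by
      rw [← ha.eq_orderOf, ← hb.eq_orderOf]
      exact (Nat.coprime_primes hp.out hq.out).mpr hpq
    have := (Commute.all a b).orderOf_mul_eq_mul_orderOf_of_coprime hc
    rw [← ha.eq_orderOf, ← hb.eq_orderOf] at this
    rw [← this]
    exact IsPrimitiveRoot.orderOf (a * b)
  · rw [eq_top_iff, ← h3]
    apply Algebra.adjoin_mono
    rintro b ⟨n, hn, hn0, hb⟩
    refine ⟨p * q, rfl, mul_ne_zero hp.out.ne_zero hq.out.ne_zero, ?_⟩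
    rcases hn with hn | hn
    · rw [Set.mem_singleton_iff] at hn
      subst hn
      rw [pow_mul, hb, one_pow]
    · rw [Set.mem_singleton_iff] at hn
      subst hn
      rw [mul_comm, pow_mul, hb, one_pow]

theorem finrank_F (hpq : p ≠ q) : Module.finrank K F = q - 1 := by
  have h1 := isCyclotomicExtension_mul K (F := F) hpq
  have : NeZero (p * q) := ⟨mul_ne_zero hp.out.ne_zero hq.out.ne_zero⟩
  have h2 := IsCyclotomicExtension.Rat.finrank (p * q) F
  have h3 := IsCyclotomicExtension.Rat.finrank p K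
  have h4 := Module.finrank_mul_finrank ℚ K F
  have hc : Nat.Coprime p q := (Nat.coprime_primes hp.out hq.out).mpr hpq
  rw [h2, h3, Nat.totient_mul hc, Nat.totient_prime hp.out, Nat.totient_prime hq.out] at h4
  have hp1 : 0 < p - 1 := by have := hp.out.two_le; omega
  exact Nat.eq_of_mul_eq_mul_left hp1 h4

theorem card_gal (hpq : p ≠ q) : Nat.card Gal(F/K) = q - 1 := by
  have : IsGalois K F := IsCyclotomicExtension.isGalois {q} K F
  rw [IsGalois.card_aut_eq_finrank, finrank_F hpq]

theorem exists_generator (hpq : p ≠ q) {ζq : F} (hζq : IsPrimitiveRoot ζq q) :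
    ∃ (g : (ZMod q)ˣ) (τ : Gal(F/K)), (∀ x, x ∈ Subgroup.zpowers g) ∧
      (∀ x, x ∈ Subgroup.zpowers τ) ∧ τ ζq = ζq ^ (g : ZMod q).val := by
  have : NeZero q := ⟨hq.out.ne_zero⟩
  have hinj := IsPrimitiveRoot.autToPow_injective (K := K) hζq
  have hG : IsGalois K F := IsCyclotomicExtension.isGalois {q} K F
  have hbij : Function.Bijective (hζq.autToPow K) := by
    rw [Nat.bijective_iff_injective_and_card]
    refine ⟨hinj, ?_⟩
    rw [card_gal (p := p) hpq, Nat.card_eq_fintype_card, ZMod.card_units]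
  obtain ⟨g, hg⟩ := IsCyclic.exists_generator (α := (ZMod q)ˣ)
  obtain ⟨τ, hτ⟩ := hbij.2 g
  refine ⟨g, τ, hg, ?_, ?_⟩
  · intro x
    obtain ⟨k, hk⟩ := Subgroup.mem_zpowers_iff.mp (hg (hζq.autToPow K x))
    rw [Subgroup.mem_zpowers_iff]
    refine ⟨k, hinj ?_⟩
    rw [map_zpow, hτ, hk]
  · rw [← hτ]
    exact (hζq.autToPow_spec K τ).symm

theorem isCyclic_gal {ζq : F} (hζq : IsPrimitiveRoot ζq q) : IsCyclic Gal(F/K) := by
  have : NeZero q := ⟨hq.out.ne_zero⟩
  exact isCyclic_of_injective (hζq.autToPow K)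
    (IsPrimitiveRoot.autToPow_injective (K := K) hζq)

end Fermat.Agent.S14thaine
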