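/-
Ramification in `F = K(ζ_q)` over `K = ℚ(ζ_p)`, `q ≡ 1 mod p` prime.
-/
import Mathlib
import Fermat.Agent.S14_ThaineField

set_option autoImplicit false
set_option linter.unusedSectionVars false

namespace Fermat.Agent.S14thaine

open NumberField Polynomial Ideal
open scoped Pointwise

variable {p q : ℕ} [hp : Fact p.Prime] [hq : Fact q.Prime]
  {K : Type*} [Field K] [NumberField K] [hK : IsCyclotomicExtension {p} ℚ K]
  {F : Type*} [Field F] [NumberField F] [Algebra K F] [hF : IsCyclotomicExtension {q} K F]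

/-- A nonzero prime of the ring of integers lies over a rational prime. -/
theorem exists_prime_under (P : Ideal (𝓞 K)) [hP : P.IsPrime] (hP0 : P ≠ ⊥) :
    ∃ l : ℕ, l.Prime ∧ P.LiesOver (span {(l : ℤ)}) ∧ (l : 𝓞 K) ∈ P := by
  have h1 : (under ℤ P) ≠ ⊥ := by
    intro h
    exact hP0 (eq_bot_of_comap_eq_bot (R := ℤ) h)
  have h2 : (under ℤ P).IsPrime := hP.under ℤ
  obtain ⟨n, hn⟩ := (IsPrincipalIdealRing.principal (under ℤ P)).principal
  rw [submodule_span_eq] at hn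
  have hn0 : n ≠ 0 := by
    rintro rfl
    exact h1 (by rw [hn]; simp)
  have hnp : Prime n := (span_singleton_prime hn0).mp (hn ▸ h2)
  have hn' : under ℤ P = span {(n.natAbs : ℤ)} := by rw [hn, Int.span_natAbs]
  refine ⟨n.natAbs, Int.prime_iff_natAbs_prime.mp hnp, ?_, ?_⟩
  · rw [liesOver_iff, hn']
  · have h3 : (n.natAbs : ℤ) ∈ under ℤ P := by rw [hn']; exact mem_span_singleton_self _
    rw [under_def, mem_comap] at h3
    simpa using h3

theorem primes_eq_of_mem {P : Ideal (𝓞 K)} [hP : P.IsPrime] {l m : ℕ} (hl : l.Prime)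
    (hm : m.Prime) (h1 : (l : 𝓞 K) ∈ P) (h2 : (m : 𝓞 K) ∈ P) : l = m := by
  by_contra hne
  have hc : IsCoprime (l : ℤ) (m : ℤ) := by
    rw [Nat.isCoprime_iff_coprime]
    exact (Nat.coprime_primes hl hm).mpr hne
  obtain ⟨a, b, hab⟩ := hc
  apply hP.ne_top
  rw [eq_top_iff_one]
  have h3 : (a : 𝓞 K) * l + (b : 𝓞 K) * m = 1 := by
    exact_mod_cast congrArg (Int.cast : ℤ → 𝓞 K) hab
  rw [← h3]
  exact add_mem (mul_mem_left _ _ h1) (mul_mem_left _ _ h2)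

/-- `F / K` is unramified away from `q`. -/
theorem ramificationIdx_eq_one (hpq : p ≠ q) (P : Ideal (𝓞 K)) [P.IsPrime] (hP0 : P ≠ ⊥)
    (hqP : (q : 𝓞 K) ∉ P) (𝔓 : Ideal (𝓞 F)) [𝔓.IsPrime] [h𝔓 : 𝔓.LiesOver P] :
    𝔓.ramificationIdx (𝓞 K) = 1 := by
  obtain ⟨l, hl, hlP, hlmem⟩ := exists_prime_under P hP0
  have hlq : l ≠ q := by rintro rfl; exact hqP hlmem
  have : Fact l.Prime := ⟨hl⟩
  have h1 := isCyclotomicExtension_mul K (F := F) hpq
  have : NeZero (p * q) := ⟨mul_ne_zero hp.out.ne_zero hq.out.ne_zero⟩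
  have h𝔓l : 𝔓.LiesOver (span {(l : ℤ)}) := LiesOver.trans 𝔓 P _
  have htow := ramificationIdx_tower (R := ℤ) P 𝔓
  by_cases hlp : l = p
  · subst hlp
    have h2 := IsCyclotomicExtension.Rat.ramificationIdx_eq (l * q) (m := q) (p := l) (k := 0) F 𝔓
      (by ring) (fun h => hlq ((Nat.prime_dvd_prime_iff_eq hl hq.out).mp h))
    have h3 := IsCyclotomicExtension.Rat.ramificationIdx_eq_of_prime l K P
    rw [h2, h3, pow_zero, one_mul] at htow
    have : 0 < l - 1 := by have := hl.two_le; omega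
    exact (Nat.eq_of_mul_eq_mul_left this (by rw [mul_one]; exact htow)).symm
  · have h2 := IsCyclotomicExtension.Rat.ramificationIdx_eq_of_not_dvd (m := p * q) l F 𝔓
      (by
        intro h
        rcases (Nat.Prime.dvd_mul hl).mp h with h | h
        · exact hlp ((Nat.prime_dvd_prime_iff_eq hl hp.out).mp h)
        · exact hlq ((Nat.prime_dvd_prime_iff_eq hl hq.out).mp h))
    rw [h2] at htow
    exact Nat.eq_one_of_mul_eq_one_left htow.symm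

/-- The primes above `q` in `K` have norm `q`. -/
theorem inertiaDeg_Q (hpq : q % p = 1) (Q : Ideal (𝓞 K)) [Q.IsPrime] (hqQ : (q : 𝓞 K) ∈ Q) :
    Q.LiesOver (span {(q : ℤ)}) ∧ Q.inertiaDeg ℤ = 1 ∧ Q.ramificationIdx ℤ = 1 := by
  have hQ0 : Q ≠ ⊥ := by
    rintro rfl
    rw [mem_bot] at hqQ
    exact hq.out.ne_zero (by exact_mod_cast hqQ)
  obtain ⟨l, hl, hlQ, hlmem⟩ := exists_prime_under Q hQ0
  obtain rfl := primes_eq_of_mem hl hq.out hlmem hqQ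
  have hnd : ¬ l ∣ p := by
    intro h
    rw [Nat.prime_dvd_prime_iff_eq hl hp.out] at h
    subst h
    simp at hpq
  refine ⟨hlQ, ?_, ?_⟩
  · rw [IsCyclotomicExtension.Rat.inertiaDeg_eq_of_not_dvd (m := p) l K Q hnd]
    have : (l : ZMod p) = 1 := by
      have h1 : ((l : ℕ) : ZMod p) = ((1 : ℕ) : ZMod p) := by
        rw [ZMod.natCast_eq_natCast_iff', hpq, Nat.mod_eq_of_lt hp.out.one_lt]
      simpa using h1
    rw [this, orderOf_one]
  · exact IsCyclotomicExtension.Rat.ramificationIdx_eq_of_not_dvd (m := p) l K Q hnd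

theorem ne_of_mod (hpq : q % p = 1) : p ≠ q := by
  rintro rfl
  simp at hpq

/-- Primes above `q` in `F`: totally ramified. -/
theorem over_q (hpq : q % p = 1) (Q : Ideal (𝓞 K)) [Q.IsPrime] (hqQ : (q : 𝓞 K) ∈ Q)
    (𝔔 : Ideal (𝓞 F)) [𝔔.IsPrime] [h𝔔 : 𝔔.LiesOver Q] :
    𝔔.LiesOver (span {(q : ℤ)}) ∧ 𝔔.inertiaDeg ℤ = 1 ∧ 𝔔.ramificationIdx ℤ = q - 1 ∧
      𝔔.inertiaDeg (𝓞 K) = 1 ∧ 𝔔.ramificationIdx (𝓞 K) = q - 1 := by
  obtain ⟨h1, h2, h3⟩ := inertiaDeg_Q hpq Q hqQ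
  have hne : p ≠ q := ne_of_mod hpq
  have h4 := isCyclotomicExtension_mul K (F := F) hne
  have : NeZero (p * q) := ⟨mul_ne_zero hp.out.ne_zero hq.out.ne_zero⟩
  have h𝔔l : 𝔔.LiesOver (span {(q : ℤ)}) := LiesOver.trans 𝔔 Q _
  have hnd : ¬ q ∣ p := fun h => hne ((Nat.prime_dvd_prime_iff_eq hq.out hp.out).mp h).symm
  have h5 := IsCyclotomicExtension.Rat.ramificationIdx_eq (p * q) (m := p) (p := q) (k := 0) F 𝔔
      (by ring) hnd
  have h6 := IsCyclotomicExtension.Rat.inertiaDeg_eq (p * q) (m := p) (p := q) (k := 0) F 𝔔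
      (by ring) hnd
  have h7 : (q : ZMod p) = 1 := by
    have h1 : ((q : ℕ) : ZMod p) = ((1 : ℕ) : ZMod p) := by
      rw [ZMod.natCast_eq_natCast_iff', hpq, Nat.mod_eq_of_lt hp.out.one_lt]
    simpa using h1
  rw [h7, orderOf_one] at h6
  rw [pow_zero, one_mul] at h5
  have htow := ramificationIdx_tower (R := ℤ) Q 𝔔
  have htow' := inertiaDeg_tower (R := ℤ) Q 𝔔
  rw [h5, h3, one_mul] at htow
  rw [h6, h2, one_mul] at htow'
  exact ⟨h𝔔l, h6, h5, htow'.symm, htow.symm⟩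

theorem absNorm_Q (hpq : q % p = 1) (Q : Ideal (𝓞 K)) [Q.IsPrime] (hqQ : (q : 𝓞 K) ∈ Q) :
    absNorm Q = q := by
  obtain ⟨h1, h2, h3⟩ := inertiaDeg_Q hpq Q hqQ
  have : Q.IsMaximal := .of_liesOver_isMaximal Q (span {(q : ℤ)})
  rw [← pow_inertiaDeg q Q, h2, pow_one]

theorem absNorm_𝔔 (hpq : q % p = 1) (Q : Ideal (𝓞 K)) [Q.IsPrime] (hqQ : (q : 𝓞 K) ∈ Q)
    (𝔔 : Ideal (𝓞 F)) [𝔔.IsPrime] [h𝔔 : 𝔔.LiesOver Q] : absNorm 𝔔 = q := by
  obtain ⟨h1, h2, -⟩ := over_q hpq Q hqQ 𝔔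
  have : 𝔔.IsMaximal := .of_liesOver_isMaximal 𝔔 (span {(q : ℤ)})
  rw [← pow_inertiaDeg q 𝔔, h2, pow_one]

/-- Every integer of `F` is congruent to a rational integer modulo `𝔔`. -/
theorem exists_int_sub_mem {F : Type*} [Field F] [NumberField F] (𝔔 : Ideal (𝓞 F))
    (h : absNorm 𝔔 = q) (x : 𝓞 F) : ∃ n : ℤ, x - n ∈ 𝔔 := by
  have hcard : Nat.card (𝓞 F ⧸ 𝔔) = q := by rw [← h, absNorm_apply, Submodule.cardQuot_apply]
  have hfin : Finite (𝓞 F ⧸ 𝔔) := Nat.finite_of_card_ne_zero (by rw [hcard]; exact hq.out.ne_zero)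
  have hchar : CharP (𝓞 F ⧸ 𝔔) q := by
    have := Fintype.ofFinite (𝓞 F ⧸ 𝔔)
    exact charP_of_card_eq_prime (by rw [← hcard, Nat.card_eq_fintype_card])
  have := ZMod.algebra (𝓞 F ⧸ 𝔔) q
  have hbij : Function.Bijective (algebraMap (ZMod q) (𝓞 F ⧸ 𝔔)) := by
    rw [Nat.bijective_iff_injective_and_card]
    refine ⟨?_, ?_⟩
    · have : Nontrivial (𝓞 F ⧸ 𝔔) := by
        rw [← Finite.one_lt_card_iff_nontrivial, hcard]; exact hq.out.one_lt
      exact (algebraMap (ZMod q) (𝓞 F ⧸ 𝔔)).injective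
    · rw [hcard, Nat.card_eq_fintype_card, ZMod.card]
  obtain ⟨m, hm⟩ := hbij.2 (Ideal.Quotient.mk 𝔔 x)
  obtain ⟨n, rfl⟩ := ZMod.intCast_surjective m
  refine ⟨n, ?_⟩
  rw [← Ideal.Quotient.eq, ← hm]
  simp

end Fermat.Agent.S14thaine
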