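/-
Ideal bookkeeping for the Thaine relation: class of the relative norm of a Galois invariant ideal
of `F = K(ζ_q)` modulo `p`-th powers.
-/
import Mathlib
import Fermat.Agent.S14_ThaineRam

set_option autoImplicit false
set_option linter.unusedSectionVars false

namespace Fermat.Agent.S14thaine

open NumberField Polynomial Ideal UniqueFactorizationMonoid
open scoped Pointwise

variable {p q : ℕ} [hp : Fact p.Prime] [hq : Fact q.Prime]
  {K : Type*} [Field K] [NumberField K] [hK : IsCyclotomicExtension {p} ℚ K]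
  {F : Type*} [Field F] [NumberField F] [Algebra K F] [hF : IsCyclotomicExtension {q} K F]
  {M : Type*} [CommGroup M]

/-- `χ` extended to all ideals. -/
noncomputable def cl (χ : ClassGroup (𝓞 K) →* M) (I : Ideal (𝓞 K)) : M :=
  open Classical in
  if h : I = ⊥ then 1 else χ (ClassGroup.mk0 ⟨I, mem_nonZeroDivisors_of_ne_zero h⟩)

theorem cl_of_ne (χ : ClassGroup (𝓞 K) →* M) {I : Ideal (𝓞 K)} (h : I ≠ ⊥) :
    cl χ I = χ (ClassGroup.mk0 ⟨I, mem_nonZeroDivisors_of_ne_zero h⟩) := by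
  rw [cl, dif_neg h]

theorem cl_mul (χ : ClassGroup (𝓞 K) →* M) {I J : Ideal (𝓞 K)} (hI : I ≠ ⊥) (hJ : J ≠ ⊥) :
    cl χ (I * J) = cl χ I * cl χ J := by
  have hIJ : I * J ≠ ⊥ := mul_ne_zero hI hJ
  rw [cl_of_ne χ hI, cl_of_ne χ hJ, cl_of_ne χ hIJ, ← map_mul, ← map_mul]
  rfl

theorem cl_top (χ : ClassGroup (𝓞 K) →* M) : cl χ ⊤ = 1 := by
  rw [cl_of_ne χ top_ne_bot]
  have : (⟨⊤, mem_nonZeroDivisors_of_ne_zero top_ne_bot⟩ : nonZeroDivisors (Ideal (𝓞 K))) = 1 :=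
    Subtype.ext Ideal.one_eq_top.symm
  rw [this, map_one, map_one]

theorem cl_pow (χ : ClassGroup (𝓞 K) →* M) {I : Ideal (𝓞 K)} (hI : I ≠ ⊥) (n : ℕ) :
    cl χ (I ^ n) = cl χ I ^ n := by
  induction n with
  | zero => simp [cl_top]
  | succ n ih => rw [pow_succ, pow_succ, cl_mul χ (pow_ne_zero n hI) hI, ih]

theorem cl_span_singleton (χ : ClassGroup (𝓞 K) →* M) {x : 𝓞 K} (hx : x ≠ 0) :
    cl χ (span {x}) = 1 := by
  have h : span {x} ≠ ⊥ := by rwa [Ne, span_singleton_eq_bot]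
  rw [cl_of_ne χ h]
  have : ClassGroup.mk0 ⟨span {x}, mem_nonZeroDivisors_of_ne_zero h⟩ = 1 := by
    rw [ClassGroup.mk0_eq_one_iff]
    exact ⟨⟨x, rfl⟩⟩
  rw [this, map_one]

theorem cl_pow_eq_one (χ : ClassGroup (𝓞 K) →* M) (hχ : ∀ c, χ c ^ p = 1) (I : Ideal (𝓞 K)) :
    cl χ I ^ p = 1 := by
  by_cases h : I = ⊥
  · rw [cl, dif_pos h, one_pow]
  · rw [cl_of_ne χ h, hχ]

/-- There is only one prime above a prime `Q ∣ q`. -/
theorem unique_over (hpq : q % p = 1) (Q : Ideal (𝓞 K)) [Q.IsPrime] (hqQ : (q : 𝓞 K) ∈ Q)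
    (𝔔 𝔔' : Ideal (𝓞 F)) [𝔔.IsPrime] [h𝔔 : 𝔔.LiesOver Q] [𝔔'.IsPrime] [h𝔔' : 𝔔'.LiesOver Q] :
    𝔔 = 𝔔' := by
  have : IsGalois K F := IsCyclotomicExtension.isGalois {q} K F
  obtain ⟨-, -, -, h4, h5⟩ := over_q hpq Q hqQ 𝔔
  have h := ncard_primesOver_mul_ramificationIdxIn_mul_inertiaDegIn Q (𝓞 F) Gal(F/K)
  rw [ramificationIdxIn_eq_ramificationIdx Q 𝔔 Gal(F/K), inertiaDegIn_eq_inertiaDeg Q 𝔔 Gal(F/K),
    h4, h5, mul_one, card_gal (p := p) (ne_of_mod hpq)] at h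
  have hq1 : 0 < q - 1 := by have := hq.out.two_le; omega
  have h1 : (primesOver Q (𝓞 F)).ncard = 1 :=
    Nat.eq_of_mul_eq_mul_right hq1 (by rw [one_mul]; exact h)
  obtain ⟨a, ha⟩ := Set.ncard_eq_one.mp h1
  have h2 : 𝔔 ∈ primesOver Q (𝓞 F) := ⟨inferInstance, inferInstance⟩
  have h3 : 𝔔' ∈ primesOver Q (𝓞 F) := ⟨inferInstance, inferInstance⟩
  rw [ha, Set.mem_singleton_iff] at h2 h3
  rw [h2, h3]

theorem smul_eq_over (hpq : q % p = 1) (Q : Ideal (𝓞 K)) [Q.IsPrime] (hqQ : (q : 𝓞 K) ∈ Q)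
    (𝔔 : Ideal (𝓞 F)) [𝔔.IsPrime] [h𝔔 : 𝔔.LiesOver Q] (σ : Gal(F/K)) : σ • 𝔔 = 𝔔 := by
  have : IsGalois K F := IsCyclotomicExtension.isGalois {q} K F
  have : (σ • 𝔔).LiesOver Q := inferInstance
  have : (σ • 𝔔).IsPrime := inferInstance
  exact unique_over hpq Q hqQ _ _

/-- Away from `q`, an invariant ideal contained in `𝔓` is divisible by `P 𝓞_F`. -/
theorem map_dvd (hpq : q % p = 1) (P : Ideal (𝓞 K)) [P.IsPrime] (hP0 : P ≠ ⊥)
    (hqP : (q : 𝓞 K) ∉ P) (J : Ideal (𝓞 F)) (hJ : ∀ σ : Gal(F/K), σ • J = J)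
    (𝔓 : Ideal (𝓞 F)) [𝔓.IsPrime] [h𝔓 : 𝔓.LiesOver P] (hJ𝔓 : J ≤ 𝔓) :
    P.map (algebraMap (𝓞 K) (𝓞 F)) ∣ J := by
  classical
  have : IsGalois K F := IsCyclotomicExtension.isGalois {q} K F
  have : P.IsMaximal := Ring.DimensionLEOne.maximalOfPrime hP0 inferInstance
  rw [map_algebraMap_eq_finsetProd_pow hP0]
  have h1 : ∀ 𝔓' ∈ (P.primesOver (𝓞 F)).toFinset, 𝔓' ^ 𝔓'.ramificationIdx (𝓞 K) = 𝔓' := by
    intro 𝔓' h
    rw [Set.mem_toFinset] at h
    have := h.1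
    have := h.2
    rw [ramificationIdx_eq_one (ne_of_mod hpq) P hP0 hqP 𝔓', pow_one]
  rw [Finset.prod_congr rfl h1]
  apply Finset.prod_dvd_of_coprime
  · intro a ha b hb hab
    rw [Finset.mem_coe, Set.mem_toFinset] at ha hb
    have h2 : a.IsMaximal := by
      have := ha.1; have := ha.2
      exact .of_liesOver_isMaximal a P
    have h3 : b.IsMaximal := by
      have := hb.1; have := hb.2
      exact .of_liesOver_isMaximal b P
    exact Ideal.isCoprime_of_isMaximal hab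
  · intro a ha
    rw [Set.mem_toFinset] at ha
    have := ha.1; have := ha.2
    obtain ⟨σ, rfl⟩ := exists_smul_eq_of_isGaloisGroup P 𝔓 a Gal(F/K)
    rw [dvd_iff_le, ← hJ σ]
    exact (pointwise_smul_le_pointwise_smul_iff (a := σ)).mpr hJ𝔓


theorem smul_map (P : Ideal (𝓞 K)) (σ : Gal(F/K)) :
    σ • (P.map (algebraMap (𝓞 K) (𝓞 F))) = P.map (algebraMap (𝓞 K) (𝓞 F)) := by
  have hle : ∀ σ : Gal(F/K), σ • (P.map (algebraMap (𝓞 K) (𝓞 F))) ≤
      P.map (algebraMap (𝓞 K) (𝓞 F)) := by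
    intro σ
    rw [pointwise_smul_def, Ideal.map_map, map_le_iff_le_comap]
    intro x hx
    rw [mem_comap]
    have : (MulSemiringAction.toRingHom Gal(F/K) (𝓞 F) σ).comp (algebraMap (𝓞 K) (𝓞 F)) x =
        algebraMap (𝓞 K) (𝓞 F) x := by
      apply RingOfIntegers.ext
      change σ (algebraMap K F x) = algebraMap K F x
      exact σ.commutes _
    rw [this]
    exact mem_map_of_mem _ hx
  apply le_antisymm (hle σ)
  have h1 := hle σ⁻¹
  calc P.map (algebraMap (𝓞 K) (𝓞 F)) = σ • σ⁻¹ • P.map (algebraMap (𝓞 K) (𝓞 F)) := by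
        rw [smul_inv_smul]
    _ ≤ _ := (pointwise_smul_le_pointwise_smul_iff (a := σ)).mpr h1

theorem count_mul {𝔔 I J : Ideal (𝓞 F)} (hI : I ≠ ⊥) (hJ : J ≠ ⊥) :
    open Classical in (normalizedFactors (I * J)).count 𝔔 =
      (normalizedFactors I).count 𝔔 + (normalizedFactors J).count 𝔔 := by
  classical
  rw [normalizedFactors_mul hI hJ, Multiset.count_add]

/-- The class of the relative norm of an invariant ideal, modulo `p`-th powers. -/
theorem cl_relNorm (hpq : q % p = 1) (χ : ClassGroup (𝓞 K) →* M) (hχ : ∀ c, χ c ^ p = 1)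
    (S : Finset (Ideal (𝓞 K))) (hS : ∀ Q, Q ∈ S ↔ Q.IsPrime ∧ (q : 𝓞 K) ∈ Q)
    (𝔔 : Ideal (𝓞 K) → Ideal (𝓞 F)) (h𝔔 : ∀ Q ∈ S, (𝔔 Q).IsPrime ∧ (𝔔 Q).LiesOver Q) (n : ℕ) :
    ∀ J : Ideal (𝓞 F), J ≠ ⊥ → (∀ σ : Gal(F/K), σ • J = J) → absNorm J = n →
    cl χ (relNorm (𝓞 K) J) =
      ∏ Q ∈ S, cl χ Q ^ (open Classical in (normalizedFactors J).count (𝔔 Q)) := by
  classical
  have : IsGalois K F := IsCyclotomicExtension.isGalois {q} K F
  induction n using Nat.strong_induction_on with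
  | _ n ih =>
  intro J hJ0 hJ hn
  by_cases htop : J = ⊤
  · subst htop
    rw [relNorm_top, cl_top]
    rw [← Ideal.one_eq_top, normalizedFactors_one]
    simp
  obtain ⟨𝔓, h𝔓, hJ𝔓⟩ := exists_le_maximal J htop
  have h𝔓0 : 𝔓 ≠ ⊥ := fun h => hJ0 (le_bot_iff.mp (h ▸ hJ𝔓))
  have hpos : 0 < absNorm J := Nat.pos_of_ne_zero (by rwa [Ne, absNorm_eq_zero_iff])
  set P := under (𝓞 K) 𝔓 with hPdef
  have hPover : 𝔓.LiesOver P := over_under 𝔓
  have hPprime : P.IsPrime := IsPrime.under (𝓞 K) 𝔓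
  have hP0 : P ≠ ⊥ := fun h => h𝔓0 (eq_bot_of_comap_eq_bot (R := 𝓞 K) h)
  by_cases hq𝔓 : (q : 𝓞 K) ∈ P
  · -- the ramified case
    have hPS : P ∈ S := (hS P).mpr ⟨hPprime, hq𝔓⟩
    have h1 := (h𝔔 P hPS).1
    have h2 := (h𝔔 P hPS).2
    have h3 : 𝔔 P = 𝔓 := unique_over hpq P hq𝔓 _ _
    obtain ⟨J', rfl⟩ := dvd_iff_le.mpr hJ𝔓
    have hJ'0 : J' ≠ ⊥ := right_ne_zero_of_mul hJ0
    have hJ' : ∀ σ : Gal(F/K), σ • J' = J' := by
      intro σ
      have h4 := hJ σ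
      rw [smul_mul', smul_eq_over hpq P hq𝔓 𝔓 σ] at h4
      exact mul_left_cancel₀ h𝔓0 h4
    have hlt : absNorm J' < n := by
      rw [← hn, map_mul]
      have h5 : 1 < absNorm 𝔓 := by
        rw [absNorm_𝔔 hpq P hq𝔓 𝔓]; exact hq.out.one_lt
      have h6 : 0 < absNorm J' := Nat.pos_of_ne_zero (by rwa [Ne, absNorm_eq_zero_iff])
      nlinarith
    have h7 := ih _ hlt J' hJ'0 hJ' rfl
    have h8 : relNorm (𝓞 K) 𝔓 = P := by
      have : P.IsMaximal := Ring.DimensionLEOne.maximalOfPrime hP0 inferInstance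
      rw [relNorm_eq_pow_of_isMaximal 𝔓 P, (over_q hpq P hq𝔓 𝔓).2.2.2.1, pow_one]
    have h9 : relNorm (𝓞 K) J' ≠ ⊥ := by rwa [Ne, relNorm_eq_bot_iff]
    rw [map_mul, h8, cl_mul χ hP0 h9, h7]
    have h10 : ∀ Q ∈ S, cl χ Q ^ ((normalizedFactors (𝔓 * J')).count (𝔔 Q)) =
        (if Q = P then cl χ P else 1) * cl χ Q ^ ((normalizedFactors J').count (𝔔 Q)) := by
      intro Q hQ
      rw [count_mul h𝔓0 hJ'0, pow_add]
      congr 1
      rw [normalizedFactors_irreducible (prime_of_isPrime h𝔓0 inferInstance).irreducible,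
        normalize_eq, Multiset.count_singleton]
      by_cases hQP : Q = P
      · subst hQP
        rw [if_pos h3, if_pos rfl, pow_one]
      · rw [if_neg hQP, if_neg, pow_zero]
        intro h11
        apply hQP
        have h12 := (h𝔔 Q hQ).2.over
        rw [h12, h11]
    rw [Finset.prod_congr rfl h10, Finset.prod_mul_distrib, Finset.prod_ite_eq' S P, if_pos hPS]
  · -- the unramified case
    obtain ⟨J', hJ'eq⟩ := map_dvd hpq P hP0 hq𝔓 J hJ 𝔓 hJ𝔓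
    have hmap0 : P.map (algebraMap (𝓞 K) (𝓞 F)) ≠ ⊥ := fun h => hJ0 (by
      rw [hJ'eq, h, bot_mul])
    have hJ'0 : J' ≠ ⊥ := fun h => hJ0 (by rw [hJ'eq, h, mul_bot])
    have hJ' : ∀ σ : Gal(F/K), σ • J' = J' := by
      intro σ
      have h4 := hJ σ
      rw [hJ'eq, smul_mul', smul_map] at h4
      exact mul_left_cancel₀ hmap0 h4
    have hmaple : P.map (algebraMap (𝓞 K) (𝓞 F)) ≤ 𝔓 := map_le_iff_le_comap.mpr le_rfl
    have hlt : absNorm J' < n := by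
      rw [← hn, hJ'eq, map_mul]
      have h5 : 1 < absNorm (P.map (algebraMap (𝓞 K) (𝓞 F))) := by
        have h5a : absNorm (P.map (algebraMap (𝓞 K) (𝓞 F))) ≠ 0 := by
          rwa [Ne, absNorm_eq_zero_iff]
        have h5b : absNorm (P.map (algebraMap (𝓞 K) (𝓞 F))) ≠ 1 := by
          rw [Ne, absNorm_eq_one_iff]
          intro h
          rw [h] at hmaple
          exact h𝔓.ne_top (top_le_iff.mp hmaple)
        omega
      have h6 : 0 < absNorm J' := Nat.pos_of_ne_zero (by rwa [Ne, absNorm_eq_zero_iff])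
      nlinarith
    have h7 := ih _ hlt J' hJ'0 hJ' rfl
    have h9 : relNorm (𝓞 K) J' ≠ ⊥ := by rwa [Ne, relNorm_eq_bot_iff]
    rw [hJ'eq, map_mul, relNorm_algebraMap, cl_mul χ (pow_ne_zero _ hP0) h9, h7, cl_pow χ hP0]
    have h10 : cl χ P ^ (Module.finrank (𝓞 K) (𝓞 F)) = 1 := by
      have h11 : p ∣ Module.finrank (𝓞 K) (𝓞 F) := by
        have h12 : Module.finrank (𝓞 K) (𝓞 F) = q - 1 := by
          rw [← finrank_F (p := p) (K := K) (F := F) (ne_of_mod hpq)]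
          exact (IsFractionRing.finrank_eq (𝓞 K) K (𝓞 F) F).symm
        rw [h12]
        exact (Nat.modEq_iff_dvd' hq.out.one_le).mp (by
          rw [Nat.ModEq, hpq, Nat.mod_eq_of_lt hp.out.one_lt])
      obtain ⟨k, hk⟩ := h11
      rw [hk, pow_mul, cl_pow_eq_one χ hχ, one_pow]
    rw [h10, one_mul]
    apply Finset.prod_congr rfl
    intro Q hQ
    have h13 : (normalizedFactors (P.map (algebraMap (𝓞 K) (𝓞 F)))).count (𝔔 Q) = 0 := by
      rw [Multiset.count_eq_zero]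
      intro hmem
      have h14 := dvd_of_mem_normalizedFactors hmem
      rw [dvd_iff_le, map_le_iff_le_comap] at h14
      have h15 := (h𝔔 Q hQ).2.over
      have h16 : P ≤ Q := by rw [h15]; exact h14
      have h17 : P.IsMaximal := Ring.DimensionLEOne.maximalOfPrime hP0 inferInstance
      have h18 := h17.eq_of_le ((hS Q).mp hQ).1.ne_top h16
      exact hq𝔓 (h18 ▸ ((hS Q).mp hQ).2)
    rw [count_mul hmap0 hJ'0, h13, zero_add]

end Fermat.Agent.S14thaine
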