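/-
Hilbert 90 and the local computation for the Thaine relation.
-/
import Mathlib
import Fermat.Agent.S14_ThaineIdeal

set_option autoImplicit false
set_option linter.unusedSectionVars false

namespace Fermat.Agent.S14thaine

open NumberField Ideal UniqueFactorizationMonoid
open scoped Pointwise

section Dedekind

variable {R : Type*} [CommRing R] [IsDedekindDomain R]

/-- Two elements of the same valuation at `𝔔` differ by a unit at `𝔔`. -/
theorem exists_mul_eq_mul (𝔔 : Ideal R) [h𝔔 : 𝔔.IsPrime] (h0 : 𝔔 ≠ ⊥) {x y : R} (hx : x ≠ 0)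
    (hy : y ≠ 0)
    (h : open Classical in (normalizedFactors (span {x})).count 𝔔 =
      (normalizedFactors (span {y})).count 𝔔) :
    ∃ c d : R, c ∉ 𝔔 ∧ d ∉ 𝔔 ∧ c * x = y * d := by
  classical
  have hx0 : span {x} ≠ ⊥ := by rwa [Ne, span_singleton_eq_bot]
  have hy0 : span {y} ≠ ⊥ := by rwa [Ne, span_singleton_eq_bot]
  have hirr : Irreducible 𝔔 := (prime_of_isPrime h0 h𝔔).irreducible
  set n := (normalizedFactors (span {y})).count 𝔔 with hn
  have key : ∀ {I : Ideal R}, I ≠ ⊥ → ∀ m : ℕ, 𝔔 ^ m ∣ I ↔ m ≤ (normalizedFactors I).count 𝔔 := by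
    intro I hI m
    rw [pow_dvd_iff_le_emultiplicity, emultiplicity_eq_count_normalizedFactors hirr hI,
      normalize_eq]
    exact ENat.natCast_le_natCast
  obtain ⟨A, hA⟩ := (key hx0 n).mpr h.ge
  obtain ⟨B, hB⟩ := (key hy0 n).mpr le_rfl
  have hBQ : ¬ B ≤ 𝔔 := by
    intro hle
    obtain ⟨B', rfl⟩ := dvd_iff_le.mpr hle
    have : 𝔔 ^ (n + 1) ∣ span {y} := ⟨B', by rw [hB, pow_succ, mul_assoc]⟩
    have := (key hy0 (n + 1)).mp this
    omega
  obtain ⟨β, hβB, hβQ⟩ := SetLike.not_le_iff_exists.mp hBQ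
  have h1 : β * x ∈ span {y} := by
    have h2 : β * x ∈ B * span {x} := mul_mem_mul hβB (mem_span_singleton_self x)
    have h3 : B * span {x} ≤ span {y} := by
      rw [← dvd_iff_le]
      exact ⟨A, by rw [hA, hB]; ring⟩
    exact h3 h2
  obtain ⟨d, hd⟩ := mem_span_singleton.mp h1
  refine ⟨β, d, hβQ, ?_, hd⟩
  intro hdQ
  have h4 : 𝔔 ^ (n + 1) ∣ span {β * x} := by
    rw [hd, ← span_singleton_mul_span_singleton, pow_succ, hB]
    have : 𝔔 ∣ span {d} := by rw [dvd_iff_le, span_singleton_le_iff_mem]; exact hdQ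
    obtain ⟨D, hD⟩ := this
    exact ⟨B * D, by rw [hD]; ring⟩
  have hβ0 : β ≠ 0 := fun hb => hβQ (hb ▸ 𝔔.zero_mem)
  have h5 : 𝔔 ^ (n + 1) ∣ span {x} := by
    rw [← span_singleton_mul_span_singleton] at h4
    refine (prime_of_isPrime h0 h𝔔).pow_dvd_of_dvd_mul_left (n + 1) ?_ h4
    rw [dvd_iff_le, span_singleton_le_iff_mem]
    exact hβQ
  have := (key hx0 (n + 1)).mp h5
  omega

end Dedekind

variable {p q : ℕ} [hp : Fact p.Prime] [hq : Fact q.Prime]
  {K : Type*} [Field K] [NumberField K] [hK : IsCyclotomicExtension {p} ℚ K]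
  {F : Type*} [Field F] [NumberField F] [Algebra K F] [hF : IsCyclotomicExtension {q} K F]

/-- The norm of `1 - ζ_p ζ_q`. -/
theorem norm_eq_one (hpq : q % p = 1) {ζ : K} (hζ : IsPrimitiveRoot ζ p) {w : F}
    (hw : IsPrimitiveRoot w q) : Algebra.norm K (1 - algebraMap K F ζ * w) = 1 := by
  classical
  have hG : IsGalois K F := IsCyclotomicExtension.isGalois {q} K F
  have : NeZero q := ⟨hq.out.ne_zero⟩
  apply (algebraMap K F).injective
  rw [Algebra.norm_eq_prod_automorphisms, map_one]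
  set z := algebraMap K F ζ with hz
  have h1 : ∀ σ : Gal(F/K), σ (1 - z * w) = 1 - (σ w) * z := by
    intro σ
    rw [map_sub, map_one, map_mul, hz, σ.commutes, mul_comm]
  rw [Finset.prod_congr rfl (fun σ _ => h1 σ)]
  have hinj : Function.Injective (fun σ : Gal(F/K) => σ w) := by
    intro σ τ h
    apply IsPrimitiveRoot.autToPow_injective (K := K) hw
    have h2 := hw.autToPow_spec K σ
    have h3 := hw.autToPow_spec K τ
    simp only at h
    rw [h, ← h3] at h2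
    have h4 := hw.pow_inj (ZMod.val_lt _) (ZMod.val_lt _) h2
    exact Units.ext (ZMod.val_injective _ h4)
  have h2 : Finset.univ.image (fun σ : Gal(F/K) => σ w) =
      (Polynomial.nthRootsFinset q (1 : F)).erase 1 := by
    apply Finset.eq_of_subset_of_card_le
    · intro η hη
      rw [Finset.mem_image] at hη
      obtain ⟨σ, -, rfl⟩ := hη
      rw [Finset.mem_erase, Polynomial.mem_nthRootsFinset hq.out.pos]
      refine ⟨?_, by rw [← map_pow, hw.pow_eq_one, map_one]⟩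
      intro h
      have : w = 1 := σ.injective (by rw [h, map_one])
      exact hw.ne_one hq.out.one_lt this
    · rw [Finset.card_image_of_injective _ hinj, Finset.card_erase_of_mem
        ((Polynomial.mem_nthRootsFinset hq.out.pos 1).mpr (one_pow q)), hw.card_nthRootsFinset,
        Finset.card_univ, ← Nat.card_eq_fintype_card, card_gal (p := p) (ne_of_mod hpq)]
  rw [← Finset.prod_image (g := fun σ : Gal(F/K) => σ w) (f := fun η => 1 - η * z)
    (fun a _ b _ h => hinj h), h2]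
  have h3 := hw.pow_sub_pow_eq_prod_sub_mul (1 : F) z hq.out.pos
  have hzq : z ^ q = z := by
    have h4 : q = p * (q / p) + 1 := by
      have := Nat.div_add_mod q p
      rw [hpq] at this
      exact this.symm
    have h5 : z ^ p = 1 := by rw [hz, ← map_pow, hζ.pow_eq_one, map_one]
    rw [h4, pow_succ, pow_mul, h5, one_pow, one_mul]
  have hmem : (1 : F) ∈ Polynomial.nthRootsFinset q (1 : F) :=
    (Polynomial.mem_nthRootsFinset hq.out.pos 1).mpr (one_pow q)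
  rw [one_pow, hzq, ← Finset.mul_prod_erase _ _ hmem, one_mul] at h3
  have hz1 : 1 - z ≠ 0 := by
    rw [sub_ne_zero]
    intro h
    have : ζ = 1 := (algebraMap K F).injective (by rw [← hz, ← h, map_one])
    exact hζ.ne_one hp.out.one_lt this
  exact (mul_left_cancel₀ hz1 (by rw [mul_one]; exact h3)).symm

theorem valuation_pi (hpq : q % p = 1) (Q : Ideal (𝓞 K)) [Q.IsPrime] (hqQ : (q : 𝓞 K) ∈ Q)
    (𝔔 : Ideal (𝓞 F)) [𝔔.IsPrime] [h𝔔 : 𝔔.LiesOver Q] {w : 𝓞 F} (hw : IsPrimitiveRoot w q) :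
    w - 1 ∈ 𝔔 ∧ open Classical in (normalizedFactors (span {w - 1})).count 𝔔 = 1 := by
  classical
  obtain ⟨h1, h2, h3, h4, h5⟩ := over_q hpq Q hqQ 𝔔
  have hw' : IsPrimitiveRoot (w : F) q := hw.map_of_injective RingOfIntegers.coe_injective
  have h6 : Associated ((w - 1) ^ (q - 1)) (q : 𝓞 F) :=
    IsCyclotomicExtension.Rat.associated_zeta_sub_one_pow_prime q hw'
  have h𝔔0 : 𝔔 ≠ ⊥ := by
    rintro rfl
    have := absNorm_𝔔 hpq Q hqQ (⊥ : Ideal (𝓞 F))
    rw [absNorm_bot] at this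
    exact hq.out.ne_zero this.symm
  have hq0 : (q : 𝓞 F) ≠ 0 := by exact_mod_cast hq.out.ne_zero
  have hw1 : w - 1 ≠ 0 := by
    rw [sub_ne_zero]
    exact hw.ne_one hq.out.one_lt
  have h7 : span {w - 1} ^ (q - 1) = span {(q : 𝓞 F)} := by
    rw [span_singleton_pow, span_singleton_eq_span_singleton]
    exact h6
  have hq1 : 0 < q - 1 := by have := hq.out.two_le; omega
  have h8 : (normalizedFactors (span {(q : 𝓞 F)})).count 𝔔 = q - 1 := by
    rw [← h3]
    have h9 : (span {(q : ℤ)}).map (algebraMap ℤ (𝓞 F)) = span {(q : 𝓞 F)} := by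
      rw [map_span, Set.image_singleton]
      simp
    have h10 : (span {(q : ℤ)}).map (algebraMap ℤ (𝓞 F)) ≠ ⊥ := by
      rw [h9, Ne, span_singleton_eq_bot]; exact hq0
    rw [IsDedekindDomain.ramificationIdx_eq_normalizedFactors_count (span {(q : ℤ)}) 𝔔 h10, h9]
  rw [← h7, normalizedFactors_pow, Multiset.count_nsmul] at h8
  have h11 : (normalizedFactors (span {w - 1})).count 𝔔 = 1 :=
    Nat.eq_of_mul_eq_mul_left hq1 (by rw [mul_one]; exact h8)
  refine ⟨?_, h11⟩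
  have h12 : 𝔔 ∈ normalizedFactors (span {w - 1}) := by
    rw [← Multiset.one_le_count_iff_mem, h11]
  have := dvd_of_mem_normalizedFactors h12
  rwa [dvd_iff_le, span_singleton_le_iff_mem] at this


/-- `τ` acts trivially modulo `𝔔`. -/
theorem smul_sub_mem (hpq : q % p = 1) (Q : Ideal (𝓞 K)) [Q.IsPrime] (hqQ : (q : 𝓞 K) ∈ Q)
    (𝔔 : Ideal (𝓞 F)) [𝔔.IsPrime] [h𝔔 : 𝔔.LiesOver Q] (τ : Gal(F/K)) (x : 𝓞 F) :
    τ • x - x ∈ 𝔔 := by
  obtain ⟨n, hn⟩ := exists_int_sub_mem 𝔔 (absNorm_𝔔 hpq Q hqQ 𝔔) x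
  have h1 : τ • (x - n) ∈ 𝔔 := by
    rw [← smul_eq_over hpq Q hqQ 𝔔 τ]
    exact smul_mem_pointwise_smul _ _ _ hn
  have h2 : τ • (x - (n : 𝓞 F)) = τ • x - n := by
    rw [smul_sub]
    congr 1
    exact map_intCast (MulSemiringAction.toRingHom Gal(F/K) (𝓞 F) τ) n
  rw [h2] at h1
  have h3 : τ • x - x = (τ • x - n) - (x - n) := by ring
  rw [h3]
  exact sub_mem h1 hn

/-- The local computation: `g ^ n (1 - ζ_p) ≡ 1 mod 𝔔`, `n = v_𝔔(b)`. -/
theorem local_cong (hpq : q % p = 1) (Q : Ideal (𝓞 K)) [Q.IsPrime] (hqQ : (q : 𝓞 K) ∈ Q)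
    (𝔔 : Ideal (𝓞 F)) [𝔔.IsPrime] [h𝔔 : 𝔔.LiesOver Q] {w : 𝓞 F} (hw : IsPrimitiveRoot w q)
    (z : 𝓞 F) (τ : Gal(F/K)) (g : ℕ) (hτ : τ • w = w ^ g) (b : 𝓞 F) (hb0 : b ≠ 0)
    (hb : (1 - z * w) * (τ • b) = b) :
    (g : 𝓞 F) ^ (open Classical in (normalizedFactors (span {b})).count 𝔔) * (1 - z) - 1 ∈ 𝔔 := by
  classical
  obtain ⟨hπ, hπ1⟩ := valuation_pi hpq Q hqQ 𝔔 hw
  set n := (normalizedFactors (span {b})).count 𝔔 with hn
  have h𝔔0 : 𝔔 ≠ ⊥ := by
    rintro rfl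
    have := absNorm_𝔔 hpq Q hqQ (⊥ : Ideal (𝓞 F))
    rw [absNorm_bot] at this
    exact hq.out.ne_zero this.symm
  have hw1 : w - 1 ≠ 0 := by
    rw [sub_ne_zero]
    exact hw.ne_one hq.out.one_lt
  have hcount : (normalizedFactors (span {b})).count 𝔔 =
      (normalizedFactors (span {(w - 1) ^ n})).count 𝔔 := by
    rw [← span_singleton_pow, normalizedFactors_pow, Multiset.count_nsmul, hπ1, mul_one]
  obtain ⟨c, d, hc, hd, hcd⟩ := exists_mul_eq_mul 𝔔 h𝔔0 hb0 (pow_ne_zero n hw1) hcount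
  -- `τ (w - 1) = (w - 1) s`
  set s := ∑ i ∈ Finset.range g, w ^ i with hs
  have hτπ : τ • (w - 1) = (w - 1) * s := by
    rw [smul_sub, hτ, smul_one, hs, mul_geom_sum]
  have hsg : s - g ∈ 𝔔 := by
    have h1 : s - g = ∑ i ∈ Finset.range g, (w ^ i - 1) := by
      rw [hs]; simp [Finset.sum_sub_distrib]
    rw [h1]
    refine sum_mem fun i _ => ?_
    exact 𝔔.mem_of_dvd (sub_one_dvd_pow_sub_one w i) hπ
  have h1 : (τ • c) * (τ • b) = ((w - 1) * s) ^ n * (τ • d) := by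
    rw [← smul_mul', hcd, smul_mul', smul_pow', hτπ]
  have h2 : (w - 1) ^ n * ((τ • c) * d) = (w - 1) ^ n * ((1 - z * w) * c * s ^ n * (τ • d)) := by
    have h3 : (τ • c) * (c * b) = (1 - z * w) * c * (((w - 1) * s) ^ n * (τ • d)) := by
      rw [← h1]
      nth_rewrite 1 [← hb]
      ring
    rw [hcd, mul_pow] at h3
    linear_combination h3
  have h3 := mul_left_cancel₀ (pow_ne_zero n hw1) h2
  -- reduce modulo `𝔔`
  rw [← Ideal.Quotient.eq_zero_iff_mem]
  have e1 : Ideal.Quotient.mk 𝔔 (τ • c) = Ideal.Quotient.mk 𝔔 c :=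
    Ideal.Quotient.eq.mpr (smul_sub_mem hpq Q hqQ 𝔔 τ c)
  have e2 : Ideal.Quotient.mk 𝔔 (τ • d) = Ideal.Quotient.mk 𝔔 d :=
    Ideal.Quotient.eq.mpr (smul_sub_mem hpq Q hqQ 𝔔 τ d)
  have e3 : Ideal.Quotient.mk 𝔔 s = Ideal.Quotient.mk 𝔔 (g : 𝓞 F) :=
    Ideal.Quotient.eq.mpr hsg
  have e4 : Ideal.Quotient.mk 𝔔 w = 1 := by
    have := Ideal.Quotient.eq_zero_iff_mem.mpr hπ
    rwa [map_sub, map_one, sub_eq_zero] at this
  have h4 := congrArg (Ideal.Quotient.mk 𝔔) h3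
  simp only [map_mul, map_sub, map_pow, map_one, e1, e2, e3, e4, mul_one] at h4
  have hc' : Ideal.Quotient.mk 𝔔 c ≠ 0 := fun h => hc (Ideal.Quotient.eq_zero_iff_mem.mp h)
  have hd' : Ideal.Quotient.mk 𝔔 d ≠ 0 := fun h => hd (Ideal.Quotient.eq_zero_iff_mem.mp h)
  simp only [map_mul, map_sub, map_pow, map_one]
  apply mul_left_cancel₀ (mul_ne_zero hc' hd')
  linear_combination -h4

end Fermat.Agent.S14thaine
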