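/-
The Thaine relation: cyclotomic units give relations in the class group of `K = ℚ(ζ_p)`.
-/
import Mathlib
import Fermat.Agent.S14_ThaineLocal

set_option autoImplicit false
set_option linter.unusedSectionVars false

namespace Fermat.Agent.S14thaine

open NumberField Ideal UniqueFactorizationMonoid
open scoped Pointwise

variable {p q : ℕ} [hp : Fact p.Prime] [hq : Fact q.Prime]
  {K : Type} [Field K] [NumberField K] [hK : IsCyclotomicExtension {p} ℚ K]
  {M : Type*} [CommGroup M]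

theorem relation (hpq : q % p = 1) (χ : ClassGroup (𝓞 K) →* M) (hχ : ∀ c, χ c ^ p = 1)
    {ζ : 𝓞 K} (hζ : IsPrimitiveRoot ζ p)
    (S : Finset (Ideal (𝓞 K))) (hS : ∀ Q, Q ∈ S ↔ Q.IsPrime ∧ (q : 𝓞 K) ∈ Q) :
    ∃ (g : ℕ) (n : Ideal (𝓞 K) → ℕ),
      (∀ Q ∈ S, (g : 𝓞 K) ^ (n Q) * (1 - ζ) - 1 ∈ Q) ∧ ∏ Q ∈ S, cl χ Q ^ n Q = 1 := by
  classical
  let F := CyclotomicField q K
  have hcyc : IsCyclotomicExtension {q} K F := inferInstance
  have hG : IsGalois K F := IsCyclotomicExtension.isGalois {q} K F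
  have : NeZero q := ⟨hq.out.ne_zero⟩
  have hw := IsCyclotomicExtension.zeta_spec q K F
  have hcycl := isCyclic_gal (K := K) hw
  obtain ⟨g, τ, -, hτ, hτw⟩ := exists_generator (p := p) (K := K) (ne_of_mod hpq) hw
  -- the unit `u = 1 - ζ_p ζ_q`
  set w : 𝓞 F := hw.toInteger with hwdef
  have hwI : IsPrimitiveRoot w q := hw.toInteger_isPrimitiveRoot
  have hζK : IsPrimitiveRoot (ζ : K) p := hζ.map_of_injective RingOfIntegers.coe_injective
  set z : 𝓞 F := algebraMap (𝓞 K) (𝓞 F) ζ with hz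
  have hnorm : Algebra.norm K (algebraMap (𝓞 F) F (1 - z * w)) = 1 := by
    have h1 : algebraMap (𝓞 F) F (1 - z * w) = 1 - algebraMap K F ζ * (w : F) := by
      rw [map_sub, map_one, map_mul]
      rfl
    rw [h1]
    exact norm_eq_one hpq hζK hw
  have hunit : IsUnit (1 - z * w) := by
    rw [← RingOfIntegers.isUnit_norm K]
    have h1 : RingOfIntegers.norm K (1 - z * w) = 1 := by
      apply RingOfIntegers.ext
      rw [RingOfIntegers.coe_norm]
      exact hnorm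
    rw [h1]
    exact isUnit_one
  obtain ⟨b, hb0, hb⟩ := groupCohomology.exists_mul_galRestrict_of_norm_eq_one (A := 𝓞 K) hτ hnorm
  have hb' : (1 - z * w) * (τ • b) = b := by
    have h1 : galRestrict (𝓞 K) K F (𝓞 F) τ b = τ • b := by
      apply RingOfIntegers.ext
      exact algebraMap_galRestrict_apply (𝓞 K) τ b
    rw [← h1]
    exact hb
  have hτw' : τ • w = w ^ (g : ZMod q).val := by
    apply RingOfIntegers.ext
    exact hτw
  -- the invariant ideal `(b)`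
  have hJ : ∀ σ : Gal(F/K), σ • span {b} = span {b} := by
    intro σ
    have h1 : τ ∈ MulAction.stabilizer Gal(F/K) (span {b}) := by
      rw [MulAction.mem_stabilizer_iff, pointwise_smul_def, map_span, Set.image_singleton,
        span_singleton_eq_span_singleton]
      obtain ⟨u, hu⟩ := hunit
      refine ⟨u, ?_⟩
      rw [hu, mul_comm]
      exact hb'
    have h2 : Subgroup.zpowers τ ≤ MulAction.stabilizer Gal(F/K) (span {b}) := by
      rwa [Subgroup.zpowers_le]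
    exact h2 (hτ σ)
  -- choose primes above
  have hex : ∀ Q ∈ S, ∃ 𝔔 : Ideal (𝓞 F), 𝔔.IsPrime ∧ 𝔔.LiesOver Q := by
    intro Q hQ
    have := ((hS Q).mp hQ).1
    obtain ⟨⟨𝔔, h1, h2⟩⟩ := Q.nonempty_primesOver (S := 𝓞 F)
    exact ⟨𝔔, h1, h2⟩
  choose! 𝔔 h𝔔 using hex
  refine ⟨(g : ZMod q).val, fun Q => (normalizedFactors (span {b})).count (𝔔 Q), ?_, ?_⟩
  · intro Q hQ
    have h1 := ((hS Q).mp hQ).1
    have h2 := ((hS Q).mp hQ).2
    have h3 := (h𝔔 Q hQ).1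
    have h4 := (h𝔔 Q hQ).2
    have h5 := local_cong hpq Q h2 (𝔔 Q) hwI z τ _ hτw' b hb0 hb'
    have h6 : Q = comap (algebraMap (𝓞 K) (𝓞 F)) (𝔔 Q) := h4.over
    rw [h6, mem_comap, ← h6, map_sub, map_mul, map_pow, map_sub, map_one, map_natCast, ← hz]
    exact h5
  · have h1 := cl_relNorm hpq χ hχ S hS 𝔔 h𝔔 _ (span {b}) (by rwa [Ne, span_singleton_eq_bot]) hJ rfl
    rw [← h1, relNorm_singleton, cl_span_singleton]
    rwa [Ne, Algebra.intNorm_eq_zero]


/-- The `ω²`-cyclotomic unit. -/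
noncomputable def epsZ (p : ℕ) (ζ : 𝓞 K) : 𝓞 K :=
  ∏ b ∈ Finset.Ico 1 p, (∑ i ∈ Finset.range b, ζ ^ i) ^ ((((b : ZMod p) ^ 2)⁻¹).val)

theorem prod_Ico_eq_prod_units {A : Type*} [CommMonoid A] (f : ℕ → A) :
    ∏ b ∈ Finset.Ico 1 p, f b = ∏ b : (ZMod p)ˣ, f (b : ZMod p).val := by
  classical
  symm
  apply Finset.prod_bij (fun (b : (ZMod p)ˣ) _ => (b : ZMod p).val)
  · intro b _
    rw [Finset.mem_Ico]
    refine ⟨?_, ZMod.val_lt _⟩
    rw [Nat.one_le_iff_ne_zero, Ne, ZMod.val_eq_zero]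
    exact b.ne_zero
  · intro a _ b _ h
    exact Units.ext (ZMod.val_injective _ h)
  · intro b hb
    rw [Finset.mem_Ico] at hb
    have hb0 : (b : ZMod p) ≠ 0 := by
      rw [Ne, ZMod.natCast_eq_zero_iff]
      intro h
      have := Nat.le_of_dvd (by omega) h
      omega
    refine ⟨Units.mk0 (b : ZMod p) hb0, Finset.mem_univ _, ?_⟩
    rw [Units.val_mk0, ZMod.val_natCast, Nat.mod_eq_of_lt hb.2]
  · intro b _
    rfl

/-- The set of primes of `K` above `q`. -/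
theorem exists_primes_finset (q : ℕ) (hq0 : q ≠ 0) : ∃ S : Finset (Ideal (𝓞 K)),
    ∀ Q, Q ∈ S ↔ Q.IsPrime ∧ (q : 𝓞 K) ∈ Q := by
  classical
  have hspan : span {(q : 𝓞 K)} ≠ ⊥ := by
    rw [Ne, span_singleton_eq_bot]
    exact_mod_cast hq0
  refine ⟨(normalizedFactors (span {(q : 𝓞 K)})).toFinset, ?_⟩
  intro Q
  rw [Multiset.mem_toFinset, Ideal.mem_normalizedFactors_iff hspan, span_singleton_le_iff_mem]

theorem sum_inv_sq_units (hp5 : 5 ≤ p) : ∑ b : (ZMod p)ˣ, ((b : ZMod p) ^ 2)⁻¹ = 0 := by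
  -- multiply by `4 ≠ 1`
  have h2 : (2 : ZMod p) ≠ 0 := by
    intro h
    have : ((2 : ℕ) : ZMod p) = 0 := by exact_mod_cast h
    rw [ZMod.natCast_eq_zero_iff] at this
    have := Nat.le_of_dvd (by norm_num) this
    omega
  have h3 : (3 : ZMod p) ≠ 0 := by
    intro h
    have : ((3 : ℕ) : ZMod p) = 0 := by exact_mod_cast h
    rw [ZMod.natCast_eq_zero_iff] at this
    have := Nat.le_of_dvd (by norm_num) this
    omega
  set T := ∑ b : (ZMod p)ˣ, ((b : ZMod p) ^ 2)⁻¹ with hT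
  have h4 : T = ((2 : ZMod p) ^ 2)⁻¹ * T := by
    rw [hT, Finset.mul_sum]
    rw [← Equiv.sum_comp (Equiv.mulLeft (Units.mk0 (2 : ZMod p) h2))
      (fun b : (ZMod p)ˣ => ((b : ZMod p) ^ 2)⁻¹)]
    apply Finset.sum_congr rfl
    intro b _
    rw [Equiv.coe_mulLeft, Units.val_mul, Units.val_mk0, mul_pow, mul_inv]
  have h5 : (2 : ZMod p) ^ 2 * T = T := by
    nth_rewrite 1 [h4]
    rw [← mul_assoc, mul_inv_cancel₀ (pow_ne_zero 2 h2), one_mul]
  have h6 : (3 : ZMod p) * T = 0 := by linear_combination h5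
  exact (mul_eq_zero.mp h6).resolve_left h3

/-- **Thaine's relation** for the `ω²`-part. -/
theorem thaine (hp5 : 5 ≤ p) {ζ : 𝓞 K} (hζ : IsPrimitiveRoot ζ p)
    (χ : ClassGroup (𝓞 K) →* Multiplicative (ZMod p))
    (hχ : ∀ σ : Gal(K/ℚ), ∀ I J : nonZeroDivisors (Ideal (𝓞 K)),
      (J : Ideal (𝓞 K)) = σ • (I : Ideal (𝓞 K)) →
      (χ (ClassGroup.mk0 J)).toAdd =
        ((IsCyclotomicExtension.Rat.galEquivZMod p K σ : (ZMod p)ˣ) : ZMod p) ^ 2 *
          (χ (ClassGroup.mk0 I)).toAdd)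
    (Q : nonZeroDivisors (Ideal (𝓞 K))) (hQ : (Q : Ideal (𝓞 K)).IsPrime)
    (hqpr : (absNorm (Q : Ideal (𝓞 K))).Prime) (hqp : absNorm (Q : Ideal (𝓞 K)) ≠ p)
    (hχQ : χ (ClassGroup.mk0 Q) ≠ 1) :
    ∃ y : 𝓞 K, epsZ p ζ - y ^ p ∈ (Q : Ideal (𝓞 K)) := by
  classical
  have hNZ : NeZero p := ⟨hp.out.ne_zero⟩
  have hGal : IsGalois ℚ K := IsCyclotomicExtension.isGalois {p} ℚ K
  set Q' : Ideal (𝓞 K) := (Q : Ideal (𝓞 K)) with hQ'
  have hQ0 : Q' ≠ ⊥ := nonZeroDivisors.coe_ne_zero Q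
  have hQmax : Q'.IsMaximal := Ring.DimensionLEOne.maximalOfPrime hQ0 hQ
  set q := absNorm Q' with hqdef
  have hqF : Fact q.Prime := ⟨hqpr⟩
  have hqmem : (q : 𝓞 K) ∈ Q' := absNorm_mem Q'
  -- `q ≡ 1 mod p`
  have hnd : ¬ q ∣ p := fun h => hqp ((Nat.prime_dvd_prime_iff_eq hqpr hp.out).mp h)
  have hlies : Q'.LiesOver (span {(q : ℤ)}) := by
    obtain ⟨l, hl, hlQ, hlmem⟩ := exists_prime_under Q' hQ0
    obtain rfl := primes_eq_of_mem hl hqpr hlmem hqmem
    exact hlQ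
  have hpq : q % p = 1 := by
    have h1 := IsCyclotomicExtension.Rat.inertiaDeg_eq_of_not_dvd (m := p) q K Q' hnd
    have h2 : q ^ Q'.inertiaDeg ℤ = q := by rw [pow_inertiaDeg q Q']
    have h3 : Q'.inertiaDeg ℤ = 1 := by
      apply Nat.pow_right_injective hqpr.two_le
      simp only
      rw [h2, pow_one]
    rw [h3] at h1
    have h4 : (q : ZMod p) = 1 := orderOf_eq_one_iff.mp h1.symm
    have h5 : ((q : ℕ) : ZMod p) = ((1 : ℕ) : ZMod p) := by simpa using h4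
    rw [ZMod.natCast_eq_natCast_iff', Nat.mod_eq_of_lt hp.out.one_lt] at h5
    exact h5
  obtain ⟨S, hS⟩ := exists_primes_finset (K := K) q hqpr.ne_zero
  have hχp : ∀ c, χ c ^ p = 1 := by
    intro c
    rw [← toAdd_eq_zero, toAdd_pow]
    simp
  obtain ⟨g, n, hloc, hprod⟩ := relation hpq χ hχp hζ S hS
  -- the Galois orbit
  set e := IsCyclotomicExtension.Rat.galEquivZMod p K with he
  let s : (ZMod p)ˣ → Gal(K/ℚ) := fun b => e.symm b⁻¹
  have hsS : ∀ b, s b • Q' ∈ S := by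
    intro b
    rw [hS]
    refine ⟨inferInstance, ?_⟩
    have h1 : s b • (q : 𝓞 K) ∈ s b • Q' := smul_mem_pointwise_smul _ _ _ hqmem
    have h2 : s b • (q : 𝓞 K) = q :=
      map_natCast (MulSemiringAction.toRingHom Gal(K/ℚ) (𝓞 K) (s b)) q
    rwa [h2] at h1
  have himage : Finset.univ.image (fun b => s b • Q') = S := by
    apply Finset.Subset.antisymm
    · intro P hP
      rw [Finset.mem_image] at hP
      obtain ⟨b, -, rfl⟩ := hP
      exact hsS b
    · intro P hP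
      have hP1 := ((hS P).mp hP).1
      have hP2 := ((hS P).mp hP).2
      have hP3 := (inertiaDeg_Q hpq P hP2).1
      obtain ⟨σ, hσ⟩ := exists_smul_eq_of_isGaloisGroup (span {(q : ℤ)}) Q' P Gal(K/ℚ)
      rw [Finset.mem_image]
      refine ⟨(e σ)⁻¹, Finset.mem_univ _, ?_⟩
      simp only [s, inv_inv, MulEquiv.symm_apply_apply]
      exact hσ
  have hcard : S.card = Fintype.card (ZMod p)ˣ := by
    have h1 := ncard_primesOver_mul_ramificationIdxIn_mul_inertiaDegIn (span {(q : ℤ)}) (𝓞 K)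
      Gal(K/ℚ)
    rw [ramificationIdxIn_eq_ramificationIdx (span {(q : ℤ)}) Q' Gal(K/ℚ),
      inertiaDegIn_eq_inertiaDeg (span {(q : ℤ)}) Q' Gal(K/ℚ),
      (inertiaDeg_Q hpq Q' hqmem).2.1, (inertiaDeg_Q hpq Q' hqmem).2.2, mul_one, mul_one] at h1
    have h2 : primesOver (span {(q : ℤ)}) (𝓞 K) = (S : Set (Ideal (𝓞 K))) := by
      ext P
      rw [Finset.mem_coe, hS]
      constructor
      · rintro ⟨h3, h4⟩
        refine ⟨h3, ?_⟩
        have h5 : (q : ℤ) ∈ under ℤ P := by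
          rw [← h4.over]; exact mem_span_singleton_self _
        rw [under_def, mem_comap] at h5
        simpa using h5
      · rintro ⟨h3, h4⟩
        exact ⟨h3, (inertiaDeg_Q hpq P h4).1⟩
    rw [h2, Set.ncard_coe_finset] at h1
    rw [h1, ← Nat.card_eq_fintype_card]
    exact Nat.card_congr e.toEquiv
  have hinj : Function.Injective (fun b => s b • Q') := by
    have h1 : (Finset.univ.image (fun b => s b • Q')).card = (Finset.univ : Finset (ZMod p)ˣ).card := by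
      rw [himage, hcard, Finset.card_univ]
    rw [Finset.card_image_iff] at h1
    exact fun a b h => h1 (Finset.mem_coe.mpr (Finset.mem_univ _))
      (Finset.mem_coe.mpr (Finset.mem_univ _)) h
  set m : (ZMod p)ˣ → ℕ := fun b => n (s b • Q') with hm
  -- the relation
  have hsum : ∑ b : (ZMod p)ˣ, (m b : ZMod p) * ((b : ZMod p) ^ 2)⁻¹ = 0 := by
    have h1 : ∏ b : (ZMod p)ˣ, cl χ (s b • Q') ^ m b = 1 := by
      rw [← hprod, ← himage, Finset.prod_image (fun a _ b _ h => hinj h)]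
    have h2 : ∀ b, (cl χ (s b • Q')).toAdd =
        ((b : ZMod p) ^ 2)⁻¹ * (χ (ClassGroup.mk0 Q)).toAdd := by
      intro b
      have h3 : s b • Q' ≠ ⊥ := by
        intro h
        apply hQ0
        have := congrArg (fun I => (s b)⁻¹ • I) h
        simp only [inv_smul_smul] at this
        rw [this]
        exact smul_bot _
      rw [cl_of_ne χ h3, hχ (s b) Q ⟨s b • Q', mem_nonZeroDivisors_of_ne_zero h3⟩ rfl]
      congr 1
      change ((e (e.symm b⁻¹) : (ZMod p)ˣ) : ZMod p) ^ 2 = _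
      rw [MulEquiv.apply_symm_apply, Units.val_inv_eq_inv_val, inv_pow]
    have h4 := congrArg Multiplicative.toAdd h1
    rw [toAdd_one, toAdd_prod] at h4
    have h5 : ∑ b : (ZMod p)ˣ, (m b : ZMod p) * ((b : ZMod p) ^ 2)⁻¹ *
        (χ (ClassGroup.mk0 Q)).toAdd = 0 := by
      rw [← h4]
      apply Finset.sum_congr rfl
      intro b _
      rw [toAdd_pow, h2, nsmul_eq_mul, mul_assoc]
    rw [← Finset.sum_mul] at h5
    refine (mul_eq_zero.mp h5).resolve_right ?_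
    intro h6
    exact hχQ (toAdd_eq_zero.mp h6)
  -- reduce modulo `Q`
  have hfield : IsField (𝓞 K ⧸ Q') := (Ideal.Quotient.maximal_ideal_iff_isField_quotient Q').mp hQmax
  set π := Ideal.Quotient.mk Q' with hπ
  have hcong : ∀ b : (ZMod p)ˣ, π g ^ m b * (1 - π ζ ^ (b : ZMod p).val) = 1 := by
    intro b
    have h1 := hloc _ (hsS b)
    have h2 := smul_mem_pointwise_smul (s b)⁻¹ _ _ h1
    rw [inv_smul_smul] at h2
    have h3 : (s b)⁻¹ • ((g : 𝓞 K) ^ m b * (1 - ζ) - 1) =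
        (g : 𝓞 K) ^ m b * (1 - ζ ^ (b : ZMod p).val) - 1 := by
      have h4 : (s b)⁻¹ • (g : 𝓞 K) = g :=
        map_natCast (MulSemiringAction.toRingHom Gal(K/ℚ) (𝓞 K) (s b)⁻¹) g
      have h5 : (s b)⁻¹ • ζ = ζ ^ (b : ZMod p).val := by
        rw [IsCyclotomicExtension.Rat.galEquivZMod_smul_of_pow_eq p K (s b)⁻¹ hζ.pow_eq_one]
        congr 3
        change e (e.symm b⁻¹)⁻¹ = b
        rw [map_inv, MulEquiv.apply_symm_apply, inv_inv]
      rw [smul_sub, smul_mul', smul_pow', smul_sub, smul_one, h4, h5]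
    rw [h3, ← Ideal.Quotient.eq_zero_iff_mem, map_sub, map_one, sub_eq_zero] at h2
    rw [map_mul, map_pow, map_sub, map_one, map_pow] at h2
    exact h2
  set ex : (ZMod p)ˣ → ℕ := fun b => ((((b : ZMod p)) ^ 2)⁻¹).val with hex
  have hpm : p ∣ ∑ b : (ZMod p)ˣ, m b * ex b := by
    rw [← ZMod.natCast_eq_zero_iff]
    push_cast
    rw [← hsum]
    apply Finset.sum_congr rfl
    intro b _
    rw [hex]
    simp
  have hpe : p ∣ ∑ b : (ZMod p)ˣ, ex b := by
    rw [← ZMod.natCast_eq_zero_iff]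
    push_cast
    rw [← sum_inv_sq_units hp5]
    apply Finset.sum_congr rfl
    intro b _
    rw [hex]
    simp
  obtain ⟨k, hk⟩ := hpm
  obtain ⟨l, hl⟩ := hpe
  have heps : π (epsZ p ζ) = ∏ b : (ZMod p)ˣ,
      (∑ i ∈ Finset.range (b : ZMod p).val, π ζ ^ i) ^ ex b := by
    rw [epsZ, prod_Ico_eq_prod_units, map_prod]
    apply Finset.prod_congr rfl
    intro b _
    have hexp : ((((((b : ZMod p).val : ℕ) : ZMod p)) ^ 2)⁻¹).val = ex b := by
      rw [ZMod.natCast_zmod_val]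
    rw [hexp, map_pow, map_sum, Finset.sum_congr rfl (fun i _ => map_pow π ζ i)]
  have hfinal : (π g ^ k * (1 - π ζ) ^ l) ^ p * π (epsZ p ζ) = 1 := by
    have h1 : ∏ b : (ZMod p)ˣ, (π g ^ m b * (1 - π ζ ^ (b : ZMod p).val)) ^ ex b = 1 := by
      rw [Finset.prod_congr rfl (fun b _ => by rw [hcong b, one_pow]), Finset.prod_const_one]
    have h2 : ∀ b : (ZMod p)ˣ, (π g ^ m b * (1 - π ζ ^ (b : ZMod p).val)) ^ ex b =
        π g ^ (m b * ex b) * (1 - π ζ) ^ ex b *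
          (∑ i ∈ Finset.range (b : ZMod p).val, π ζ ^ i) ^ ex b := by
      intro b
      rw [← mul_neg_geom_sum, mul_pow, mul_pow, ← pow_mul, mul_assoc]
    rw [Finset.prod_congr rfl (fun b _ => h2 b), Finset.prod_mul_distrib, Finset.prod_mul_distrib,
      Finset.prod_pow_eq_pow_sum, Finset.prod_pow_eq_pow_sum, hk, hl, ← heps] at h1
    rw [mul_pow, ← pow_mul, ← pow_mul, mul_comm k p, mul_comm l p]
    exact h1
  obtain ⟨y, hy⟩ : ∃ y : 𝓞 K, (π g ^ k * (1 - π ζ) ^ l) * π y = 1 := by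
    have h1 : (π g ^ k * (1 - π ζ) ^ l) ≠ 0 := by
      intro h
      rw [h, zero_pow hp.out.ne_zero, zero_mul] at hfinal
      have : Nontrivial (𝓞 K ⧸ Q') := Ideal.Quotient.nontrivial_iff.mpr hQ.ne_top
      exact zero_ne_one hfinal
    obtain ⟨yb, hyb⟩ := hfield.mul_inv_cancel h1
    obtain ⟨y, rfl⟩ := Ideal.Quotient.mk_surjective yb
    exact ⟨y, hyb⟩
  refine ⟨y, ?_⟩
  rw [← Ideal.Quotient.eq_zero_iff_mem, map_sub, map_pow, sub_eq_zero]
  have h1 : π y ^ p * ((π g ^ k * (1 - π ζ) ^ l) ^ p * π (epsZ p ζ)) = π y ^ p := by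
    rw [hfinal, mul_one]
  rw [← h1, ← mul_assoc, ← mul_pow, mul_comm (π y), hy, one_pow, one_mul]

end Fermat.Agent.S14thaine
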