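import Mathlib

/-!
Thaine relation (T4 of S14), part 1: the tower `K = ℚ(ζ_p) ⊆ L = K(ζ_q)`, `q ≡ 1 mod p`.
-/

set_option autoImplicit false

namespace Fermat.Agent.S14thaine63

open NumberField Ideal Polynomial

section Abstract

variable {A B : Type*} [CommRing A] [IsDedekindDomain A] [CommRing B] [IsDedekindDomain B]
  [Algebra A B] [Module.IsTorsionFree A B]

/-- multiplicity of the prime `w` of `B` in `c : A` is `e` times the multiplicity of the prime below. -/
theorem multiplicity_algebraMap_eq (v : IsDedekindDomain.HeightOneSpectrum A)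
    (w : IsDedekindDomain.HeightOneSpectrum B)
    [w.asIdeal.LiesOver v.asIdeal] {c : A} (hc : c ≠ 0) :
    multiplicity w.asIdeal (span {algebraMap A B c}) =
      w.asIdeal.ramificationIdx A * multiplicity v.asIdeal (span {c}) := by
  have hx : Ideal.span {c} ≠ ⊥ := by simp [hc]
  have h1 := Ideal.IsDedekindDomain.emultiplicity_map_eq_ramificationIdx'_mul (R := A) (S := B) hx v.irreducible
    w.irreducible w.ne_bot
  rw [Ideal.map_span, Set.image_singleton] at h1
  have h2 : v.asIdeal.ramificationIdx' w.asIdeal = w.asIdeal.ramificationIdx A :=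
    ramificationIdx'_eq_ramificationIdx v.asIdeal w.asIdeal v.ne_bot
  have h3 := (FiniteMultiplicity.of_prime_left v.prime hx).emultiplicity_eq_multiplicity
  rw [h2, h3] at h1
  exact multiplicity_eq_of_emultiplicity_eq_some (by rw [h1]; push_cast; rfl)

variable (G : Type*) [Group G] [Fintype G] [MulSemiringAction G B]

theorem multiplicity_prod_smul {b : B} (hb : b ≠ 0) (hstab : ∀ σ : G, span {σ • b} = span {b})
    (w : IsDedekindDomain.HeightOneSpectrum B) :
    multiplicity w.asIdeal (span {∏ σ : G, σ • b}) =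
      Fintype.card G * multiplicity w.asIdeal (span {b}) := by
  classical
  have hbs : span {b} ≠ (⊥ : Ideal B) := by simp [hb]
  rw [← Ideal.prod_span_singleton, Finset.prod_congr rfl (fun σ _ => hstab σ), Finset.prod_const,
    Finset.card_univ]
  have h3 := (FiniteMultiplicity.of_prime_left w.prime hbs).emultiplicity_eq_multiplicity
  apply multiplicity_eq_of_emultiplicity_eq_some
  rw [emultiplicity_pow w.prime, h3]
  push_cast
  rfl

end Abstract

end Fermat.Agent.S14thaine63

namespace Fermat.Agent.S14thaine63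

open NumberField Ideal Polynomial

section Tower

variable (p q : ℕ) [hp : Fact p.Prime] [hq : Fact q.Prime] (hpq : p ≠ q)
  (K L : Type*) [Field K] [NumberField K] [Field L] [NumberField L] [Algebra K L]
  [hK : IsCyclotomicExtension {p} ℚ K] [hL : IsCyclotomicExtension {q} K L]

include hpq hK hL in
theorem isCyclotomicExtension_mul : IsCyclotomicExtension {p * q} ℚ L := by
  have h1 : IsCyclotomicExtension ({p} ∪ {q}) ℚ L :=
    IsCyclotomicExtension.trans {p} {q} ℚ K L (FaithfulSMul.algebraMap_injective K L)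
  obtain ⟨a, ha⟩ := IsCyclotomicExtension.exists_isPrimitiveRoot ℚ L (S := {p} ∪ {q}) (n := p)
    (by simp) hp.out.ne_zero
  obtain ⟨b, hb⟩ := IsCyclotomicExtension.exists_isPrimitiveRoot ℚ L (S := {p} ∪ {q}) (n := q)
    (by simp) hq.out.ne_zero
  have hab : IsPrimitiveRoot (a * b) (p * q) := by
    have hcop : Nat.Coprime p q := (Nat.coprime_primes hp.out hq.out).mpr hpq
    have h2 := IsPrimitiveRoot.orderOf (a * b)
    rw [(Commute.all a b).orderOf_mul_eq_mul_orderOf_of_coprime
      (by rw [← ha.eq_orderOf, ← hb.eq_orderOf]; exact hcop), ← ha.eq_orderOf, ← hb.eq_orderOf] at h2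
    exact h2
  have h3 : IsCyclotomicExtension (({p} ∪ {q}) ∪ {p * q}) ℚ L :=
    IsCyclotomicExtension.union_of_isPrimitiveRoot _ ℚ L hab
  have h4 : IsCyclotomicExtension ({p * q} ∪ {p}) ℚ L ↔ IsCyclotomicExtension {p * q} ℚ L :=
    (IsCyclotomicExtension.iff_union_of_dvd ℚ L
      ⟨p * q, by simp, mul_ne_zero hp.out.ne_zero hq.out.ne_zero, dvd_mul_right p q⟩).symm
  have h5 : IsCyclotomicExtension (({p * q} ∪ {p}) ∪ {q}) ℚ L ↔
      IsCyclotomicExtension ({p * q} ∪ {p}) ℚ L :=
    (IsCyclotomicExtension.iff_union_of_dvd ℚ L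
      ⟨p * q, by simp, mul_ne_zero hp.out.ne_zero hq.out.ne_zero, dvd_mul_left q p⟩).symm
  rw [← h4, ← h5]
  convert h3 using 1
  ext x
  simp only [Set.mem_union, Set.mem_singleton_iff]
  tauto

include hpq hK hL in
theorem finrank_eq : Module.finrank K L = q - 1 := by
  have : NeZero p := ⟨hp.out.ne_zero⟩
  have : NeZero q := ⟨hq.out.ne_zero⟩
  have : NeZero (p * q) := ⟨mul_ne_zero hp.out.ne_zero hq.out.ne_zero⟩
  have h := isCyclotomicExtension_mul p q hpq K L
  have h1 : Module.finrank ℚ K = p - 1 := by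
    rw [IsCyclotomicExtension.Rat.finrank p K, Nat.totient_prime hp.out]
  have h2 : Module.finrank ℚ L = (p - 1) * (q - 1) := by
    rw [IsCyclotomicExtension.Rat.finrank (p * q) L,
      Nat.totient_mul ((Nat.coprime_primes hp.out hq.out).mpr hpq), Nat.totient_prime hp.out,
      Nat.totient_prime hq.out]
  have h3 := Module.finrank_mul_finrank ℚ K L
  rw [h1, h2] at h3
  exact Nat.eq_of_mul_eq_mul_left (by have := hp.out.two_le; omega) h3

include hpq hK hL in
theorem irreducible_cyclotomic : Irreducible (cyclotomic q K) := by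
  have : NeZero q := ⟨hq.out.ne_zero⟩
  have hζ := IsCyclotomicExtension.zeta_spec q K L
  have hint : IsIntegral K (IsCyclotomicExtension.zeta q K L) := hζ.isIntegral (NeZero.pos q) |>.tower_top
  have h1 : (minpoly K (IsCyclotomicExtension.zeta q K L)).natDegree = q - 1 := by
    rw [← finrank_eq p q hpq K L, (hζ.powerBasis K).finrank, ← (hζ.powerBasis K).natDegree_minpoly,
      IsPrimitiveRoot.powerBasis_gen]
  have h2 : minpoly K (IsCyclotomicExtension.zeta q K L) = cyclotomic q K := by
    symm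
    apply Polynomial.eq_of_monic_of_dvd_of_natDegree_le (minpoly.monic hint)
      (cyclotomic.monic q K)
    · apply minpoly.dvd
      rw [← eval_map_algebraMap, map_cyclotomic, ← IsRoot.def]
      exact hζ.isRoot_cyclotomic (NeZero.pos q)
    · rw [natDegree_cyclotomic, h1, Nat.totient_prime hq.out]
  rw [← h2]
  exact minpoly.irreducible hint

include hpq hK hL in
theorem ramificationIdx_eq_one (w : Ideal (𝓞 L)) [w.IsPrime] (hw : w ≠ ⊥)
    (hqw : (q : 𝓞 L) ∉ w) : w.ramificationIdx (𝓞 K) = 1 := by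
  have hcyc := isCyclotomicExtension_mul p q hpq K L
  set v : Ideal (𝓞 K) := w.under (𝓞 K) with hv
  have hvw : w.LiesOver v := ⟨hv⟩
  have hv0 : v ≠ ⊥ := by
    intro h
    exact hw (Ideal.eq_bot_of_comap_eq_bot (R := 𝓞 K) h)
  have hvp : v.IsPrime := inferInstance
  -- the rational prime below
  obtain ⟨ℓ, hℓ, hℓw⟩ : ∃ ℓ : ℕ, ℓ.Prime ∧ w.LiesOver (span {(ℓ : ℤ)}) := by
    have h1 : (w.under ℤ) ≠ ⊥ := fun h => hw (Ideal.eq_bot_of_comap_eq_bot (R := ℤ) h)
    have h2 : (w.under ℤ).IsPrime := inferInstance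
    obtain ⟨n, hn⟩ := (IsPrincipalIdealRing.principal (w.under ℤ)).principal
    have hn' : w.under ℤ = span {n} := hn
    have h3 : Prime n := by
      rw [← Ideal.span_singleton_prime]
      · rw [← hn']; exact h2
      · rintro rfl; exact h1 (by rw [hn']; simp)
    refine ⟨n.natAbs, Int.prime_iff_natAbs_prime.mp h3, ⟨?_⟩⟩
    rw [hn', Int.span_natAbs]
  have : Fact ℓ.Prime := ⟨hℓ⟩
  have hvℓ : v.LiesOver (span {(ℓ : ℤ)}) := by
    have := hℓw
    exact Ideal.LiesOver.tower_bot w v _
  have htower : w.ramificationIdx ℤ = v.ramificationIdx ℤ * w.ramificationIdx (𝓞 K) :=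
    ramificationIdx_tower (R := ℤ) v w
  have hℓq : ℓ ≠ q := by
    rintro rfl
    apply hqw
    have : (ℓ : ℤ) ∈ w.under ℤ := by
      rw [← hℓw.over]; exact Ideal.mem_span_singleton_self _
    simpa [Ideal.mem_comap] using this
  have : NeZero p := ⟨hp.out.ne_zero⟩
  have : NeZero q := ⟨hq.out.ne_zero⟩
  have : NeZero (p * q) := ⟨mul_ne_zero hp.out.ne_zero hq.out.ne_zero⟩
  by_cases hℓp : ℓ = p
  · subst hℓp
    have h1 : w.ramificationIdx ℤ = ℓ - 1 := by
      have := IsCyclotomicExtension.Rat.ramificationIdx_eq (ℓ * q) (p := ℓ) (k := 0) (m := q) L w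
        (by simp) (fun h => hpq ((Nat.prime_dvd_prime_iff_eq hℓ hq.out).mp h))
      simpa using this
    have h2 : v.ramificationIdx ℤ = ℓ - 1 :=
      IsCyclotomicExtension.Rat.ramificationIdx_eq_of_prime ℓ K v
    rw [h1, h2] at htower
    have h3 : 0 < ℓ - 1 := by have := hℓ.two_le; omega
    exact (Nat.eq_of_mul_eq_mul_left h3 (by rw [mul_one]; exact htower)).symm
  · have h1 : w.ramificationIdx ℤ = 1 := by
      refine IsCyclotomicExtension.Rat.ramificationIdx_eq_of_not_dvd ℓ L w (m := p * q) ?_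
      intro h
      rcases (Nat.Prime.dvd_mul hℓ).mp h with h | h
      · exact hℓp ((Nat.prime_dvd_prime_iff_eq hℓ hp.out).mp h)
      · exact hℓq ((Nat.prime_dvd_prime_iff_eq hℓ hq.out).mp h)
    rw [h1] at htower
    exact Nat.eq_one_of_mul_eq_one_left htower.symm

include hpq hK hL in
theorem ramificationIdx_eq_sub_one (w : Ideal (𝓞 L)) [w.IsPrime]
    (hqw : (q : 𝓞 L) ∈ w) : w.ramificationIdx (𝓞 K) = q - 1 := by
  have hcyc := isCyclotomicExtension_mul p q hpq K L
  set v : Ideal (𝓞 K) := w.under (𝓞 K) with hv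
  have hvw : w.LiesOver v := ⟨hv⟩
  have hwq : w.LiesOver (span {(q : ℤ)}) := by
    constructor
    have h1 : (span {(q : ℤ)}) ≤ w.under ℤ := by
      rw [Ideal.span_singleton_le_iff_mem, Ideal.mem_comap]; simpa using hqw
    have h2 : (span {(q : ℤ)}).IsMaximal :=
      ((Ideal.span_singleton_prime (by exact_mod_cast hq.out.ne_zero)).mpr
        (Nat.prime_iff_prime_int.mp hq.out)).isMaximal (by simp [hq.out.ne_zero])
    exact h2.eq_of_le (inferInstance : (w.under ℤ).IsPrime).ne_top h1
  have hvq : v.LiesOver (span {(q : ℤ)}) := Ideal.LiesOver.tower_bot w v _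
  have htower : w.ramificationIdx ℤ = v.ramificationIdx ℤ * w.ramificationIdx (𝓞 K) :=
    ramificationIdx_tower (R := ℤ) v w
  have : NeZero p := ⟨hp.out.ne_zero⟩
  have : NeZero q := ⟨hq.out.ne_zero⟩
  have : NeZero (p * q) := ⟨mul_ne_zero hp.out.ne_zero hq.out.ne_zero⟩
  have h1 : w.ramificationIdx ℤ = q - 1 := by
    have := IsCyclotomicExtension.Rat.ramificationIdx_eq (p * q) (p := q) (k := 0) (m := p) L w
      (by simp [mul_comm]) (fun h => hpq ((Nat.prime_dvd_prime_iff_eq hq.out hp.out).mp h).symm)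
    simpa using this
  have h2 : v.ramificationIdx ℤ = 1 :=
    IsCyclotomicExtension.Rat.ramificationIdx_eq_of_not_dvd q K v (m := p)
      (fun h => hpq ((Nat.prime_dvd_prime_iff_eq hq.out hp.out).mp h).symm)
  rw [h1, h2, one_mul] at htower
  exact htower.symm

end Tower

end Fermat.Agent.S14thaine63
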