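import Mathlib
import Fermat.Prelude.Def_ModularCurve_IgusaScheme

set_option autoImplicit false

noncomputable section

open AlgebraicGeometry CategoryTheory CategoryTheory.Limits ModularCurve ModularCurve.IgusaScheme
open TensorProduct

namespace Fermat.Agent.S28aux

section Glue

theorem isIntegral_of_two {P U V : Scheme.{0}} (u : U ⟶ P) (v : V ⟶ P) [IsOpenImmersion u]
    [IsOpenImmersion v] [IsIntegral U] [IsIntegral V]
    (hcov : ∀ x : P, x ∈ Set.range u ∨ x ∈ Set.range v)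
    (hne : ∃ x : P, x ∈ Set.range u ∧ x ∈ Set.range v) : IsIntegral P := by
  haveI h1 : IsReduced P := by
    have key : ∀ {W : Scheme.{0}} (w : W ⟶ P) [IsOpenImmersion w] [IsIntegral W] (y : W),
        _root_.IsReduced (P.presheaf.stalk (w y)) := by
      intro W w _ _ y
      exact isReduced_of_injective (w.stalkMap y).hom
        (asIso (w.stalkMap y)).commRingCatIsoToRingEquiv.injective
    haveI : ∀ x : P, _root_.IsReduced (P.presheaf.stalk x) := by
      intro x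
      rcases hcov x with ⟨y, rfl⟩ | ⟨y, rfl⟩
      · exact key u y
      · exact key v y
    exact isReduced_of_isReduced_stalk P
  have hU : IsPreirreducible (Set.range u) := by
    rw [← Set.image_univ]
    exact ((PreirreducibleSpace.isPreirreducible_univ (X := U)).image u
      u.continuous.continuousOn)
  have hV : IsPreirreducible (Set.range v) := by
    rw [← Set.image_univ]
    exact ((PreirreducibleSpace.isPreirreducible_univ (X := V)).image v
      v.continuous.continuousOn)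
  have hUo : IsOpen (Set.range u) := u.isOpenEmbedding.isOpen_range
  have hVo : IsOpen (Set.range v) := v.isOpenEmbedding.isOpen_range
  obtain ⟨x0, hx0u, hx0v⟩ := hne
  have hmeet : ∀ O : Set P, IsOpen O → O.Nonempty → (Set.range u ∩ O).Nonempty := by
    intro O hO ⟨x, hx⟩
    rcases hcov x with h | h
    · exact ⟨x, h, hx⟩
    · obtain ⟨z, hz⟩ := hV O (Set.range u) hO hUo ⟨x, h, hx⟩ ⟨x0, hx0v, hx0u⟩
      exact ⟨z, hz.2.2, hz.2.1⟩
  haveI : IrreducibleSpace P := by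
    haveI : PreirreducibleSpace P := by
      constructor
      intro O1 O2 h1 h2 hn1 hn2
      rw [Set.univ_inter] at hn1 hn2
      obtain ⟨z, hz⟩ := hU O1 O2 h1 h2 (hmeet O1 h1 hn1) (hmeet O2 h2 hn2)
      exact ⟨z, trivial, hz.2⟩
    exact { toNonempty := ⟨x0⟩ }
  exact isIntegral_of_irreducibleSpace_of_isReduced P

end Glue

section Charts

variable (N : ℕ) [NeZero N] (ℓ : ℕ) [hℓ : Fact ℓ.Prime]
  (K : Type) [Field K] [Algebra ↥(GaloisRep.ratLocalizedAt ℓ) K]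

/-- the base morphism -/
abbrev bK : Spec (CommRingCat.of K) ⟶ Spec (CommRingCat.of ↥(GaloisRep.ratLocalizedAt ℓ)) :=
  Spec.map (CommRingCat.ofHom (algebraMap ↥(GaloisRep.ratLocalizedAt ℓ) K))

abbrev PK : Scheme.{0} := pullback (igusaTo N ℓ) (bK ℓ K)

theorem isIntegral_chart {A : Type} [CommRing A] [Algebra ↥(GaloisRep.ratLocalizedAt ℓ) A]
    (ι : Spec (CommRingCat.of A) ⟶ ModularCurve.IgusaScheme N ℓ)
    (hι : ι ≫ igusaTo N ℓ = Spec.map (CommRingCat.ofHom (algebraMap _ A)))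
    [IsDomain (A ⊗[↥(GaloisRep.ratLocalizedAt ℓ)] K)] :
    IsIntegral (pullback ι (pullback.fst (igusaTo N ℓ) (bK ℓ K))) := by
  haveI h0 : IsDomain (CommRingCat.of (A ⊗[↥(GaloisRep.ratLocalizedAt ℓ)] K)) := ‹_›
  haveI h1 : IsIntegral (Spec (.of (A ⊗[↥(GaloisRep.ratLocalizedAt ℓ)] K))) := inferInstance
  let e1 : pullback ι (pullback.fst (igusaTo N ℓ) (bK ℓ K)) ≅ pullback (ι ≫ igusaTo N ℓ) (bK ℓ K) :=
    pullbackRightPullbackFstIso (igusaTo N ℓ) (bK ℓ K) ι
  let e2 : pullback (ι ≫ igusaTo N ℓ) (bK ℓ K) ≅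
    pullback (Spec.map (CommRingCat.ofHom (algebraMap _ A))) (bK ℓ K) := pullback.congrHom hι rfl
  let e3 := pullbackSpecIso ↥(GaloisRep.ratLocalizedAt ℓ) A K
  exact IsIntegral.of_isIso (e1 ≪≫ e2 ≪≫ e3).inv

theorem isIntegral_of_charts
    (hFin : IsDomain ((chartAlgFin N ℓ) ⊗[↥(GaloisRep.ratLocalizedAt ℓ)] K))
    (hInf : IsDomain ((chartAlgInf N ℓ) ⊗[↥(GaloisRep.ratLocalizedAt ℓ)] K))
    (hMid : Nontrivial ((chartAlgMid N ℓ) ⊗[↥(GaloisRep.ratLocalizedAt ℓ)] K)) :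
    IsIntegral ↑(pullback (igusaTo N ℓ)
      (Spec.map (CommRingCat.ofHom (algebraMap ↥(GaloisRep.ratLocalizedAt ℓ) K)))) := by
  haveI h1 := isIntegral_chart N ℓ K (ιFin N ℓ) (ιFin_igusaTo N ℓ)
  haveI h2 := isIntegral_chart N ℓ K (ιInf N ℓ) (ιInf_igusaTo N ℓ)
  apply isIntegral_of_two (pullback.snd (ιFin N ℓ) (pullback.fst (igusaTo N ℓ) (bK ℓ K)))
    (pullback.snd (ιInf N ℓ) (pullback.fst (igusaTo N ℓ) (bK ℓ K)))
  · intro x
    rw [IsOpenImmersion.range_pullbackSnd, IsOpenImmersion.range_pullbackSnd]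
    exact mem_range_ιFin_or_mem_range_ιInf N ℓ _
  · let T := (chartAlgMid N ℓ) ⊗[↥(GaloisRep.ratLocalizedAt ℓ)] K
    let e3 := pullbackSpecIso ↥(GaloisRep.ratLocalizedAt ℓ) (chartAlgMid N ℓ) K
    haveI : Nontrivial (CommRingCat.of T) := hMid
    obtain ⟨t⟩ : Nonempty (Spec (CommRingCat.of T)) := inferInstance
    have hw : (e3.inv ≫ pullback.fst _ _ ≫ fFin N ℓ ≫ ιFin N ℓ) ≫ igusaTo N ℓ =
        (e3.inv ≫ pullback.snd _ _) ≫ bK ℓ K := by
      have h3 : fFin N ℓ ≫ ιFin N ℓ ≫ igusaTo N ℓ =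
          Spec.map (CommRingCat.ofHom (algebraMap _ (chartAlgMid N ℓ))) := by
        rw [ιFin_igusaTo, ← Spec.map_comp, ← CommRingCat.ofHom_comp]
        congr 2
      simp only [Category.assoc]
      rw [h3, pullback.condition]
    let m : Spec (CommRingCat.of T) ⟶ pullback (igusaTo N ℓ) (bK ℓ K) := pullback.lift _ _ hw
    have hm : m ≫ pullback.fst (igusaTo N ℓ) (bK ℓ K) =
        e3.inv ≫ pullback.fst _ _ ≫ fFin N ℓ ≫ ιFin N ℓ := pullback.lift_fst _ _ _
    refine ⟨m t, ?_, ?_⟩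
    · rw [IsOpenImmersion.range_pullbackSnd]
      have h4 : (pullback.fst (igusaTo N ℓ) (bK ℓ K)) (m t) =
          (e3.inv ≫ pullback.fst _ _ ≫ fFin N ℓ ≫ ιFin N ℓ) t := by
        rw [← hm]; rfl
      show _ ∈ Set.range _
      rw [h4]
      exact ⟨(e3.inv ≫ pullback.fst _ _ ≫ fFin N ℓ) t, rfl⟩
    · rw [IsOpenImmersion.range_pullbackSnd]
      have h4 : (pullback.fst (igusaTo N ℓ) (bK ℓ K)) (m t) =
          (e3.inv ≫ pullback.fst _ _ ≫ fInf N ℓ ≫ ιInf N ℓ) t := by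
        rw [← glue_condition, ← hm]; rfl
      show _ ∈ Set.range _
      rw [h4]
      exact ⟨(e3.inv ≫ pullback.fst _ _ ≫ fInf N ℓ) t, rfl⟩

end Charts

end Fermat.Agent.S28aux
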