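import Mathlib
import Fermat.Agent.S28_Core

set_option autoImplicit false

noncomputable section

open ModularCurve HahnSeries Polynomial IntermediateField

namespace Fermat.Agent.S28aux

section Coeff

theorem coeff_minpoly_integral (K : IntermediateField ℚ (LaurentSeries ℚ))
    (A : Subring (LaurentSeries ℚ)) (hAK : ∀ a ∈ A, a ∈ K) (y : LaurentSeries ℚ)
    (hy : IsIntegral A y) (i : ℕ) :
    IsIntegral A (((minpoly K y).coeff i : K) : LaurentSeries ℚ) := by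
  letI alg : Algebra A K := RingHom.toAlgebra
    { toFun := fun a => ⟨a, hAK a a.2⟩
      map_one' := rfl
      map_mul' := fun _ _ => rfl
      map_zero' := rfl
      map_add' := fun _ _ => rfl }
  haveI : IsScalarTower A K (LaurentSeries ℚ) := IsScalarTower.of_algebraMap_eq' rfl
  obtain ⟨f, hf, hf0⟩ := hy
  have hyK : IsIntegral K y := by
    refine ⟨f.map (algebraMap A K), hf.map _, ?_⟩
    rw [eval₂_map]
    exact hf0
  have hd : minpoly K y ∣ f.map (algebraMap A K) := by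
    apply minpoly.dvd
    rw [aeval_map_algebraMap]
    exact hf0
  have h1 := integralClosure.mem_lifts_of_monic_of_dvd_map K hf (minpoly.monic hyK) hd
  rw [lifts_iff_coeff_lifts] at h1
  obtain ⟨c, hc⟩ := h1 i
  have h2 : IsIntegral A ((minpoly K y).coeff i) := by
    rw [← hc]
    exact c.2
  exact h2.algebraMap (B := LaurentSeries ℚ)

end Coeff

section KT

variable {ℓ : ℕ} [hℓ : Fact ℓ.Prime]

/-- `ℤ_(ℓ)[h]` as a subring of `ℚ((q))`. -/
def RX (ℓ : ℕ) (h : LaurentSeries ℚ) : Subring (LaurentSeries ℚ) :=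
  (eval₂RingHom ((algebraMap ℚ (LaurentSeries ℚ)).comp (GaloisRep.ratLocalizedAt ℓ).subtype)
    h).range

theorem RX_le_OO {h : LaurentSeries ℚ} (hh : h ∈ OO ℓ) : RX ℓ h ≤ OO ℓ := by
  rintro _ ⟨P, rfl⟩
  rw [coe_eval₂RingHom, eval₂_eq_sum_range]
  apply sum_mem
  intro i _
  apply mul_mem _ (pow_mem hh _)
  rw [RingHom.comp_apply, const_mem_OO_iff]
  exact (P.coeff i).2

omit hℓ in
theorem RX_le_adjoin (ℓ : ℕ) (h : LaurentSeries ℚ) :
    RX ℓ h ≤ (Algebra.adjoin ℚ {h}).toSubring := by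
  rintro _ ⟨P, rfl⟩
  rw [coe_eval₂RingHom, eval₂_eq_sum_range]
  apply sum_mem
  intro i _
  have h1 : (algebraMap ℚ (LaurentSeries ℚ)) ((P.coeff i : GaloisRep.ratLocalizedAt ℓ) : ℚ) ∈
      Algebra.adjoin ℚ {h} := Subalgebra.algebraMap_mem _ _
  have h2 : h ∈ Algebra.adjoin ℚ {h} := Algebra.self_mem_adjoin_singleton ℚ h
  exact mul_mem h1 (pow_mem h2 _)

/-- rational polynomial values in the Gauss ring have `ℓ`-integral coefficients. -/
theorem mem_RX_of_aeval {k : Type*} [Field k] [CharP k ℓ] {hz : LaurentSeries ℤ}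
    (ht : Transcendental k (redZ k hz)) (P : ℚ[X]) (hP : aeval (ιZ hz) P ∈ OO ℓ) :
    aeval (ιZ hz) P ∈ RX ℓ (ιZ hz) := by
  rcases eq_or_ne P 0 with rfl | hP0
  · rw [map_zero]; exact zero_mem _
  obtain ⟨c, P', hc, hP', rfl⟩ := exists_primitive_form P hP0
  have hp := primL_aeval (ℓ := ℓ) ht hP'
  have h1 : rho k (⟨ιZ (aeval hz P'), ιZ_mem_OO ℓ _⟩ : OO ℓ) ≠ 0 := by
    rw [rho_ιZ]; exact (primL_iff ℓ k _).mp hp
  have h2 := inv_mem_OO k _ h1
  have h0 : ιZ (aeval hz P') ≠ 0 := ιZ_ne_zero (hp.ne_zero ℓ)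
  rw [map_mul, aeval_C, aeval_ιZ] at hP ⊢
  have hcO : algebraMap ℚ (LaurentSeries ℚ) c ∈ OO ℓ := by
    have h3 : algebraMap ℚ (LaurentSeries ℚ) c =
        algebraMap ℚ (LaurentSeries ℚ) c * ιZ (aeval hz P') * (ιZ (aeval hz P'))⁻¹ := by
      rw [mul_assoc, mul_inv_cancel₀ h0, mul_one]
    rw [h3]
    exact mul_mem hP h2
  have hcR : c ∈ GaloisRep.ratLocalizedAt ℓ := (const_mem_OO_iff c).mp hcO
  apply mul_mem
  · exact ⟨Polynomial.C ⟨c, hcR⟩, by simp⟩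
  · refine ⟨P'.map (Int.castRingHom _), ?_⟩
    rw [coe_eval₂RingHom, eval₂_map, ← aeval_ιZ, aeval_def, eval₂_map]
    congr 1

theorem isIntegral_of_coeffs (K : IntermediateField ℚ (LaurentSeries ℚ))
    (A : Subring (LaurentSeries ℚ)) (y : LaurentSeries ℚ) (hy : IsIntegral K y)
    (hc : ∀ i, (((minpoly K y).coeff i : K) : LaurentSeries ℚ) ∈ A) : IsIntegral A y := by
  have h1 : (minpoly K y).map (algebraMap K (LaurentSeries ℚ)) ∈
      lifts (algebraMap A (LaurentSeries ℚ)) := by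
    rw [lifts_iff_coeff_lifts]
    intro i
    rw [coeff_map]
    exact ⟨⟨_, hc i⟩, rfl⟩
  obtain ⟨Q, hQ, -, hQm⟩ := lifts_and_natDegree_eq_and_monic h1 ((minpoly.monic hy).map _)
  refine ⟨Q, hQm, ?_⟩
  rw [← eval_map, hQ, eval_map]
  exact minpoly.aeval K y

variable {N : ℕ} [NeZero N]

/-- **The `q`-expansion principle** -/
theorem q_expansion_principle (hint : ∀ x : LaurentSeries ℚ, x ∈ EField N → x ∈ OO ℓ →
      IsIntegral (A1 ℓ) x) {k : Type*} [Field k] [CharP k ℓ] {hz : LaurentSeries ℤ}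
    (ht : Transcendental k (redZ k hz)) (htQ : Transcendental ℚ (ιZ hz))
    (hK : ℚ⟮ιZ hz⟯ = ℚ⟮jqModC ℚ⟯)
    (y : LaurentSeries ℚ) (hyE : y ∈ EField N) (hyO : y ∈ OO ℓ)
    (hx : IsIntegral (RX ℓ (ιZ hz)) ((ℓ : LaurentSeries ℚ) * y)) :
    IsIntegral (RX ℓ (ιZ hz)) y := by
  set K₁ := ℚ⟮jqModC ℚ⟯ with hK₁
  have hl := natCast_ne_zero (ℓ := ℓ)
  -- integral over `ℚ[h]`
  let B : Subring (LaurentSeries ℚ) := (Algebra.adjoin ℚ {ιZ hz}).toSubring
  have hBK : ∀ a ∈ B, a ∈ K₁ := by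
    intro a ha
    rw [← hK]
    exact algebra_adjoin_le_adjoin ℚ _ ha
  have hRB : RX ℓ (ιZ hz) ≤ B := RX_le_adjoin ℓ (ιZ hz)
  have hyB : IsIntegral B y := by
    have h1 : IsIntegral B ((ℓ : LaurentSeries ℚ) * y) := by
      obtain ⟨f, hf, hf0⟩ := hx
      refine ⟨f.map (Subring.inclusion hRB), hf.map _, ?_⟩
      rw [eval₂_map]
      exact hf0
    have hlB : (ℓ : LaurentSeries ℚ)⁻¹ ∈ B := by
      have : (ℓ : LaurentSeries ℚ)⁻¹ = algebraMap ℚ (LaurentSeries ℚ) ((ℓ : ℚ)⁻¹) := by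
        rw [map_inv₀, map_natCast]
      rw [this]
      exact (Algebra.adjoin ℚ {ιZ hz}).algebraMap_mem _
    have h2 : IsIntegral B ((ℓ : LaurentSeries ℚ)⁻¹) :=
      isIntegral_algebraMap (x := (⟨_, hlB⟩ : B))
    have h3 := h2.mul h1
    rwa [← mul_assoc, inv_mul_cancel₀ hl, one_mul] at h3
  have hyA : IsIntegral (A1 ℓ) y := hint y hyE hyO
  have hA1K : ∀ a ∈ A1 ℓ, a ∈ K₁ := fun a ha => ha.2
  have hyK : IsIntegral K₁ y := by
    obtain ⟨f, hf, hf0⟩ := hyA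
    let φ : A1 ℓ →+* K₁ :=
      { toFun := fun a => ⟨a, hA1K a a.2⟩
        map_one' := rfl
        map_mul' := fun _ _ => rfl
        map_zero' := rfl
        map_add' := fun _ _ => rfl }
    refine ⟨f.map φ, hf.map _, ?_⟩
    rw [eval₂_map]
    exact hf0
  apply isIntegral_of_coeffs K₁ _ y hyK
  intro i
  have hi1 := coeff_minpoly_integral K₁ B hBK y hyB i
  have hi2 := coeff_minpoly_integral K₁ (A1 ℓ) hA1K y hyA i
  obtain ⟨P, hP⟩ := exists_poly_of_integral (ιZ hz) htQ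
    (((minpoly K₁ y).coeff i : K₁) : LaurentSeries ℚ)
    (by rw [hK]; exact ((minpoly K₁ y).coeff i).2) hi1
  have hK1F : K₁ ≤ FracL := K1_le_EField.trans (EField_le_FracL (N := 1))
  have hO : (((minpoly K₁ y).coeff i : K₁) : LaurentSeries ℚ) ∈ OO ℓ := by
    apply mem_OO_of_isIntegral (hK1F ((minpoly K₁ y).coeff i).2)
    obtain ⟨f, hf, hf0⟩ := hi2
    let ι : A1 ℓ →+* OO ℓ := Subring.inclusion inf_le_left
    refine ⟨f.map ι, hf.map _, ?_⟩
    rw [eval₂_map]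
    exact hf0
  rw [← hP] at hO ⊢
  exact mem_RX_of_aeval ht P hO

end KT

end Fermat.Agent.S28aux
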