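import Mathlib
import Fermat.Prelude.Def_ModularCurve_IgusaScheme
import Fermat.Agent.S28_KT

set_option autoImplicit false

noncomputable section

open ModularCurve HahnSeries Polynomial IntermediateField ModularCurve.IgusaScheme TensorProduct

namespace Fermat.Agent.S28aux

section RhoK

variable {ℓ : ℕ} [hℓ : Fact ℓ.Prime]

theorem rho_zmod (K : Type*) [Field K] [CharP K ℓ] (f : OO ℓ) :
    rho K f = coeffMap (ZMod.castHom (dvd_refl ℓ) K) (rho (ZMod ℓ) f) := by
  obtain ⟨a, b, hb, hab⟩ := f.2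
  have h1 := rho_spec K f hab
  have h2 := congrArg (coeffMap (ZMod.castHom (dvd_refl ℓ) K)) (rho_spec (ZMod ℓ) f hab)
  have hb0 : redZ K b ≠ 0 := (primL_iff ℓ K b).mp hb
  have h3 : ∀ x : LaurentSeries ℤ, coeffMap (ZMod.castHom (dvd_refl ℓ) K) (redZ (ZMod ℓ) x) =
      redZ K x := by
    intro x
    rw [coeffMap_coeffMap]
    exact congrArg (fun g : ℤ →+* K => coeffMap g x) (RingHom.ext_int _ _)
  rw [map_mul, h3, h3, ← h1] at h2
  exact (mul_right_cancel₀ hb0 h2).symm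

theorem algebraMap_eq_cast (K : Type*) [Field K] [CharP K ℓ]
    [Algebra ↥(GaloisRep.ratLocalizedAt ℓ) K] (r : GaloisRep.ratLocalizedAt ℓ) :
    algebraMap ↥(GaloisRep.ratLocalizedAt ℓ) K r = ((r : ℚ) : K) := by
  have h' : (r : ℚ).den.Coprime ℓ := r.2
  rw [Nat.coprime_comm, Nat.Prime.coprime_iff_not_dvd hℓ.out] at h'
  have hd : ((r : ℚ).den : K) ≠ 0 := by
    rw [Ne, CharP.cast_eq_zero_iff K ℓ]; exact h'
  rw [Rat.cast_def, eq_div_iff hd]
  have h1 : r * ((r : ℚ).den : GaloisRep.ratLocalizedAt ℓ) =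
      ((r : ℚ).num : GaloisRep.ratLocalizedAt ℓ) := by
    apply Subtype.ext
    push_cast
    exact Rat.mul_den_eq_num _
  have h2 := congrArg (algebraMap ↥(GaloisRep.ratLocalizedAt ℓ) K) h1
  rwa [map_mul, map_natCast, map_intCast] at h2

end RhoK

section Chart

variable (N : ℕ) [NeZero N] (ℓ : ℕ) [hℓ : Fact ℓ.Prime]


theorem algebraMap_F_coe (r : ↥(GaloisRep.ratLocalizedAt ℓ)) : ((algebraMap ↥(GaloisRep.ratLocalizedAt ℓ) ↥(modularFunctionFieldFull N) r : ↥(modularFunctionFieldFull N)) : LaurentSeries ℚ) =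
    algebraMap ℚ (LaurentSeries ℚ) (r : ℚ) := by
  have h : (algebraMap ↥(modularFunctionFieldFull N) (LaurentSeries ℚ)).comp (algebraMap ℚ ↥(modularFunctionFieldFull N)) =
      algebraMap ℚ (LaurentSeries ℚ) := RingHom.ext_rat _ _
  exact congrArg (fun f : ℚ →+* LaurentSeries ℚ => f (r : ℚ)) h

theorem adjoin_le_OO {S : Set ↥(modularFunctionFieldFull N)} (hS : ∀ s ∈ S, (s : LaurentSeries ℚ) ∈ OO ℓ)
    {x : ↥(modularFunctionFieldFull N)} (hx : x ∈ Algebra.adjoin ↥(GaloisRep.ratLocalizedAt ℓ) S) : (x : LaurentSeries ℚ) ∈ OO ℓ := by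
  induction hx using Algebra.adjoin_induction with
  | mem y hy => exact hS y hy
  | algebraMap r => rw [algebraMap_F_coe]; exact (const_mem_OO_iff _).mpr r.2
  | add y z _ _ hy hz => exact add_mem hy hz
  | mul y z _ _ hy hz => exact mul_mem hy hz

theorem chartAlg_le_OO {S : Set ↥(modularFunctionFieldFull N)} (hS : ∀ s ∈ S, (s : LaurentSeries ℚ) ∈ OO ℓ)
    {x : ↥(modularFunctionFieldFull N)} (hx : x ∈ chartAlg N ℓ S) : (x : LaurentSeries ℚ) ∈ OO ℓ := by
  rw [mem_chartAlg_iff] at hx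
  obtain ⟨P, hP, hP0⟩ := hx
  apply mem_OO_of_isIntegral
    (EField_le_FracL (modularFunctionFieldFull_le_EField N x.2))
  let φ : Algebra.adjoin ↥(GaloisRep.ratLocalizedAt ℓ) S →+* OO ℓ :=
    { toFun := fun a => ⟨((a : ↥(modularFunctionFieldFull N)) : LaurentSeries ℚ), adjoin_le_OO N ℓ hS a.2⟩
      map_one' := rfl
      map_mul' := fun _ _ => rfl
      map_zero' := rfl
      map_add' := fun _ _ => rfl }
  refine ⟨P.map φ, hP.map _, ?_⟩
  rw [eval₂_map]
  have h := congrArg (algebraMap ↥(modularFunctionFieldFull N) (LaurentSeries ℚ)) hP0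
  rw [hom_eval₂, map_zero] at h
  exact h

/-- the inclusion into the Gauss valuation ring -/
def toOO {S : Set ↥(modularFunctionFieldFull N)} (hS : ∀ s ∈ S, (s : LaurentSeries ℚ) ∈ OO ℓ) :
    chartAlg N ℓ S →+* OO ℓ where
  toFun a := ⟨((a : ↥(modularFunctionFieldFull N)) : LaurentSeries ℚ), chartAlg_le_OO N ℓ hS a.2⟩
  map_one' := rfl
  map_mul' _ _ := rfl
  map_zero' := rfl
  map_add' _ _ := rfl

variable (K : Type*) [Field K] [CharP K ℓ] [Algebra ↥(GaloisRep.ratLocalizedAt ℓ) K]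

/-- the scalar action on Laurent series through the residue field -/
abbrev algL : Algebra ↥(GaloisRep.ratLocalizedAt ℓ) (LaurentSeries K) :=
  ((algebraMap K (LaurentSeries K)).comp (algebraMap ↥(GaloisRep.ratLocalizedAt ℓ) K)).toAlgebra

/-- the comparison map -/
def phiMap {S : Set ↥(modularFunctionFieldFull N)} (hS : ∀ s ∈ S, (s : LaurentSeries ℚ) ∈ OO ℓ) :
    (chartAlg N ℓ S) ⊗[↥(GaloisRep.ratLocalizedAt ℓ)] K →+* LaurentSeries K :=
  letI := algL ℓ K
  (Algebra.TensorProduct.productMap (R := ↥(GaloisRep.ratLocalizedAt ℓ)) (S := LaurentSeries K)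
    { (rho K).comp (toOO N ℓ hS) with
      commutes' := fun r => by
        have h1 : toOO N ℓ hS (algebraMap ↥(GaloisRep.ratLocalizedAt ℓ) (chartAlg N ℓ S) r) =
            ⟨algebraMap ℚ (LaurentSeries ℚ) (r : ℚ), (const_mem_OO_iff _).mpr r.2⟩ := by
          apply Subtype.ext
          exact algebraMap_F_coe N ℓ r
        change rho K (toOO N ℓ hS (algebraMap ↥(GaloisRep.ratLocalizedAt ℓ) (chartAlg N ℓ S) r)) = _
        rw [h1, rho_const]
        change _ = algebraMap K (LaurentSeries K) (algebraMap ↥(GaloisRep.ratLocalizedAt ℓ) K r)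
        rw [algebraMap_eq_cast] }
    { algebraMap K (LaurentSeries K) with
      commutes' := fun r => rfl }).toRingHom

theorem phiMap_tmul {S : Set ↥(modularFunctionFieldFull N)} (hS : ∀ s ∈ S, (s : LaurentSeries ℚ) ∈ OO ℓ)
    (a : chartAlg N ℓ S) (c : K) :
    phiMap N ℓ K hS (a ⊗ₜ c) = rho K (toOO N ℓ hS a) * algebraMap K (LaurentSeries K) c := by
  letI := algL ℓ K
  exact Algebra.TensorProduct.productMap_apply_tmul _ _ a c

theorem tensor_repr {S : Set ↥(modularFunctionFieldFull N)} {ι : Type*} [Algebra (ZMod ℓ) K] (e : Module.Basis ι (ZMod ℓ) K)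
    (t : (chartAlg N ℓ S) ⊗[↥(GaloisRep.ratLocalizedAt ℓ)] K) :
    ∃ f : ι →₀ chartAlg N ℓ S, t = f.sum (fun i a => a ⊗ₜ[↥(GaloisRep.ratLocalizedAt ℓ)] e i) := by
  classical
  induction t using TensorProduct.induction_on with
  | zero => exact ⟨0, by simp⟩
  | tmul a c =>
    let r : ι → ↥(GaloisRep.ratLocalizedAt ℓ) := fun i => ((e.repr c i).val : ↥(GaloisRep.ratLocalizedAt ℓ))
    refine ⟨(e.repr c).mapRange (fun z => ((z.val : ℕ) : ↥(GaloisRep.ratLocalizedAt ℓ)) • a) (by simp), ?_⟩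
    rw [Finsupp.sum_mapRange_index (by intro i; simp)]
    have hc : c = (e.repr c).sum (fun i z => ((z.val : ℕ) : ↥(GaloisRep.ratLocalizedAt ℓ)) • e i) := by
      conv_lhs => rw [← e.linearCombination_repr c]
      rw [Finsupp.linearCombination_apply]
      apply Finsupp.sum_congr
      intro i _
      rw [Algebra.smul_def, Algebra.smul_def, map_natCast]
      congr 1
      conv_lhs => rw [← ZMod.natCast_zmod_val (e.repr c i)]
      rw [map_natCast]
    conv_lhs => rw [hc]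
    rw [Finsupp.sum, TensorProduct.tmul_sum, Finsupp.sum]
    apply Finset.sum_congr rfl
    intro i _
    rw [TensorProduct.tmul_smul, TensorProduct.smul_tmul']
  | add x y hx hy =>
    obtain ⟨f, hf⟩ := hx
    obtain ⟨g, hg⟩ := hy
    refine ⟨f + g, ?_⟩
    rw [Finsupp.sum_add_index' (by simp) (by intros; rw [TensorProduct.add_tmul]), ← hf, ← hg]

theorem phiMap_injective {S : Set ↥(modularFunctionFieldFull N)} (hS : ∀ s ∈ S, (s : LaurentSeries ℚ) ∈ OO ℓ)
    (hKT : ∀ y : LaurentSeries ℚ, ∀ hy : y ∈ modularFunctionFieldFull N, y ∈ OO ℓ →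
      (ℓ : ↥(modularFunctionFieldFull N)) * ⟨y, hy⟩ ∈ chartAlg N ℓ S → (⟨y, hy⟩ : ↥(modularFunctionFieldFull N)) ∈ chartAlg N ℓ S) :
    Function.Injective (phiMap N ℓ K hS) := by
  classical
  rw [injective_iff_map_eq_zero]
  intro t ht
  letI : Algebra (ZMod ℓ) K := ZMod.algebra K ℓ
  let e := Module.Basis.ofVectorSpace (ZMod ℓ) K
  obtain ⟨f, rfl⟩ := tensor_repr N ℓ K e t
  rw [Finsupp.sum, map_sum] at ht
  simp only [phiMap_tmul] at ht
  have hz : ∀ i ∈ f.support, rho (ZMod ℓ) (toOO N ℓ hS (f i)) = 0 := by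
    intro i hi
    ext n
    have h1 := congrArg (fun z : LaurentSeries K => z.coeff n) ht
    simp only [HahnSeries.coeff_sum, HahnSeries.coeff_zero] at h1
    have h2 : ∀ j, (rho K (toOO N ℓ hS (f j)) * algebraMap K (LaurentSeries K) (e j)).coeff n =
        (rho (ZMod ℓ) (toOO N ℓ hS (f j))).coeff n • e j := by
      intro j
      rw [mul_comm, coeff_algebraMap_mul, rho_zmod, coeffMap_coeff, mul_comm, Algebra.smul_def]
      rfl
    simp only [h2] at h1
    have h3 := (linearIndependent_iff'.mp e.linearIndependent) f.support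
      (fun j => (rho (ZMod ℓ) (toOO N ℓ hS (f j))).coeff n) h1 i hi
    rw [h3]
    rfl
  have hzero : ∀ i ∈ f.support, f i ⊗ₜ[↥(GaloisRep.ratLocalizedAt ℓ)] e i = 0 := by
    intro i hi
    obtain ⟨g, hg⟩ := (rho_eq_zero_iff (ZMod ℓ) _).mp (hz i hi)
    have hl := natCast_ne_zero (ℓ := ℓ)
    have hg' : ((f i : ↥(modularFunctionFieldFull N)) : LaurentSeries ℚ) = (ℓ : LaurentSeries ℚ) * g := by
      have h8 := congrArg Subtype.val hg
      push_cast at h8
      exact h8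
    have hgF : (g : LaurentSeries ℚ) ∈ modularFunctionFieldFull N := by
      have h4 : (g : LaurentSeries ℚ) = (ℓ : LaurentSeries ℚ)⁻¹ * ((f i : ↥(modularFunctionFieldFull N)) : LaurentSeries ℚ) := by
        rw [hg', ← mul_assoc, inv_mul_cancel₀ hl, one_mul]
      rw [h4]
      exact mul_mem (inv_mem (_root_.natCast_mem _ _)) (f i : ↥(modularFunctionFieldFull N)).2
    have h5 : (ℓ : ↥(modularFunctionFieldFull N)) * ⟨g, hgF⟩ = (f i : ↥(modularFunctionFieldFull N)) := by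
      apply Subtype.ext
      push_cast
      exact hg'.symm
    have h6 := hKT g hgF g.2 (by rw [h5]; exact (f i).2)
    have h7 : f i = (ℓ : ↥(GaloisRep.ratLocalizedAt ℓ)) • (⟨⟨g, hgF⟩, h6⟩ : chartAlg N ℓ S) := by
      apply Subtype.ext
      rw [Algebra.smul_def, map_natCast]
      push_cast
      exact h5.symm
    rw [h7, TensorProduct.smul_tmul, Algebra.smul_def, map_natCast, CharP.cast_eq_zero, zero_mul,
      TensorProduct.tmul_zero]
  rw [Finsupp.sum]
  exact Finset.sum_eq_zero hzero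

theorem isDomain_tensor {S : Set ↥(modularFunctionFieldFull N)} (hS : ∀ s ∈ S, (s : LaurentSeries ℚ) ∈ OO ℓ)
    (hKT : ∀ y : LaurentSeries ℚ, ∀ hy : y ∈ modularFunctionFieldFull N, y ∈ OO ℓ →
      (ℓ : ↥(modularFunctionFieldFull N)) * ⟨y, hy⟩ ∈ chartAlg N ℓ S → (⟨y, hy⟩ : ↥(modularFunctionFieldFull N)) ∈ chartAlg N ℓ S) :
    IsDomain ((chartAlg N ℓ S) ⊗[↥(GaloisRep.ratLocalizedAt ℓ)] K) :=
  (phiMap_injective N ℓ K hS hKT).isDomain (phiMap N ℓ K hS)

theorem nontrivial_tensor {S : Set ↥(modularFunctionFieldFull N)} (hS : ∀ s ∈ S, (s : LaurentSeries ℚ) ∈ OO ℓ) :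
    Nontrivial ((chartAlg N ℓ S) ⊗[↥(GaloisRep.ratLocalizedAt ℓ)] K) :=
  (phiMap N ℓ K hS).domain_nontrivial

end Chart

end Fermat.Agent.S28aux
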