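import Mathlib
import Fermat.Agent.S28_Chart

set_option autoImplicit false

noncomputable section

open ModularCurve HahnSeries Polynomial IntermediateField ModularCurve.IgusaScheme TensorProduct

namespace Fermat.Agent.S28aux

section JInv

/-- the inverse of the `j`-expansion, over `ℤ`. -/
def jInvC : LaurentSeries ℤ :=
  HahnSeries.single (1 : ℤ) (1 : ℤ) * HahnSeries.ofPowerSeries ℤ ℤ (jNum.invOfUnit 1)

theorem jInvC_mul : jInvC * jqModC ℤ = 1 := by
  have h1 : jNum.invOfUnit 1 * jNum = 1 := by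
    rw [mul_comm]
    apply PowerSeries.mul_invOfUnit
    rw [constantCoeff_jNum]; rfl
  have h2 : jNum.map (Int.castRingHom ℤ) = jNum := by
    ext n; simp
  rw [jInvC, jqModC, h2]
  calc _ = (HahnSeries.single (1 : ℤ) (1 : ℤ) * HahnSeries.single (-1 : ℤ) (1 : ℤ)) *
      (HahnSeries.ofPowerSeries ℤ ℤ (jNum.invOfUnit 1) * HahnSeries.ofPowerSeries ℤ ℤ jNum) := by
        ring
    _ = 1 := by
      rw [← map_mul, h1, HahnSeries.single_mul_single]
      simp

theorem redZ_jInvC (k : Type*) [Field k] : redZ k jInvC = (jqModC k)⁻¹ := by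
  have h := congrArg (redZ k) jInvC_mul
  rw [map_mul, map_one] at h
  have h2 : redZ k (jqModC ℤ) = jqModC k := coeffMap_jqModC _
  rw [h2] at h
  exact eq_inv_of_mul_eq_one_left h

end JInv

section Transfer

variable (N : ℕ) [NeZero N] (ℓ : ℕ) [hℓ : Fact ℓ.Prime]

theorem adjoin_coe_mem_RX (s : ↥(modularFunctionFieldFull N)) {x : ↥(modularFunctionFieldFull N)}
    (hx : x ∈ Algebra.adjoin ↥(GaloisRep.ratLocalizedAt ℓ)
      ({s} : Set ↥(modularFunctionFieldFull N))) :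
    (x : LaurentSeries ℚ) ∈ RX ℓ (s : LaurentSeries ℚ) := by
  induction hx using Algebra.adjoin_induction with
  | mem y hy =>
    rw [Set.mem_singleton_iff] at hy
    subst hy
    exact ⟨Polynomial.X, by simp⟩
  | algebraMap r =>
    rw [algebraMap_F_coe]
    exact ⟨Polynomial.C r, by simp⟩
  | add y z _ _ hy hz => exact add_mem hy hz
  | mul y z _ _ hy hz => exact mul_mem hy hz

theorem RX_mem_adjoin (s : ↥(modularFunctionFieldFull N)) {a : LaurentSeries ℚ}
    (ha : a ∈ RX ℓ (s : LaurentSeries ℚ)) :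
    ∃ b : ↥(modularFunctionFieldFull N), b ∈ Algebra.adjoin ↥(GaloisRep.ratLocalizedAt ℓ)
      ({s} : Set ↥(modularFunctionFieldFull N)) ∧ (b : LaurentSeries ℚ) = a := by
  obtain ⟨P, rfl⟩ := ha
  rw [coe_eval₂RingHom, eval₂_eq_sum_range]
  refine ⟨∑ i ∈ Finset.range (P.natDegree + 1),
    algebraMap _ ↥(modularFunctionFieldFull N) (P.coeff i) * s ^ i, ?_, ?_⟩
  · apply sum_mem
    intro i _
    exact mul_mem (Subalgebra.algebraMap_mem _ _)
      (pow_mem (Algebra.self_mem_adjoin_singleton _ s) _)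
  · have h : ∀ b : ↥(modularFunctionFieldFull N), (b : LaurentSeries ℚ) =
      algebraMap ↥(modularFunctionFieldFull N) (LaurentSeries ℚ) b := fun _ => rfl
    rw [h, map_sum]
    apply Finset.sum_congr rfl
    intro i _
    rw [map_mul, map_pow, ← h, ← h, algebraMap_F_coe]
    rfl

theorem isIntegral_RX_of_chartAlg (s : ↥(modularFunctionFieldFull N))
    {x : ↥(modularFunctionFieldFull N)} (hx : x ∈ chartAlg N ℓ {s}) :
    IsIntegral (RX ℓ (s : LaurentSeries ℚ)) (x : LaurentSeries ℚ) := by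
  rw [mem_chartAlg_iff] at hx
  obtain ⟨P, hP, hP0⟩ := hx
  let φ : Algebra.adjoin ↥(GaloisRep.ratLocalizedAt ℓ)
      ({s} : Set ↥(modularFunctionFieldFull N)) →+* RX ℓ (s : LaurentSeries ℚ) :=
    { toFun := fun a => ⟨((a : ↥(modularFunctionFieldFull N)) : LaurentSeries ℚ),
        adjoin_coe_mem_RX N ℓ s a.2⟩
      map_one' := rfl
      map_mul' := fun _ _ => rfl
      map_zero' := rfl
      map_add' := fun _ _ => rfl }
  refine ⟨P.map φ, hP.map _, ?_⟩
  rw [eval₂_map]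
  have h := congrArg (algebraMap ↥(modularFunctionFieldFull N) (LaurentSeries ℚ)) hP0
  rw [hom_eval₂, map_zero] at h
  exact h

theorem chartAlg_of_isIntegral_RX (s : ↥(modularFunctionFieldFull N))
    {x : ↥(modularFunctionFieldFull N)}
    (hx : IsIntegral (RX ℓ (s : LaurentSeries ℚ)) (x : LaurentSeries ℚ)) :
    x ∈ chartAlg N ℓ {s} := by
  rw [mem_chartAlg_iff]
  obtain ⟨P, hP, hP0⟩ := hx
  have hF : ∀ a : RX ℓ (s : LaurentSeries ℚ), (a : LaurentSeries ℚ) ∈
      modularFunctionFieldFull N := by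
    intro a
    obtain ⟨b, _, hb⟩ := RX_mem_adjoin N ℓ s a.2
    rw [← hb]; exact b.2
  have hA : ∀ a : RX ℓ (s : LaurentSeries ℚ),
      (⟨(a : LaurentSeries ℚ), hF a⟩ : ↥(modularFunctionFieldFull N)) ∈
      Algebra.adjoin ↥(GaloisRep.ratLocalizedAt ℓ)
        ({s} : Set ↥(modularFunctionFieldFull N)) := by
    intro a
    obtain ⟨b, hb', hb⟩ := RX_mem_adjoin N ℓ s a.2
    have : (⟨(a : LaurentSeries ℚ), hF a⟩ : ↥(modularFunctionFieldFull N)) = b :=
      Subtype.ext hb.symm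
    rw [this]; exact hb'
  let ψ : RX ℓ (s : LaurentSeries ℚ) →+* Algebra.adjoin ↥(GaloisRep.ratLocalizedAt ℓ)
      ({s} : Set ↥(modularFunctionFieldFull N)) :=
    { toFun := fun a => ⟨⟨(a : LaurentSeries ℚ), hF a⟩, hA a⟩
      map_one' := rfl
      map_mul' := fun _ _ => rfl
      map_zero' := rfl
      map_add' := fun _ _ => rfl }
  refine ⟨P.map ψ, hP.map _, ?_⟩
  rw [eval₂_map]
  apply (algebraMap ↥(modularFunctionFieldFull N) (LaurentSeries ℚ)).injective
  rw [hom_eval₂, map_zero]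
  exact hP0

theorem chart_KT (hint : ∀ x : LaurentSeries ℚ, x ∈ EField N → x ∈ OO ℓ →
      IsIntegral (A1 ℓ) x) {k : Type*} [Field k] [CharP k ℓ] {hz : LaurentSeries ℤ}
    (ht : Transcendental k (redZ k hz)) (htQ : Transcendental ℚ (ιZ hz))
    (hK : ℚ⟮ιZ hz⟯ = ℚ⟮jqModC ℚ⟯) (s : ↥(modularFunctionFieldFull N))
    (hs : (s : LaurentSeries ℚ) = ιZ hz) :
    ∀ y : LaurentSeries ℚ, ∀ hy : y ∈ modularFunctionFieldFull N, y ∈ OO ℓ →
      (ℓ : ↥(modularFunctionFieldFull N)) * ⟨y, hy⟩ ∈ chartAlg N ℓ {s} →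
        (⟨y, hy⟩ : ↥(modularFunctionFieldFull N)) ∈ chartAlg N ℓ {s} := by
  intro y hy hyO hly
  apply chartAlg_of_isIntegral_RX
  rw [hs]
  apply q_expansion_principle hint ht htQ hK y (modularFunctionFieldFull_le_EField N hy) hyO
  have h := isIntegral_RX_of_chartAlg N ℓ s hly
  rw [hs] at h
  have h1 : ((((ℓ : ↥(modularFunctionFieldFull N)) * ⟨y, hy⟩ :
      ↥(modularFunctionFieldFull N))) : LaurentSeries ℚ) = (ℓ : LaurentSeries ℚ) * y := by
    push_cast
    rfl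
  rwa [h1] at h

theorem coe_jFull_eq : ((jFull N : ↥(modularFunctionFieldFull N)) : LaurentSeries ℚ) =
    ιZ (jqModC ℤ) := by
  have h : ιZ (jqModC ℤ) = jqModC ℚ := coeffMap_jqModC _
  rw [h]
  rfl

theorem coe_jFull_inv_eq : (((jFull N)⁻¹ : ↥(modularFunctionFieldFull N)) : LaurentSeries ℚ) =
    ιZ jInvC := by
  have h : ιZ jInvC = (jqModC ℚ)⁻¹ := redZ_jInvC ℚ
  rw [h]
  rfl

theorem jInv_transcendental (k : Type*) [Field k] : Transcendental k (redZ k jInvC) := by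
  rw [redZ_jInvC]
  intro h
  rw [IsAlgebraic.inv_iff] at h
  exact transcendental_of_order (by rw [order_jqModC]; norm_num) h

theorem jq_transcendental' (k : Type*) [Field k] : Transcendental k (redZ k (jqModC ℤ)) := by
  have h2 : redZ k (jqModC ℤ) = jqModC k := coeffMap_jqModC _
  rw [h2]
  exact transcendental_of_order (by rw [order_jqModC]; norm_num)

theorem adjoin_jInv : ℚ⟮ιZ jInvC⟯ = ℚ⟮jqModC ℚ⟯ := by
  have h : ιZ jInvC = (jqModC ℚ)⁻¹ := redZ_jInvC ℚ
  rw [h]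
  apply le_antisymm
  · rw [IntermediateField.adjoin_simple_le_iff]
    exact inv_mem (IntermediateField.mem_adjoin_simple_self ℚ _)
  · rw [IntermediateField.adjoin_simple_le_iff]
    have := inv_mem (IntermediateField.mem_adjoin_simple_self ℚ (jqModC ℚ)⁻¹)
    rwa [inv_inv] at this

theorem adjoin_jq : ℚ⟮ιZ (jqModC ℤ)⟯ = ℚ⟮jqModC ℚ⟯ := by
  have h : ιZ (jqModC ℤ) = jqModC ℚ := coeffMap_jqModC _
  rw [h]

variable {N ℓ}

theorem isDomain_fin (hint : ∀ x : LaurentSeries ℚ, x ∈ EField N → x ∈ OO ℓ →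
      IsIntegral (A1 ℓ) x) (K : Type*) [Field K] [CharP K ℓ]
      [Algebra ↥(GaloisRep.ratLocalizedAt ℓ) K] :
    IsDomain ((chartAlgFin N ℓ) ⊗[↥(GaloisRep.ratLocalizedAt ℓ)] K) := by
  apply isDomain_tensor N ℓ K
  · intro s hs
    rw [Set.mem_singleton_iff] at hs
    rw [hs, coe_jFull_eq]
    exact ιZ_mem_OO ℓ _
  · exact chart_KT N ℓ hint (jq_transcendental' K) (jq_transcendental' ℚ) adjoin_jq _
      (coe_jFull_eq N)

theorem isDomain_inf (hint : ∀ x : LaurentSeries ℚ, x ∈ EField N → x ∈ OO ℓ →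
      IsIntegral (A1 ℓ) x) (K : Type*) [Field K] [CharP K ℓ]
      [Algebra ↥(GaloisRep.ratLocalizedAt ℓ) K] :
    IsDomain ((chartAlgInf N ℓ) ⊗[↥(GaloisRep.ratLocalizedAt ℓ)] K) := by
  apply isDomain_tensor N ℓ K
  · intro s hs
    rw [Set.mem_singleton_iff] at hs
    rw [hs, coe_jFull_inv_eq]
    exact ιZ_mem_OO ℓ _
  · exact chart_KT N ℓ hint (jInv_transcendental K) (jInv_transcendental ℚ) adjoin_jInv _
      (coe_jFull_inv_eq N)

theorem nontrivial_mid (K : Type*) [Field K] [CharP K ℓ]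
      [Algebra ↥(GaloisRep.ratLocalizedAt ℓ) K] :
    Nontrivial ((chartAlgMid N ℓ) ⊗[↥(GaloisRep.ratLocalizedAt ℓ)] K) := by
  apply nontrivial_tensor N ℓ K
  intro s hs
  rw [Set.mem_insert_iff, Set.mem_singleton_iff] at hs
  rcases hs with rfl | rfl
  · rw [coe_jFull_eq]
    exact ιZ_mem_OO ℓ _
  · rw [coe_jFull_inv_eq]
    exact ιZ_mem_OO ℓ _

end Transfer

end Fermat.Agent.S28aux
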