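import Fermat.Statements.S28
import Fermat.Agent.S28_Transfer
import Fermat.Agent.S28_Scheme
import Fermat.Agent.Igusa.DegBound
import Fermat.Agent.Igusa.PsiN
import Fermat.Agent.Igusa.UnitPoly
import Fermat.Agent.Igusa.Fricke

set_option autoImplicit false
open AlgebraicGeometry CategoryTheory CategoryTheory.Limits ModularCurve ModularCurve.IgusaScheme
noncomputable section
set_option autoImplicit false
open ModularCurve ModularCurve.IgusaScheme

namespace Fermat.Agent.S28

open Fermat.Agent.S28aux in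
theorem integral_A1_all (N : ℕ) [NeZero N] (ℓ : ℕ) [Fact ℓ.Prime] (hℓN : ¬ ℓ ∣ N) :
    ∀ x : LaurentSeries ℚ, x ∈ EField N → x ∈ OO ℓ → IsIntegral (A1 ℓ) x := by
  apply integral_A1 hℓN
  · intro p hp _ _
    haveI : Fact p.Prime := ⟨hp⟩
    exact Fermat.Agent.Igusa.modUnitPoly p
  · have h := Fermat.Agent.Igusa.eFieldDep N
    rwa [Fermat.Agent.Igusa.dedekindPsi_eq N (NeZero.ne N)] at h
  · exact Fermat.Agent.Igusa.existsAtkinLehner N

set_option maxHeartbeats 4000000 in
set_option synthInstance.maxHeartbeats 400000 in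
theorem result
    (N : ℕ) [NeZero N] (ℓ : ℕ) [Fact ℓ.Prime] (hℓN : ¬ ℓ ∣ N)
    (K : Type) [Field K] [CharP K ℓ] [Algebra ↥(GaloisRep.ratLocalizedAt ℓ) K] :
    IsIntegral ↑(pullback (igusaTo N ℓ)
      (Spec.map (CommRingCat.ofHom (algebraMap ↥(GaloisRep.ratLocalizedAt ℓ) K)))) := by
  exact Fermat.Agent.S28aux.isIntegral_of_charts N ℓ K
    (Fermat.Agent.S28aux.isDomain_fin (integral_A1_all N ℓ hℓN) K)
    (Fermat.Agent.S28aux.isDomain_inf (integral_A1_all N ℓ hℓN) K)
    (Fermat.Agent.S28aux.nontrivial_mid K)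

end Fermat.Agent.S28
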