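import Mathlib.LinearAlgebra.Charpoly.ToMatrix
import Mathlib.LinearAlgebra.Matrix.Charpoly.Coeff
import Mathlib.LinearAlgebra.Dimension.Free
import Mathlib.LinearAlgebra.Trace

/-!
# Characteristic polynomials of rank-two representations satisfying a quadratic relation
-/

set_option autoImplicit false

open Polynomial

namespace Fermat.Agent.S30aux

section

variable {O M : Type*} [CommRing O] [IsDomain O] [AddCommGroup M] [Module O M]
  [Module.Free O M] [Module.Finite O M]

omit [IsDomain O] in
lemma charpoly_eq_trace_det [Nontrivial O] (h2 : Module.finrank O M = 2) (f : Module.End O M) :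
    f.charpoly = X ^ 2 - C (LinearMap.trace O M f) * X + C (LinearMap.det f) := by
  let b : Module.Basis (Fin 2) O M := Module.finBasisOfFinrankEq O M h2
  rw [← LinearMap.charpoly_toMatrix f b, Matrix.charpoly_fin_two,
    LinearMap.trace_eq_matrix_trace O b f, LinearMap.det_toMatrix b f]

omit [IsDomain O] in
lemma mul_self_eq [Nontrivial O] (h2 : Module.finrank O M = 2) (f : Module.End O M) :
    f * f = LinearMap.trace O M f • f - LinearMap.det f • (1 : Module.End O M) := by
  have h := LinearMap.aeval_self_charpoly f
  rw [charpoly_eq_trace_det h2] at h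
  simp only [map_add, map_sub, map_mul, map_pow, aeval_X, aeval_C] at h
  rw [Algebra.algebraMap_eq_smul_one, Algebra.algebraMap_eq_smul_one, smul_mul_assoc, one_mul,
    pow_two] at h
  rw [← sub_eq_zero, ← h]
  abel

lemma trace_det_eq_of_quadratic (h2 : Module.finrank O M = 2)
    (f : Module.End O M) (t d : O) (hf : f * f - t • f + d • (1 : Module.End O M) = 0)
    (hns : ∀ a b : O, a • f = b • (1 : Module.End O M) → a = 0) :
    LinearMap.trace O M f = t ∧ LinearMap.det f = d := by
  have hnt : Nontrivial M := Module.nontrivial_of_finrank_pos (R := O) (by rw [h2]; norm_num)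
  have h1 := mul_self_eq h2 f
  rw [h1] at hf
  have h3 : (LinearMap.trace O M f - t) • f = (LinearMap.det f - d) • (1 : Module.End O M) := by
    rw [sub_smul, sub_smul, ← sub_eq_zero, ← hf]
    abel
  have h4 := hns _ _ h3
  have h5 : (LinearMap.det f - d) • (1 : Module.End O M) = 0 := by
    rw [← h3, h4, zero_smul]
  refine ⟨sub_eq_zero.mp h4, ?_⟩
  rw [smul_eq_zero] at h5
  rcases h5 with h5 | h5
  · exact sub_eq_zero.mp h5
  · exact absurd h5 one_ne_zero

theorem charpoly_family {G : Type*} [Group G] (h2 : Module.finrank O M = 2)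
    (ρ : G →* Module.End O M) (t : G → O) (d : G →* Oˣ)
    (hrel : ∀ g, ρ g * ρ g - t g • ρ g + ((d g : Oˣ) : O) • (1 : Module.End O M) = 0)
    (c : G) (hc : ∀ a b : O, a • ρ c = b • (1 : Module.End O M) → a = 0) (g : G) :
    (ρ g).charpoly = X ^ 2 - C (t g) * X + C ((d g : Oˣ) : O) := by
  have hnt : Nontrivial M := Module.nontrivial_of_finrank_pos (R := O) (by rw [h2]; norm_num)
  suffices h : LinearMap.trace O M (ρ g) = t g ∧ LinearMap.det (ρ g) = ((d g : Oˣ) : O) by
    rw [charpoly_eq_trace_det h2, h.1, h.2]
  by_cases hg : ∀ a b : O, a • ρ g = b • (1 : Module.End O M) → a = 0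
  · exact trace_det_eq_of_quadratic h2 _ _ _ (hrel g) hg
  · push Not at hg
    obtain ⟨a, b, hab, ha⟩ := hg
    have hb : b ≠ 0 := by
      rintro rfl
      rw [zero_smul] at hab
      have h1 : a • (1 : Module.End O M) = 0 := by
        calc a • (1 : Module.End O M) = a • (ρ g * ρ g⁻¹) := by
              rw [← map_mul, mul_inv_cancel, map_one]
          _ = (a • ρ g) * ρ g⁻¹ := by rw [smul_mul_assoc]
          _ = 0 := by rw [hab, zero_mul]
      rw [smul_eq_zero] at h1
      exact h1.elim ha one_ne_zero
    have hgc : ∀ a' b' : O, a' • ρ (g * c) = b' • (1 : Module.End O M) → a' = 0 := by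
      intro a' b' h'
      have h1 : (a' * b) • ρ c = (a * b') • (1 : Module.End O M) := by
        calc (a' * b) • ρ c = a' • ((b • (1 : Module.End O M)) * ρ c) := by
              rw [smul_mul_assoc, one_mul, smul_smul]
          _ = a' • ((a • ρ g) * ρ c) := by rw [hab]
          _ = a • (a' • ρ (g * c)) := by
              rw [map_mul, smul_mul_assoc, smul_comm]
          _ = (a * b') • (1 : Module.End O M) := by rw [h', smul_smul]
      have h3 := hc _ _ h1
      exact (mul_eq_zero.mp h3).resolve_right hb
    have hdc := (trace_det_eq_of_quadratic h2 _ _ _ (hrel c) hc).2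
    have hdgc := (trace_det_eq_of_quadratic h2 _ _ _ (hrel (g * c)) hgc).2
    have hdet : LinearMap.det (ρ g) = ((d g : Oˣ) : O) := by
      rw [map_mul ρ, map_mul LinearMap.det, hdc, map_mul d, Units.val_mul] at hdgc
      exact mul_right_cancel₀ (d c).ne_zero hdgc
    refine ⟨?_, hdet⟩
    have htr : a * LinearMap.trace O M (ρ g) = 2 * b := by
      have := congrArg (LinearMap.trace O M) hab
      rw [map_smul, map_smul, LinearMap.trace_one, h2, smul_eq_mul, smul_eq_mul] at this
      rw [this]; push_cast; ring
    have hdt : a ^ 2 * ((d g : Oˣ) : O) = b ^ 2 := by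
      have := congrArg LinearMap.det hab
      rw [LinearMap.det_smul, LinearMap.det_smul, h2, map_one, mul_one, hdet] at this
      exact this
    have hq : (2 * b ^ 2 - t g * a * b) • (1 : Module.End O M) = 0 := by
      have h6 := hrel g
      have h7 : (a * a) • (ρ g * ρ g) = (b * b) • (1 : Module.End O M) := by
        rw [← smul_mul_smul_comm, hab, smul_mul_smul_comm, mul_one]
      have h8 : (a * a) • (t g • ρ g) = (t g * a * b) • (1 : Module.End O M) := by
        calc (a * a) • (t g • ρ g) = (t g * a) • (a • ρ g) := by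
              simp only [smul_smul]; congr 1; ring
          _ = (t g * a * b) • (1 : Module.End O M) := by rw [hab, smul_smul]
      have h9 : (a * a) • (((d g : Oˣ) : O) • (1 : Module.End O M)) = (b * b) • (1 : Module.End O M) := by
        rw [smul_smul]; congr 1; rw [← pow_two, hdt, pow_two]
      have h10 := congrArg (fun x => (a * a) • x) h6
      simp only [smul_add, smul_sub, smul_zero] at h10
      rw [h7, h8, h9] at h10
      rw [← h10, ← sub_smul, ← add_smul]
      congr 1; ring
    rw [smul_eq_zero] at hq
    have hq' : 2 * b ^ 2 - t g * a * b = 0 := hq.resolve_right one_ne_zero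
    have hq2 : b * (a * LinearMap.trace O M (ρ g) - t g * a) = 0 := by
      rw [htr, ← hq']; ring
    have hq3 : a * LinearMap.trace O M (ρ g) - t g * a = 0 := (mul_eq_zero.mp hq2).resolve_left hb
    have hq4 : a * LinearMap.trace O M (ρ g) = a * t g := by
      rw [sub_eq_zero] at hq3; rw [hq3]; ring
    exact mul_left_cancel₀ ha hq4

end

end Fermat.Agent.S30aux
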