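import Fermat.Agent.S30_Charpoly
import Fermat.Prelude.Def_GaloisRep_Adic
import Fermat.Prelude.Def_GaloisRep_ComplexConjugation
import Mathlib.RingTheory.DiscreteValuationRing.Basic
import Mathlib.LinearAlgebra.FreeModule.PID

/-!
# From a two-dimensional odd pseudo-character to a Galois representation

`exists_galoisRepAdic_of_pseudo`.
-/

set_option autoImplicit false
set_option linter.unusedSectionVars false

open Polynomial

namespace Fermat.Agent.S30aux

/-- the right-translation action on functions on a group -/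
def rt (G O : Type*) [Group G] [CommRing O] : G →* Module.End O (G → O) where
  toFun h := LinearMap.funLeft O O (fun y => y * h)
  map_one' := by
    ext f y
    simp
  map_mul' h k := by
    apply LinearMap.ext
    intro f
    funext y
    simp [LinearMap.funLeft_apply, mul_assoc]

@[simp] lemma rt_apply {G O : Type*} [Group G] [CommRing O] (h : G) (f : G → O) (y : G) :
    rt G O h f y = f (y * h) := rfl

/-- the pseudo-character identities -/
structure IsPseudo {G O : Type*} [Group G] [CommRing O] (t : G → O) (d : G →* Oˣ) : Prop where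
  one : t 1 = 2
  mul : ∀ g h, t g * t h = t (g * h) + ((d h : Oˣ) : O) * t (g * h⁻¹)

namespace IsPseudo

variable {G O : Type*} [Group G] [CommRing O] {t : G → O} {d : G →* Oˣ}

lemma inv (H : IsPseudo t d) (h : G) : ((d h : Oˣ) : O) * t h⁻¹ = t h := by
  have := H.mul 1 h
  rw [H.one, one_mul, one_mul] at this
  linear_combination -this

lemma comm (H : IsPseudo t d) (g h : G) : t (g * h) = t (h * g) := by
  have h1 := H.mul g h
  have h2 := H.mul h g
  have h3 := H.inv (g * h⁻¹)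
  have h4 : (g * h⁻¹)⁻¹ = h * g⁻¹ := by group
  rw [h4] at h3
  have h5 : ((d (g * h⁻¹) : Oˣ) : O) * ((d h : Oˣ) : O) = ((d g : Oˣ) : O) := by
    rw [← Units.val_mul, ← map_mul]; congr 2; group
  have h6 : ((d g : Oˣ) : O) * t (h * g⁻¹) = ((d h : Oˣ) : O) * t (g * h⁻¹) := by
    rw [← h3, ← h5]; ring
  linear_combination h2 - h1 + h6

/-- the span of the translates of `t` -/
def span (O : Type*) [CommRing O] (t : G → O) : Submodule O (G → O) :=
  Submodule.span O (Set.range fun x => rt G O x t)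

lemma mem_span (t : G → O) : t ∈ span O t :=
  Submodule.subset_span ⟨1, by funext y; simp⟩

lemma rt_mem_span {t : G → O} {f : G → O} (hf : f ∈ span O t) (h : G) : rt G O h f ∈ span O t := by
  induction hf using Submodule.span_induction with
  | mem f hf =>
    obtain ⟨x, rfl⟩ := hf
    exact Submodule.subset_span ⟨h * x, by funext y; simp [mul_assoc]⟩
  | zero => rw [map_zero]; exact Submodule.zero_mem _
  | add f g _ _ hf hg => rw [map_add]; exact Submodule.add_mem _ hf hg
  | smul a f _ hf => rw [map_smul]; exact Submodule.smul_mem _ _ hf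

lemma rel (H : IsPseudo t d) {f : G → O} (hf : f ∈ span O t) (h : G) :
    rt G O h f + ((d h : Oˣ) : O) • rt G O h⁻¹ f = t h • f := by
  induction hf using Submodule.span_induction with
  | mem f hf =>
    obtain ⟨x, rfl⟩ := hf
    funext y
    simp only [Pi.add_apply, Pi.smul_apply, rt_apply, smul_eq_mul]
    rw [H.comm (y * h) x, H.comm (y * h⁻¹) x, H.comm y x, ← mul_assoc, ← mul_assoc,
      mul_comm (t h), H.mul]
  | zero => simp
  | add f g _ _ hf hg =>
    rw [map_add, map_add, smul_add, smul_add, ← hf, ← hg]; abel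
  | smul a f _ hf =>
    rw [map_smul, map_smul, smul_comm (t h), ← hf, smul_add, smul_comm _ a]

lemma sub_mem {f : G → O} (H : IsPseudo t d) (hf : f ∈ span O t) (I : Ideal O) (σ : G)
    (hσ : ∀ y, t (y * σ) - t y ∈ I) (y : G) : f (y * σ) - f y ∈ I := by
  induction hf using Submodule.span_induction with
  | mem f hf =>
    obtain ⟨x, rfl⟩ := hf
    simp only [rt_apply]
    rw [H.comm (y * σ) x, H.comm y x, ← mul_assoc]
    exact hσ _
  | zero => simp
  | add f g _ _ hf hg =>
    have : (f + g) (y * σ) - (f + g) y = (f (y * σ) - f y) + (g (y * σ) - g y) := by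
      simp only [Pi.add_apply]; ring
    rw [this]; exact I.add_mem hf hg
  | smul a f _ hf =>
    have : (a • f) (y * σ) - (a • f) y = a * (f (y * σ) - f y) := by
      simp only [Pi.smul_apply, smul_eq_mul]; ring
    rw [this]; exact I.mul_mem_left _ hf

/-- polarised relation -/
lemma polar (H : IsPseudo t d) {f : G → O} (hf : f ∈ span O t) (g h : G) :
    rt G O (g * h) f + rt G O (h * g) f =
      t g • rt G O h f + t h • rt G O g f + (t (g * h) - t g * t h) • f := by
  have e1 := H.rel hf (g * h)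
  have e2 := H.rel hf h
  have e3 := H.rel (rt_mem_span hf h⁻¹) g
  -- e3 : R_g R_{h⁻¹} f + d g R_{g⁻¹} R_{h⁻¹} f = t g R_{h⁻¹} f
  have e4 := H.rel (rt_mem_span hf h) g
  -- e4 : R_g R_h f + d g R_{g⁻¹} R_h f = t g R_h f
  have e5 := H.rel hf g
  have e6 := H.rel (rt_mem_span hf g) h
  -- e6 : R_h R_g f + d h R_{h⁻¹} R_g f = t h R_g f
  have e7 := H.rel (rt_mem_span hf g⁻¹) h
  -- e7 : R_h R_{g⁻¹} f + d h R_{h⁻¹} R_{g⁻¹} f = t h R_{g⁻¹} f
  have m1 : rt G O (g * h)⁻¹ f = rt G O h⁻¹ (rt G O g⁻¹ f) := by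
    rw [mul_inv_rev, map_mul]; rfl
  have m2 : rt G O (h * g) f = rt G O h (rt G O g f) := by rw [map_mul]; rfl
  have m3 : ((d (g * h) : Oˣ) : O) = ((d g : Oˣ) : O) * ((d h : Oˣ) : O) := by
    rw [map_mul, Units.val_mul]
  rw [m1, m3] at e1
  -- d g * (e7) : d g R_h R_{g⁻¹} f + d g d h R_{h⁻¹}R_{g⁻¹} f = t h (d g R_{g⁻¹} f) = t h (t g f - R_g f)
  have e8 : ((d g : Oˣ) : O) • rt G O g⁻¹ f = t g • f - rt G O g f := by
    rw [← e5]; abel
  have e9 : rt G O h (((d g : Oˣ) : O) • rt G O g⁻¹ f) = t g • rt G O h f - rt G O h (rt G O g f) := by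
    rw [e8, map_sub, map_smul]
  have e10 := congrArg (fun x => ((d g : Oˣ) : O) • x) e7
  simp only [smul_add] at e10
  rw [← map_smul, e9, smul_comm _ (t h), e8, smul_smul] at e10
  rw [m2]
  have e11 : rt G O (g * h) f = t (g * h) • f
      - (((d g : Oˣ) : O) * ((d h : Oˣ) : O)) • rt G O h⁻¹ (rt G O g⁻¹ f) := by
    rw [← e1]; abel
  have e12 : (((d g : Oˣ) : O) * ((d h : Oˣ) : O)) • rt G O h⁻¹ (rt G O g⁻¹ f) =
      t h • (t g • f - rt G O g f) - (t g • rt G O h f - rt G O h (rt G O g f)) := by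
    rw [← e10]; abel
  rw [e11, e12, smul_sub, smul_smul, sub_smul, mul_comm (t h) (t g)]
  abel

end IsPseudo

section Sat

variable {G O : Type*} [Group G] [CommRing O] [IsDomain O]

/-- saturation of a submodule of functions -/
def sat (P : Submodule O (G → O)) : Submodule O (G → O) where
  carrier := {f | ∃ a : O, a ≠ 0 ∧ a • f ∈ P}
  zero_mem' := ⟨1, one_ne_zero, by simp⟩
  add_mem' := by
    rintro f g ⟨a, ha, hf⟩ ⟨b, hb, hg⟩
    refine ⟨a * b, mul_ne_zero ha hb, ?_⟩
    rw [smul_add]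
    refine P.add_mem ?_ ?_
    · rw [mul_comm, mul_smul]; exact P.smul_mem _ hf
    · rw [mul_smul]; exact P.smul_mem _ hg
  smul_mem' := by
    rintro c f ⟨a, ha, hf⟩
    exact ⟨a, ha, by rw [smul_comm]; exact P.smul_mem _ hf⟩

lemma mem_sat {P : Submodule O (G → O)} {f : G → O} :
    f ∈ sat P ↔ ∃ a : O, a ≠ 0 ∧ a • f ∈ P := Iff.rfl

lemma le_sat (P : Submodule O (G → O)) : P ≤ sat P := fun f hf => ⟨1, one_ne_zero, by simpa using hf⟩

/-- a finitely generated saturation is uniformly close to the original module -/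
lemma exists_smul_mem {P : Submodule O (G → O)} [Module.Finite O (sat P)] :
    ∃ a : O, a ≠ 0 ∧ ∀ f ∈ sat P, a • f ∈ P := by
  obtain ⟨s, hs⟩ := (Module.Finite.iff_fg.mp (inferInstance : Module.Finite O (sat P)))
  have key : ∀ s : Finset (G → O), (s : Set (G → O)) ⊆ (sat P : Set (G → O)) →
      ∃ a : O, a ≠ 0 ∧ ∀ f ∈ s, a • f ∈ P := by
    classical
    intro s
    induction s using Finset.induction_on with
    | empty => exact fun _ => ⟨1, one_ne_zero, by simp⟩
    | insert f s _ ih =>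
      intro h
      obtain ⟨a, ha, h1⟩ := ih (fun x hx => h (by simp [Finset.mem_coe.mp hx]))
      obtain ⟨b, hb, h2⟩ := h (by simp : f ∈ ((insert f s : Finset (G → O)) : Set (G → O)))
      refine ⟨a * b, mul_ne_zero ha hb, ?_⟩
      intro x hx
      rcases Finset.mem_insert.mp hx with rfl | hx
      · rw [mul_smul]; exact P.smul_mem _ h2
      · rw [mul_comm, mul_smul]; exact P.smul_mem _ (h1 x hx)
  obtain ⟨a, ha, h1⟩ := key s (by rw [← hs]; exact Submodule.subset_span)
  refine ⟨a, ha, fun f hf => ?_⟩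
  rw [← hs] at hf
  induction hf using Submodule.span_induction with
  | mem f hf => exact h1 f hf
  | zero => simp
  | add f g _ _ hf hg => rw [smul_add]; exact P.add_mem hf hg
  | smul b f _ hf => rw [smul_comm]; exact P.smul_mem _ hf

variable {P : Submodule O (G → O)}

lemma rt_mem_sat (hstab : ∀ h, ∀ f ∈ P, ∃ a : O, a ≠ 0 ∧ a • rt G O h f ∈ P) (h : G)
    {f : G → O} (hf : f ∈ sat P) : rt G O h f ∈ sat P := by
  obtain ⟨a, ha, hf⟩ := hf
  obtain ⟨b, hb, h2⟩ := hstab h _ hf
  refine ⟨b * a, mul_ne_zero hb ha, ?_⟩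
  rwa [mul_smul, ← map_smul]

/-- the action on the saturated lattice -/
def rtSat (hstab : ∀ h, ∀ f ∈ P, ∃ a : O, a ≠ 0 ∧ a • rt G O h f ∈ P) :
    G →* Module.End O (sat P) where
  toFun h := (rt G O h).restrict (fun _ hf => rt_mem_sat hstab h hf)
  map_one' := by
    ext f y
    simp
  map_mul' h k := by
    ext f y
    simp [mul_assoc]

@[simp] lemma coe_rtSat (hstab : ∀ h, ∀ f ∈ P, ∃ a : O, a ≠ 0 ∧ a • rt G O h f ∈ P) (h : G)
    (f : sat P) : ((rtSat hstab h f : sat P) : G → O) = rt G O h f := rfl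

lemma rtSat_rel {t : G → O} {d : G →* Oˣ} (H : IsPseudo t d) (hP : P ≤ IsPseudo.span O t)
    (hstab : ∀ h, ∀ f ∈ P, ∃ a : O, a ≠ 0 ∧ a • rt G O h f ∈ P) (h : G) :
    rtSat hstab h * rtSat hstab h - t h • rtSat hstab h
      + ((d h : Oˣ) : O) • (1 : Module.End O (sat P)) = 0 := by
  apply LinearMap.ext
  rintro ⟨f, a, ha, hf⟩
  apply Subtype.ext
  have h1 := H.rel (IsPseudo.rt_mem_span (hP hf) h) h
  have h2 : rt G O h⁻¹ (rt G O h (a • f)) = a • f := by
    funext y; simp
  rw [h2] at h1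
  simp only [LinearMap.add_apply, LinearMap.sub_apply, Module.End.mul_apply, LinearMap.smul_apply,
    Module.End.one_apply, Submodule.coe_add, Submodule.coe_sub, Submodule.coe_smul, coe_rtSat,
    LinearMap.zero_apply, Submodule.coe_zero]
  have h3 : a • (rt G O h (rt G O h f) - t h • rt G O h f + ((d h : Oˣ) : O) • f) = 0 := by
    rw [map_smul, map_smul] at h1
    rw [smul_add, smul_sub, smul_comm a (t h), ← h1, smul_comm a]
    abel
  exact (smul_eq_zero.mp h3).resolve_left ha

lemma rtSat_eq_one {t : G → O} {d : G →* Oˣ} (H : IsPseudo t d) (hP : P ≤ IsPseudo.span O t)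
    (hstab : ∀ h, ∀ f ∈ P, ∃ a : O, a ≠ 0 ∧ a • rt G O h f ∈ P) (σ : G)
    (hσ : ∀ y, t (y * σ) = t y) : rtSat hstab σ = 1 := by
  apply LinearMap.ext
  rintro ⟨f, a, ha, hf⟩
  apply Subtype.ext
  rw [coe_rtSat, Module.End.one_apply]
  funext y
  have h1 := H.sub_mem (hP hf) ⊥ σ (fun y => by rw [hσ, sub_self]; exact Ideal.zero_mem _) y
  rw [Ideal.mem_bot] at h1
  simp only [Pi.smul_apply, smul_eq_mul] at h1
  rw [← mul_sub] at h1
  exact sub_eq_zero.mp ((mul_eq_zero.mp h1).resolve_left ha)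

lemma rtSat_continuous [IsDiscreteValuationRing O]
    {t : G → O} {d : G →* Oˣ} (H : IsPseudo t d) (hP : P ≤ IsPseudo.span O t)
    (hstab : ∀ h, ∀ f ∈ P, ∃ a : O, a ≠ 0 ∧ a • rt G O h f ∈ P) [Module.Finite O (sat P)] :
    ∃ k : ℕ, ∀ (n : ℕ) (σ : G), (∀ y, t (y * σ) - t y ∈ IsLocalRing.maximalIdeal O ^ (n + k)) →
      ∀ f : sat P, rtSat hstab σ f - f ∈
        (IsLocalRing.maximalIdeal O ^ n) • (⊤ : Submodule O (sat P)) := by
  obtain ⟨a, ha, hsat⟩ := exists_smul_mem (P := P)
  obtain ⟨ϖ, hϖ⟩ := IsDiscreteValuationRing.exists_irreducible O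
  obtain ⟨k, hk⟩ := IsDiscreteValuationRing.associated_pow_irreducible ha hϖ
  refine ⟨k, fun n σ hσ f => ?_⟩
  have hm : ∀ m, IsLocalRing.maximalIdeal O ^ m = Ideal.span {ϖ ^ m} := fun m => by
    rw [hϖ.maximalIdeal_eq, Ideal.span_singleton_pow]
  have hϖ0 : ϖ ≠ 0 := hϖ.ne_zero
  have h1 : ∀ y, ∃ b, (f : G → O) (y * σ) - (f : G → O) y = ϖ ^ n * b := by
    intro y
    have h2 := H.sub_mem (hP (hsat f f.2)) _ σ hσ y
    rw [hm, Ideal.mem_span_singleton] at h2
    simp only [Pi.smul_apply, smul_eq_mul] at h2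
    rw [← mul_sub, pow_add, mul_comm (ϖ ^ n)] at h2
    have h3 : ϖ ^ k * ϖ ^ n ∣ ϖ ^ k * ((f : G → O) (y * σ) - (f : G → O) y) :=
      h2.trans (Associated.mul_right hk _).dvd
    exact (mul_dvd_mul_iff_left (pow_ne_zero _ hϖ0)).mp h3
  choose g hg using h1
  have h4 : ((rtSat hstab σ f - f : sat P) : G → O) = ϖ ^ n • g := by
    funext y
    simp only [Submodule.coe_sub, coe_rtSat, Pi.sub_apply, rt_apply, Pi.smul_apply, smul_eq_mul]
    exact hg y
  have h5 : g ∈ sat P := by
    refine ⟨a * ϖ ^ n, mul_ne_zero ha (pow_ne_zero _ hϖ0), ?_⟩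
    rw [mul_smul, ← h4]
    exact hsat _ (Subtype.mem _)
  have h6 : rtSat hstab σ f - f = ϖ ^ n • (⟨g, h5⟩ : sat P) := Subtype.ext h4
  rw [h6]
  refine Submodule.smul_mem_smul ?_ Submodule.mem_top
  rw [hm]
  exact Ideal.mem_span_singleton_self _

lemma sat_injOn {M : Type*} [AddCommGroup M] [Module O M] (ε : (G → O) →ₗ[O] M)
    (hε : ∀ f ∈ P, ε f = 0 → f = 0) :
    Function.Injective (ε.domRestrict (sat P)) := by
  rw [← LinearMap.ker_eq_bot, LinearMap.ker_eq_bot']
  rintro ⟨f, a, ha, hf⟩ h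
  have h1 : ε f = 0 := h
  have h2 : a • f = 0 := hε _ hf (by rw [map_smul, h1, smul_zero])
  exact Subtype.ext ((smul_eq_zero.mp h2).resolve_left ha)

end Sat

section Line

variable {G O : Type*} [Group G] [CommRing O] [IsDomain O]

/-- a function whose line is stable under translation produces a character. -/
lemma exists_character [IsDiscreteValuationRing O]
    {t : G → O} {d : G →* Oˣ} (H : IsPseudo t d) (h2 : (2 : O) ≠ 0)
    {u : G → O} (hu : u ∈ IsPseudo.span O t) (hu0 : u ≠ 0) (α : G → O)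
    (hα : ∀ h, (2 : O) • rt G O h u = α h • u) :
    ∃ ψ : G →* Oˣ, (∀ h, ((ψ h : Oˣ) : O) + ((d h : Oˣ) : O) * (((ψ h)⁻¹ : Oˣ) : O) = t h) ∧
      (∃ k : ℕ, ∀ (n : ℕ) (σ : G), (∀ y, t (y * σ) - t y ∈ IsLocalRing.maximalIdeal O ^ (n + k)) →
        ((ψ σ : Oˣ) : O) - 1 ∈ IsLocalRing.maximalIdeal O ^ n) ∧
      (∀ σ, (∀ y, t (y * σ) = t y) → ψ σ = 1) := by
  obtain ⟨ϖ, hϖ⟩ := IsDiscreteValuationRing.exists_irreducible O
  have hϖ0 : ϖ ≠ 0 := hϖ.ne_zero
  have hm : ∀ m, IsLocalRing.maximalIdeal O ^ m = Ideal.span {ϖ ^ m} := fun m => by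
    rw [hϖ.maximalIdeal_eq, Ideal.span_singleton_pow]
  have hI : Ideal.span (Set.range u) ≠ ⊥ := by
    intro h
    apply hu0
    funext y
    rw [Ideal.span_eq_bot] at h
    exact h _ ⟨y, rfl⟩
  obtain ⟨k, hk⟩ := IsDiscreteValuationRing.ideal_eq_span_pow_irreducible hI hϖ
  have hdiv : ∀ y, ∃ b, u y = ϖ ^ k * b := by
    intro y
    have : u y ∈ Ideal.span {ϖ ^ k} := by
      rw [← hk]; exact Ideal.subset_span ⟨y, rfl⟩
    exact Ideal.mem_span_singleton.mp this
  choose u' hu' using hdiv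
  have hex : ∃ y₀, IsUnit (u' y₀) := by
    by_contra hcon
    push Not at hcon
    have h3 : Ideal.span (Set.range u) ≤ Ideal.span {ϖ ^ (k + 1)} := by
      rw [Ideal.span_le]
      rintro _ ⟨y, rfl⟩
      rw [SetLike.mem_coe, Ideal.mem_span_singleton, hu' y, pow_succ]
      refine mul_dvd_mul_left _ ?_
      have : u' y ∈ IsLocalRing.maximalIdeal O := (IsLocalRing.mem_maximalIdeal _).mpr (hcon y)
      rw [hϖ.maximalIdeal_eq] at this
      exact Ideal.mem_span_singleton.mp this
    rw [hk, Ideal.span_singleton_le_span_singleton, pow_succ] at h3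
    have h4 : ϖ ^ k * ϖ ∣ ϖ ^ k * 1 := by rwa [mul_one]
    have h5 : ϖ ∣ 1 := (mul_dvd_mul_iff_left (pow_ne_zero _ hϖ0)).mp h4
    exact hϖ.not_isUnit (isUnit_of_dvd_one h5)
  obtain ⟨y₀, e, he⟩ := hex
  -- normalised function
  set v : G → O := fun y => ((e⁻¹ : Oˣ) : O) * u' y with hv
  have hv0 : v y₀ = 1 := by rw [hv]; simp only; rw [← he, Units.inv_mul]
  have huv : ∀ y, u y = (ϖ ^ k * (e : O)) * v y := by
    intro y
    rw [hu' y, hv]; simp only
    rw [mul_assoc, Units.mul_inv_cancel_left]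
  have ha0 : ϖ ^ k * (e : O) ≠ 0 := mul_ne_zero (pow_ne_zero _ hϖ0) e.ne_zero
  have huv' : u = (ϖ ^ k * (e : O)) • v := funext huv
  have hα' : ∀ h y, 2 * v (y * h) = α h * v y := by
    intro h y
    have h3 := congrFun (hα h) y
    simp only [Pi.smul_apply, rt_apply, smul_eq_mul, huv] at h3
    apply mul_left_cancel₀ ha0
    linear_combination h3
  have hval : ∀ h y, v (y * h) = v (y₀ * h) * v y := by
    intro h y
    have h3 := hα' h y
    have h4 := hα' h y₀
    rw [hv0, mul_one] at h4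
    apply mul_left_cancel₀ h2
    rw [h3, ← h4]; ring
  let ψ₀ : G →* O :=
    { toFun := fun h => v (y₀ * h)
      map_one' := by rw [mul_one, hv0]
      map_mul' := fun h k => by
        rw [← mul_assoc, hval k (y₀ * h)]; ring }
  let ψ : G →* Oˣ := ψ₀.toHomUnits
  have hψ : ∀ h, ((ψ h : Oˣ) : O) = v (y₀ * h) := fun h => rfl
  have hrel : ∀ h y, v (y * h) + ((d h : Oˣ) : O) * v (y * h⁻¹) = t h * v y := by
    intro h y
    have h3 := congrFun (H.rel hu h) y
    simp only [Pi.add_apply, Pi.smul_apply, rt_apply, smul_eq_mul, huv] at h3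
    apply mul_left_cancel₀ ha0
    linear_combination h3
  refine ⟨ψ, ?_, ⟨k, ?_⟩, ?_⟩
  · intro h
    have h3 := hrel h y₀
    rw [hv0, mul_one] at h3
    rw [← h3, ← map_inv, hψ, hψ]
  · intro n σ hσ
    have h3 := H.sub_mem hu _ σ hσ y₀
    rw [hm, Ideal.mem_span_singleton] at h3 ⊢
    rw [huv, huv, ← mul_sub, hv0, pow_add, mul_comm (ϖ ^ n), mul_assoc] at h3
    have h4 := (mul_dvd_mul_iff_left (pow_ne_zero k hϖ0)).mp h3
    rw [hψ]
    exact (Units.dvd_mul_left).mp h4
  · intro σ hσ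
    apply Units.ext
    have h3 := H.sub_mem hu ⊥ σ (fun y => by rw [hσ, sub_self]; exact Ideal.zero_mem _) y₀
    rw [Ideal.mem_bot, huv, huv, ← mul_sub, hv0] at h3
    rw [hψ, Units.val_one]
    exact sub_eq_zero.mp ((mul_eq_zero.mp h3).resolve_left ha0)

end Line

section Dichotomy

variable {G O : Type*} [Group G] [CommRing O] [IsDomain O] {t : G → O} {d : G →* Oˣ}

lemma rt_mul_apply (g h : G) (f : G → O) : rt G O (g * h) f = rt G O g (rt G O h f) := by
  rw [map_mul]; rfl

lemma IsPseudo.apply_c (H : IsPseudo t d) (h2 : (2 : O) ≠ 0) {c : G} (hc : c * c = 1)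
    (hdc : ((d c : Oˣ) : O) = -1) : t c = 0 := by
  have h1 := H.inv c
  rw [inv_eq_of_mul_eq_one_right hc, hdc] at h1
  have h3 : 2 * t c = 0 := by linear_combination -h1
  exact (mul_eq_zero.mp h3).resolve_left h2

lemma IsPseudo.plus (H : IsPseudo t d) (h2 : (2 : O) ≠ 0) {c : G} (hc : c * c = 1)
    (hdc : ((d c : Oˣ) : O) = -1) {f : G → O} (hf : f ∈ IsPseudo.span O t)
    (hcf : rt G O c f = f) (h : G) :
    rt G O h f + rt G O c (rt G O h f) = (t h + t (c * h)) • f := by
  have h1 := H.polar hf c h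
  rw [rt_mul_apply, rt_mul_apply h c, hcf, H.apply_c h2 hc hdc, zero_smul, zero_mul, sub_zero,
    zero_add, ← add_smul] at h1
  rw [← h1, add_comm]

lemma IsPseudo.minus (H : IsPseudo t d) (h2 : (2 : O) ≠ 0) {c : G} (hc : c * c = 1)
    (hdc : ((d c : Oˣ) : O) = -1) {f : G → O} (hf : f ∈ IsPseudo.span O t)
    (hcf : rt G O c f = -f) (h : G) :
    rt G O h f - rt G O c (rt G O h f) = (t h - t (c * h)) • f := by
  have h1 := H.polar hf c h
  rw [rt_mul_apply, rt_mul_apply h c, hcf, H.apply_c h2 hc hdc, zero_smul, zero_mul, sub_zero,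
    zero_add, map_neg, smul_neg] at h1
  rw [sub_smul, ← neg_inj, neg_sub, sub_eq_add_neg, h1]
  abel

theorem dichotomy (H : IsPseudo t d) (h2 : (2 : O) ≠ 0) (c : G) (hc : c * c = 1)
    (hdc : ((d c : Oˣ) : O) = -1) :
    (∃ u ∈ IsPseudo.span O t, u ≠ 0 ∧ ∃ α : G → O, ∀ h, (2 : O) • rt G O h u = α h • u) ∨
    (∃ v ∈ IsPseudo.span O t, ∃ w ∈ IsPseudo.span O t, v ≠ 0 ∧ w ≠ 0 ∧ rt G O c v = v ∧
      rt G O c w = -w ∧ ∀ h, ∃ a : O, a ≠ 0 ∧
        a • rt G O h v ∈ Submodule.span O {v, w} ∧ a • rt G O h w ∈ Submodule.span O {v, w}) := by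
  have hcc : ∀ f : G → O, rt G O c (rt G O c f) = f := by
    intro f; rw [← rt_mul_apply, hc, map_one]; rfl
  set v : G → O := t + rt G O c t with hv
  have hvm : v ∈ IsPseudo.span O t :=
    Submodule.add_mem _ (IsPseudo.mem_span t) (IsPseudo.rt_mem_span (IsPseudo.mem_span t) c)
  have hcv : rt G O c v = v := by rw [hv, map_add, hcc, add_comm]
  have hv0 : v ≠ 0 := by
    intro h
    have h3 := congrFun h 1
    simp only [hv, Pi.add_apply, rt_apply, one_mul, Pi.zero_apply, H.one,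
      H.apply_c h2 hc hdc, add_zero] at h3
    exact h2 h3
  by_cases hA : ∀ h, rt G O h v = rt G O c (rt G O h v)
  · left
    refine ⟨v, hvm, hv0, fun h => t h + t (c * h), fun h => ?_⟩
    rw [← H.plus h2 hc hdc hvm hcv h, ← hA h, two_smul]
  push Not at hA
  obtain ⟨r, hr⟩ := hA
  set w : G → O := rt G O r v - rt G O c (rt G O r v) with hw
  have hw0 : w ≠ 0 := sub_ne_zero.mpr hr
  have hwm : w ∈ IsPseudo.span O t :=
    Submodule.sub_mem _ (IsPseudo.rt_mem_span hvm r)
      (IsPseudo.rt_mem_span (IsPseudo.rt_mem_span hvm r) c)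
  have hcw : rt G O c w = -w := by rw [hw, map_sub, hcc]; abel
  have hminus := H.minus h2 hc hdc hwm hcw
  set e : G → O := fun h => (t (h * r) + t (c * (h * r))) - (t (h * c * r) + t (c * (h * c * r)))
    with he
  have hplus : ∀ h, rt G O h w + rt G O c (rt G O h w) = e h • v := by
    intro h
    have h3 := H.plus h2 hc hdc hvm hcv (h * r)
    have h4 := H.plus h2 hc hdc hvm hcv (h * c * r)
    rw [he]
    simp only
    rw [sub_smul, ← h3, ← h4, hw]
    simp only [rt_mul_apply, map_sub]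
    abel
  have h2w : ∀ h, (2 : O) • rt G O h w = (t h - t (c * h)) • w + e h • v := by
    intro h
    rw [← hplus, ← hminus, two_smul]; abel
  by_cases hB : ∀ h, e h = 0
  · left
    refine ⟨w, hwm, hw0, fun h => t h - t (c * h), fun h => ?_⟩
    rw [h2w, hB, zero_smul, add_zero]
  push Not at hB
  obtain ⟨s, hs⟩ := hB
  right
  refine ⟨v, hvm, w, hwm, hv0, hw0, hcv, hcw, fun h => ⟨2 * e s, mul_ne_zero h2 hs, ?_, ?_⟩⟩
  · have hvS : v ∈ Submodule.span O {v, w} := Submodule.subset_span (by simp)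
    have hwS : w ∈ Submodule.span O {v, w} := Submodule.subset_span (by simp)
    have h3 : (2 * e s) • rt G O h v =
        (2 : O) • ((2 : O) • rt G O (h * s) w) - (t s - t (c * s)) • ((2 : O) • rt G O h w) := by
      have h4 : e s • v = (2 : O) • rt G O s w - (t s - t (c * s)) • w := by
        rw [h2w]; abel
      rw [mul_smul, ← map_smul _ (e s) v, h4, map_sub, map_smul, map_smul, rt_mul_apply,
        smul_sub, smul_comm (2 : O) (t s - t (c * s))]
    rw [h3, h2w, h2w]
    refine Submodule.sub_mem _ (Submodule.smul_mem _ _ (Submodule.add_mem _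
      (Submodule.smul_mem _ _ hwS) (Submodule.smul_mem _ _ hvS))) (Submodule.smul_mem _ _
      (Submodule.add_mem _ (Submodule.smul_mem _ _ hwS) (Submodule.smul_mem _ _ hvS)))
  · have hvS : v ∈ Submodule.span O {v, w} := Submodule.subset_span (by simp)
    have hwS : w ∈ Submodule.span O {v, w} := Submodule.subset_span (by simp)
    rw [mul_comm, mul_smul, h2w]
    exact Submodule.smul_mem _ _ (Submodule.add_mem _
      (Submodule.smul_mem _ _ hwS) (Submodule.smul_mem _ _ hvS))

end Dichotomy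

section Galois

/-- the absolute Galois group -/
abbrev GQ : Type := AlgebraicClosure ℚ ≃ₐ[ℚ] AlgebraicClosure ℚ

/-- a function on `GQ` is adically continuous in the uniform sense -/
def AdicCont {O : Type} [CommRing O] [IsLocalRing O] (t : GQ → O) : Prop :=
  ∀ n : ℕ, ∃ L : IntermediateField ℚ (AlgebraicClosure ℚ), FiniteDimensional ℚ L ∧
    ∀ σ : GQ, (∀ x ∈ L, σ x = x) → ∀ y, t (y * σ) - t y ∈ IsLocalRing.maximalIdeal O ^ n

variable {O : Type} [CommRing O] [IsDomain O] [IsDiscreteValuationRing O]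

theorem exists_galoisRepAdic_of_character (t : GQ → O) (d : GQ →* Oˣ) (ψ : GQ →* Oˣ)
    (hψ : ∀ h, ((ψ h : Oˣ) : O) + ((d h : Oˣ) : O) * (((ψ h)⁻¹ : Oˣ) : O) = t h)
    (hcψ : AdicCont fun g => ((ψ g : Oˣ) : O)) (hcd : AdicCont fun g => ((d g : Oˣ) : O)) :
    ∃ ρ : GaloisRepAdic O, (∀ g, (ρ.ρ g).charpoly = X ^ 2 - C (t g) * X + C ((d g : Oˣ) : O)) ∧
      ∀ σ, ψ σ = 1 → d σ = 1 → ρ.ρ σ = 1 := by
  let D : GQ →* Matrix (Fin 2) (Fin 2) O :=
    { toFun := fun g => Matrix.diagonal ![((ψ g : Oˣ) : O), ((d g * (ψ g)⁻¹ : Oˣ) : O)]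
      map_one' := by
        rw [← Matrix.diagonal_one]
        congr 1
        funext i
        fin_cases i <;> simp
      map_mul' := fun g h => by
        rw [Matrix.diagonal_mul_diagonal]
        congr 1
        funext i
        fin_cases i
        · simp
        · simp only [map_mul, mul_inv_rev, Fin.mk_one, Matrix.cons_val_one, Matrix.cons_val_fin_one,
            Units.val_mul]
          ring }
  have hD : ∀ g (v : Fin 2 → O), Matrix.toLin' (D g) v - v =
      (((ψ g : Oˣ) : O) - 1) • (v 0 • Pi.single 0 1) +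
        (((d g * (ψ g)⁻¹ : Oˣ) : O) - 1) • (v 1 • Pi.single 1 1) := by
    intro g v
    funext i
    fin_cases i
    · simp [D, Matrix.toLin'_apply]; ring
    · simp [D, Matrix.toLin'_apply]; ring
  refine ⟨{ V := Fin 2 → O
            finrank_eq := by simp
            ρ := (Matrix.toLinAlgEquiv' : Matrix (Fin 2) (Fin 2) O ≃ₐ[O] _).toMonoidHom.comp D
            isAdicContinuous := ?_ }, ?_, ?_⟩
  · intro n
    obtain ⟨L₁, hL₁, h1⟩ := hcψ n
    obtain ⟨L₂, hL₂, h2⟩ := hcd n
    refine ⟨L₁ ⊔ L₂, inferInstance, fun σ hσ v => ?_⟩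
    have e1 := h1 σ (fun x hx => hσ x (le_sup_left (a := L₁) hx)) 1
    have e2 := h2 σ (fun x hx => hσ x (le_sup_right (a := L₁) hx)) 1
    simp only [one_mul, map_one, Units.val_one] at e1 e2
    have e3 : ((d σ * (ψ σ)⁻¹ : Oˣ) : O) - 1 ∈ IsLocalRing.maximalIdeal O ^ n := by
      have : ((d σ * (ψ σ)⁻¹ : Oˣ) : O) - 1 =
          (((ψ σ)⁻¹ : Oˣ) : O) * ((((d σ : Oˣ) : O) - 1) - (((ψ σ : Oˣ) : O) - 1)) := by
        rw [Units.val_mul]
        linear_combination (1 : O) * Units.inv_mul (ψ σ)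
      rw [this]
      exact Ideal.mul_mem_left _ _ (Ideal.sub_mem _ e2 e1)
    show Matrix.toLin' (D σ) v - v ∈ _
    rw [hD]
    exact Submodule.add_mem _ (Submodule.smul_mem_smul e1 Submodule.mem_top)
      (Submodule.smul_mem_smul e3 Submodule.mem_top)
  · intro g
    show (Matrix.toLin' (D g)).charpoly = _
    rw [Matrix.charpoly_toLin', Matrix.charpoly_fin_two]
    simp only [D, MonoidHom.coe_mk, OneHom.coe_mk, Matrix.trace_diagonal, Fin.sum_univ_two,
      Matrix.cons_val_zero, Matrix.cons_val_one, Matrix.cons_val_fin_one, Matrix.det_diagonal,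
      Fin.prod_univ_two]
    rw [← hψ, Units.val_mul]
    congr 2
    rw [mul_left_comm, Units.mul_inv, mul_one]
  · intro σ h1 h2
    apply LinearMap.ext
    intro v
    rw [Module.End.one_apply, ← sub_eq_zero]
    show Matrix.toLin' (D σ) v - v = _
    rw [hD, h1, h2]
    simp

theorem exists_galoisRepAdic_of_pseudo (h2 : (2 : O) ≠ 0)
    (t : GQ → O) (d : GQ →* Oˣ) (H : IsPseudo t d)
    (hct : AdicCont t) (hcd : AdicCont fun g => ((d g : Oˣ) : O))
    (c : GQ) (hc : c * c = 1) (hdc : ((d c : Oˣ) : O) = -1) :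
    ∃ ρ : GaloisRepAdic O, (∀ g, (ρ.ρ g).charpoly = X ^ 2 - C (t g) * X + C ((d g : Oˣ) : O)) ∧
      ∀ σ, (∀ y, t (y * σ) = t y) → d σ = 1 → ρ.ρ σ = 1 := by
  rcases dichotomy H h2 c hc hdc with ⟨u, hu, hu0, α, hα⟩ | ⟨v, hv, w, hw, hv0, hw0, hcv, hcw, hst⟩
  · obtain ⟨ψ, hψ, ⟨k, hk⟩, hψ1⟩ := exists_character H h2 hu hu0 α hα
    obtain ⟨ρ, h3, h4⟩ := exists_galoisRepAdic_of_character t d ψ hψ (fun n => by
      obtain ⟨L, hL, h1⟩ := hct (n + k)
      refine ⟨L, hL, fun σ hσ y => ?_⟩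
      have h5 := hk n σ (h1 σ hσ)
      have : ((ψ (y * σ) : Oˣ) : O) - ((ψ y : Oˣ) : O) =
          ((ψ y : Oˣ) : O) * (((ψ σ : Oˣ) : O) - 1) := by
        rw [map_mul, Units.val_mul]; ring
      rw [this]
      exact Ideal.mul_mem_left _ _ h5) hcd
    exact ⟨ρ, h3, fun σ hσ hd => h4 σ (hψ1 σ hσ) hd⟩
  · -- the two-dimensional case
    set P : Submodule O (GQ → O) := Submodule.span O {v, w} with hP
    have hvP : v ∈ P := Submodule.subset_span (by simp)
    have hwP : w ∈ P := Submodule.subset_span (by simp)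
    have hPs : P ≤ IsPseudo.span O t := by
      rw [hP, Submodule.span_le]
      rintro f hf
      rcases hf with rfl | hf
      · exact hv
      · rw [Set.mem_singleton_iff.mp hf]; exact hw
    have hstab : ∀ h, ∀ f ∈ P, ∃ a : O, a ≠ 0 ∧ a • rt GQ O h f ∈ P := by
      intro h f hf
      obtain ⟨a, ha, h3, h4⟩ := hst h
      refine ⟨a, ha, ?_⟩
      obtain ⟨x, y, rfl⟩ := Submodule.mem_span_pair.mp hf
      rw [map_add, map_smul, map_smul, smul_add, smul_comm a x, smul_comm a y]
      exact P.add_mem (P.smul_mem _ h3) (P.smul_mem _ h4)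
    -- evaluation
    obtain ⟨y₁, hy₁⟩ : ∃ y, v y ≠ 0 := by
      by_contra hcon; push Not at hcon; exact hv0 (funext hcon)
    obtain ⟨y₂, hy₂⟩ : ∃ y, w y ≠ 0 := by
      by_contra hcon; push Not at hcon; exact hw0 (funext hcon)
    have hvc : ∀ y, v (y * c) = v y := fun y => congrFun hcv y
    have hwc : ∀ y, w (y * c) = - w y := fun y => congrFun hcw y
    let ε : (GQ → O) →ₗ[O] O × O :=
      LinearMap.prod
        (LinearMap.proj (R := O) (φ := fun _ : GQ => O) y₁ +
          LinearMap.proj (R := O) (φ := fun _ : GQ => O) (y₁ * c))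
        (LinearMap.proj (R := O) (φ := fun _ : GQ => O) y₂ -
          LinearMap.proj (R := O) (φ := fun _ : GQ => O) (y₂ * c))
    have hε : ∀ f ∈ P, ε f = 0 → f = 0 := by
      intro f hf hf0
      obtain ⟨x, y, rfl⟩ := Submodule.mem_span_pair.mp hf
      have e1 : (x • v + y • w) y₁ + (x • v + y • w) (y₁ * c) = 0 := congrArg Prod.fst hf0
      have e2 : (x • v + y • w) y₂ - (x • v + y • w) (y₂ * c) = 0 := congrArg Prod.snd hf0
      simp only [Pi.add_apply, Pi.smul_apply, smul_eq_mul, hvc, hwc] at e1 e2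
      have e3 : (2 * v y₁) * x = 0 := by linear_combination e1
      have e4 : (2 * w y₂) * y = 0 := by linear_combination e2
      have hx := (mul_eq_zero.mp e3).resolve_left (mul_ne_zero h2 hy₁)
      have hy := (mul_eq_zero.mp e4).resolve_left (mul_ne_zero h2 hy₂)
      rw [hx, hy, zero_smul, zero_smul, add_zero]
    have hinj := sat_injOn ε hε
    have hfin : Module.Finite O (sat P) := Module.Finite.of_injective _ hinj
    have hfree : Module.Free O (sat P) := inferInstance
    have hle : Module.finrank O (sat P) ≤ 2 := by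
      have := LinearMap.finrank_le_finrank_of_injective hinj
      simpa using this
    have hli : LinearIndependent O ![(⟨v, le_sat P hvP⟩ : sat P), ⟨w, le_sat P hwP⟩] := by
      rw [LinearIndependent.pair_iff]
      intro x y hxy
      have h3 : x • v + y • w = 0 := congrArg Subtype.val hxy
      have e1 := congrFun h3 y₁
      have e1' := congrFun h3 (y₁ * c)
      have e2 := congrFun h3 y₂
      have e2' := congrFun h3 (y₂ * c)
      simp only [Pi.add_apply, Pi.smul_apply, smul_eq_mul, hvc, hwc, Pi.zero_apply] at e1 e1' e2 e2'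
      have e3 : (2 * v y₁) * x = 0 := by linear_combination e1 + e1'
      have e4 : (2 * w y₂) * y = 0 := by linear_combination e2 - e2'
      exact ⟨(mul_eq_zero.mp e3).resolve_left (mul_ne_zero h2 hy₁),
        (mul_eq_zero.mp e4).resolve_left (mul_ne_zero h2 hy₂)⟩
    have hge : 2 ≤ Module.finrank O (sat P) := by
      simpa using hli.fintype_card_le_finrank
    have hrank : Module.finrank O (sat P) = 2 := le_antisymm hle hge
    obtain ⟨k, hk⟩ := rtSat_continuous H hPs hstab
    refine ⟨{ V := sat P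
              finrank_eq := hrank
              ρ := rtSat hstab
              isAdicContinuous := ?_ }, ?_, ?_⟩
    · intro n
      obtain ⟨L, hL, h1⟩ := hct (n + k)
      exact ⟨L, hL, fun σ hσ f => hk n σ (h1 σ hσ) f⟩
    · intro g
      refine charpoly_family hrank (rtSat hstab) t d (rtSat_rel H hPs hstab) c ?_ g
      intro a b hab
      have e1 := congrArg Subtype.val (LinearMap.congr_fun hab ⟨v, le_sat P hvP⟩)
      have e2 := congrArg Subtype.val (LinearMap.congr_fun hab ⟨w, le_sat P hwP⟩)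
      simp only [LinearMap.smul_apply, Submodule.coe_smul, coe_rtSat, hcv, hcw,
        Module.End.one_apply] at e1 e2
      have e3 := congrFun e1 y₁
      have e4 := congrFun e2 y₂
      simp only [Pi.smul_apply, Pi.neg_apply, smul_eq_mul] at e3 e4
      have e5 : a = b := mul_right_cancel₀ hy₁ e3
      have e6 : (2 * w y₂) * a = 0 := by rw [← e5] at e4; linear_combination -e4
      exact (mul_eq_zero.mp e6).resolve_left (mul_ne_zero h2 hy₂)
    · intro σ hσ _
      exact rtSat_eq_one H hPs hstab σ hσ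

end Galois

end Fermat.Agent.S30aux
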