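import Fermat.Agent.S30_Cyclo
import Fermat.Agent.S30_Pseudo
import Fermat.Agent.GalRep.Unramified
import Fermat.Agent.Frob.Density

/-!
# The Galois representation attached to a point of the Hecke algebra, from `ESInput`

`exists_rep_of_ESInput` : the strong form of S30 (no coefficient extension) from the abstract
Eichler--Shimura input `GalRep.ESInput`.
-/

set_option autoImplicit false
set_option linter.style.haveILetI false
set_option linter.unusedVariables false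
set_option linter.unusedSectionVars false

noncomputable section

open CuspForm ModularCurve Polynomial Fermat.Agent.GalRep

namespace Fermat.Agent.S30aux

section Torsion

variable {J : Type*} [AddCommGroup J] {p : ℕ} [Fact p.Prime]

lemma nsmul_eq_of_cast {m a b : ℕ} {x : J} (hx : p ^ m • x = 0)
    (h : (a : ZMod (p ^ m)) = (b : ZMod (p ^ m))) : a • x = b • x := by
  have h1 : a % (p ^ m) = b % (p ^ m) := (ZMod.natCast_eq_natCast_iff' a b (p ^ m)).mp h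
  have h2 : ∀ c : ℕ, c • x = (c % (p ^ m)) • x := by
    intro c
    conv_lhs => rw [← Nat.mod_add_div c (p ^ m)]
    rw [add_smul, mul_comm (p ^ m), mul_smul, hx, smul_zero, add_zero]
  rw [h2 a, h2 b, h1]

end Torsion

section Main

variable {N p : ℕ} [NeZero N] [Fact p.Prime] {S : Finset ℕ}
  {J : Type*} [AddCommGroup J] [Module HeckeAlg J] [DistribMulAction GalRep.GQ J]
  [SMulCommClass GalRep.GQ HeckeAlg J]

variable (p S J) in
/-- `r` acts on `J[p^m]` as `g + χ(g) g⁻¹`. -/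
def Acts (m : ℕ) (g : GalRep.GQ) (r : HeckeAlgS (↑S : Set ℕ)) : Prop :=
  ∀ x : J, p ^ m • x = 0 → inclS (↑S : Set ℕ) r • x = g • x + cn p m g • (g⁻¹ • x)

lemma Acts.mono {m m' : ℕ} (h : m ≤ m') {g : GalRep.GQ} {r : HeckeAlgS (↑S : Set ℕ)}
    (hr : Acts p S J m' g r) : Acts p S J m g r := by
  intro x hx
  have hx' : p ^ m' • x = 0 := by
    rw [← Nat.sub_add_cancel h, pow_add, mul_smul, hx, smul_zero]
  rw [hr x hx']
  congr 1
  refine nsmul_eq_of_cast (m := m) (p := p) ?_ (cn_le p h g)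
  rw [smul_comm, hx, smul_zero]

lemma Acts.one (m : ℕ) : Acts p S J m 1 2 := by
  intro x hx
  rw [map_ofNat, inv_one, one_smul, nsmul_eq_of_cast hx
    ((cn_one p m).trans (Nat.cast_one (R := ZMod (p ^ m))).symm), one_smul, ← two_smul HeckeAlg x]

lemma Acts.mul {m : ℕ} {g h : GalRep.GQ} {r₁ r₂ r₃ r₄ : HeckeAlgS (↑S : Set ℕ)}
    (h₁ : Acts p S J m g r₁) (h₂ : Acts p S J m h r₂) (h₃ : Acts p S J m (g * h) r₃)
    (h₄ : Acts p S J m (g * h⁻¹) r₄) (x : J) (hx : p ^ m • x = 0) :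
    inclS (↑S : Set ℕ) (r₁ * r₂ - r₃ - (cn p m h : HeckeAlgS (↑S : Set ℕ)) * r₄) • x = 0 := by
  have htors : ∀ g : GalRep.GQ, p ^ m • (g • x) = 0 := fun g => by
    rw [smul_comm, hx, smul_zero]
  set R₁ := inclS (↑S : Set ℕ) r₁
  set R₂ := inclS (↑S : Set ℕ) r₂
  set R₃ := inclS (↑S : Set ℕ) r₃
  set R₄ := inclS (↑S : Set ℕ) r₄
  have e1 : (R₁ * R₂) • x = g • h • x + cn p m h • (g • h⁻¹ • x) +
      (cn p m g • (h • g⁻¹ • x) + cn p m g • (cn p m h • (h⁻¹ • g⁻¹ • x))) := by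
    rw [mul_comm, mul_smul, h₁ x hx, smul_add, ← smul_comm g R₂ x, h₂ x hx, smul_add,
      smul_comm R₂ (cn p m g) (g⁻¹ • x), h₂ _ (htors g⁻¹), smul_add, smul_comm g (cn p m h)]
  have e3 : R₃ • x = g • h • x + cn p m g • (cn p m h • (h⁻¹ • g⁻¹ • x)) := by
    rw [h₃ x hx, mul_smul, mul_inv_rev, mul_smul, ← mul_smul (cn p m g)]
    congr 1
    refine nsmul_eq_of_cast (m := m) (p := p) ?_ (cn_mul p m g h)
    rw [← mul_smul]; exact htors _
  have e4 : (cn p m h) • (R₄ • x) = cn p m h • (g • h⁻¹ • x) + cn p m g • (h • g⁻¹ • x) := by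
    rw [h₄ x hx, smul_add, mul_smul, mul_inv_rev, inv_inv, mul_smul, ← mul_smul (cn p m h)]
    congr 1
    refine nsmul_eq_of_cast (m := m) (p := p) ?_ ?_
    · rw [← mul_smul]; exact htors _
    · rw [mul_comm, ← cn_mul, inv_mul_cancel_right]
  rw [map_sub, map_sub, map_mul, map_mul, map_natCast, sub_smul, sub_smul, mul_smul (Nat.cast _),
    Nat.cast_smul_eq_nsmul, e1, e3, e4]
  abel

/-- existence of Hecke polynomials acting as `g + χ(g) g⁻¹`, together with the finite level. -/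
lemma exists_acts (hJ : ESInput N p (↑S : Set ℕ) J) (hpS : p ∈ S)
    (hNS : ∀ q : ℕ, q.Prime → q ∣ N → q ∈ S) (m : ℕ) (g : GalRep.GQ) :
    ∃ r, Acts p S J m g r := by
  have hp : p.Prime := Fact.out
  obtain ⟨L₂, hL₂fin, hL₂⟩ := hJ.finiteLevel m
  obtain ⟨ζ, hζ⟩ := exists_primitive p m
  set L₃ : IntermediateField ℚ (AlgebraicClosure ℚ) := IntermediateField.adjoin ℚ {ζ} with hL₃
  haveI hL₃fin : FiniteDimensional ℚ L₃ :=
    IntermediateField.adjoin.finiteDimensional ((Algebra.IsAlgebraic.isAlgebraic ζ).isIntegral)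
  obtain ⟨ℓ, hℓ, hℓS, A, hA, φ, hφ, -, k, -, hk⟩ :=
    FrobDensity.exists_frobenius_on (L₂ ⊔ L₃) g (↑S : Set ℕ) S.finite_toSet
  have hℓS' : ℓ ∉ S := hℓS
  have hnd : ¬ ℓ ∣ N * p := by
    intro hdvd
    rcases (Nat.Prime.dvd_mul hℓ).mp hdvd with h | h
    · exact hℓS' (hNS ℓ hℓ h)
    · exact hℓS' (((Nat.prime_dvd_prime_iff_eq hℓ hp).mp h) ▸ hpS)
  have hne : ℓ ≠ p := fun h => hℓS' (h ▸ hpS)
  have hζL : ζ ∈ L₂ ⊔ L₃ :=
    (le_sup_right : L₃ ≤ L₂ ⊔ L₃) (IntermediateField.mem_adjoin_simple_self ℚ ζ)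
  have hgφ : actTors J p m (φ ^ k) = actTors J p m g :=
    actTors_eq_of_agree hL₂ fun x hx => (hk x ((le_sup_left : L₂ ≤ L₂ ⊔ L₃) hx)).symm
  have e := actTors_quadratic (N := N) (J := J) hJ.frobenius m hℓ hnd hA hφ k
  rw [hgφ] at e
  -- the value of the cyclotomic character
  have hcyc : ((ℓ ^ k : ℕ) : ZMod (p ^ m)) = (cn p m g : ZMod (p ^ m)) := by
    refine cn_unique p m g (ℓ ^ k) ζ hζ ?_
    rw [hk ζ hζL]
    have hpow : ∀ k : ℕ, (φ ^ k) ζ = ζ ^ (ℓ ^ k) := by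
      intro k
      induction k with
      | zero => simp
      | succ k ih =>
        rw [pow_succ', AlgEquiv.mul_apply, ih, map_pow,
          frobenius_rootOfUnity hA (pow_prime_coprime hℓ hne m) (pow_ne_zero _ hp.ne_zero) hφ
            hζ.pow_eq_one, ← pow_mul, pow_succ']
    exact hpow k
  refine ⟨tracePoly S ℓ hℓ hℓS' k, fun x hx => ?_⟩
  rw [inclS_tracePoly]
  have hx' : p ^ m • (g⁻¹ • x) = 0 := by rw [smul_comm, hx, smul_zero]
  have e₄ := congrArg (fun f : Module.End HeckeAlg (torsSub J p m) =>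
    ((f (⟨g⁻¹ • x, hx'⟩ : torsSub J p m) : torsSub J p m) : J)) e
  have e₅ : g • (g • (g⁻¹ • x)) = tk (heckeGen ⟨ℓ, hℓ⟩) (ℓ : HeckeAlg) k • (g • (g⁻¹ • x)) -
      ((ℓ : HeckeAlg) ^ k) • (g⁻¹ • x) := e₄
  rw [smul_inv_smul] at e₅
  have e₆ : ((ℓ : HeckeAlg) ^ k) • (g⁻¹ • x) = cn p m g • (g⁻¹ • x) := by
    rw [← Nat.cast_pow, Nat.cast_smul_eq_nsmul]
    exact nsmul_eq_of_cast hx' hcyc
  rw [e₅, e₆]
  abel

/-- the level for the translates -/
lemma acts_mul_of_fix {m : ℕ} {L : IntermediateField ℚ (AlgebraicClosure ℚ)}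
    (hL : ∀ σ : GalRep.GQ, (∀ x ∈ L, σ x = x) → ∀ x : J, p ^ m • x = 0 → σ • x = x)
    {ζ : AlgebraicClosure ℚ} (hζ : IsPrimitiveRoot ζ (p ^ m)) {σ : GalRep.GQ}
    (hσ : ∀ x : J, p ^ m • x = 0 → σ • x = x) (hσζ : σ ζ = ζ) {y : GalRep.GQ}
    {r : HeckeAlgS (↑S : Set ℕ)} (hr : Acts p S J m y r) : Acts p S J m (y * σ) r := by
  intro x hx
  rw [hr x hx, mul_smul, hσ x hx, mul_inv_rev, mul_smul]
  have hx' : p ^ m • (y⁻¹ • x) = 0 := by rw [smul_comm, hx, smul_zero]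
  have h1 : σ⁻¹ • (y⁻¹ • x) = y⁻¹ • x := by
    rw [inv_smul_eq_iff, hσ _ hx']
  rw [h1]
  congr 1
  refine nsmul_eq_of_cast hx' ?_
  rw [cn_mul, Nat.cast_mul, ← cn_unique p m σ 1 ζ hζ (by rw [hσζ, pow_one]), Nat.cast_one, mul_one]

variable {O : Type} [CommRing O] [IsDomain O] [IsDiscreteValuationRing O]
  [IsAdicComplete (IsLocalRing.maximalIdeal O) O]

variable (p S J) in
/-- `τ` is the limit of `χ (r)`, `r` acting as `g + χ(g) g⁻¹` -/
def IsLim (χ : heckeAlgebra N 2 (↑S : Set ℕ) →+* O) (M : ℕ → ℕ) (g : GalRep.GQ) (τ : O) : Prop :=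
  ∀ n, ∀ r, Acts p S J (M n) g r → τ - χ (evS N (↑S : Set ℕ) r) ∈ IsLocalRing.maximalIdeal O ^ n

/-- a uniform choice of levels -/
lemma exists_levels (hJ : ESInput N p (↑S : Set ℕ) J)
    (hpO : (p : O) ∈ IsLocalRing.maximalIdeal O) (χ : heckeAlgebra N 2 (↑S : Set ℕ) →+* O) :
    ∃ M : ℕ → ℕ, Monotone M ∧ (∀ n, n ≤ M n) ∧ ∀ n, ∀ t : HeckeAlgS (↑S : Set ℕ),
      (∀ x : J, p ^ (M n) • x = 0 → inclS (↑S : Set ℕ) t • x = 0) →
        χ (evS N (↑S : Set ℕ) t) ∈ IsLocalRing.maximalIdeal O ^ n := by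
  choose M₀ hM₀ using hJ.faithful
  refine ⟨fun n => ∑ i ∈ Finset.range (n + 1), (M₀ i + 1), ?_, ?_, ?_⟩
  · refine monotone_nat_of_le_succ fun n => ?_
    rw [Finset.sum_range_succ _ (n + 1)]
    exact Nat.le_add_right _ _
  · intro n
    induction n with
    | zero => exact Nat.zero_le _
    | succ n ih =>
      simp only at ih ⊢
      rw [Finset.sum_range_succ _ (n + 1)]
      omega
  · intro n t ht
    have h1 : M₀ n ≤ ∑ i ∈ Finset.range (n + 1), (M₀ i + 1) := by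
      rw [Finset.sum_range_succ]
      omega
    have h2 := hM₀ n t (fun x hx => ht x (by
      show p ^ (∑ i ∈ Finset.range (n + 1), (M₀ i + 1)) • x = 0
      rw [← Nat.sub_add_cancel h1, pow_add, mul_smul, hx, smul_zero]))
    obtain ⟨c, hc⟩ := Ideal.mem_span_singleton'.mp h2
    rw [← hc, map_mul, map_pow, map_natCast]
    exact Ideal.mul_mem_left _ _ (Ideal.pow_mem_pow hpO n)

lemma mem_smul_top_iff {I : Ideal O} {x : O} : x ∈ (I • ⊤ : Submodule O O) ↔ x ∈ I := by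
  rw [smul_eq_mul, Ideal.mul_top]

lemma exists_isLim (hJ : ESInput N p (↑S : Set ℕ) J) (hpS : p ∈ S)
    (hNS : ∀ q : ℕ, q.Prime → q ∣ N → q ∈ S)
    (χ : heckeAlgebra N 2 (↑S : Set ℕ) →+* O) (M : ℕ → ℕ) (hmono : Monotone M)
    (hM : ∀ n, ∀ t : HeckeAlgS (↑S : Set ℕ),
      (∀ x : J, p ^ (M n) • x = 0 → inclS (↑S : Set ℕ) t • x = 0) →
        χ (evS N (↑S : Set ℕ) t) ∈ IsLocalRing.maximalIdeal O ^ n) (g : GalRep.GQ) :
    ∃ τ, IsLim p S J χ M g τ := by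
  have hdiff : ∀ n r r', Acts p S J (M n) g r → Acts p S J (M n) g r' →
      χ (evS N (↑S : Set ℕ) r) - χ (evS N (↑S : Set ℕ) r') ∈ IsLocalRing.maximalIdeal O ^ n := by
    intro n r r' hr hr'
    rw [← map_sub, ← map_sub]
    refine hM n _ fun x hx => ?_
    rw [map_sub, sub_smul, hr x hx, hr' x hx, sub_self]
  choose r hr using fun n => exists_acts hJ hpS hNS (M n) g
  obtain ⟨τ, hτ⟩ := IsPrecomplete.prec' (I := IsLocalRing.maximalIdeal O) (M := O)
    (fun n => χ (evS N (↑S : Set ℕ) (r n))) (by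
      intro m n hmn
      rw [SModEq.sub_mem, mem_smul_top_iff]
      exact hdiff m _ _ (hr m) ((hr n).mono (hmono hmn)))
  refine ⟨τ, fun n r' hr' => ?_⟩
  have h1 := hτ n
  rw [SModEq.sub_mem, mem_smul_top_iff] at h1
  have h2 := hdiff n _ _ (hr n) hr'
  have : τ - χ (evS N (↑S : Set ℕ) r') =
    (χ (evS N (↑S : Set ℕ) (r n)) - χ (evS N (↑S : Set ℕ) r')) -
      (χ (evS N (↑S : Set ℕ) (r n)) - τ) := by ring
  rw [this]
  exact Ideal.sub_mem _ h2 h1

omit [NeZero N] [Fact p.Prime] in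
lemma eq_of_forall_sub_mem {a b : O} (h : ∀ n, a - b ∈ IsLocalRing.maximalIdeal O ^ n) : a = b := by
  refine sub_eq_zero.mp (IsHausdorff.haus' (I := IsLocalRing.maximalIdeal O) _ fun n => ?_)
  rw [SModEq.zero, mem_smul_top_iff]
  exact h n

/-- **Strong form of S30 from the Eichler--Shimura input.** -/
theorem exists_rep_of_ESInput (hJ : ESInput N p (↑S : Set ℕ) J) (hpS : p ∈ S)
    (hNS : ∀ q : ℕ, q.Prime → q ∣ N → q ∈ S) [CharZero O]
    (hpO : (p : O) ∈ IsLocalRing.maximalIdeal O)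
    (χ : heckeAlgebra N 2 (↑S : Set ℕ) →+* O) :
    ∃ ρ : GaloisRepAdic O,
      (∀ (ℓ : ℕ) (hℓ : ℓ.Prime) (hℓN : ¬ ℓ ∣ N) (hℓS : ℓ ∉ (↑S : Set ℕ)),
        ∀ A : ValuationSubring (AlgebraicClosure ℚ), A.LiesOverPrime ℓ →
          ∀ σ : AlgebraicClosure ℚ ≃ₐ[ℚ] AlgebraicClosure ℚ, A.IsFrobeniusAt σ ℓ →
            LinearMap.charpoly (ρ.ρ σ) =
              X ^ 2 - C (χ (CuspForm.heckeAlgebra.T hℓ hℓN hℓS)) * X + C ((ℓ : O))) ∧
      (∀ q : ℕ, q.Prime → ¬ q ∣ N → q ≠ p → ρ.IsUnramifiedAt q) ∧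
      ρ.det = cycO hpO := by
  have hp : p.Prime := Fact.out
  obtain ⟨M, hmono, hMn, hM⟩ := exists_levels hJ hpO χ
  choose t ht using fun g => exists_isLim hJ hpS hNS χ M hmono hM g
  -- lifting to higher levels
  set d : GalRep.GQ →* Oˣ := cycO hpO with hd
  have hcn : ∀ n g, ((d g : Oˣ) : O) - (cn p (M n) g : O) ∈ IsLocalRing.maximalIdeal O ^ n :=
    fun n g => Ideal.pow_le_pow_right (hMn n) (cycO_sub_mem hpO (M n) g)
  have H : IsPseudo t d := by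
    constructor
    · refine eq_of_forall_sub_mem fun n => ?_
      have := ht 1 n 2 (Acts.one (M n))
      rwa [map_ofNat, map_ofNat] at this
    · intro g h
      refine eq_of_forall_sub_mem fun n => ?_
      obtain ⟨r₁, h₁⟩ := exists_acts hJ hpS hNS (M n) g
      obtain ⟨r₂, h₂⟩ := exists_acts hJ hpS hNS (M n) h
      obtain ⟨r₃, h₃⟩ := exists_acts hJ hpS hNS (M n) (g * h)
      obtain ⟨r₄, h₄⟩ := exists_acts hJ hpS hNS (M n) (g * h⁻¹)
      have e0 := hM n _ (fun x hx => Acts.mul h₁ h₂ h₃ h₄ x hx)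
      rw [map_sub, map_sub, map_mul, map_mul, map_natCast, map_sub, map_sub, map_mul, map_mul,
        map_natCast] at e0
      have e1 := ht g n r₁ h₁
      have e2 := ht h n r₂ h₂
      have e3 := ht (g * h) n r₃ h₃
      have e4 := ht (g * h⁻¹) n r₄ h₄
      have e5 := hcn n h
      set a₁ := χ (evS N (↑S : Set ℕ) r₁)
      set a₂ := χ (evS N (↑S : Set ℕ) r₂)
      set a₃ := χ (evS N (↑S : Set ℕ) r₃)
      set a₄ := χ (evS N (↑S : Set ℕ) r₄)
      have : t g * t h - (t (g * h) + ((d h : Oˣ) : O) * t (g * h⁻¹)) =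
          (a₁ * a₂ - a₃ - (cn p (M n) h : O) * a₄) + (t g - a₁) * t h + a₁ * (t h - a₂)
          - (t (g * h) - a₃) - (((d h : Oˣ) : O) - (cn p (M n) h : O)) * t (g * h⁻¹)
          - (cn p (M n) h : O) * (t (g * h⁻¹) - a₄) := by ring
      rw [this]
      refine Ideal.sub_mem _ (Ideal.sub_mem _ (Ideal.sub_mem _ (Ideal.add_mem _ (Ideal.add_mem _ e0
        (Ideal.mul_mem_right _ _ e1)) (Ideal.mul_mem_left _ _ e2)) e3)
        (Ideal.mul_mem_right _ _ e5)) (Ideal.mul_mem_left _ _ e4)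
  -- translation by elements acting trivially
  have htrans : ∀ n (σ : GalRep.GQ) (ζ : AlgebraicClosure ℚ), IsPrimitiveRoot ζ (p ^ (M n)) →
      (∀ x : J, p ^ (M n) • x = 0 → σ • x = x) → σ ζ = ζ → ∀ y,
        t (y * σ) - t y ∈ IsLocalRing.maximalIdeal O ^ n := by
    intro n σ ζ hζ hσ hσζ y
    obtain ⟨r, hr⟩ := exists_acts hJ hpS hNS (M n) y
    obtain ⟨L, hL, hL2⟩ := hJ.finiteLevel (M n)
    have e1 := ht y n r hr
    have e2 := ht (y * σ) n r (acts_mul_of_fix hL2 hζ hσ hσζ hr)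
    have : t (y * σ) - t y = (t (y * σ) - χ (evS N (↑S : Set ℕ) r)) -
      (t y - χ (evS N (↑S : Set ℕ) r)) := by ring
    rw [this]
    exact Ideal.sub_mem _ e2 e1
  have hct : AdicCont t := by
    intro n
    obtain ⟨L, hL, hL2⟩ := hJ.finiteLevel (M n)
    obtain ⟨ζ, hζ⟩ := exists_primitive p (M n)
    set L₃ : IntermediateField ℚ (AlgebraicClosure ℚ) := IntermediateField.adjoin ℚ {ζ} with hL₃
    haveI hL₃fin : FiniteDimensional ℚ L₃ :=
      IntermediateField.adjoin.finiteDimensional ((Algebra.IsAlgebraic.isAlgebraic ζ).isIntegral)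
    refine ⟨L ⊔ L₃, inferInstance, fun σ hσ y => ?_⟩
    refine htrans n σ ζ hζ (hL2 σ fun x hx => hσ x ((le_sup_left : L ≤ L ⊔ L₃) hx)) ?_ y
    exact hσ ζ ((le_sup_right : L₃ ≤ L ⊔ L₃) (IntermediateField.mem_adjoin_simple_self ℚ ζ))
  have hcd : AdicCont fun g => ((d g : Oˣ) : O) := by
    intro n
    obtain ⟨ζ, hζ⟩ := exists_primitive p n
    haveI hL₃fin : FiniteDimensional ℚ (IntermediateField.adjoin ℚ {ζ}) :=
      IntermediateField.adjoin.finiteDimensional ((Algebra.IsAlgebraic.isAlgebraic ζ).isIntegral)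
    refine ⟨IntermediateField.adjoin ℚ {ζ}, inferInstance, fun σ hσ y => ?_⟩
    have h1 := cycO_sub_one_mem hpO n hζ σ (hσ ζ (IntermediateField.mem_adjoin_simple_self ℚ ζ))
    have : ((d (y * σ) : Oˣ) : O) - ((d y : Oˣ) : O) =
        ((d y : Oˣ) : O) * (((d σ : Oˣ) : O) - 1) := by
      rw [map_mul, Units.val_mul]; ring
    simp only
    rw [this]
    exact Ideal.mul_mem_left _ _ h1
  obtain ⟨ρ, hρ, hρ1⟩ := exists_galoisRepAdic_of_pseudo (two_ne_zero) t d H hct hcd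
    complexConjugation complexConjugation_mul_self (cycO_complexConjugation hpO)
  refine ⟨ρ, ?_, ?_, ?_⟩
  · intro ℓ hℓ hℓN hℓS A hA φ hφ
    have hℓS' : ℓ ∉ S := hℓS
    have hne : ℓ ≠ p := fun h => hℓS' (h ▸ hpS)
    have hnd : ¬ ℓ ∣ N * p := by
      intro hdvd
      rcases (Nat.Prime.dvd_mul hℓ).mp hdvd with h | h
      · exact hℓN h
      · exact hne ((Nat.prime_dvd_prime_iff_eq hℓ hp).mp h)
    rw [hρ φ, hd, cycO_frobenius hpO hℓ hne hA hφ]
    congr 4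
    refine eq_of_forall_sub_mem fun n => ?_
    have hact : Acts p S J (M n) φ (MvPolynomial.X ⟨⟨ℓ, hℓ⟩, hℓS⟩) := by
      intro x hx
      have hx' : p ^ (M n) • (φ⁻¹ • x) = 0 := by rw [smul_comm, hx, smul_zero]
      have h1 := hJ.frobenius ℓ hℓ hnd A hA φ hφ (φ⁻¹ • x) ⟨M n, hx'⟩
      rw [smul_inv_smul] at h1
      have h2 : inclS (↑S : Set ℕ) (MvPolynomial.X ⟨⟨ℓ, hℓ⟩, hℓS⟩) = heckeGen ⟨ℓ, hℓ⟩ :=
        MvPolynomial.rename_X _ _
      have h3 : cn p (M n) φ • (φ⁻¹ • x) = ℓ • (φ⁻¹ • x) := by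
        refine nsmul_eq_of_cast hx' ?_
        rw [cast_cn, cyc_frobenius hℓ hne hA hφ, map_natCast]
      rw [h2, h3, eq_comm, ← sub_eq_zero, ← h1]
      abel
    have h5 := ht φ n _ hact
    rwa [evS_X_of_not_dvd N (↑S : Set ℕ) ⟨⟨ℓ, hℓ⟩, hℓS⟩ hℓN] at h5
  · intro q hq hqN hqp A hA σ hσ
    have hnd : ¬ q ∣ N * p := by
      intro hdvd
      rcases (Nat.Prime.dvd_mul hq).mp hdvd with h | h
      · exact hqN h
      · exact hqp ((Nat.prime_dvd_prime_iff_eq hq hp).mp h)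
    refine hρ1 σ (fun y => ?_) (cycO_inertia hpO hq hqp hA hσ)
    refine eq_of_forall_sub_mem fun n => ?_
    obtain ⟨ζ, hζ⟩ := exists_primitive p (M n)
    refine htrans n σ ζ hζ (fun x hx => hJ.unramified q hq hnd A hA σ hσ x ⟨M n, hx⟩) ?_ y
    exact inertia_fix_rootOfUnity hA (pow_prime_coprime hq hqp (M n)) (pow_ne_zero _ hp.ne_zero) hσ
      hζ.pow_eq_one
  · ext g
    have h1 := hρ g
    rw [charpoly_eq_trace_det ρ.finrank_eq] at h1
    have h2 := congrArg (fun P : O[X] => P.coeff 0) h1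
    simp only [coeff_add, coeff_sub, coeff_X_pow, coeff_C_mul, coeff_X_zero, coeff_C_zero,
      mul_zero] at h2
    have h3 : LinearMap.det (ρ.ρ g) = ((d g : Oˣ) : O) := by simpa using h2
    exact h3

end Main

end Fermat.Agent.S30aux

end
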