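import Fermat.Agent.FlatGS.FromTransfer
import Fermat.Agent.GalRep.Transfer
import Fermat.Prelude.Def_ModularCurve_HeckeModule

/-!
# Reduction of S32 to S19 and the Eichler--Shimura input
-/

set_option autoImplicit false

open CuspForm ModularCurve IsLocalRing

namespace Fermat.Agent.S32aux

open Fermat.Agent.FlatGS Fermat.Agent.GalRep

/-- The frozen statement S19 at a given level and prime. -/
def S19At (N : ℕ) [NeZero N] (ℓ : ℕ) : Prop :=
  ∀ k : ℕ, ∃ (H : Type) (_ : CommRing H) (_ : HopfAlgebra (GaloisRep.ratLocalizedAt ℓ) H),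
      Module.Finite (GaloisRep.ratLocalizedAt ℓ) H ∧ Module.Flat (GaloisRep.ratLocalizedAt ℓ) H ∧
      Coalgebra.IsCocomm (GaloisRep.ratLocalizedAt ℓ) H ∧
      ∃ e : WithConv (H →ₐ[GaloisRep.ratLocalizedAt ℓ] AlgebraicClosure ℚ) ≃
          ↥(Submodule.torsionBy ℤ (JZero N) ((ℓ : ℤ) ^ k)),
        (∀ f g, e (f * g) = e f + e g) ∧
        ∀ (σ : AlgebraicClosure ℚ ≃ₐ[ℚ] AlgebraicClosure ℚ)
          (f g : WithConv (H →ₐ[GaloisRep.ratLocalizedAt ℓ] AlgebraicClosure ℚ)),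
          (∀ h : H, g h = σ (f h)) → ((e g : JZero N)) = σ • (e f : JZero N)

lemma isFlatModule_of_S19At {N : ℕ} [NeZero N] {ℓ : ℕ} (h : S19At N ℓ) (k : ℕ) :
    IsFlatModule ℓ (M := Submodule.torsionBy ℤ (JZero N) ((ℓ : ℤ) ^ k))
      (torsAct (J := JZero N) ((ℓ : ℤ) ^ k)) := by
  obtain ⟨H, i1, i2, h1, h2, h3, e, he1, he2⟩ := h k
  exact ⟨H, i1, i2, h1, h2, h3, e, he1, fun σ f g hfg => Subtype.ext (he2 σ f g hfg)⟩

section

variable {p : ℕ} {N : ℕ} [NeZero N] {S : Finset ℕ}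
  {𝒪 : Type} [CommRing 𝒪] [IsDomain 𝒪] [IsDiscreteValuationRing 𝒪]
  [IsAdicComplete (IsLocalRing.maximalIdeal 𝒪) 𝒪]
  {θ : CuspForm.heckeAlgebra N 2 (↑S : Set ℕ) →+* IsLocalRing.ResidueField 𝒪}
  {T : Type} [CommRing T] [IsLocalRing T] [IsNoetherianRing T]
  [IsAdicComplete (IsLocalRing.maximalIdeal T) T] [Algebra 𝒪 T] [IsLocalHom (algebraMap 𝒪 T)]
  [Module.Finite 𝒪 T] [Module.Free 𝒪 T]

omit [IsNoetherianRing T] [IsAdicComplete (IsLocalRing.maximalIdeal T) T] [Module.Finite 𝒪 T]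
  [Module.Free 𝒪 T] [IsAdicComplete (IsLocalRing.maximalIdeal 𝒪) 𝒪]
  [IsDomain 𝒪] [IsDiscreteValuationRing 𝒪] in
lemma finite_residueField [IsLocalRing 𝒪] [Finite (ResidueField 𝒪)]
    (h : Function.Surjective (residue T ∘ algebraMap 𝒪 T)) : Finite (ResidueField T) := by
  have h1 : Function.Surjective (ResidueField.map (algebraMap 𝒪 T)) := by
    intro x
    obtain ⟨a, rfl⟩ := h x
    exact ⟨residue 𝒪 a, ResidueField.map_residue _ _⟩
  exact Finite.of_surjective _ h1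

/-- S32 from an abstract Eichler--Shimura input with finite flat torsion. -/
theorem isFlatAt_of_ESInput [Finite (IsLocalRing.ResidueField 𝒪)] (hdens : FrobeniusDensity)
    {J : Type} [AddCommGroup J] [Module HeckeAlg J] [DistribMulAction GalRep.GQ J]
    [SMulCommClass GalRep.GQ HeckeAlg J] (hJ : ESInput N p (↑S : Set ℕ) J)
    (hflat : ∀ m : ℕ, IsFlatModule p (M := Submodule.torsionBy ℤ J ((p : ℤ) ^ m))
      (torsAct (J := J) ((p : ℤ) ^ m)))
    (hp : p.Prime) (hp𝒪 : (p : 𝒪) ∈ IsLocalRing.maximalIdeal 𝒪)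
    (hpS : p ∈ S) (hNS : ∀ q : ℕ, q.Prime → q ∣ N → q ∈ S)
    (H : CuspForm.HeckeGaloisRepDatum N (↑S : Set ℕ) 𝒪 θ T) :
    H.ρ.IsFlatAt p := by
  have hpT : (p : T) ∈ IsLocalRing.maximalIdeal T := by
    have h1 := map_nonunit (algebraMap 𝒪 T) (p : 𝒪) hp𝒪
    rwa [map_natCast] at h1
  refine isFlatAt_of_transfer H.ρ (finite_residueField H.residue_surjective) hpT hflat ?_
  intro n
  exact transfer hdens hJ hp hpS hNS (π := H.π) (ρ := H.ρ) H.charpoly_frob H.residual_absIrr n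

/-- S32 from S19, the Eichler--Shimura input for `J₀(N)` and the Frobenius density theorem. -/
theorem isFlatAt_of_S19 [Finite (IsLocalRing.ResidueField 𝒪)] (hdens : FrobeniusDensity)
    (hcomm : letI := heckeModuleBar N; SMulCommClass GalRep.GQ HeckeAlg (JZero N))
    (hJ : letI := heckeModuleBar N; ESInput N p (↑S : Set ℕ) (JZero N))
    (h19 : S19At N p)
    (hp : p.Prime) (hp𝒪 : (p : 𝒪) ∈ IsLocalRing.maximalIdeal 𝒪)
    (hpS : p ∈ S) (hNS : ∀ q : ℕ, q.Prime → q ∣ N → q ∈ S)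
    (H : CuspForm.HeckeGaloisRepDatum N (↑S : Set ℕ) 𝒪 θ T) :
    H.ρ.IsFlatAt p := by
  let _ := heckeModuleBar N
  exact isFlatAt_of_ESInput hdens hJ (fun m => isFlatModule_of_S19At h19 m) hp hp𝒪 hpS hNS H

end

end Fermat.Agent.S32aux
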