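import Fermat.Agent.GalRep.Density

/-!
# Reduction of S35 to the geometry of `X_0(M)` at `q ∥ M`

Let `ρ : GaloisRepAdic T` have Frobenius characteristic polynomials `X² - π(T_ℓ) X + ℓ`, let `J` be
an Eichler--Shimura module.  If `t (φ² - 1)^a (φ² - q²)^a` kills `J[p^m]` for all `m`, where `φ` is
a Frobenius lift at `q ≠ p` and `t` is a Hecke operator, then
`π(t) (tr ρ(φ)² - (1 + q)²)^a = 0`.  When `T` is a domain and `π(t) ≠ 0` this gives
`charpoly ρ(φ) = X² ∓ (q + 1) X + q`.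
-/

set_option autoImplicit false

noncomputable section

open CuspForm ModularCurve Polynomial Fermat.Agent.GalRep

namespace Fermat.Agent.S35aux

/-! ### Traces and determinants -/

section Charpoly

variable {T V : Type*} [CommRing T] [Nontrivial T] [AddCommGroup V] [Module T V]
  [Module.Free T V] [Module.Finite T V]

/-- the characteristic polynomial in rank two. -/
lemma charpoly_eq (hV : Module.finrank T V = 2) (f : Module.End T V) :
    f.charpoly = X ^ 2 - C (LinearMap.trace T V f) * X + C (LinearMap.det f) := by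
  classical
  set b : Module.Basis (Fin 2) T V := Module.finBasisOfFinrankEq T V hV with hb
  rw [← LinearMap.charpoly_toMatrix f b, LinearMap.trace_eq_matrix_trace T b,
    ← LinearMap.det_toMatrix b, Matrix.charpoly_fin_two]

/-- the square of the trace in rank two. -/
lemma trace_sq (hV : Module.finrank T V = 2) (f : Module.End T V) :
    LinearMap.trace T V f * LinearMap.trace T V f =
      LinearMap.trace T V (f * f) + 2 * LinearMap.det f := by
  classical
  set b : Module.Basis (Fin 2) T V := Module.finBasisOfFinrankEq T V hV with hb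
  rw [LinearMap.trace_eq_matrix_trace T b, LinearMap.trace_eq_matrix_trace T b,
    ← LinearMap.det_toMatrix b, LinearMap.toMatrix_mul, Matrix.trace_fin_two,
    Matrix.trace_fin_two, Matrix.det_fin_two, Matrix.mul_apply, Matrix.mul_apply,
    Fin.sum_univ_two, Fin.sum_univ_two]
  ring

lemma det_of_charpoly (hV : Module.finrank T V = 2) (f : Module.End T V) (t d : T)
    (hf : f.charpoly = X ^ 2 - C t * X + C d) : LinearMap.det f = d := by
  have h := charpoly_eq hV f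
  rw [hf] at h
  have := congrArg (fun P : T[X] => P.coeff 0) h
  simpa [coeff_X, coeff_C] using this.symm

end Charpoly

section DetMem

variable {T : Type*} [CommRing T] {V : Type*} [AddCommGroup V] [Module T V] [Module.Free T V]
  [Module.Finite T V]

end DetMem

/-! ### The determinant -/

section Det

variable {T : Type} [CommRing T] [IsLocalRing T]

/-- congruence of determinants of `ρ` at Galois elements agreeing on a large level. -/
lemma det_sub_mem (ρ : GaloisRepAdic T) {n : ℕ} {L : IntermediateField ℚ (AlgebraicClosure ℚ)}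
    (hL : ∀ σ : GQ, (∀ x ∈ L, σ x = x) →
      ∀ v : ρ.V, ρ.ρ σ v - v ∈ (IsLocalRing.maximalIdeal T ^ n) • (⊤ : Submodule T ρ.V))
    {σ σ' : GQ} (h : ∀ x ∈ L, σ x = σ' x) :
    LinearMap.det (ρ.ρ σ) - LinearMap.det (ρ.ρ σ') ∈ IsLocalRing.maximalIdeal T ^ n := by
  classical
  have h1 : ∀ x ∈ L, (σ'⁻¹ * σ) x = x := by
    intro x hx
    rw [AlgEquiv.mul_apply, h x hx, ← AlgEquiv.mul_apply, inv_mul_cancel, AlgEquiv.one_apply]
  have h4 : ∀ w ∈ (IsLocalRing.maximalIdeal T ^ n) • (⊤ : Submodule T ρ.V),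
      ρ.ρ σ' w ∈ (IsLocalRing.maximalIdeal T ^ n) • (⊤ : Submodule T ρ.V) := by
    intro w hw
    refine Submodule.smul_induction_on hw ?_ ?_
    · intro a ha v _
      rw [map_smul]
      exact Submodule.smul_mem_smul ha trivial
    · intro x y hx hy
      rw [map_add]
      exact Submodule.add_mem _ hx hy
  have h5 : ∀ v, (ρ.ρ σ - ρ.ρ σ') v ∈ (IsLocalRing.maximalIdeal T ^ n) • (⊤ : Submodule T ρ.V) := by
    intro v
    have h3 : (ρ.ρ σ - ρ.ρ σ') v = ρ.ρ σ' (ρ.ρ (σ'⁻¹ * σ) v - v) := by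
      rw [map_sub, LinearMap.sub_apply, ← Module.End.mul_apply, ← map_mul, mul_inv_cancel_left]
    rw [h3]
    exact h4 _ (hL _ h1 v)
  set b : Module.Basis (Fin 2) T ρ.V := Module.finBasisOfFinrankEq T ρ.V ρ.finrank_eq with hb
  have key : ∀ w ∈ (IsLocalRing.maximalIdeal T ^ n) • (⊤ : Submodule T ρ.V), ∀ i,
      b.repr w i ∈ IsLocalRing.maximalIdeal T ^ n := by
    intro w hw i
    refine Submodule.smul_induction_on hw ?_ ?_
    · intro a ha v _
      rw [map_smul, Finsupp.smul_apply, smul_eq_mul]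
      exact Ideal.mul_mem_right _ _ ha
    · intro x y hx hy
      rw [map_add, Finsupp.add_apply]
      exact Ideal.add_mem _ hx hy
  have hent : ∀ i j, LinearMap.toMatrix b b (ρ.ρ σ) i j - LinearMap.toMatrix b b (ρ.ρ σ') i j ∈
      IsLocalRing.maximalIdeal T ^ n := by
    intro i j
    have := key _ (h5 (b j)) i
    rwa [LinearMap.sub_apply, map_sub, Finsupp.sub_apply, ← LinearMap.toMatrix_apply,
      ← LinearMap.toMatrix_apply] at this
  rw [← LinearMap.det_toMatrix b, ← LinearMap.det_toMatrix b, Matrix.det_fin_two,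
    Matrix.det_fin_two]
  set M := LinearMap.toMatrix b b (ρ.ρ σ)
  set M' := LinearMap.toMatrix b b (ρ.ρ σ')
  have e : M 0 0 * M 1 1 - M 0 1 * M 1 0 - (M' 0 0 * M' 1 1 - M' 0 1 * M' 1 0) =
      M 1 1 * (M 0 0 - M' 0 0) + M' 0 0 * (M 1 1 - M' 1 1) -
        (M 1 0 * (M 0 1 - M' 0 1) + M' 0 1 * (M 1 0 - M' 1 0)) := by ring
  rw [e]
  exact Ideal.sub_mem _ (Ideal.add_mem _ (Ideal.mul_mem_left _ _ (hent 0 0))
    (Ideal.mul_mem_left _ _ (hent 1 1))) (Ideal.add_mem _ (Ideal.mul_mem_left _ _ (hent 0 1))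
    (Ideal.mul_mem_left _ _ (hent 1 0)))

variable [IsNoetherianRing T] {N p : ℕ} [NeZero N] {S : Finset ℕ}

/-- The determinant is cyclotomic. -/
theorem det_sub_natCast_mem (hp : p.Prime) (hpT : (p : T) ∈ IsLocalRing.maximalIdeal T)
    (hpS : p ∈ S) (hNS : ∀ q : ℕ, q.Prime → q ∣ N → q ∈ S)
    {π : heckeAlgebra N 2 (↑S : Set ℕ) →+* T} {ρ : GaloisRepAdic T}
    (hfrob : HasFrobCharpoly π ρ) (n : ℕ) (σ : GQ) (a : ℕ)
    (ha : ∀ μ : AlgebraicClosure ℚ, μ ^ p ^ n = 1 → σ μ = μ ^ a) :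
    LinearMap.det (ρ.ρ σ) - (a : T) ∈ Ideal.span {((p ^ n : ℕ) : T)} := by
  refine mem_of_forall_mem_sup_pow _ _ fun n' => ?_
  have hpm0 : p ^ n ≠ 0 := pow_ne_zero _ hp.ne_zero
  haveI : NeZero (p ^ n) := ⟨hpm0⟩
  obtain ⟨ζ, hζ⟩ := HasEnoughRootsOfUnity.exists_primitiveRoot (AlgebraicClosure ℚ) (p ^ n)
  obtain ⟨L₁, hL₁fin, hL₁⟩ := ρ.isAdicContinuous n'
  set L₃ : IntermediateField ℚ (AlgebraicClosure ℚ) := IntermediateField.adjoin ℚ {ζ} with hL₃
  haveI hL₃fin : FiniteDimensional ℚ L₃ :=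
    IntermediateField.adjoin.finiteDimensional ((Algebra.IsAlgebraic.isAlgebraic ζ).isIntegral)
  have hζL : ζ ∈ L₁ ⊔ L₃ :=
    (le_sup_right : L₃ ≤ L₁ ⊔ L₃) (IntermediateField.mem_adjoin_simple_self ℚ ζ)
  obtain ⟨ℓ, hℓ, hℓS, A, hA, φ, hφ, k, hk⟩ := frobeniusDensity (L₁ ⊔ L₃) inferInstance σ S
  have hℓp : ℓ ≠ p := fun h => hℓS (h ▸ hpS)
  have hz : ζ ^ (ℓ ^ k) = ζ ^ a := by
    rw [← frobenius_pow_zeta p hp n hζ hℓ hℓp hA hφ, hk ζ hζL, ha ζ hζ.pow_eq_one]
  have hz' := natCast_eq_of_pow_eq p hp n hζ hz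
  have hdiv : ((p ^ n : ℕ) : ℤ) ∣ ((ℓ ^ k : ℕ) : ℤ) - (a : ℤ) := by
    rw [← ZMod.intCast_zmod_eq_zero_iff_dvd] 
    push_cast
    push_cast at hz'
    rw [hz', sub_self]
  have hdet : LinearMap.det (ρ.ρ (φ ^ k)) = ((ℓ ^ k : ℕ) : T) := by
    have h1 := det_of_charpoly ρ.finrank_eq _ _ _
      (hfrob ℓ hℓ (fun h => hℓS (hNS ℓ hℓ h)) hℓS A hA φ hφ)
    rw [map_pow, map_pow, h1, Nat.cast_pow]
  have d := det_sub_mem ρ hL₁ (σ := σ) (σ' := φ ^ k)
    fun x hx => (hk x ((le_sup_left : L₁ ≤ L₁ ⊔ L₃) hx)).symm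
  have e : LinearMap.det (ρ.ρ σ) - (a : T) = (((ℓ ^ k : ℕ) : T) - (a : T)) +
      (LinearMap.det (ρ.ρ σ) - LinearMap.det (ρ.ρ (φ ^ k))) := by rw [hdet]; ring
  rw [e]
  refine Submodule.add_mem_sup ?_ d
  obtain ⟨c, hc⟩ := hdiv
  rw [Ideal.mem_span_singleton]
  refine ⟨(c : T), ?_⟩
  have := congrArg (Int.cast : ℤ → T) hc
  push_cast at this ⊢
  exact this

lemma eq_zero_of_forall_mem_span_pow (hpT : (p : T) ∈ IsLocalRing.maximalIdeal T) (x : T)
    (h : ∀ n : ℕ, x ∈ Ideal.span {(p : T) ^ n}) : x = 0 := by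
  have h1 := Ideal.iInf_pow_eq_bot_of_isLocalRing (IsLocalRing.maximalIdeal T)
    (Ideal.IsPrime.ne_top inferInstance)
  have : x ∈ ⨅ n : ℕ, IsLocalRing.maximalIdeal T ^ n := by
    rw [Submodule.mem_iInf]
    intro n
    refine (Ideal.span_singleton_le_iff_mem _).mpr ?_ (h n)
    exact Ideal.pow_mem_pow hpT n
  rw [h1] at this
  exact this

/-- the determinant of a Frobenius at `q ≠ p`. -/
theorem det_frobenius (hp : p.Prime) (hpT : (p : T) ∈ IsLocalRing.maximalIdeal T)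
    (hpS : p ∈ S) (hNS : ∀ q : ℕ, q.Prime → q ∣ N → q ∈ S)
    {π : heckeAlgebra N 2 (↑S : Set ℕ) →+* T} {ρ : GaloisRepAdic T}
    (hfrob : HasFrobCharpoly π ρ) {q : ℕ} (hq : q.Prime) (hqp : q ≠ p)
    {A : ValuationSubring (AlgebraicClosure ℚ)} (hA : A.LiesOverPrime q) {φ : GQ}
    (hφ : A.IsFrobeniusAt φ q) : LinearMap.det (ρ.ρ φ) = (q : T) := by
  rw [← sub_eq_zero]
  refine eq_zero_of_forall_mem_span_pow hpT _ fun n => ?_
  rw [← Nat.cast_pow]
  refine det_sub_natCast_mem hp hpT hpS hNS hfrob n φ q fun μ hμ => ?_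
  exact frobenius_rootOfUnity hA (((Nat.coprime_primes hq hp).mpr hqp).pow_right n)
    (pow_ne_zero _ hp.ne_zero) hφ hμ

end Det

/-! ### The purely algebraic identity -/

section Quad

variable {P E : Type*} [CommRing P] [Ring E] [Algebra P E]

/-- if `x + d y = t` with `x y = 1 = y x` then `x² (t² - (1+d)²) = (x² - 1)(x² - d²)`. -/
lemma quad_identity (x y : E) (t d : P) (hxy : x * y = 1) (hyx : y * x = 1)
    (h : x + algebraMap P E d * y = algebraMap P E t) :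
    x ^ 2 * algebraMap P E (t ^ 2 - (1 + d) ^ 2) =
      (x ^ 2 - 1) * (x ^ 2 - algebraMap P E (d ^ 2)) := by
  have h1 : x * algebraMap P E t = x ^ 2 + algebraMap P E d := by
    rw [← h, mul_add, Algebra.left_comm, hxy, mul_one, pow_two]
  have h2 : x ^ 2 * algebraMap P E (t ^ 2) = (x ^ 2 + algebraMap P E d) ^ 2 := by
    rw [map_pow, ← h1, pow_two, pow_two, pow_two, mul_assoc, mul_assoc]
    congr 1
    rw [← mul_assoc, ← mul_assoc, Algebra.commutes t x, mul_assoc]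
  have h3 : (x ^ 2 + algebraMap P E d) ^ 2 =
      x ^ 4 + 2 * algebraMap P E d * x ^ 2 + algebraMap P E (d ^ 2) := by
    have hc := Algebra.commutes d (x ^ 2)
    rw [pow_two (x ^ 2 + _), add_mul, mul_add, mul_add, map_pow, ← hc, two_mul, add_mul,
      pow_two (algebraMap P E d), ← pow_add]
    abel
  rw [map_sub, mul_sub, h2, h3]
  have h4 : x ^ 2 * algebraMap P E ((1 + d) ^ 2) =
      x ^ 2 + 2 * algebraMap P E d * x ^ 2 + algebraMap P E (d ^ 2) * x ^ 2 := by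
    rw [← Algebra.commutes]
    have : algebraMap P E ((1 + d) ^ 2) =
        1 + 2 * algebraMap P E d + algebraMap P E (d ^ 2) := by
      rw [← map_ofNat (algebraMap P E) 2, ← map_mul, ← map_one (algebraMap P E), ← map_add,
        ← map_add]
      congr 1
      ring
    rw [this, add_mul, add_mul, one_mul]
  rw [h4, sub_mul, mul_sub, ← Algebra.commutes (d ^ 2) (x ^ 2), ← pow_add, one_mul]
  abel

/-- the powers of the identity. -/
lemma quad_identity_pow (x y : E) (t d : P) (hxy : x * y = 1) (hyx : y * x = 1)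
    (h : x + algebraMap P E d * y = algebraMap P E t) (a : ℕ) :
    (x ^ 2) ^ a * algebraMap P E ((t ^ 2 - (1 + d) ^ 2) ^ a) =
      (x ^ 2 - 1) ^ a * (x ^ 2 - algebraMap P E (d ^ 2)) ^ a := by
  have hc1 : Commute (x ^ 2) (algebraMap P E (t ^ 2 - (1 + d) ^ 2)) :=
    (Algebra.commutes _ _).symm
  have hc2 : Commute (x ^ 2 - 1) (x ^ 2 - algebraMap P E (d ^ 2)) := by
    refine Commute.sub_left (Commute.sub_right (Commute.refl _) ?_) (Commute.one_left _)
    exact (Algebra.commutes _ _).symm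
  rw [map_pow, ← hc1.mul_pow, ← hc2.mul_pow, quad_identity x y t d hxy hyx h]

end Quad

/-! ### The Hecke relation at Frobenius lifts -/

section Main

variable {N p : ℕ} [NeZero N] {S : Finset ℕ}
  {J : Type*} [AddCommGroup J] [Module HeckeAlg J] [DistribMulAction GQ J]
  [SMulCommClass GQ HeckeAlg J]

/-- The geometric input for a prime `q ∥ N`: `t (φ² - 1)^a (φ² - q²)^a = 0` on `J[p^m]` for all
Frobenius lifts `φ` at `q`. -/
def FrobSqInput (p q : ℕ) (J : Type*) [AddCommGroup J] [Module HeckeAlg J]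
    [DistribMulAction GQ J] [SMulCommClass GQ HeckeAlg J] (t : HeckeAlg) (a : ℕ) : Prop :=
  ∀ A : ValuationSubring (AlgebraicClosure ℚ), A.LiesOverPrime q →
    ∀ φ : GQ, A.IsFrobeniusAt φ q → ∀ m : ℕ,
      algebraMap HeckeAlg (Module.End HeckeAlg (torsSub J p m)) t *
        ((actTors J p m φ ^ 2 - 1) ^ a *
          (actTors J p m φ ^ 2 - algebraMap HeckeAlg _ ((q : HeckeAlg) ^ 2)) ^ a) = 0

variable {T : Type} [CommRing T] [IsLocalRing T] [IsNoetherianRing T]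

/-- **Main computation**: the trace of a Frobenius lift at `q`. -/
theorem trace_sq_sub_pow (hJ : ESInput N p (↑S : Set ℕ) J) (hp : p.Prime)
    (hpT : (p : T) ∈ IsLocalRing.maximalIdeal T)
    (hpS : p ∈ S) (hNS : ∀ q : ℕ, q.Prime → q ∣ N → q ∈ S)
    {π : heckeAlgebra N 2 (↑S : Set ℕ) →+* T} {ρ : GaloisRepAdic T}
    (hfrob : HasFrobCharpoly π ρ) {q : ℕ} (hq : q.Prime) (hqp : q ≠ p)
    {t : HeckeAlgS (↑S : Set ℕ)} {a : ℕ} (hgeo : FrobSqInput p q J (inclS (↑S : Set ℕ) t) a)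
    {A : ValuationSubring (AlgebraicClosure ℚ)} (hA : A.LiesOverPrime q) {φ : GQ}
    (hφ : A.IsFrobeniusAt φ q) :
    π (evS N (↑S : Set ℕ) t) *
      (LinearMap.trace T ρ.V (ρ.ρ φ) ^ 2 - (1 + (q : T)) ^ 2) ^ a = 0 := by
  refine eq_zero_of_forall_mem_span_pow hpT _ fun n => ?_
  refine mem_of_forall_mem_sup_pow _ _ fun n' => ?_
  obtain ⟨m, hm⟩ := hJ.faithful n
  have hpm0 : p ^ m ≠ 0 := pow_ne_zero _ hp.ne_zero
  haveI : NeZero (p ^ m) := ⟨hpm0⟩
  obtain ⟨ζ, hζ⟩ := HasEnoughRootsOfUnity.exists_primitiveRoot (AlgebraicClosure ℚ) (p ^ m)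
  obtain ⟨L₁, hL₁fin, hL₁⟩ := ρ.isAdicContinuous n'
  obtain ⟨L₂, hL₂fin, hL₂⟩ := hJ.finiteLevel m
  set L₃ : IntermediateField ℚ (AlgebraicClosure ℚ) := IntermediateField.adjoin ℚ {ζ} with hL₃
  haveI hL₃fin : FiniteDimensional ℚ L₃ :=
    IntermediateField.adjoin.finiteDimensional ((Algebra.IsAlgebraic.isAlgebraic ζ).isIntegral)
  set L : IntermediateField ℚ (AlgebraicClosure ℚ) := L₁ ⊔ L₂ ⊔ L₃ with hLdef
  have hle₁ : L₁ ≤ L := le_sup_left.trans le_sup_left
  have hle₂ : L₂ ≤ L := le_sup_right.trans le_sup_left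
  have hle₃ : L₃ ≤ L := le_sup_right
  have hζL : ζ ∈ L := hle₃ (IntermediateField.mem_adjoin_simple_self ℚ ζ)
  obtain ⟨ℓ, hℓ, hℓS, B, hB, ψ, hψ, k, hk⟩ := frobeniusDensity L inferInstance φ S
  have hℓN : ¬ ℓ ∣ N := fun h => hℓS (hNS ℓ hℓ h)
  have hℓp : ℓ ≠ p := fun h => hℓS (h ▸ hpS)
  have hℓNp : ¬ ℓ ∣ N * p := by
    intro hdvd
    rcases (Nat.Prime.dvd_mul hℓ).mp hdvd with h | h
    · exact hℓN h
    · exact hℓp ((Nat.prime_dvd_prime_iff_eq hℓ hp).mp h)
  set t' : HeckeAlgS (↑S : Set ℕ) := tracePoly S ℓ hℓ hℓS k with ht'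
  set E := Module.End HeckeAlg (torsSub J p m) with hE
  set x : E := actTors J p m φ with hx
  set y : E := actTors J p m φ⁻¹ with hy
  have hxy : x * y = 1 := by rw [hx, hy, ← map_mul, mul_inv_cancel, map_one]
  have hyx : y * x = 1 := by rw [hx, hy, ← map_mul, inv_mul_cancel, map_one]
  -- the quadratic relation
  have hxq : x + algebraMap HeckeAlg E (q : HeckeAlg) * y =
      algebraMap HeckeAlg E (inclS (↑S : Set ℕ) t') := by
    have hg : actTors J p m (ψ ^ k) = x := actTors_eq_of_agree hL₂ fun z hz => hk z (hle₂ hz)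
    have e := actTors_quadratic (N := N) (J := J) hJ.frobenius m hℓ hℓNp hB hψ k
    rw [hg] at e
    have hz : ζ ^ (ℓ ^ k) = ζ ^ q := by
      rw [← frobenius_pow_zeta p hp m hζ hℓ hℓp hB hψ, hk ζ hζL]
      exact frobenius_rootOfUnity hA (((Nat.coprime_primes hq hp).mpr hqp).pow_right m)
        hpm0 hφ hζ.pow_eq_one
    have hz' := algebraMap_eq_of_congr (J := J) (p := p) m (natCast_eq_of_pow_eq p hp m hζ hz)
    rw [Nat.cast_pow] at hz'
    rw [hz'] at e
    rw [ht', inclS_tracePoly]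
    exact scalar_of_quadratic (P := HeckeAlg) (E := E) x y _ _ e hxy
  -- the Hecke operator kills the torsion
  have hgeo' := hgeo A hA φ hφ m
  rw [← hx, ← quad_identity_pow x y (inclS (↑S : Set ℕ) t') (q : HeckeAlg) hxy hyx hxq a] at hgeo'
  have hgeo'' : algebraMap HeckeAlg E (inclS (↑S : Set ℕ)
      (t * (t' ^ 2 - (1 + (q : HeckeAlgS (↑S : Set ℕ))) ^ 2) ^ a)) = 0 := by
    have hunit : (y ^ 2) ^ a * (x ^ 2) ^ a = 1 := by
      have hc : Commute y x := by rw [Commute, SemiconjBy, hyx, hxy]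
      rw [← (hc.pow_pow 2 2).mul_pow, ← hc.mul_pow, hyx, one_pow, one_pow]
    have h1 : (y ^ 2) ^ a * (algebraMap HeckeAlg E (inclS (↑S : Set ℕ) t) * ((x ^ 2) ^ a *
        algebraMap HeckeAlg E ((inclS (↑S : Set ℕ) t' ^ 2 - (1 + (q : HeckeAlg)) ^ 2) ^ a))) =
        0 := by rw [hgeo', mul_zero]
    rw [Algebra.left_comm, ← mul_assoc ((y ^ 2) ^ a), hunit, one_mul, ← map_mul] at h1
    rw [← h1, map_mul, map_pow, map_sub, map_pow, map_pow, map_add, map_one, map_natCast]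
  have hmem := hm _ (fun z hz => by
    have h1 := congrArg (fun f : Module.End HeckeAlg (torsSub J p m) =>
      ((f (⟨z, hz⟩ : torsSub J p m) : torsSub J p m) : J)) hgeo''
    exact h1)
  have hpi : π (evS N (↑S : Set ℕ) t) * (π (evS N (↑S : Set ℕ) t') ^ 2 - (1 + (q : T)) ^ 2) ^ a ∈
      Ideal.span {(p : T) ^ n} := by
    obtain ⟨d, hd⟩ := Ideal.mem_span_singleton'.mp hmem
    have h1 := congrArg π hd
    rw [map_mul, map_pow, map_natCast, map_mul, map_mul, map_pow, map_pow, map_sub, map_sub,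
      map_pow, map_pow, map_pow, map_pow, map_add, map_add, map_one, map_one, map_natCast,
      map_natCast] at h1
    rw [← h1]
    exact Ideal.mul_mem_left _ _ (Ideal.mem_span_singleton_self _)
  have htr : Ideal.Quotient.mk (IsLocalRing.maximalIdeal T ^ n')
      (LinearMap.trace T ρ.V (ρ.ρ φ)) =
      Ideal.Quotient.mk (IsLocalRing.maximalIdeal T ^ n') (π (evS N (↑S : Set ℕ) t')) := by
    have d := trace_sub_mem ρ hL₁ (σ := ψ ^ k) (σ' := φ) fun z hz => hk z (hle₁ hz)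
    rw [trace_frobenius_pow hfrob hNS hℓ hℓS hB hψ] at d
    exact ((Ideal.Quotient.eq).mpr d).symm
  have hdiff : π (evS N (↑S : Set ℕ) t) *
      (LinearMap.trace T ρ.V (ρ.ρ φ) ^ 2 - (1 + (q : T)) ^ 2) ^ a -
      π (evS N (↑S : Set ℕ) t) * (π (evS N (↑S : Set ℕ) t') ^ 2 - (1 + (q : T)) ^ 2) ^ a ∈
        IsLocalRing.maximalIdeal T ^ n' := by
    rw [← Ideal.Quotient.eq, map_mul, map_mul, map_pow, map_pow, map_sub, map_sub, map_pow,
      map_pow _ (π (evS N (↑S : Set ℕ) t')), htr]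
  have hfin := Submodule.add_mem_sup hpi hdiff
  rwa [add_sub_cancel] at hfin

end Main

/-! ### The disjunction of S35 -/

section Domain

variable {N p : ℕ} [NeZero N] {S : Finset ℕ}
  {J : Type*} [AddCommGroup J] [Module HeckeAlg J] [DistribMulAction GQ J]
  [SMulCommClass GQ HeckeAlg J]
  {T : Type} [CommRing T] [IsDomain T] [IsLocalRing T] [IsNoetherianRing T]

/-- **The second clause of S35** from the geometric input at `q`. -/
theorem charpoly_frobenius_of_input (hJ : ESInput N p (↑S : Set ℕ) J) (hp : p.Prime)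
    (hpT : (p : T) ∈ IsLocalRing.maximalIdeal T)
    (hpS : p ∈ S) (hNS : ∀ q : ℕ, q.Prime → q ∣ N → q ∈ S)
    {π : heckeAlgebra N 2 (↑S : Set ℕ) →+* T} {ρ : GaloisRepAdic T}
    (hfrob : HasFrobCharpoly π ρ) {q : ℕ} (hq : q.Prime) (hqp : q ≠ p)
    {t : HeckeAlgS (↑S : Set ℕ)} {a : ℕ} (hgeo : FrobSqInput p q J (inclS (↑S : Set ℕ) t) a)
    (ht : π (evS N (↑S : Set ℕ) t) ≠ 0)
    {A : ValuationSubring (AlgebraicClosure ℚ)} (hA : A.LiesOverPrime q) {φ : GQ}
    (hφ : A.IsFrobeniusAt φ q) :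
    LinearMap.charpoly (ρ.ρ φ) = X ^ 2 - C ((q : T) + 1) * X + C ((q : T)) ∨
      LinearMap.charpoly (ρ.ρ φ) = X ^ 2 + C ((q : T) + 1) * X + C ((q : T)) := by
  have h := trace_sq_sub_pow hJ hp hpT hpS hNS hfrob hq hqp hgeo hA hφ
  have h1 := (mul_eq_zero.mp h).resolve_left ht
  have h2 : LinearMap.trace T ρ.V (ρ.ρ φ) ^ 2 - (1 + (q : T)) ^ 2 = 0 := by
    by_contra hne
    exact pow_ne_zero a hne h1
  have hdet := det_frobenius hp hpT hpS hNS hfrob hq hqp hA hφ
  have hch := charpoly_eq ρ.finrank_eq (ρ.ρ φ)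
  rw [hdet] at hch
  have h3 : (LinearMap.trace T ρ.V (ρ.ρ φ) - (1 + (q : T))) *
      (LinearMap.trace T ρ.V (ρ.ρ φ) + (1 + (q : T))) = 0 := by
    rw [← h2]; ring
  rcases mul_eq_zero.mp h3 with h4 | h4
  · left
    rw [hch, sub_eq_zero.mp h4, add_comm (1 : T)]
  · right
    rw [hch, eq_neg_of_add_eq_zero_left h4, C_neg, neg_mul, sub_neg_eq_add, add_comm (1 : T)]

end Domain

end Fermat.Agent.S35aux

end
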