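import Fermat.Statements.S41
import Fermat.Agent.S41.Assembly
import Fermat.Agent.S41.NonEisH

set_option autoImplicit false
open WeierstrassCurve WeierstrassCurve.Affine WeierstrassCurve.Affine.Point
open scoped CongruenceSubgroup
open WeierstrassCurve

namespace Fermat.Agent.S41

theorem result
    (E : WeierstrassCurve ℚ) [E.IsElliptic] {W : WeierstrassCurve ℤ} (hW : W.IsIntegralModelOf E)
    {p N q' : ℕ} (hp : p.Prime) (hp2 : p ≠ 2) (hN : 0 < N) (hq' : q'.Prime) (hq'N : ¬ q' ∣ N) (hq'p : q' ≠ p)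
    (hirr : GaloisRepIsIrreducible (K := AlgebraicClosure ℚ) ℚ E p)
    (f : CuspForm (CongruenceSubgroup.Gamma0 N) 2) (𝔪 : Ideal (integralClosure ℤ ℂ))
    (hf : f.IsNormalizedEigenform) (hmax : 𝔪.IsMaximal) (hpm : (p : integralClosure ℤ ℂ) ∈ 𝔪)
    (hcong : ∀ ℓ : ℕ, ℓ.Prime → W.IsGoodPrimeFor ℓ → ¬ ℓ ∣ N → ℓ ≠ p →
      ∃ a : integralClosure ℤ ℂ, (a : ℂ) = ModularFormClass.qCoeff f ℓ ∧
        a - ((W.apOfModel ℓ : ℤ) : integralClosure ℤ ℂ) ∈ 𝔪)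
    (hLR : ∃ a : integralClosure ℤ ℂ, (a : ℂ) = ModularFormClass.qCoeff f q' ∧
      a ^ 2 - ((q' : integralClosure ℤ ℂ) + 1) ^ 2 ∈ 𝔪) :
    ∃ (g : CuspForm (CongruenceSubgroup.Gamma0 (N * q')) 2) (𝔪' : Ideal (integralClosure ℤ ℂ)),
      g.IsNormalizedEigenform ∧ 𝔪'.IsMaximal ∧ (p : integralClosure ℤ ℂ) ∈ 𝔪' ∧
      (∀ ℓ : ℕ, ℓ.Prime → W.IsGoodPrimeFor ℓ → ¬ ℓ ∣ N * q' → ℓ ≠ p →
        ∃ a : integralClosure ℤ ℂ, (a : ℂ) = ModularFormClass.qCoeff g ℓ ∧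
          a - ((W.apOfModel ℓ : ℤ) : integralClosure ℤ ℂ) ∈ 𝔪') ∧
      g.IsNewAt q' := by
  have : NeZero N := ⟨hN.ne'⟩
  have : Fact p.Prime := ⟨hp⟩
  obtain ⟨g, hg1, hg2, hg3⟩ := Fermat.Agent.S41aux.level_raising hq' hq'N hp hp2 𝔪 hmax hpm
    (fun ℓ => W.IsGoodPrimeFor ℓ ∧ ℓ ≠ p) W.apOfModel
    (by
      intro M hM
      obtain ⟨ℓ, h1, h2, h3, h4, h5⟩ := Fermat.Agent.S41neh.ne1 hW hp2 hirr M hM
      exact ⟨ℓ, h1, ⟨h2, h3⟩, h4, h5⟩)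
    (by
      intro M hM
      obtain ⟨ℓ, h1, h2, h3, h4, h5⟩ := Fermat.Agent.S41neh.ne2 hW hp2 hirr M hM
      exact ⟨ℓ, h1, ⟨h2, h3⟩, h4, h5⟩)
    f hf (fun ℓ hℓ hG hd => hcong ℓ hℓ hG.1 hd hG.2) hLR
  exact ⟨g, 𝔪, hg1, hmax, hpm, fun ℓ hℓ hG hd hp' => hg2 ℓ hℓ ⟨hG, hp'⟩ hd, hg3⟩

end Fermat.Agent.S41
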