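import Fermat.Agent.S42_reduction
import Fermat.Agent.Torsion.FiniteLevel
import Fermat.Agent.Frey.CurveInt

set_option autoImplicit false
open FreyPackage

namespace Fermat.Agent.S42aux

lemma frey_disc_ne_zero (P : FreyPackage) : P.freyCurve.Δ ≠ 0 := by
  rw [← Frey.freyCurveInt_map, WeierstrassCurve.map_Δ]
  simpa using Frey.freyCurveInt_Δ_ne_zero P

/-- S42 from S29 alone. -/
theorem of_S29 (h29 : S29Statement) (P : FreyPackage) :
    ∀ M : ℕ, 0 < M → P.EigenformResidualAttachmentAt M := by
  intro M _
  exact reduction h29 P (Fermat.Agent.Torsion.galoisRep_factors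
    (frey_disc_ne_zero P) P.pp.ne_zero) M

end Fermat.Agent.S42aux
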