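import Fermat.Statements.S42
import Fermat.Agent.S42_final
import Fermat.Agent.S29

set_option autoImplicit false
open FreyPackage

namespace Fermat.Agent.S42

theorem result (P : FreyPackage) :
    ∀ M : ℕ, 0 < M → P.EigenformResidualAttachmentAt M :=
  Fermat.Agent.S42aux.of_S29 (@fun N g hg p hp k _ _ φ => Fermat.Agent.S29.result hg hp φ) P

end Fermat.Agent.S42
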