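import Mathlib
import Fermat.Prelude.Def_GaloisRep_Residual
import Fermat.Prelude.Def_FreyPackage_EigenformResidualAttachment

set_option autoImplicit false
set_option linter.style.haveILetI false

namespace Fermat.Agent.S42aux

open Polynomial

/-- the statement of S29, as a proposition -/
def S29Statement : Prop :=
  ∀ {N : ℕ} {g : CuspForm (CongruenceSubgroup.Gamma0 N) 2} (_hg : g.IsNormalizedEigenform)
    {p : ℕ} (_hp : p.Prime) {k : Type} [Field k] [CharP k p]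
    (φ : integralClosure ℤ ℂ →+* k),
    ∃ ρ : ResidualGaloisRep k, ρ.IsAttachedTo g φ ∧
      ∀ ℓ : ℕ, ℓ.Prime → ¬ ℓ ∣ N * p → ρ.IsUnramifiedAt ℓ

/-- From a quadratic characteristic polynomial, read off trace and determinant. -/
lemma trace_det_of_charpoly {k V : Type} [Field k] [AddCommGroup V] [Module k V]
    [Module.Finite k V] (h2 : Module.finrank k V = 2) (f : Module.End k V) (a b : k)
    (h : LinearMap.charpoly f = X ^ 2 - C a * X + C b) :
    LinearMap.trace k V f = a ∧ LinearMap.det f = b := by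
  have hfree : Module.Free k V := inferInstance
  constructor
  · have h1 : LinearMap.trace k V f = - (LinearMap.charpoly f).nextCoeff := by
      let b' := Module.Free.chooseBasis k V
      rw [LinearMap.trace_eq_matrix_trace k b' f, ← LinearMap.charpoly_toMatrix f b']
      exact Matrix.trace_eq_neg_charpoly_nextCoeff _
    rw [h1, h]
    have hdeg : (X ^ 2 - C a * X + C b : k[X]).natDegree = 2 := by compute_degree!
    rw [nextCoeff_of_natDegree_pos (by rw [hdeg]; norm_num), hdeg]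
    simp [coeff_C]
  · rw [LinearMap.det_eq_sign_charpoly_coeff f, h, h2]
    simp

lemma reduction (h29 : S29Statement) (P : FreyPackage)
    (hfrey : GaloisFactorsThroughFiniteLevel
      (WeierstrassCurve.Affine.Point.galoisRepModuleEnd (K := AlgebraicClosure ℚ) ℚ
        P.freyCurve P.p)) (M : ℕ) : P.EigenformResidualAttachmentAt M := by
  intro g hg 𝔪 h𝔪 hp𝔪
  haveI := h𝔪
  letI instF : Field (integralClosure ℤ ℂ ⧸ 𝔪) := Ideal.Quotient.field 𝔪
  haveI : Fact P.p.Prime := ⟨P.pp⟩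
  have hp0 : ((P.p : ℕ) : integralClosure ℤ ℂ ⧸ 𝔪) = 0 := by
    have := (Ideal.Quotient.eq_zero_iff_mem (I := 𝔪)).2 hp𝔪
    simpa using this
  haveI hchar : CharP (integralClosure ℤ ℂ ⧸ 𝔪) P.p := by
    obtain ⟨q, hq⟩ := CharP.exists (integralClosure ℤ ℂ ⧸ 𝔪)
    have h1 : q ∣ P.p := (CharP.cast_eq_zero_iff _ q P.p).1 hp0
    rcases (Nat.dvd_prime P.pp).1 h1 with rfl | rfl
    · exact absurd (CharP.cast_eq_zero_iff (integralClosure ℤ ℂ ⧸ 𝔪) 1 1 |>.2 dvd_rfl)
        (by rw [Nat.cast_one]; exact one_ne_zero)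
    · exact hq
  obtain ⟨ρ, hρ, -⟩ := h29 hg P.pp (Ideal.Quotient.mk 𝔪)
  obtain ⟨L₁, hL₁, h₁⟩ := ρ.factorsThroughFiniteLevel
  obtain ⟨L₂, hL₂, h₂⟩ := hfrey
  haveI := hL₁
  haveI := hL₂
  let F : IntermediateField ℚ (AlgebraicClosure ℚ) := IntermediateField.normalClosure ℚ
    (L₁ ⊔ L₂ : IntermediateField ℚ (AlgebraicClosure ℚ)) (AlgebraicClosure ℚ)
  haveI : FiniteDimensional ℚ (L₁ ⊔ L₂ : IntermediateField ℚ (AlgebraicClosure ℚ)) :=
    IntermediateField.finiteDimensional_sup L₁ L₂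
  haveI hFfin : FiniteDimensional ℚ F := normalClosure.is_finiteDimensional _ _ _
  haveI hac : IsAlgClosure ℚ (AlgebraicClosure ℚ) :=
    AlgebraicClosure.instIsAlgClosureOfIsAlgebraic (k := ℚ) (L := ℚ)
  haveI hnorm : Normal ℚ (AlgebraicClosure ℚ) := IsAlgClosure.normal ℚ (AlgebraicClosure ℚ)
  haveI hFnorm : Normal ℚ F := normalClosure.normal _ _ _
  haveI hFgal : IsGalois ℚ F := ⟨⟩
  have hle : L₁ ⊔ L₂ ≤ F := IntermediateField.le_normalClosure _
  haveI hNF : NumberField F := ⟨⟩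
  refine ⟨integralClosure ℤ ℂ ⧸ 𝔪, instF, ZMod.algebra _ P.p, ρ.V, inferInstance, inferInstance,
    ρ.ρ, Ideal.Quotient.mk 𝔪, F, inferInstance, hNF, hFgal, inferInstance, inferInstance,
    ?_, ρ.finrank_eq, ?_, ?_, ?_⟩
  · exact (Ideal.mk_ker (I := 𝔪)).ge
  · intro σ hσ
    have hσ' : ∀ x ∈ F, σ x = x := by
      intro x hx
      have h3 := AlgEquiv.restrictNormal_commutes σ F ⟨x, hx⟩
      have h4 : σ.restrictNormal F = 1 := hσ
      rw [h4] at h3
      exact h3.symm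
    refine ⟨?_, ?_⟩
    · exact h₂ σ (fun x hx => hσ' x (hle (le_sup_right (a := L₁) (b := L₂) hx)))
    · exact h₁ σ (fun x hx => hσ' x (hle (le_sup_left (a := L₁) (b := L₂) hx)))
  · intro ℓ hℓ hℓM hℓp A hA τ hτ
    have hne : ((ℓ : ℕ) : integralClosure ℤ ℂ ⧸ 𝔪) ≠ 0 := by
      intro h0
      have := (CharP.cast_eq_zero_iff _ P.p ℓ).1 h0
      exact hℓp ((Nat.prime_dvd_prime_iff_eq P.pp hℓ).1 this).symm
    obtain ⟨a, ha, hc⟩ := hρ ℓ hℓ hℓM hne A hA τ hτ
    exact ⟨a, ha, (trace_det_of_charpoly ρ.finrank_eq _ _ _ hc).1⟩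
  · intro ℓ hℓ hℓM hℓp A hA τ hτ
    have hne : ((ℓ : ℕ) : integralClosure ℤ ℂ ⧸ 𝔪) ≠ 0 := by
      intro h0
      have := (CharP.cast_eq_zero_iff _ P.p ℓ).1 h0
      exact hℓp ((Nat.prime_dvd_prime_iff_eq P.pp hℓ).1 this).symm
    obtain ⟨a, ha, hc⟩ := hρ ℓ hℓ hℓM hne A hA τ hτ
    exact (trace_det_of_charpoly ρ.finrank_eq _ _ _ hc).2

end Fermat.Agent.S42aux
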