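import Mathlib
import Fermat.Prelude.Def_FLTPrelim_FreyPackage
import Fermat.Prelude.Def_FLTPrelim_GaloisRep
import Fermat.Prelude.Def_FLTPrelim_Modularity
import Fermat.Prelude.Def_FLTPrelim_ModularRep
import Fermat.Prelude.Def_FLTPrelim_Ramification
import Fermat.Prelude.Def_FLTPrelim_CofixedLine
import Fermat.Prelude.Def_FreyPackage_IsConductorLevel

/-!
# Wiring for S45

Level lowering to level two for the Frey representation, deduced from the statements of
S05 (unramifiedness), S06 (conductor level), S43 (Ribet) and S44 (Mazur-Ribet), taken as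
hypotheses.
-/

set_option autoImplicit false
open WeierstrassCurve WeierstrassCurve.Affine WeierstrassCurve.Affine.Point
open CuspForm ModularFormClass UpperHalfPlane
open FreyPackage

namespace Fermat.Agent.S45aux

/-- Restriction of a cusp form of level `Γ₀(M)` to level `Γ₀(N)` for `M ∣ N`. -/
noncomputable def restrictGamma0 {M N : ℕ} (h : M ∣ N) {k : ℤ}
    (f : CuspForm (CongruenceSubgroup.Gamma0 M) k) :
    CuspForm (CongruenceSubgroup.Gamma0 N) k where
  toFun := f
  slash_action_eq' := by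
    intro γ hγ
    refine f.slash_action_eq' γ ?_
    obtain ⟨g, hg, rfl⟩ := hγ
    refine ⟨g, ?_, rfl⟩
    have hg' : (g.1 1 0 : ZMod N) = 0 := CongruenceSubgroup.Gamma0_mem.mp hg
    have : g ∈ CongruenceSubgroup.Gamma0 M := by
      rw [CongruenceSubgroup.Gamma0_mem]
      have := congrArg (ZMod.castHom h (ZMod M)) hg'
      simpa using this
    exact this
  holo' := f.holo'
  zero_at_cusps' := by
    intro c hc
    refine f.zero_at_cusps' (hc.mono ?_)
    rintro _ ⟨g, hg, rfl⟩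
    refine ⟨g, ?_, rfl⟩
    have hg' : (g.1 1 0 : ZMod N) = 0 := CongruenceSubgroup.Gamma0_mem.mp hg
    have : g ∈ CongruenceSubgroup.Gamma0 M := by
      rw [CongruenceSubgroup.Gamma0_mem]
      have := congrArg (ZMod.castHom h (ZMod M)) hg'
      simpa using this
    exact this

theorem coe_restrictGamma0 {M N : ℕ} (h : M ∣ N) {k : ℤ}
    (f : CuspForm (CongruenceSubgroup.Gamma0 M) k) :
    (restrictGamma0 h f : ℍ → ℂ) = f := rfl

theorem restrictGamma0_ne_zero {M N : ℕ} (h : M ∣ N) {k : ℤ}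
    {f : CuspForm (CongruenceSubgroup.Gamma0 M) k} (hf : f ≠ 0) :
    restrictGamma0 h f ≠ 0 := by
  intro h0
  apply hf
  ext z
  exact DFunLike.congr_fun h0 z

/-- The statement of S05, S06, S43, S44 for a fixed Frey package imply that the Frey
representation is modular of some level dividing `2`. -/
theorem exists_modularRepOfLevel_dvd_two (P : FreyPackage)
    (hirr : GaloisRepIsIrreducible (K := AlgebraicClosure ℚ) ℚ P.freyCurve P.p)
    (h06 : ∃ N : ℕ, P.IsConductorLevel N ∧ P.ModularRepOfLevel N)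
    (h05 : ∀ {q : ℕ}, q.Prime → q ≠ 2 → q ≠ P.p → P.GaloisRepUnramifiedAt q)
    (h43 : ∀ {N q : ℕ}, P.IsConductorLevel N → q.Prime → q ≠ 2 → q ≠ P.p → q ∣ N →
      GaloisRepIsIrreducible (K := AlgebraicClosure ℚ) ℚ P.freyCurve P.p →
      P.ModularRepOfLevel N → P.GaloisRepUnramifiedAt q →
      ∃ M : ℕ, M ∣ N ∧ ¬ q ∣ M ∧ P.ModularRepOfLevel M)
    (h44 : ∀ {N : ℕ}, P.IsConductorLevel N → P.p ∣ N →
      GaloisRepIsIrreducible (K := AlgebraicClosure ℚ) ℚ P.freyCurve P.p →
      P.ModularRepOfLevel N → ∃ M : ℕ, M ∣ N ∧ ¬ P.p ∣ M ∧ P.ModularRepOfLevel M) :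
    ∃ M : ℕ, M ∣ 2 ∧ P.ModularRepOfLevel M := by
  obtain ⟨N, hN, hmod⟩ := h06
  induction N using Nat.strong_induction_on with
  | _ N ih =>
    by_cases h2 : N ∣ 2
    · exact ⟨N, h2, hmod⟩
    · -- there is an odd prime dividing `N`
      have hpos := hN.pos
      have hsq := hN.squarefree
      have hex : ∃ q : ℕ, q.Prime ∧ q ≠ 2 ∧ q ∣ N := by
        by_contra hcon
        push Not at hcon
        apply h2
        have hpf : ∀ q : ℕ, q.Prime → q ∣ N → q ∣ 2 := by
          intro q hq hqN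
          by_cases hq2 : q = 2
          · rw [hq2]
          · exact absurd hqN (hcon q hq hq2)
        rw [← Nat.prod_primeFactors_of_squarefree hsq]
        have hsub : N.primeFactors ⊆ (2 : ℕ).primeFactors := by
          intro q hq
          rw [Nat.mem_primeFactors] at hq ⊢
          exact ⟨hq.1, hpf q hq.1 hq.2.1, two_ne_zero⟩
        calc ∏ q ∈ N.primeFactors, q ∣ ∏ q ∈ (2 : ℕ).primeFactors, q :=
              Finset.prod_dvd_prod_of_subset _ _ _ hsub
          _ ∣ 2 := Nat.prod_primeFactors_dvd 2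
      obtain ⟨q, hq, hq2, hqN⟩ := hex
      have key : ∃ M : ℕ, M ∣ N ∧ ¬ q ∣ M ∧ P.ModularRepOfLevel M := by
        by_cases hqp : q = P.p
        · subst hqp
          exact h44 hN hqN hirr hmod
        · exact h43 hN hq hq2 hqp hqN hirr hmod (h05 hq hq2 hqp)
      obtain ⟨M, hMN, hqM, hM⟩ := key
      have hMpos : 0 < M := Nat.pos_of_dvd_of_pos hMN hpos
      have hMne : M ≠ N := by rintro rfl; exact hqM hqN
      have hMlt : M < N := lt_of_le_of_ne (Nat.le_of_dvd hpos hMN) hMne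
      exact ih M hMlt (hN.of_dvd hMN hMpos) hM

/-- The statement of S05, S06, S43, S44 for a fixed Frey package imply the statement of S45. -/
theorem level_lowering_to_two_of (P : FreyPackage)
    (hirr : GaloisRepIsIrreducible (K := AlgebraicClosure ℚ) ℚ P.freyCurve P.p)
    (h06 : ∃ N : ℕ, P.IsConductorLevel N ∧ P.ModularRepOfLevel N)
    (h05 : ∀ {q : ℕ}, q.Prime → q ≠ 2 → q ≠ P.p → P.GaloisRepUnramifiedAt q)
    (h43 : ∀ {N q : ℕ}, P.IsConductorLevel N → q.Prime → q ≠ 2 → q ≠ P.p → q ∣ N →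
      GaloisRepIsIrreducible (K := AlgebraicClosure ℚ) ℚ P.freyCurve P.p →
      P.ModularRepOfLevel N → P.GaloisRepUnramifiedAt q →
      ∃ M : ℕ, M ∣ N ∧ ¬ q ∣ M ∧ P.ModularRepOfLevel M)
    (h44 : ∀ {N : ℕ}, P.IsConductorLevel N → P.p ∣ N →
      GaloisRepIsIrreducible (K := AlgebraicClosure ℚ) ℚ P.freyCurve P.p →
      P.ModularRepOfLevel N → ∃ M : ℕ, M ∣ N ∧ ¬ P.p ∣ M ∧ P.ModularRepOfLevel M) :
    ∃ f : CuspForm (CongruenceSubgroup.Gamma0 2) 2, f ≠ 0 := by
  obtain ⟨M, hM2, hM⟩ := exists_modularRepOfLevel_dvd_two P hirr h06 h05 h43 h44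
  obtain ⟨f, W, 𝔪, hf, -⟩ := hM
  exact ⟨restrictGamma0 hM2 f, restrictGamma0_ne_zero hM2 hf.ne_zero⟩

end Fermat.Agent.S45aux
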