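import Fermat.Statements.S52
import Fermat.Agent.S52.Congr
import Fermat.Agent.Switch.Irred

set_option autoImplicit false
open WeierstrassCurve WeierstrassCurve.Affine WeierstrassCurve.Affine.Point
open CuspForm ModularFormClass UpperHalfPlane
open WeierstrassCurve

namespace Fermat.Agent.S52

theorem result (W : WeierstrassCurve ℤ) (hΔ : W.Δ ≠ 0) (hW : W.IsSemistableModel) (h5 : W.ModRepIsIrreducible 5) : ∃ W' : WeierstrassCurve ℤ, W'.Δ ≠ 0 ∧ W'.IsSemistableModel ∧ W'.ModRepIsIrreducible 3 ∧ ∀ ℓ : ℕ, ℓ.Prime → W.IsGoodPrimeFor ℓ → W'.IsGoodPrimeFor ℓ → ℓ ≠ 5 → (5 : ℤ) ∣ (W'.apOfModel ℓ - W.apOfModel ℓ) := by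
  obtain ⟨s, hs⟩ := Fermat.Agent.Switch.exists_irreducible W hΔ hW
  exact ⟨Fermat.Agent.S52x.famCurve W (30 * W.Δ * s),
    Fermat.Agent.S52x.famCurve_Δ_ne_zero hΔ s,
    Fermat.Agent.S52x.famCurve_semistable hΔ hW s, hs,
    fun ℓ hℓ _ hg _ => Fermat.Agent.S52x.apOfModel_congr s ℓ hℓ hg⟩

end Fermat.Agent.S52
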