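import Mathlib.RingTheory.Regular.RegularSequence
import Mathlib.RingTheory.Regular.Free
import Mathlib.RingTheory.Ideal.AssociatedPrime.Finiteness
import Mathlib.RingTheory.LocalRing.Module
import Mathlib.RingTheory.LocalRing.RingHom.Basic
import Mathlib.LinearAlgebra.Basis.VectorSpace

set_option autoImplicit false

namespace Fermat.Agent.S57aux

open IsLocalRing RingTheory.Sequence

universe u v

section

variable {B : Type u} [CommRing B] [IsLocalRing B]

/-- Prime avoidance: if some element of the maximal ideal is `Q`-regular, then there is one outside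
the square of the maximal ideal. -/
theorem exists_regular_not_mem_sq [IsNoetherianRing B] (Q : Type v) [AddCommGroup Q] [Module B Q]
    [Module.Finite B Q] {y : B} (hy : y ∈ maximalIdeal B) (hne : maximalIdeal B ≠ ⊥)
    (hreg : IsSMulRegular Q y) :
    ∃ z ∈ maximalIdeal B, z ∉ (maximalIdeal B) ^ 2 ∧ IsSMulRegular Q z := by
  by_contra! H
  have hsub : ((maximalIdeal B : Ideal B) : Set B) ⊆
      ⋃ i ∈ insert ((maximalIdeal B) ^ 2) (associatedPrimes B Q), ((id i : Ideal B) : Set B) := by
    intro z hz
    by_cases h2 : z ∈ (maximalIdeal B) ^ 2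
    · exact Set.mem_biUnion (Set.mem_insert _ _) h2
    · have h3 := H z hz h2
      have h4 : z ∈ {r : B | IsSMulRegular Q r}ᶜ := h3
      rw [← biUnion_associatedPrimes_eq_compl_regular] at h4
      simp only [Set.mem_iUnion] at h4 ⊢
      obtain ⟨p, hp, hzp⟩ := h4
      exact ⟨p, Set.mem_insert_of_mem _ hp, hzp⟩
  have key := (Ideal.subset_union_prime_finite ((associatedPrimes.finite B Q).insert _)
    ((maximalIdeal B) ^ 2) ((maximalIdeal B) ^ 2) (by
      intro i hi hi1 _
      rcases hi with rfl | hi
      · exact absurd rfl hi1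
      · exact IsAssociatedPrime.isPrime hi)).mp hsub
  obtain ⟨i, hi, hle⟩ := key
  rcases hi with rfl | hi
  · apply hne
    have hle' : maximalIdeal B ≤ maximalIdeal B • maximalIdeal B := by
      simpa [pow_two] using hle
    exact Submodule.eq_bot_of_le_smul_of_le_jacobson_bot (maximalIdeal B) (maximalIdeal B)
      (IsNoetherian.noetherian _) hle' (IsLocalRing.jacobson_eq_maximalIdeal ⊥ bot_ne_top).ge
  · have h5 : y ∈ ⋃ p ∈ associatedPrimes B Q, ((p : Ideal B) : Set B) := by
      simp only [Set.mem_iUnion]
      exact ⟨i, hi, hle hy⟩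
    rw [biUnion_associatedPrimes_eq_compl_regular] at h5
    exact h5 hreg

/-- If `m` is generated by `n + 1` elements and `z ∈ m \ m ^ 2`, then the maximal ideal of `B / z`
is generated by `n` elements. -/
theorem exists_span_maximalIdeal_quotient {n : ℕ} (xs : Fin (n + 1) → B)
    (hxs : maximalIdeal B = Ideal.span (Set.range xs)) {z : B} (hz : z ∈ maximalIdeal B)
    (hz2 : z ∉ (maximalIdeal B) ^ 2) [IsLocalRing (B ⧸ Ideal.span {z})] :
    ∃ xs' : Fin n → B ⧸ Ideal.span {z},
      maximalIdeal (B ⧸ Ideal.span {z}) = Ideal.span (Set.range xs') := by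
  obtain ⟨a, ha⟩ : ∃ a : Fin (n + 1) → B, ∑ i, a i * xs i = z := by
    have := hz
    rw [hxs] at this
    exact Ideal.mem_span_range_iff_exists_fun.mp this
  obtain ⟨i0, hi0⟩ : ∃ i0, IsUnit (a i0) := by
    by_contra! hcon
    apply hz2
    rw [← ha, pow_two]
    refine Ideal.sum_mem _ fun i _ => Ideal.mul_mem_mul ?_ ?_
    · exact (mem_maximalIdeal _).mpr (hcon i)
    · rw [hxs]; exact Ideal.subset_span ⟨i, rfl⟩
  refine ⟨fun j => Ideal.Quotient.mk _ (xs (i0.succAbove j)), ?_⟩
  have hmap : maximalIdeal (B ⧸ Ideal.span {z}) =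
      (maximalIdeal B).map (Ideal.Quotient.mk (Ideal.span {z})) :=
    (IsLocalRing.map_maximalIdeal_of_surjective _ Ideal.Quotient.mk_surjective).symm
  rw [hmap, hxs, Ideal.map_span]
  apply le_antisymm
  · rw [Ideal.span_le]
    rintro _ ⟨_, ⟨i, rfl⟩, rfl⟩
    induction i using Fin.succAboveCases i0 with
    | x =>
      obtain ⟨c, hc⟩ := hi0
      have h1 : a i0 * xs i0 = z - ∑ j : Fin n, a (i0.succAbove j) * xs (i0.succAbove j) := by
        rw [← ha, Fin.sum_univ_succAbove _ i0]; ring
      have h2 : xs i0 = (↑c⁻¹ : B) *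
          (z - ∑ j : Fin n, a (i0.succAbove j) * xs (i0.succAbove j)) := by
        rw [← h1, ← hc, ← mul_assoc, Units.inv_mul, one_mul]
      have h3 : Ideal.Quotient.mk (Ideal.span {z}) z = 0 :=
        Ideal.Quotient.eq_zero_iff_mem.mpr (Ideal.mem_span_singleton_self z)
      rw [h2, map_mul, map_sub, h3, zero_sub]
      refine Ideal.mul_mem_left _ _ (neg_mem ?_)
      rw [map_sum]
      refine Ideal.sum_mem _ fun j _ => ?_
      rw [map_mul]
      exact Ideal.mul_mem_left _ _ (Ideal.subset_span ⟨j, rfl⟩)
    | p j => exact Ideal.subset_span ⟨j, rfl⟩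
  · rw [Ideal.span_le]
    rintro _ ⟨j, rfl⟩
    exact Ideal.subset_span ⟨xs (i0.succAbove j), ⟨_, rfl⟩, rfl⟩

end

/-- **Freeness criterion.** Let `(B, m)` be a Noetherian local ring whose maximal ideal is
generated by `n` elements, and let `N` be a finite `B`-module admitting a (weakly) regular sequence
of length `n` in `m`.  Then `N` is free. -/
theorem free_of_isWeaklyRegular (n : ℕ) :
    ∀ (B : Type u) [CommRing B] [IsLocalRing B] [IsNoetherianRing B] (N : Type v)
      [AddCommGroup N] [Module B N] [Module.Finite B N] (xs : Fin n → B)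
      (_ : maximalIdeal B = Ideal.span (Set.range xs)) (ys : List B) (_ : ys.length = n)
      (_ : ∀ y ∈ ys, y ∈ maximalIdeal B) (_ : IsWeaklyRegular N ys), Module.Free B N := by
  induction n with
  | zero =>
    intro B _ _ _ N _ _ _ xs hxs ys hlen hmem hreg
    have hbot : maximalIdeal B = ⊥ := by
      rw [hxs, Set.range_eq_empty, Ideal.span_empty]
    have hf : IsField B := IsLocalRing.isField_iff_maximalIdeal_eq.mpr hbot
    let _ : Field B := hf.toField
    exact Module.Free.of_divisionRing B N
  | succ n ih =>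
    intro B _ _ _ N _ _ _ xs hxs ys hlen hmem hreg
    rcases subsingleton_or_nontrivial N with hN | hN
    · exact Module.Free.of_subsingleton B N
    obtain ⟨ys', y, rfl⟩ : ∃ ys' y, ys = ys' ++ [y] := by
      rcases List.eq_nil_or_concat ys with h | ⟨l, b, h⟩
      · subst h; simp at hlen
      · exact ⟨l, b, by simpa using h⟩
    have hlen' : ys'.length = n := by simpa using hlen
    have hmem' : ∀ x ∈ ys', x ∈ maximalIdeal B := fun x hx => hmem x (by simp [hx])
    have hy : y ∈ maximalIdeal B := hmem y (by simp)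
    rw [isWeaklyRegular_append_iff] at hreg
    obtain ⟨hreg', hregy⟩ := hreg
    rw [isWeaklyRegular_singleton_iff] at hregy
    have : Nontrivial (N ⧸ (Ideal.ofList ys' • ⊤ : Submodule B N)) :=
      (IsRegular.of_isWeaklyRegular_of_mem_maximalIdeal N hmem' hreg').quot_ofList_smul_nontrivial ⊤
    have hne : maximalIdeal B ≠ ⊥ := by
      intro hbot
      rw [hbot, Ideal.mem_bot] at hy
      subst hy
      rw [IsSMulRegular.zero_iff_subsingleton] at hregy
      exact not_subsingleton _ hregy
    obtain ⟨z, hz, hz2, hzreg⟩ :=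
      exists_regular_not_mem_sq (N ⧸ (Ideal.ofList ys' • ⊤ : Submodule B N)) hy hne hregy
    have hreg2 : IsWeaklyRegular N (ys' ++ [z]) := by
      rw [isWeaklyRegular_append_iff, isWeaklyRegular_singleton_iff]
      exact ⟨hreg', hzreg⟩
    have hreg3 : IsWeaklyRegular N (z :: ys') := by
      refine IsLocalRing.isWeaklyRegular_of_perm_of_subset_maximalIdeal hreg2
        (List.perm_append_singleton z ys') ?_
      intro x hx
      simp only [List.mem_append, List.mem_singleton] at hx
      rcases hx with hx | rfl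
      · exact hmem' x hx
      · exact hz
    rw [isWeaklyRegular_cons_iff'] at hreg3
    obtain ⟨hz3, hreg4⟩ := hreg3
    have hnt : Nontrivial (B ⧸ Ideal.span {z}) := by
      rw [Ideal.Quotient.nontrivial_iff]
      intro h
      have : (1 : B) ∈ maximalIdeal B := by
        have h1 : Ideal.span {z} ≤ maximalIdeal B := by
          rw [Ideal.span_singleton_le_iff_mem]; exact hz
        exact h1 (h ▸ Submodule.mem_top)
      exact (Ideal.ne_top_iff_one _).mp (maximalIdeal.isMaximal B).ne_top this
    have : IsLocalRing (B ⧸ Ideal.span {z}) :=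
      IsLocalRing.of_surjective' (Ideal.Quotient.mk _) Ideal.Quotient.mk_surjective
    obtain ⟨xs', hxs'⟩ := exists_span_maximalIdeal_quotient xs hxs hz hz2
    have : IsNoetherianRing (B ⧸ Ideal.span {z}) :=
      isNoetherianRing_of_surjective _ _ (Ideal.Quotient.mk _) Ideal.Quotient.mk_surjective
    have : Module.Finite (B ⧸ Ideal.span {z}) (QuotSMulTop z N) :=
      Module.Finite.of_restrictScalars_finite B _ _
    have hfree : Module.Free (B ⧸ Ideal.span {z}) (QuotSMulTop z N) := by
      refine ih (B ⧸ Ideal.span {z}) (QuotSMulTop z N) xs' hxs'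
        (ys'.map (Ideal.Quotient.mk (Ideal.span {z}))) (by simpa using hlen') ?_ hreg4
      intro x hx
      rw [List.mem_map] at hx
      obtain ⟨w, hw, rfl⟩ := hx
      rw [← IsLocalRing.map_maximalIdeal_of_surjective (Ideal.Quotient.mk (Ideal.span {z}))
        Ideal.Quotient.mk_surjective]
      exact Ideal.mem_map_of_mem _ (hmem' w hw)
    have : Module.FinitePresentation B N := Module.finitePresentation_of_finite B N
    exact (Module.free_quotSMulTop_iff_free B N
      ((IsLocalRing.jacobson_eq_maximalIdeal ⊥ bot_ne_top).ge hz) hz3).mp hfree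

end Fermat.Agent.S57aux
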