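import Mathlib.RingTheory.Regular.RegularSequence
import Mathlib.RingTheory.MvPowerSeries.Equiv
import Mathlib.RingTheory.MvPowerSeries.Inverse
import Mathlib.RingTheory.MvPowerSeries.NoZeroDivisors
import Mathlib.RingTheory.DiscreteValuationRing.Basic

set_option autoImplicit false

namespace Fermat.Agent.S57aux

open IsLocalRing RingTheory.Sequence MvPowerSeries

variable {σ : Type*} {A : Type*} [CommRing A]

/-- Membership in the ideal generated by finitely many variables, through coefficients. -/
theorem mem_span_X_iff (s : Finset σ) (f : MvPowerSeries σ A) :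
    f ∈ Ideal.span ((fun j => (X j : MvPowerSeries σ A)) '' (s : Set σ)) ↔
      ∀ m : σ →₀ ℕ, (∀ j ∈ s, m j = 0) → coeff m f = 0 := by
  classical
  constructor
  · intro hf
    refine Submodule.span_induction
      (p := fun g _ => ∀ m : σ →₀ ℕ, (∀ j ∈ s, m j = 0) → coeff m g = 0) ?_ ?_ ?_ ?_ hf
    · rintro _ ⟨j, hj, rfl⟩ m hm
      exact (X_dvd_iff.mp (dvd_refl (X j : MvPowerSeries σ A))) m (hm j hj)
    · intro m _; simp
    · intro x y _ _ hx hy m hm
      rw [map_add, hx m hm, hy m hm, add_zero]
    · intro a x _ hx m hm
      rw [smul_eq_mul, coeff_mul]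
      refine Finset.sum_eq_zero fun pq hpq => ?_
      rw [Finset.mem_antidiagonal] at hpq
      rw [hx pq.2 (fun j hj => ?_), mul_zero]
      have := hm j hj
      rw [← hpq, Finsupp.add_apply] at this
      omega
  · induction s using Finset.induction_on generalizing f with
    | empty =>
      intro h
      have : f = 0 := ext fun n => by simpa using h n (by simp)
      rw [this]; exact zero_mem _
    | insert a t ha ih =>
      intro h
      let g : MvPowerSeries σ A := fun m => if m a = 0 then coeff m f else 0
      have hg : ∀ m, coeff m g = if m a = 0 then coeff m f else 0 := fun m => rfl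
      have h1 : X a ∣ f - g := by
        rw [X_dvd_iff]
        intro m hm
        rw [map_sub, hg, if_pos hm, sub_self]
      have h2 : g ∈ Ideal.span ((fun j => (X j : MvPowerSeries σ A)) '' (t : Set σ)) := by
        apply ih
        intro m hm
        rw [hg]
        split_ifs with hma
        · apply h
          intro j hj
          rcases Finset.mem_insert.mp hj with rfl | hj
          · exact hma
          · exact hm j hj
        · rfl
      have h3 : f = (f - g) + g := by ring
      rw [h3]
      refine add_mem ?_ (Ideal.span_mono (Set.image_mono (by simp)) h2)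
      obtain ⟨q, hq⟩ := h1
      rw [hq]
      exact Ideal.mul_mem_right _ _ (Ideal.subset_span ⟨a, by simp, rfl⟩)

theorem mem_span_X_list_iff [DecidableEq σ] (l : List σ) (f : MvPowerSeries σ A) :
    f ∈ Ideal.ofList (l.map fun j => (X j : MvPowerSeries σ A)) ↔
      ∀ m : σ →₀ ℕ, (∀ j ∈ l, m j = 0) → coeff m f = 0 := by
  have h : Ideal.ofList (l.map fun j => (X j : MvPowerSeries σ A)) =
      Ideal.span ((fun j => (X j : MvPowerSeries σ A)) '' (l.toFinset : Set σ)) := by
    refine congrArg Ideal.span (Set.ext fun x => ?_)
    simp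
  rw [h, mem_span_X_iff]
  simp

/-- Distinct variables form a regular sequence. -/
theorem isWeaklyRegular_map_X (l : List σ) (hl : l.Nodup) :
    IsWeaklyRegular (MvPowerSeries σ A) (l.map fun j => (X j : MvPowerSeries σ A)) := by
  classical
  induction l using List.reverseRecOn with
  | nil => exact IsWeaklyRegular.nil _ _
  | append_singleton l a ih =>
    rw [List.nodup_append] at hl
    obtain ⟨hl1, -, hl3⟩ := hl
    have ha : a ∉ l := fun h => hl3 a h a (by simp) rfl
    rw [List.map_append, isWeaklyRegular_append_iff]
    refine ⟨ih hl1, ?_⟩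
    rw [List.map_singleton, isWeaklyRegular_singleton_iff,
      isSMulRegular_quotient_iff_mem_of_smul_mem]
    intro f hf
    simp only [smul_eq_mul, Ideal.mul_top] at hf ⊢
    rw [mem_span_X_list_iff] at hf ⊢
    intro m hm
    have h1 := hf (Finsupp.single a 1 + m) (by
      intro j hj
      have hja : a ≠ j := fun h => ha (h ▸ hj)
      rw [Finsupp.add_apply, Finsupp.single_eq_of_ne hja.symm, hm j hj])
    rwa [X_def, coeff_add_monomial_mul, one_mul] at h1

theorem isWeaklyRegular_X_C [IsDomain A] (l : List σ) (hl : l.Nodup)
    {p : A} (hp : p ≠ 0) :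
    IsWeaklyRegular (MvPowerSeries σ A)
      ((l.map fun j => (X j : MvPowerSeries σ A)) ++ [C p]) := by
  classical
  rw [isWeaklyRegular_append_iff]
  refine ⟨isWeaklyRegular_map_X l hl, ?_⟩
  rw [isWeaklyRegular_singleton_iff, isSMulRegular_quotient_iff_mem_of_smul_mem]
  intro f hf
  simp only [smul_eq_mul, Ideal.mul_top] at hf ⊢
  rw [mem_span_X_list_iff] at hf ⊢
  intro m hm
  have h1 := hf m hm
  rw [coeff_C_mul] at h1
  exact (mul_eq_zero.mp h1).resolve_left hp

/-- The maximal ideal of `A⟦X₁, …, X_r⟧` for `A` local with principal maximal ideal. -/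
theorem maximalIdeal_eq_span [IsLocalRing A] {r : ℕ} {p : A}
    (hp : maximalIdeal A = Ideal.span {p}) :
    maximalIdeal (MvPowerSeries (Fin r) A) =
      Ideal.span (Set.range (Fin.snoc (fun i : Fin r => (X i : MvPowerSeries (Fin r) A)) (C p) :
        Fin (r + 1) → MvPowerSeries (Fin r) A)) := by
  classical
  apply le_antisymm
  · intro f hf
    have h1 : f = (f - C (constantCoeff f)) + C (constantCoeff f) := by ring
    rw [h1]
    refine add_mem ?_ ?_
    · have h2 : f - C (constantCoeff f) ∈
          Ideal.span ((fun j => (X j : MvPowerSeries (Fin r) A)) ''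
            ((Finset.univ : Finset (Fin r)) : Set (Fin r))) := by
        rw [mem_span_X_iff]
        intro m hm
        have : m = 0 := by ext j; simpa using hm j (Finset.mem_univ _)
        subst this
        simp
      refine Ideal.span_mono ?_ h2
      rintro _ ⟨j, -, rfl⟩
      exact ⟨Fin.castSucc j, by simp⟩
    · have h3 : constantCoeff f ∈ maximalIdeal A := by
        rw [mem_maximalIdeal, mem_nonunits_iff] at hf ⊢
        intro hu
        exact hf (MvPowerSeries.isUnit_iff_constantCoeff.mpr hu)
      rw [hp, Ideal.mem_span_singleton] at h3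
      obtain ⟨q, hq⟩ := h3
      rw [hq, map_mul]
      exact Ideal.mul_mem_right _ _ (Ideal.subset_span ⟨Fin.last r, by simp⟩)
  · rw [Ideal.span_le]
    rintro _ ⟨i, rfl⟩
    induction i using Fin.lastCases with
    | last =>
      simp only [Fin.snoc_last, SetLike.mem_coe]
      rw [mem_maximalIdeal, mem_nonunits_iff]
      intro hu
      have h1 := MvPowerSeries.isUnit_iff_constantCoeff.mp hu
      rw [constantCoeff_C] at h1
      have h2 : p ∈ maximalIdeal A := hp ▸ Ideal.mem_span_singleton_self p
      exact (mem_maximalIdeal _).mp h2 h1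
    | cast j =>
      simp only [Fin.snoc_castSucc, SetLike.mem_coe]
      rw [mem_maximalIdeal, mem_nonunits_iff]
      intro hu
      have h1 := MvPowerSeries.isUnit_iff_constantCoeff.mp hu
      rw [constantCoeff_X] at h1
      exact not_isUnit_zero h1

end Fermat.Agent.S57aux
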