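import Fermat.Statements.S57
import Fermat.Agent.S57_Free
import Fermat.Agent.S57_Power

set_option autoImplicit false
open Algebra Algebra.PatchingLevel

namespace Fermat.Agent.S57

open IsLocalRing RingTheory.Sequence Fermat.Agent.S57aux

theorem free_N
    {𝒪 : Type} [CommRing 𝒪] [IsDomain 𝒪] [IsDiscreteValuationRing 𝒪]
    {r : ℕ} {R : Type} [CommRing R] [Algebra 𝒪 R]
    {M : Type} [AddCommGroup M] [Module R M] [Nontrivial M]
    (L : Algebra.PatchingLevel 𝒪 r R M ⊥) :
    Module.Free (MvPowerSeries (Fin r) 𝒪) L.N := by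
  classical
  obtain ⟨p, hp⟩ := IsDiscreteValuationRing.exists_irreducible 𝒪
  have hmax : maximalIdeal 𝒪 = Ideal.span {p} := hp.maximalIdeal_eq
  have hp0 : p ≠ 0 := hp.ne_zero
  -- `φ (X i)` lies in the maximal ideal
  have hφX : ∀ i : Fin r, L.φ (MvPowerSeries.X i) ∈ maximalIdeal (MvPowerSeries (Fin r) 𝒪) := by
    intro i
    by_contra hcon
    have hu : IsUnit (L.φ (MvPowerSeries.X i)) := by
      simpa [mem_maximalIdeal, mem_nonunits_iff] using hcon
    have htop : Ideal.span (Set.range fun i : Fin r => L.φ (MvPowerSeries.X i)) = ⊤ :=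
      Ideal.eq_top_of_isUnit_mem _ (Ideal.subset_span ⟨i, rfl⟩) hu
    obtain ⟨m, hm⟩ := exists_ne (0 : M)
    obtain ⟨x, hx⟩ := L.π_surjective m
    apply hm
    rw [← hx, L.ker_π, htop, Submodule.top_smul]
    exact Submodule.mem_top
  have hφC : L.φ (MvPowerSeries.C p) = MvPowerSeries.C p := by
    have h1 : (MvPowerSeries.C p : MvPowerSeries (Fin r) 𝒪) = algebraMap 𝒪 _ p := by
      rw [← MvPowerSeries.c_eq_algebraMap]
    rw [h1, AlgHom.commutes]
  -- finiteness
  have hfin : Module.Finite (MvPowerSeries (Fin r) 𝒪) L.N := by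
    refine ⟨⟨Finset.univ.image L.b, ?_⟩⟩
    rw [_root_.eq_top_iff]
    rintro x -
    obtain ⟨c, hc⟩ := L.b_span x
    rw [hc]
    exact Submodule.sum_mem _ fun i _ =>
      Submodule.smul_mem _ _ (Submodule.subset_span (by simp))
  -- the additive equivalence `B ^ d ≃ N`
  let f : (Fin L.d → MvPowerSeries (Fin r) 𝒪) →+ L.N :=
    { toFun := fun c => ∑ i, L.φ (c i) • L.b i
      map_zero' := by simp
      map_add' := fun c c' => by simp [add_smul, Finset.sum_add_distrib] }
  have hf : Function.Bijective f := by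
    constructor
    · rw [injective_iff_map_eq_zero]
      intro c hc
      have := (L.b_rel c).mp hc
      funext i
      simpa using this i
    · intro x
      obtain ⟨c, hc⟩ := L.b_span x
      exact ⟨c, hc.symm⟩
  let e : (Fin L.d → MvPowerSeries (Fin r) 𝒪) ≃+ L.N := AddEquiv.ofBijective f hf
  have he : ∀ (g : MvPowerSeries (Fin r) 𝒪) (c : Fin L.d → MvPowerSeries (Fin r) 𝒪),
      e (g • c) = L.φ g • e c := by
    intro g c
    change ∑ i, L.φ ((g • c) i) • L.b i = L.φ g • ∑ i, L.φ (c i) • L.b i
    rw [Finset.smul_sum]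
    refine Finset.sum_congr rfl fun i _ => ?_
    rw [Pi.smul_apply, smul_eq_mul, map_mul, mul_smul]
  -- regular sequence
  let xs : List (MvPowerSeries (Fin r) 𝒪) :=
    ((List.finRange r).map fun j => (MvPowerSeries.X j : MvPowerSeries (Fin r) 𝒪)) ++
      [MvPowerSeries.C p]
  have hxs : IsWeaklyRegular (MvPowerSeries (Fin r) 𝒪) xs :=
    isWeaklyRegular_X_C (List.finRange r) (List.nodup_finRange r) hp0
  have hxs2 : IsWeaklyRegular (Fin L.d → MvPowerSeries (Fin r) 𝒪) xs := by
    have h1 := hxs.isWeaklyRegular_lTensor (M₂ := (Fin L.d → MvPowerSeries (Fin r) 𝒪))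
    exact ((TensorProduct.rid (MvPowerSeries (Fin r) 𝒪)
      (Fin L.d → MvPowerSeries (Fin r) 𝒪)).isWeaklyRegular_congr xs).mp h1
  have hys : IsWeaklyRegular L.N (xs.map L.φ) := by
    refine (e.isWeaklyRegular_congr (as := xs) (bs := xs.map L.φ) ?_).mp hxs2
    rw [List.forall₂_map_right_iff]
    exact List.forall₂_same.mpr fun g _ c => he g c
  refine free_of_isWeaklyRegular (r + 1) (MvPowerSeries (Fin r) 𝒪) L.N _
    (maximalIdeal_eq_span hmax) (xs.map L.φ) (by simp [xs]) ?_ hys
  intro y hy
  simp only [xs, List.map_append, List.map_map, List.mem_append, List.mem_map,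
    List.mem_finRange, true_and, Function.comp, List.map_singleton, List.mem_singleton] at hy
  rcases hy with ⟨i, rfl⟩ | rfl
  · exact hφX i
  · rw [hφC, mem_maximalIdeal, mem_nonunits_iff]
    intro hu
    have h1 := MvPowerSeries.isUnit_iff_constantCoeff.mp hu
    rw [MvPowerSeries.constantCoeff_C] at h1
    exact hp.not_isUnit h1

theorem result
    {𝒪 : Type} [CommRing 𝒪] [IsDomain 𝒪] [IsDiscreteValuationRing 𝒪]
    {r : ℕ} {R : Type} [CommRing R] [Algebra 𝒪 R]
    {M : Type} [AddCommGroup M] [Module R M] [Nontrivial M]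
    (L : Algebra.PatchingLevel 𝒪 r R M ⊥) :
    Module.Free R M ∧ Module.annihilator R M = ⊥ ∧
      RingHom.ker L.ψ = Ideal.span (Set.range fun i : Fin r => L.φ (MvPowerSeries.X i)) := by
  classical
  have hfree := free_N L
  have hI : ∀ a ∈ Ideal.span (Set.range fun i : Fin r => L.φ (MvPowerSeries.X i)), L.ψ a = 0 := by
    intro a ha
    have h1 : Ideal.span (Set.range fun i : Fin r => L.φ (MvPowerSeries.X i)) ≤
        RingHom.ker L.ψ := by
      rw [Ideal.span_le]
      rintro _ ⟨i, rfl⟩
      exact L.ψ_φ_X i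
    exact h1 ha
  let β := Module.Free.chooseBasis (MvPowerSeries (Fin r) 𝒪) L.N
  -- coordinates of elements of `I • ⊤` are in `I`
  have hcoord : ∀ x ∈ (Ideal.span (Set.range fun i : Fin r => L.φ (MvPowerSeries.X i))) •
      (⊤ : Submodule (MvPowerSeries (Fin r) 𝒪) L.N), ∀ j,
      β.coord j x ∈ Ideal.span (Set.range fun i : Fin r => L.φ (MvPowerSeries.X i)) := by
    intro x hx j
    refine Submodule.smul_induction_on hx ?_ ?_
    · intro a ha n _
      rw [map_smul, smul_eq_mul]
      exact Ideal.mul_mem_right _ _ ha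
    · intro x y hx hy
      rw [map_add]
      exact add_mem hx hy
  have hNnt : Nontrivial L.N := L.π_surjective.nontrivial
  have hne : Nonempty (Module.Free.ChooseBasisIndex (MvPowerSeries (Fin r) 𝒪) L.N) :=
    β.index_nonempty
  have hker : RingHom.ker L.ψ =
      Ideal.span (Set.range fun i : Fin r => L.φ (MvPowerSeries.X i)) := by
    apply le_antisymm
    · intro a ha
      rw [RingHom.mem_ker] at ha
      obtain ⟨j⟩ := hne
      have h1 : L.π (a • β j) = 0 := by rw [L.π_smul, ha, zero_smul]
      have h2 := hcoord _ ((L.ker_π _).mp h1) j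
      simpa using h2
    · intro a ha
      exact hI a ha
  -- basis of `M`
  have hli : LinearIndependent R fun j => L.π (β j) := by
    rw [linearIndependent_iff']
    intro s g hg i hi
    choose a ha using L.ψ_surjective
    have h1 : L.π (∑ j ∈ s, a (g j) • β j) = 0 := by
      rw [map_sum, ← hg]
      refine Finset.sum_congr rfl fun j _ => ?_
      rw [L.π_smul, ha]
    have h2 := hcoord _ ((L.ker_π _).mp h1) i
    have h3 : β.coord i (∑ j ∈ s, a (g j) • β j) = a (g i) := by
      rw [map_sum, Finset.sum_eq_single_of_mem i hi]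
      · simp
      · intro j _ hj
        simp [hj]
    rw [h3] at h2
    rw [← ha (g i)]
    exact hI _ h2
  have hsp : ⊤ ≤ Submodule.span R (Set.range fun j => L.π (β j)) := by
    rintro m -
    obtain ⟨x, rfl⟩ := L.π_surjective m
    have hx : x ∈ Submodule.span (MvPowerSeries (Fin r) 𝒪) (Set.range β) := by
      rw [β.span_eq]; exact Submodule.mem_top
    refine Submodule.span_induction (p := fun x _ =>
      L.π x ∈ Submodule.span R (Set.range fun j => L.π (β j))) ?_ ?_ ?_ ?_ hx
    · rintro _ ⟨j, rfl⟩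
      exact Submodule.subset_span ⟨j, rfl⟩
    · rw [map_zero]; exact zero_mem _
    · intro x y _ _ hx hy
      rw [map_add]; exact add_mem hx hy
    · intro a x _ hx
      rw [L.π_smul]
      exact Submodule.smul_mem _ _ hx
  have hM : Module.Free R M := Module.Free.of_basis (Module.Basis.mk hli hsp)
  exact ⟨hM, Module.annihilator_eq_bot.mpr inferInstance, hker⟩

end Fermat.Agent.S57
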