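import Fermat.Agent.S57_RegSeq
import Mathlib.RingTheory.MvPowerSeries.Inverse

/-!
# The maximal ideal of `𝒪⟦X₁, …, X_r⟧` is generated by `X₁, …, X_r, ϖ`
-/

set_option autoImplicit false

open IsLocalRing

namespace Fermat.Agent.S57reg

universe u

/-- `f - f(0)` lies in the ideal generated by the variables. -/
theorem sub_C_constantCoeff_mem {O : Type u} [CommRing O] (n : ℕ) (f : MvPowerSeries (Fin n) O) :
    f - MvPowerSeries.C (MvPowerSeries.constantCoeff f) ∈
      Ideal.span (Set.range (fun i : Fin n => (MvPowerSeries.X i : MvPowerSeries (Fin n) O))) := by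
  induction n with
  | zero =>
    have : f - MvPowerSeries.C (MvPowerSeries.constantCoeff f) = 0 := by
      have h := (MvPowerSeries.isEmptyEquiv (Fin 0) O).symm_apply_apply f
      rw [sub_eq_zero]
      exact h.symm
    rw [this]
    exact Ideal.zero_mem _
  | succ n ih =>
    set I := Ideal.span (Set.range
      (fun i : Fin (n + 1) => (MvPowerSeries.X i : MvPowerSeries (Fin (n + 1)) O))) with hI
    let ι : MvPowerSeries (Fin n) O →+* MvPowerSeries (Fin (n + 1)) O :=
      (MvPowerSeries.finSuccEquiv O n).symm.toRingEquiv.toRingHom.comp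
        (PowerSeries.C (R := MvPowerSeries (Fin n) O))
    have hι : ∀ g, MvPowerSeries.finSuccEquiv O n (ι g) = PowerSeries.C g := fun g =>
      (MvPowerSeries.finSuccEquiv O n).apply_symm_apply _
    have hιC : ∀ a : O, ι (MvPowerSeries.C a) = MvPowerSeries.C a := by
      intro a
      apply (MvPowerSeries.finSuccEquiv O n).injective
      rw [hι, MvPowerSeries.finSuccEquiv_C]
    have hιX : ∀ i : Fin n, ι (MvPowerSeries.X i) = MvPowerSeries.X i.succ := by
      intro i
      apply (MvPowerSeries.finSuccEquiv O n).injective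
      rw [hι, MvPowerSeries.finSuccEquiv_X_succ]
    set g := evalZero O n f with hg
    have h1 : f - ι g ∈ I := by
      have : f - ι g ∈ RingHom.ker (evalZero O n) := by
        rw [RingHom.mem_ker, map_sub, ← hg, evalZero_apply O n (ι g), hι, sub_eq_zero]
        simp
      rw [ker_evalZero] at this
      refine Ideal.span_mono ?_ this
      rw [Set.singleton_subset_iff]
      exact ⟨0, rfl⟩
    have h2 : ι g - MvPowerSeries.C (MvPowerSeries.constantCoeff g) ∈ I := by
      rw [← hιC, ← map_sub]
      have h3 := Ideal.mem_map_of_mem ι (ih g)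
      rw [Ideal.map_span, ← Set.range_comp] at h3
      refine Ideal.span_mono ?_ h3
      rintro _ ⟨i, rfl⟩
      exact ⟨i.succ, (hιX i).symm⟩
    have h4 : MvPowerSeries.constantCoeff g = MvPowerSeries.constantCoeff f := by
      rw [hg, evalZero_apply]
      have := MvPowerSeries.coeff_coeff_finSuccEquiv f (k := 0) (x := 0)
      rw [Finsupp.cons_zero_zero] at this
      simpa using this
    rw [← h4]
    have := I.add_mem h1 h2
    rwa [sub_add_sub_cancel] at this

/-- The maximal ideal of `𝒪⟦X₁, …, X_r⟧` is generated by `X₁, …, X_r` and a generator of the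
maximal ideal of `𝒪`. -/
theorem maximalIdeal_eq_span {O : Type u} [CommRing O] [IsLocalRing O] (r : ℕ) (p : O)
    (hp : maximalIdeal O = Ideal.span {p}) :
    maximalIdeal (MvPowerSeries (Fin r) O) =
      Ideal.span (Set.range (fun i : Fin r => (MvPowerSeries.X i : MvPowerSeries (Fin r) O)) ∪
        {MvPowerSeries.C p}) := by
  apply le_antisymm
  · intro f hf
    have h0 : MvPowerSeries.constantCoeff f ∈ maximalIdeal O := by
      rw [mem_maximalIdeal, mem_nonunits_iff] at hf ⊢
      rwa [MvPowerSeries.isUnit_iff_constantCoeff] at hf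
    rw [hp, Ideal.mem_span_singleton'] at h0
    obtain ⟨a, ha⟩ := h0
    have h1 := sub_C_constantCoeff_mem r f
    rw [Ideal.span_union]
    have h2 : f = (f - MvPowerSeries.C (MvPowerSeries.constantCoeff f)) +
        MvPowerSeries.C a * MvPowerSeries.C p := by
      rw [← map_mul, ha]; ring
    rw [h2]
    exact Submodule.add_mem_sup h1 (Ideal.mul_mem_left _ _ (Ideal.subset_span rfl))
  · rw [Ideal.span_le]
    rintro f (⟨i, rfl⟩ | hf)
    · change _ ∈ maximalIdeal _
      rw [mem_maximalIdeal, mem_nonunits_iff, MvPowerSeries.isUnit_iff_constantCoeff]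
      simp
    · rw [Set.mem_singleton_iff] at hf
      subst hf
      change _ ∈ maximalIdeal _
      rw [mem_maximalIdeal, mem_nonunits_iff, MvPowerSeries.isUnit_iff_constantCoeff,
        MvPowerSeries.constantCoeff_C, ← mem_nonunits_iff, ← mem_maximalIdeal, hp]
      exact Ideal.subset_span rfl

/-- The maximal ideal of `𝒪⟦X₁, …, X_r⟧` is generated by the `r + 1` elements of the list
`X₁, …, X_r, ϖ`. -/
theorem maximalIdeal_eq_ofList {O : Type u} [CommRing O] [IsLocalRing O] (r : ℕ) (p : O)
    (hp : maximalIdeal O = Ideal.span {p}) :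
    maximalIdeal (MvPowerSeries (Fin r) O) =
      Ideal.ofList (List.ofFn (fun i : Fin r => (MvPowerSeries.X i : MvPowerSeries (Fin r) O)) ++
        [MvPowerSeries.C p]) := by
  rw [maximalIdeal_eq_span r p hp, Ideal.ofList]
  congr 1
  ext x
  simp [List.mem_ofFn, eq_comm, or_comm]

/-- The maximal ideal of `𝒪⟦X₁, …, X_r⟧` has `spanFinrank` at most `r + 1`. -/
theorem spanFinrank_maximalIdeal_le {O : Type u} [CommRing O] [IsLocalRing O] (r : ℕ) (p : O)
    (hp : maximalIdeal O = Ideal.span {p}) :
    (maximalIdeal (MvPowerSeries (Fin r) O)).spanFinrank ≤ r + 1 := by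
  rw [maximalIdeal_eq_span r p hp]
  have hfin : (Set.range (fun i : Fin r => (MvPowerSeries.X i : MvPowerSeries (Fin r) O)) ∪
        {MvPowerSeries.C p}).Finite := (Set.finite_range _).union (Set.finite_singleton _)
  refine (Submodule.spanFinrank_span_le_ncard_of_finite hfin).trans ?_
  refine (Set.ncard_union_le _ _).trans ?_
  rw [Set.ncard_singleton]
  gcongr
  rw [← Set.image_univ]
  refine (Set.ncard_image_le Set.finite_univ).trans ?_
  simp [Set.ncard_univ]

end Fermat.Agent.S57reg
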