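import Mathlib.RingTheory.MvPowerSeries.Equiv
import Mathlib.RingTheory.MvPowerSeries.NoZeroDivisors
import Mathlib.RingTheory.PowerSeries.NoZeroDivisors
import Mathlib.RingTheory.PowerSeries.Inverse
import Mathlib.RingTheory.Regular.RegularSequence

/-!
# `X₁, …, X_r, ϖ` is a (weakly) regular sequence on `𝒪⟦X₁, …, X_r⟧`
-/

set_option autoImplicit false

open RingTheory.Sequence Pointwise

namespace Fermat.Agent.S57reg

universe u v

/-- If `f : A → A'` is surjective with kernel `(x)`, `x` is a nonzerodivisor of `A`, and
`f(rs)` is weakly regular on `A'`, then `x :: rs` is weakly regular on `A`. -/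
theorem isWeaklyRegular_cons_of_surjective {A : Type u} {A' : Type v} [CommRing A] [CommRing A']
    (f : A →+* A') (hf : Function.Surjective f) (x : A)
    (hker : RingHom.ker f = Ideal.span {x}) (hx : IsSMulRegular A x) (rs : List A)
    (h : IsWeaklyRegular A' (rs.map f)) : IsWeaklyRegular A (x :: rs) := by
  let _ : Algebra A A' := f.toAlgebra
  rw [isWeaklyRegular_cons_iff]
  refine ⟨hx, ?_⟩
  have h1 : IsWeaklyRegular A' rs := (isWeaklyRegular_map_algebraMap_iff (R := A) A' A' rs).mp h
  have hk : x • (⊤ : Submodule A A) = LinearMap.ker (Algebra.linearMap A A') := by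
    ext y
    rw [LinearMap.mem_ker, Algebra.linearMap_apply, Submodule.mem_smul_pointwise_iff_exists]
    have : (algebraMap A A' y = 0) ↔ y ∈ RingHom.ker f := Iff.rfl
    rw [this, hker, Ideal.mem_span_singleton']
    constructor
    · rintro ⟨b, -, rfl⟩
      exact ⟨b, by simp [mul_comm]⟩
    · rintro ⟨b, rfl⟩
      exact ⟨b, trivial, by simp [mul_comm]⟩
  let e : QuotSMulTop x A ≃ₗ[A] A' :=
    (Submodule.quotEquivOfEq _ _ hk).trans
      (LinearMap.quotKerEquivOfSurjective (Algebra.linearMap A A') hf)
  exact (e.isWeaklyRegular_congr rs).mpr h1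

/-- The evaluation-at-`X₀ = 0` map `𝒪⟦X₀, …, X_r⟧ → 𝒪⟦X₁, …, X_r⟧`. -/
noncomputable def evalZero (O : Type u) [CommRing O] (n : ℕ) :
    MvPowerSeries (Fin (n + 1)) O →+* MvPowerSeries (Fin n) O :=
  (PowerSeries.constantCoeff (R := MvPowerSeries (Fin n) O)).comp
    (MvPowerSeries.finSuccEquiv O n).toRingEquiv.toRingHom

theorem evalZero_apply (O : Type u) [CommRing O] (n : ℕ) (f : MvPowerSeries (Fin (n + 1)) O) :
    evalZero O n f = PowerSeries.constantCoeff (MvPowerSeries.finSuccEquiv O n f) := rfl

theorem evalZero_surjective (O : Type u) [CommRing O] (n : ℕ) :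
    Function.Surjective (evalZero O n) := by
  intro y
  refine ⟨(MvPowerSeries.finSuccEquiv O n).symm (PowerSeries.C y), ?_⟩
  simp [evalZero_apply]

theorem ker_evalZero (O : Type u) [CommRing O] (n : ℕ) :
    RingHom.ker (evalZero O n) = Ideal.span {MvPowerSeries.X 0} := by
  ext f
  rw [RingHom.mem_ker, evalZero_apply, Ideal.mem_span_singleton, ← PowerSeries.X_dvd_iff,
    ← MvPowerSeries.finSuccEquiv_X_zero, map_dvd_iff]

/-- `X₁, …, X_r, ϖ` is a weakly regular sequence on `𝒪⟦X₁, …, X_r⟧`. -/
theorem isWeaklyRegular_X_C {O : Type u} [CommRing O] [IsDomain O] (r : ℕ) (p : O) (hp : p ≠ 0) :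
    IsWeaklyRegular (MvPowerSeries (Fin r) O)
      (List.ofFn (fun i : Fin r => (MvPowerSeries.X i : MvPowerSeries (Fin r) O)) ++
        [MvPowerSeries.C p]) := by
  induction r with
  | zero =>
    simp only [List.ofFn_zero, List.nil_append]
    rw [isWeaklyRegular_singleton_iff]
    have : (MvPowerSeries.C p : MvPowerSeries (Fin 0) O) ≠ 0 := by
      intro h
      apply hp
      have := congrArg (MvPowerSeries.constantCoeff) h
      simpa using this
    exact fun a b hab => mul_left_cancel₀ this hab
  | succ n ih =>
    rw [List.ofFn_succ, List.cons_append]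
    apply isWeaklyRegular_cons_of_surjective (evalZero O n) (evalZero_surjective O n) _
      (ker_evalZero O n)
    · have : (MvPowerSeries.X 0 : MvPowerSeries (Fin (n + 1)) O) ≠ 0 := by
        intro h
        have h2 := congrArg (MvPowerSeries.coeff (Finsupp.single 0 1)) h
        simp at h2
      exact fun a b hab => mul_left_cancel₀ this hab
    · have key : List.map (evalZero O n)
          (List.ofFn (fun i : Fin n => (MvPowerSeries.X i.succ : MvPowerSeries (Fin (n + 1)) O)) ++
            [MvPowerSeries.C p]) =
          List.ofFn (fun i : Fin n => (MvPowerSeries.X i : MvPowerSeries (Fin n) O)) ++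
            [MvPowerSeries.C p] := by
        rw [List.map_append, List.map_ofFn, List.map_singleton]
        congr 1
        · congr 1
          funext i
          simp [evalZero_apply]
        · simp [evalZero_apply]
      rw [key]
      exact ih

end Fermat.Agent.S57reg
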