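import Mathlib
import Fermat.Prelude.Def_FLTPrelim_FreyPackage
import Fermat.Prelude.Def_FLTPrelim_GaloisRep
import Fermat.Prelude.Def_FLTPrelim_Modularity
import Fermat.Prelude.Def_FLTPrelim_ModularRep
import Fermat.Prelude.Def_FLTPrelim_Ramification
import Fermat.Prelude.Def_FLTPrelim_CofixedLine
import Fermat.Prelude.Def_WeierstrassCurve_Mlc1RowStatement

/-!
# Conditional wiring for S60 (semistable modularity)

`S60` follows from `S51` (3 or 5 irreducible), `S52` (3-5 switch), `S59` (modularity lifting)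
and a Langlands-Tunnell input `LTLevel` giving residual modularity at `3` of a level `M₀` with
`9 ∤ M₀` and cube-free away from `3`.  `S50` gives such a level except when `9 ∣ M`, in which
case it gives that there is no inertia-fixed `3`-torsion; the remaining step is isolated as
`LevelNineStrip` below.
-/

set_option autoImplicit false
open WeierstrassCurve WeierstrassCurve.Affine WeierstrassCurve.Affine.Point
open CuspForm ModularFormClass UpperHalfPlane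
open scoped WeierstrassCurve.Affine

namespace Fermat.Agent.S60aux

/-- The statement of `S50`. -/
def StmtS50 : Prop :=
  ∀ (W : WeierstrassCurve ℤ) (_hΔ : W.Δ ≠ 0) (_hW : W.IsSemistableModel)
    (_h3 : W.ModRepIsIrreducible 3),
    ∃ M : ℕ, 0 < M ∧ W.IsResiduallyModularOfLevel 3 M ∧
      (∀ q : ℕ, q.Prime → q ≠ 3 → ¬ q ^ 3 ∣ M) ∧
      (3 ^ 2 ∣ M →
        ∀ A : ValuationSubring (AlgebraicClosure ℚ), A.LiesOverPrime 3 →
          ∀ x : Submodule.torsionBy ℤ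
              ((W.map (Int.castRingHom ℚ))⁄(AlgebraicClosure ℚ)).Point (3 : ℕ),
            (∀ σ ∈ A.inertiaSubgroupIn ℚ, σ • x = x) → x = 0)

/-- The statement of `S51`. -/
def StmtS51 : Prop :=
  ∀ (W : WeierstrassCurve ℤ) (_hΔ : W.Δ ≠ 0) (_hW : W.IsSemistableModel),
    W.ModRepIsIrreducible 3 ∨ W.ModRepIsIrreducible 5

/-- The statement of `S52`. -/
def StmtS52 : Prop :=
  ∀ (W : WeierstrassCurve ℤ) (_hΔ : W.Δ ≠ 0) (_hW : W.IsSemistableModel)
    (_h5 : W.ModRepIsIrreducible 5),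
    ∃ W' : WeierstrassCurve ℤ, W'.Δ ≠ 0 ∧ W'.IsSemistableModel ∧ W'.ModRepIsIrreducible 3 ∧
      ∀ ℓ : ℕ, ℓ.Prime → W.IsGoodPrimeFor ℓ → W'.IsGoodPrimeFor ℓ → ℓ ≠ 5 →
        (5 : ℤ) ∣ (W'.apOfModel ℓ - W.apOfModel ℓ)

/-- The statement of `S59`. -/
def StmtS59 : Prop :=
  ∀ (p : ℕ) (_hp : p = 3 ∨ p = 5)
    (W : WeierstrassCurve ℤ) (_hΔ : W.Δ ≠ 0) (_hW : W.IsSemistableModel)
    (_hirr : W.ModRepIsIrreducible p)
    (M₀ : ℕ) [NeZero M₀] (_hres₀ : W.IsResiduallyModularOfLevel p M₀)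
    (_hM₀ : ¬ p ^ 2 ∣ M₀)
    (_hM₀3 : ∀ q : ℕ, q.Prime → q ≠ p → ¬ q ^ 3 ∣ M₀),
    Mlc1IsModularModelOfExactConductorLevel W

/-- Langlands-Tunnell in the form consumed by `S59`. -/
def LTLevel : Prop :=
  ∀ (W : WeierstrassCurve ℤ) (_hΔ : W.Δ ≠ 0) (_hW : W.IsSemistableModel)
    (_h3 : W.ModRepIsIrreducible 3),
    ∃ M : ℕ, 0 < M ∧ W.IsResiduallyModularOfLevel 3 M ∧ ¬ 3 ^ 2 ∣ M ∧
      (∀ q : ℕ, q.Prime → q ≠ 3 → ¬ q ^ 3 ∣ M)

/-- The missing step between `S50` and `S59`: when the mod `3` representation has no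
inertia-fixed vectors at `3`, the power of `3` in the level can be lowered to at most `3`. -/
def LevelNineStrip : Prop :=
  ∀ (W : WeierstrassCurve ℤ) (_hΔ : W.Δ ≠ 0) (_hW : W.IsSemistableModel)
    (_h3 : W.ModRepIsIrreducible 3) (M : ℕ) (_hM : 0 < M)
    (_hres : W.IsResiduallyModularOfLevel 3 M)
    (_hM3 : ∀ q : ℕ, q.Prime → q ≠ 3 → ¬ q ^ 3 ∣ M)
    (_h9 : 3 ^ 2 ∣ M)
    (_hfix : ∀ A : ValuationSubring (AlgebraicClosure ℚ), A.LiesOverPrime 3 →
          ∀ x : Submodule.torsionBy ℤ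
              ((W.map (Int.castRingHom ℚ))⁄(AlgebraicClosure ℚ)).Point (3 : ℕ),
            (∀ σ ∈ A.inertiaSubgroupIn ℚ, σ • x = x) → x = 0),
    ∃ M' : ℕ, 0 < M' ∧ W.IsResiduallyModularOfLevel 3 M' ∧ ¬ 3 ^ 2 ∣ M' ∧
      (∀ q : ℕ, q.Prime → q ≠ 3 → ¬ q ^ 3 ∣ M')

theorem ltLevel_of (h50 : StmtS50) (hstrip : LevelNineStrip) : LTLevel := by
  intro W hΔ hW h3
  obtain ⟨M, hM, hres, hM3, hfix⟩ := h50 W hΔ hW h3
  by_cases h9 : 3 ^ 2 ∣ M
  · exact hstrip W hΔ hW h3 M hM hres hM3 h9 (hfix h9)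
  · exact ⟨M, hM, hres, h9, hM3⟩

/-- A modular curve of exact conductor level is modular over `ℚ`. -/
theorem isModular_of_exact {W : WeierstrassCurve ℤ}
    (h : Mlc1IsModularModelOfExactConductorLevel W) :
    (W.map (Int.castRingHom ℚ)).IsModular := by
  obtain ⟨N, hN, -, -, hmod⟩ := h
  exact ⟨W, ⟨1, one_smul _ _⟩, N, hN, hmod⟩

/-- Modularity at `3` gives modularity of exact conductor level. -/
theorem exact_of_three (hLT : LTLevel) (h59 : StmtS59) (W : WeierstrassCurve ℤ) (hΔ : W.Δ ≠ 0)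
    (hW : W.IsSemistableModel) (h3 : W.ModRepIsIrreducible 3) :
    Mlc1IsModularModelOfExactConductorLevel W := by
  obtain ⟨M, hM, hres, h9, hM3⟩ := hLT W hΔ hW h3
  haveI : NeZero M := ⟨hM.ne'⟩
  exact h59 3 (Or.inl rfl) W hΔ hW h3 M hres h9 hM3

/-- If `W'` is modular of exact conductor level and `a_ℓ(W') ≡ a_ℓ(W) (mod p)` at the common
good primes `ℓ ≠ p`, then `W` is residually modular at `p` of a squarefree level. -/
theorem residually_of_congruent {p : ℕ} (hp : p.Prime) {W W' : WeierstrassCurve ℤ}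
    (h : Mlc1IsModularModelOfExactConductorLevel W')
    (hcong : ∀ ℓ : ℕ, ℓ.Prime → W.IsGoodPrimeFor ℓ → W'.IsGoodPrimeFor ℓ → ℓ ≠ p →
        (p : ℤ) ∣ (W'.apOfModel ℓ - W.apOfModel ℓ)) :
    ∃ N : ℕ, 0 < N ∧ Squarefree N ∧ W.IsResiduallyModularOfLevel p N := by
  obtain ⟨N, hN, hsq, hbad, f, hf, hap⟩ := h
  obtain ⟨𝔪, hmax, hpm⟩ := FLTPrelim.exists_maximalIdeal_natCast_prime_mem hp
  refine ⟨N, hN, hsq, f, 𝔪, hf, hmax, hpm, ?_⟩
  intro ℓ hℓ hgood hℓN hℓp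
  have hgood' : W'.IsGoodPrimeFor ℓ := fun hdvd => hℓN ((hbad ℓ hℓ).2 hdvd)
  refine ⟨((W'.apOfModel ℓ : ℤ) : integralClosure ℤ ℂ), ?_, ?_⟩
  · rw [hap ℓ hℓ hgood' hℓN]
    simp
  · obtain ⟨c, hc⟩ := hcong ℓ hℓ hgood hgood' hℓp
    have : ((W'.apOfModel ℓ : ℤ) : integralClosure ℤ ℂ) -
        ((W.apOfModel ℓ : ℤ) : integralClosure ℤ ℂ) =
        (p : integralClosure ℤ ℂ) * ((c : ℤ) : integralClosure ℤ ℂ) := by
      rw [← Int.cast_sub, hc]
      push_cast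
      ring
    rw [this]
    exact Ideal.mul_mem_right _ _ hpm

/-- Conditional form of `S60`: exact conductor level version. -/
theorem exact_of (hLT : LTLevel) (h51 : StmtS51) (h52 : StmtS52) (h59 : StmtS59)
    (W : WeierstrassCurve ℤ) (hΔ : W.Δ ≠ 0) (hW : W.IsSemistableModel) :
    Mlc1IsModularModelOfExactConductorLevel W := by
  rcases h51 W hΔ hW with h3 | h5
  · exact exact_of_three hLT h59 W hΔ hW h3
  · obtain ⟨W', hΔ', hW', h3', hcong⟩ := h52 W hΔ hW h5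
    have hex := exact_of_three hLT h59 W' hΔ' hW' h3'
    obtain ⟨N, hN, hsq, hres⟩ := residually_of_congruent (p := 5) (by norm_num) hex
      (by simpa using hcong)
    haveI : NeZero N := ⟨hN.ne'⟩
    refine h59 5 (Or.inr rfl) W hΔ hW h5 N hres ?_ ?_
    · intro h25
      exact Nat.squarefree_iff_prime_squarefree.mp hsq 5 (by norm_num) (by simpa [pow_two] using h25)
    · intro q hq _ hq3
      refine Nat.squarefree_iff_prime_squarefree.mp hsq q hq (dvd_trans ?_ hq3)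
      exact ⟨q, by ring⟩

/-- Conditional form of `S60`. -/
theorem isModular_of (hLT : LTLevel) (h51 : StmtS51) (h52 : StmtS52) (h59 : StmtS59)
    (W : WeierstrassCurve ℤ) (hΔ : W.Δ ≠ 0) (hW : W.IsSemistableModel) :
    (W.map (Int.castRingHom ℚ)).IsModular :=
  isModular_of_exact (exact_of hLT h51 h52 h59 W hΔ hW)

end Fermat.Agent.S60aux
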